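import Mathlib
import Fermat.Agent.LT.Descent.Ops

set_option autoImplicit false

/-!
# The local factors of the finite cosets and of the operators on them
-/

noncomputable section

open NumberField IsDedekindDomain
open scoped MatrixGroups

namespace FermatAgent.LT

variable {L : Type*} [Field L] [NumberField L]

/-- The group at a place. -/
abbrev GLv (v : HeightOneSpectrum (𝓞 L)) := GL (Fin 2) (v.adicCompletion L)

/-- The evaluation of a finite adele at a place. -/
def evalAdf (v : HeightOneSpectrum (𝓞 L)) : Adf L →+* v.adicCompletion L where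
  toFun a := a v
  map_one' := rfl
  map_zero' := rfl
  map_mul' _ _ := rfl
  map_add' _ _ := rfl

/-- The component of an adelic matrix at a place. -/
def compAt (v : HeightOneSpectrum (𝓞 L)) : GAf L →* GLv v :=
  Matrix.GeneralLinearGroup.map (evalAdf v)

/-- The image of a rational matrix at a place. -/
def locMat (v : HeightOneSpectrum (𝓞 L)) : GL (Fin 2) L →* GLv v :=
  Matrix.GeneralLinearGroup.map (loc v)

theorem compAt_rationalMat (v : HeightOneSpectrum (𝓞 L)) (γ : GL (Fin 2) L) :
    compAt v (rationalMat γ) = locMat v γ := rfl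

/-- The principal congruence subgroup of the level at a place. -/
def locCongr (𝔫 : Ideal (𝓞 L)) (v : HeightOneSpectrum (𝓞 L)) : Subgroup (GLv v) :=
  (Matrix.GeneralLinearGroup.map (n := Fin 2) (Ideal.Quotient.mk
      (𝔫.map (algebraMap (𝓞 L) (v.adicCompletionIntegers L))))).ker.map
    (Matrix.GeneralLinearGroup.map (v.adicCompletionIntegers L).toSubring.subtype)

/-- The level subgroup at a place times the centre. -/
def locLevel (𝔫 : Ideal (𝓞 L)) (v : HeightOneSpectrum (𝓞 L)) : Subgroup (GLv v) :=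
  locCongr 𝔫 v ⊔ Subgroup.center (GLv v)

/-- The cosets at a place. -/
abbrev LCos (𝔫 : Ideal (𝓞 L)) (v : HeightOneSpectrum (𝓞 L)) := GLv v ⧸ locLevel 𝔫 v

variable (𝔫 : Ideal (𝓞 L)) (v : HeightOneSpectrum (𝓞 L))

/-- A weighted sum of right translations, through the chosen representatives. -/
def locSum {ι : Type*} [Finite ι] (c : ι → ℂ) (k : ι → GLv v) :
    Module.End ℂ (LCos 𝔫 v → ℂ) where
  toFun f q := ∑ᶠ i, c i * f ((q.out * k i : GLv v) : LCos 𝔫 v)
  map_add' f g := by
    funext q
    simp only [Pi.add_apply, mul_add]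
    exact finsum_add_distrib (Set.toFinite _) (Set.toFinite _)
  map_smul' a f := by
    funext q
    simp only [Pi.smul_apply, smul_eq_mul, RingHom.id_apply, mul_left_comm _ a, mul_finsum]

/-- A representative of a residue class. -/
def resLift (b : 𝓞 L ⧸ v.asIdeal) : v.adicCompletion L :=
  loc v ((Function.surjInv (Ideal.Quotient.mk_surjective (I := v.asIdeal)) b : 𝓞 L) : L)

instance finite_residue : Finite (𝓞 L ⧸ v.asIdeal) := Ideal.finiteQuotientOfFreeOfNeBot _ v.ne_bot

/-- The local Hecke operator. -/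
def locHecke : Module.End ℂ (LCos 𝔫 v → ℂ) :=
  locSum 𝔫 v (fun _ : 𝓞 L ⧸ v.asIdeal => 1) (fun b => upperTri (piLoc v) (resLift v b) 1) +
    locSum 𝔫 v (fun _ : Unit => 1) (fun _ => upperTri 1 0 (piLoc v))

/-- The local projection to a residual character. -/
def locPsi (ψ : AddChar (𝓞 L ⧸ v.asIdeal) ℂ) : Module.End ℂ (LCos 𝔫 v → ℂ) :=
  locSum 𝔫 v (fun b => (Nat.card (𝓞 L ⧸ v.asIdeal) : ℂ)⁻¹ * (ψ b)⁻¹)
    (fun b => upperTri 1 (resLift v b) 1)

/-- The local average over the four group. -/
def locV4 : Module.End ℂ (LCos 𝔫 v → ℂ) :=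
  locSum 𝔫 v (fun _ : Fin 4 => (4 : ℂ)⁻¹)
    ![1, Matrix.GeneralLinearGroup.mkOfDetNeZero _ (det_v4_i v),
      Matrix.GeneralLinearGroup.mkOfDetNeZero _ (det_v4_j v),
      Matrix.GeneralLinearGroup.mkOfDetNeZero _ (det_v4_k v)]

open Classical in
/-- The local projection of the level for the finite set `s`. -/
def locLevelOp (s : Finset (HeightOneSpectrum (𝓞 L)))
    (ψ : ∀ v : HeightOneSpectrum (𝓞 L), AddChar (𝓞 L ⧸ v.asIdeal) ℂ) :
    Module.End ℂ (LCos 𝔫 v → ℂ) :=
  if v ∈ s then if (3 : 𝓞 L) ∈ v.asIdeal then locV4 𝔫 v * locPsi 𝔫 v (ψ v) else locPsi 𝔫 v (ψ v)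
  else 1

variable {𝔫 v}

open Classical in
/-- The kernel of an operator on the cosets at a place. -/
def lKer (A : Module.End ℂ (LCos 𝔫 v → ℂ)) (a b : LCos 𝔫 v) : ℂ := A (Pi.single b 1) a

end FermatAgent.LT
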