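import Mathlib
import Fermat.Agent.LT.Descent.Geom.LocalDefs

set_option autoImplicit false

/-!
# The finite cosets as a restricted product and operators acting at one place
-/

noncomputable section

open NumberField IsDedekindDomain Filter
open scoped MatrixGroups

namespace FermatAgent.LT

variable {L : Type*} [Field L] [NumberField L] {𝔫 : Ideal (𝓞 L)}

theorem mem_ker_mk_iff {R : Type*} [CommRing R] {I : Ideal R} {k : GL (Fin 2) R} :
    k ∈ (Matrix.GeneralLinearGroup.map (n := Fin 2) (Ideal.Quotient.mk I)).ker ↔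
      ∀ i j, (k : Matrix (Fin 2) (Fin 2) R) i j - (if i = j then 1 else 0) ∈ I := by
  have e : ∀ i j, ((1 : Matrix (Fin 2) (Fin 2) (R ⧸ I)) i j) =
      Ideal.Quotient.mk I (if i = j then 1 else 0) := fun i j => by
    rw [Matrix.one_apply]; split_ifs <;> simp
  constructor
  · intro h i j
    refine Ideal.Quotient.eq.mp ?_
    rw [← e, ← Matrix.GeneralLinearGroup.map_apply, MonoidHom.mem_ker.mp h]
    rfl
  · intro h
    refine MonoidHom.mem_ker.mpr (Matrix.GeneralLinearGroup.ext fun i j => ?_)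
    rw [Matrix.GeneralLinearGroup.map_apply, Ideal.Quotient.eq.mpr (h i j), ← e]
    rfl

theorem compAt_intToAdele (v : HeightOneSpectrum (𝓞 L)) (k : GL (Fin 2) (IntAd L)) :
    compAt v (Matrix.GeneralLinearGroup.map intToAdele k) =
      Matrix.GeneralLinearGroup.map (v.adicCompletionIntegers L).toSubring.subtype
        (Matrix.GeneralLinearGroup.map (Pi.evalRingHom _ v) k) := by
  ext i j; rfl

theorem compAt_congr (v : HeightOneSpectrum (𝓞 L)) {u : GAf L} (hu : u ∈ congrSubgroup 𝔫) :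
    compAt v u ∈ locCongr 𝔫 v := by
  obtain ⟨k, hk, rfl⟩ := Subgroup.mem_map.mp hu
  rw [compAt_intToAdele]
  refine Subgroup.mem_map_of_mem _ (mem_ker_mk_iff.mpr fun i j => ?_)
  have h2 := Ideal.mem_map_of_mem (Pi.evalRingHom (fun w : HeightOneSpectrum (𝓞 L) =>
    w.adicCompletionIntegers L) v) (mem_ker_mk_iff.mp hk i j)
  rw [Ideal.map_map, map_sub, apply_ite (Pi.evalRingHom (fun w : HeightOneSpectrum (𝓞 L) =>
    w.adicCompletionIntegers L) v), map_one, map_zero] at h2
  exact h2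

theorem compAt_center (v : HeightOneSpectrum (𝓞 L)) {u : GAf L}
    (hu : u ∈ Subgroup.center (GAf L)) : compAt v u ∈ Subgroup.center (GLv v) :=
  Matrix.GeneralLinearGroup.map_center_le _ hu |> fun h => h

theorem levelGroup_le_comap (v : HeightOneSpectrum (𝓞 L)) :
    levelGroup 𝔫 ≤ (locLevel 𝔫 v).comap (compAt v) :=
  sup_le (fun _ hu => Subgroup.mem_sup_left (compAt_congr v hu))
    fun _ hu => Subgroup.mem_sup_right (compAt_center v hu)

/-- The coordinate at a place. -/
def coordAt (v : HeightOneSpectrum (𝓞 L)) : Cosets 𝔫 → LCos 𝔫 v :=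
  Quotient.map' (compAt v) fun a b h => by
    rw [QuotientGroup.leftRel_apply] at h ⊢
    rw [← map_inv, ← map_mul]
    exact levelGroup_le_comap v h

theorem coordAt_mk (v : HeightOneSpectrum (𝓞 L)) (g : GAf L) :
    coordAt v (g : Cosets 𝔫) = ((compAt v g : GLv v) : LCos 𝔫 v) := rfl

theorem coordAt_smul (v : HeightOneSpectrum (𝓞 L)) (g : GAf L) (c : Cosets 𝔫) :
    coordAt v (g • c) = compAt v g • coordAt v c := by
  obtain ⟨h, rfl⟩ := QuotientGroup.mk_surjective c
  rw [MulAction.Quotient.smul_coe, coordAt_mk, coordAt_mk, MulAction.Quotient.smul_coe]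
  simp [smul_eq_mul]

/-- Integral matrices at a place. -/
def locInt (v : HeightOneSpectrum (𝓞 L)) : Subgroup (GLv v) :=
  (Matrix.GeneralLinearGroup.map (v.adicCompletionIntegers L).toSubring.subtype).range

theorem eventually_comp_mem_int (g : GAf L) : ∀ᶠ v in cofinite, compAt v g ∈ locInt v := by
  have h : ∀ M : Matrix (Fin 2) (Fin 2) (Adf L), ∀ᶠ v in cofinite,
      ∀ i j, M i j v ∈ v.adicCompletionIntegers L := fun M =>
    eventually_all.mpr fun i => eventually_all.mpr fun j => (M i j).2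
  filter_upwards [h (g : Matrix (Fin 2) (Fin 2) (Adf L)), h ((g⁻¹ : GAf L) : Matrix _ _ _)]
    with v h1 h2
  let A : Matrix (Fin 2) (Fin 2) (v.adicCompletionIntegers L) := Matrix.of fun i j => ⟨_, h1 i j⟩
  let B : Matrix (Fin 2) (Fin 2) (v.adicCompletionIntegers L) := Matrix.of fun i j => ⟨_, h2 i j⟩
  have key : ∀ (P Q : Matrix (Fin 2) (Fin 2) (v.adicCompletionIntegers L))
      (P' Q' : Matrix (Fin 2) (Fin 2) (v.adicCompletion L)),
      P.map (v.adicCompletionIntegers L).toSubring.subtype = P' →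
      Q.map (v.adicCompletionIntegers L).toSubring.subtype = Q' → P' * Q' = 1 → P * Q = 1 := by
    intro P Q P' Q' hP hQ hPQ
    refine Matrix.map_injective (f := (v.adicCompletionIntegers L).toSubring.subtype)
      Subtype.val_injective ?_
    show (P * Q).map _ = (1 : Matrix (Fin 2) (Fin 2) (v.adicCompletionIntegers L)).map _
    rw [Matrix.map_mul, Matrix.map_one _ (map_zero _) (map_one _), hP, hQ, hPQ]
  have hA : A.map (v.adicCompletionIntegers L).toSubring.subtype = (compAt v g : GLv v) :=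
    Matrix.ext fun i j => rfl
  have hB : B.map (v.adicCompletionIntegers L).toSubring.subtype =
      (((compAt v g)⁻¹ : GLv v) : Matrix (Fin 2) (Fin 2) _) := by
    rw [← map_inv]; exact Matrix.ext fun i j => rfl
  exact ⟨⟨A, B, key _ _ _ _ hA hB (Units.mul_inv _), key _ _ _ _ hB hA (Units.inv_mul _)⟩,
    Units.ext hA⟩

theorem locCongr_eq_int {v : HeightOneSpectrum (𝓞 L)} (hv : ¬ 𝔫 ≤ v.asIdeal) :
    locCongr 𝔫 v = locInt v := by
  obtain ⟨a, ha, hav⟩ := SetLike.not_le_iff_exists.mp hv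
  have htop : 𝔫.map (algebraMap (𝓞 L) (v.adicCompletionIntegers L)) = ⊤ := by
    refine Ideal.eq_top_of_isUnit_mem _ (Ideal.mem_map_of_mem _ ha) ?_
    refine HeightOneSpectrum.adicCompletionIntegers.isUnit_iff_valued_eq_one.mpr ?_
    show Valued.v (loc v (a : L)) = 1
    rw [valued_loc, HeightOneSpectrum.valuation_of_algebraMap]
    exact v.intValuation_eq_one_iff_mem_primeCompl a |>.mpr hav
  have hs : Subsingleton (v.adicCompletionIntegers L ⧸
      𝔫.map (algebraMap (𝓞 L) (v.adicCompletionIntegers L))) :=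
    Ideal.Quotient.subsingleton_iff.mpr htop
  rw [locCongr, locInt, MonoidHom.range_eq_map]
  congr 1
  refine eq_top_iff.mpr fun k _ => MonoidHom.mem_ker.mpr ?_
  exact Units.ext (Matrix.ext fun i j => Subsingleton.elim _ _)

theorem eventually_good (h𝔫 : 𝔫 ≠ ⊥) : ∀ᶠ v : HeightOneSpectrum (𝓞 L) in cofinite, ¬ 𝔫 ≤ v.asIdeal :=
  eventually_cofinite.mpr ((Ideal.finite_factors (I := 𝔫) h𝔫).subset fun v hv => by
    simp only [not_not, Set.mem_ofPred_eq] at hv
    exact Ideal.dvd_iff_le.mpr hv)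

theorem eventually_coordAt_eq_base (h𝔫 : 𝔫 ≠ ⊥) (c : Cosets 𝔫) :
    ∀ᶠ v in cofinite, coordAt v c = ((1 : GLv v) : LCos 𝔫 v) := by
  obtain ⟨g, rfl⟩ := QuotientGroup.mk_surjective c
  filter_upwards [eventually_comp_mem_int g, eventually_good h𝔫] with v hg hv
  rw [coordAt_mk, QuotientGroup.eq, mul_one]
  exact inv_mem (Subgroup.mem_sup_left (by rwa [locCongr_eq_int hv]))

/-- An adele from its components. -/
def mkAdf (x : ∀ v : HeightOneSpectrum (𝓞 L), v.adicCompletion L)
    (hx : ∀ᶠ v in cofinite, x v ∈ v.adicCompletionIntegers L) : Adf L :=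
  ⟨x, hx⟩

/-- An adelic matrix from its components. -/
theorem exists_compAt_eq (f : ∀ v : HeightOneSpectrum (𝓞 L), GLv v)
    (hf : ∀ᶠ v in cofinite, f v ∈ locInt v) : ∃ g : GAf L, ∀ v, compAt v g = f v := by
  have h : ∀ (F : ∀ v : HeightOneSpectrum (𝓞 L), GLv v) (i j : Fin 2),
      (∀ᶠ v in cofinite, F v ∈ locInt v) →
      ∀ᶠ v in cofinite, (F v : Matrix (Fin 2) (Fin 2) _) i j ∈ v.adicCompletionIntegers L :=
    fun F i j hF => hF.mono fun v ⟨k, hk⟩ => by
      rw [← hk]
      exact ((k : Matrix (Fin 2) (Fin 2) (v.adicCompletionIntegers L)) i j).2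
  have hinv : ∀ᶠ v in cofinite, (f v)⁻¹ ∈ locInt v := hf.mono fun v hv => inv_mem hv
  let M : Matrix (Fin 2) (Fin 2) (Adf L) := Matrix.of fun i j =>
    mkAdf (fun v => (f v : Matrix (Fin 2) (Fin 2) (v.adicCompletion L)) i j) (h f i j hf)
  let N : Matrix (Fin 2) (Fin 2) (Adf L) := Matrix.of fun i j =>
    mkAdf (fun v => (((f v)⁻¹ : GLv v) : Matrix (Fin 2) (Fin 2) (v.adicCompletion L)) i j)
      (h (fun v => (f v)⁻¹) i j hinv)
  have hM : ∀ v, M.map (evalAdf v) = (f v : Matrix (Fin 2) (Fin 2) _) := fun v =>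
    Matrix.ext fun i j => rfl
  have hN : ∀ v, N.map (evalAdf v) = (((f v)⁻¹ : GLv v) : Matrix (Fin 2) (Fin 2) _) := fun v =>
    Matrix.ext fun i j => rfl
  have key : ∀ A B : Matrix (Fin 2) (Fin 2) (Adf L),
      (∀ v, A.map (evalAdf v) * B.map (evalAdf v) = 1) → A * B = 1 := by
    intro A B hAB
    refine Matrix.ext fun i j => FiniteAdeleRing.ext _ fun v => ?_
    show evalAdf v ((A * B) i j) = evalAdf v ((1 : Matrix (Fin 2) (Fin 2) (Adf L)) i j)
    rw [← Matrix.map_apply (f := evalAdf v), ← Matrix.map_apply (f := evalAdf v), Matrix.map_mul,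
      hAB, Matrix.map_one _ (map_zero _) (map_one _)]
  exact ⟨⟨M, N, key M N fun v => by rw [hM, hN, Units.mul_inv],
    key N M fun v => by rw [hM, hN, Units.inv_mul]⟩, fun v => Units.ext (hM v)⟩

theorem mem_congrSubgroup_of_local {g : GAf L} (h : ∀ v, compAt v g ∈ locCongr 𝔫 v) :
    g ∈ congrSubgroup 𝔫 := by
  choose k hk hkg using fun v => Subgroup.mem_map.mp (h v)
  let A : Matrix (Fin 2) (Fin 2) (IntAd L) := Matrix.of fun i j v => (k v : Matrix _ _ _) i j
  let B : Matrix (Fin 2) (Fin 2) (IntAd L) :=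
    Matrix.of fun i j v => (((k v)⁻¹ : GL (Fin 2) _) : Matrix _ _ _) i j
  have key : ∀ (A B : Matrix (Fin 2) (Fin 2) (IntAd L)),
      (∀ v, A.map (Pi.evalRingHom _ v) * B.map (Pi.evalRingHom _ v) = 1) → A * B = 1 :=
    fun A B hAB => Matrix.ext fun i j => funext fun v => by
      have h1 := congrFun (congrFun (hAB v) i) j
      rw [← Matrix.map_mul, Matrix.map_apply] at h1
      refine h1.trans ?_
      rw [Matrix.one_apply, Matrix.one_apply]
      split_ifs <;> rfl
  refine Subgroup.mem_map.mpr ⟨⟨A, B, key A B fun v => Units.mul_inv (k v),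
    key B A fun v => Units.inv_mul (k v)⟩, mem_ker_mk_iff.mpr fun i j => ?_, ?_⟩
  · show A i j - (if i = j then 1 else 0) ∈ _
    obtain ⟨n, gen, hgen⟩ := Submodule.fg_iff_exists_fin_generating_family.mp
      (IsNoetherian.noetherian 𝔫)
    have hv : ∀ v, ∃ c : Fin n → v.adicCompletionIntegers L,
        ∑ q, c q * algebraMap (𝓞 L) (v.adicCompletionIntegers L) (gen q) =
          A i j v - (if i = j then 1 else 0) := by
      intro v
      have h1 := mem_ker_mk_iff.mp (hk v) i j
      have h2 : 𝔫.map (algebraMap (𝓞 L) (v.adicCompletionIntegers L)) =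
          Ideal.span (Set.range fun q => algebraMap (𝓞 L) (v.adicCompletionIntegers L) (gen q)) := by
        rw [← hgen, Ideal.submodule_span_eq, Ideal.map_span, ← Set.range_comp]
        rfl
      rw [h2, Ideal.mem_span_range_iff_exists_fun] at h1
      exact h1
    choose c hc using hv
    have : A i j - (if i = j then 1 else 0) = ∑ q, (fun v => c v q) *
        (RingHom.pi fun v : HeightOneSpectrum (𝓞 L) =>
          algebraMap (𝓞 L) (v.adicCompletionIntegers L)) (gen q) := by
      funext v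
      rw [Finset.sum_apply]
      refine Eq.trans ?_ (hc v).symm
      split_ifs <;> rfl
    rw [this]
    refine Ideal.sum_mem _ fun q _ => Ideal.mul_mem_left _ _ (Ideal.mem_map_of_mem _ ?_)
    rw [← hgen]
    exact Submodule.subset_span ⟨q, rfl⟩
  · refine Units.ext (Matrix.ext fun i j => FiniteAdeleRing.ext _ fun v => ?_)
    exact congrArg (fun z : GLv v => (z : Matrix (Fin 2) (Fin 2) (v.adicCompletion L)) i j) (hkg v)

theorem coordAt_injective (h𝔫 : 𝔫 ≠ ⊥) {a b : Cosets 𝔫} (h : ∀ v, coordAt v a = coordAt v b) :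
    a = b := by
  classical
  obtain ⟨g, rfl⟩ := QuotientGroup.mk_surjective a
  obtain ⟨g', rfl⟩ := QuotientGroup.mk_surjective b
  rw [QuotientGroup.eq]
  set u := g⁻¹ * g'
  have hu : ∀ v, compAt v u ∈ locLevel 𝔫 v := fun v => by
    have := h v
    rw [coordAt_mk, coordAt_mk, QuotientGroup.eq] at this
    rwa [map_mul, map_inv]
  have hsplit : ∀ v, ∃ z : (v.adicCompletion L)ˣ,
      (Matrix.GeneralLinearGroup.scalar (Fin 2) z)⁻¹ * compAt v u ∈ locCongr 𝔫 v ∧
        (compAt v u ∈ locCongr 𝔫 v → z = 1) := by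
    intro v
    by_cases hv : compAt v u ∈ locCongr 𝔫 v
    · exact ⟨1, by rwa [map_one, inv_one, one_mul], fun _ => rfl⟩
    obtain ⟨k, hk, c, hc, hkc⟩ := Subgroup.mem_sup_of_normal_right.mp (hu v)
    rw [Matrix.GeneralLinearGroup.center_eq_range_scalar] at hc
    obtain ⟨z, rfl⟩ := hc
    refine ⟨z, ?_, fun h' => absurd h' hv⟩
    rw [← hkc, ← (Matrix.GeneralLinearGroup.scalar_commute z k)]
    rwa [inv_mul_cancel_left]
  choose z hz hz1 using hsplit
  have hev : ∀ᶠ v in cofinite, Matrix.GeneralLinearGroup.scalar (Fin 2) (z v) ∈ locInt v := by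
    filter_upwards [eventually_comp_mem_int u, eventually_good h𝔫] with v h1 h2
    rw [hz1 v (by rwa [locCongr_eq_int h2]), map_one]
    exact one_mem _
  obtain ⟨c, hc⟩ := exists_compAt_eq _ hev
  have hcen : c ∈ Subgroup.center (GAf L) := by
    rw [Subgroup.mem_center_iff]
    intro x
    refine Units.ext (Matrix.ext fun i j => FiniteAdeleRing.ext _ fun v => ?_)
    have := (Matrix.GeneralLinearGroup.scalar_commute (z v) (compAt v x))
    rw [← hc v, ← map_mul, ← map_mul] at this
    exact congrArg (fun z : GLv v => (z : Matrix (Fin 2) (Fin 2) (v.adicCompletion L)) i j) this.symm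
  have : u = c⁻¹⁻¹ * (c⁻¹ * u) := by group
  rw [this]
  refine mul_mem (Subgroup.mem_sup_right (inv_mem (inv_mem hcen)))
    (Subgroup.mem_sup_left (mem_congrSubgroup_of_local fun v => ?_))
  rw [map_mul, map_inv, hc]
  exact hz v

theorem exists_coordAt_eq (f : ∀ v, LCos 𝔫 v)
    (hf : ∀ᶠ v in cofinite, f v = ((1 : GLv v) : LCos 𝔫 v)) :
    ∃ c : Cosets 𝔫, ∀ v, coordAt v c = f v := by
  classical
  obtain ⟨g, hg⟩ := exists_compAt_eq
    (fun v => if f v = ((1 : GLv v) : LCos 𝔫 v) then 1 else (f v).out)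
    (hf.mono fun v hv => by rw [if_pos hv]; exact one_mem _)
  refine ⟨g, fun v => ?_⟩
  rw [coordAt_mk, hg]
  split_ifs with h
  · exact h.symm
  · exact QuotientGroup.out_eq' _

end FermatAgent.LT
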