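import Mathlib
import Fermat.Agent.LT.Descent.Geom.Coords

set_option autoImplicit false

/-!
# Heights at the places and the bound for two cusps
-/

noncomputable section

open NumberField IsDedekindDomain Filter
open scoped MatrixGroups

namespace FermatAgent.LT

variable {L : Type*} [Field L] [NumberField L]

/-- The height of the bottom row of a matrix at a place. -/
def hLoc (v : HeightOneSpectrum (𝓞 L)) (M : GLv v) : ℝ :=
  ‖(M : Matrix (Fin 2) (Fin 2) (v.adicCompletion L)).det‖ / (max ‖M 1 0‖ ‖M 1 1‖) ^ 2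

theorem heightFin_eq (g : GAf L) : heightFin g = ∏ᶠ v, hLoc v (compAt v g) := by
  refine finprod_congr fun v => ?_
  have hd : evalAdf v (g : Matrix (Fin 2) (Fin 2) (Adf L)).det =
      ((compAt v g : GLv v) : Matrix (Fin 2) (Fin 2) (v.adicCompletion L)).det :=
    RingHom.map_det (evalAdf v) _
  rw [hLoc, ← hd]
  rfl

variable {v : HeightOneSpectrum (𝓞 L)}

theorem norm_le_one_of_mem {x : v.adicCompletion L} (hx : x ∈ v.adicCompletionIntegers L) :
    ‖x‖ ≤ 1 := Valued.toNormedField.norm_le_one_iff.mpr hx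

theorem rowMax_pos (M : GLv v) : 0 < max ‖M 1 0‖ ‖M 1 1‖ := by
  by_contra h
  have h0 : M 1 0 = 0 ∧ M 1 1 = 0 := by
    simp only [not_lt, max_le_iff, norm_le_zero_iff] at h; exact h
  exact M.det_ne_zero (by rw [Matrix.det_fin_two, h0.1, h0.2]; simp)

theorem hLoc_pos (M : GLv v) : 0 < hLoc v M :=
  div_pos (norm_pos_iff.mpr M.det_ne_zero) (pow_pos (rowMax_pos M) 2)

theorem norm_mul_add_le (a b c d : v.adicCompletion L) {X : ℝ} (ha : ‖a‖ * ‖b‖ ≤ X)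
    (hc : ‖c‖ * ‖d‖ ≤ X) : ‖a * b + c * d‖ ≤ X :=
  (IsUltrametricDist.norm_add_le_max _ _).trans (max_le (by rwa [norm_mul]) (by rwa [norm_mul]))

theorem rowMax_mul_le (M k : GLv v) :
    max ‖(M * k : GLv v) 1 0‖ ‖(M * k : GLv v) 1 1‖ ≤
      max ‖M 1 0‖ ‖M 1 1‖ * max (max ‖k 0 0‖ ‖k 0 1‖) (max ‖k 1 0‖ ‖k 1 1‖) := by
  simp only [Matrix.GeneralLinearGroup.coe_mul, Matrix.mul_apply, Fin.sum_univ_two]
  refine max_le (norm_mul_add_le _ _ _ _ ?_ ?_) (norm_mul_add_le _ _ _ _ ?_ ?_) <;>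
    refine mul_le_mul ?_ ?_ (norm_nonneg _) (le_trans (norm_nonneg _) (le_max_left _ _)) <;> simp

/-- Right translations change heights boundedly. -/
theorem hLoc_mul_le (M k : GLv v) : hLoc v M ≤ hLoc v (M * k) *
    ((max (max ‖k 0 0‖ ‖k 0 1‖) (max ‖k 1 0‖ ‖k 1 1‖)) ^ 2 /
      ‖(k : Matrix (Fin 2) (Fin 2) (v.adicCompletion L)).det‖) := by
  set B := max (max ‖k 0 0‖ ‖k 0 1‖) (max ‖k 1 0‖ ‖k 1 1‖)
  have h := rowMax_mul_le M k
  have hk := norm_pos_iff.mpr k.det_ne_zero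
  have hM := rowMax_pos M
  have hMk := rowMax_pos (M * k)
  rw [hLoc, hLoc, show ((M * k : GLv v) : Matrix (Fin 2) (Fin 2) (v.adicCompletion L)).det =
    (M : Matrix (Fin 2) (Fin 2) (v.adicCompletion L)).det *
      (k : Matrix (Fin 2) (Fin 2) (v.adicCompletion L)).det by
    rw [Units.val_mul, Matrix.det_mul], norm_mul, div_mul_div_comm,
    div_le_div_iff₀ (pow_pos hM 2) (mul_pos (pow_pos hMk 2) hk)]
  have h2 := pow_le_pow_left₀ hMk.le h 2
  have h3 := mul_le_mul_of_nonneg_left h2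
    (mul_nonneg (norm_nonneg (M : Matrix (Fin 2) (Fin 2) (v.adicCompletion L)).det) hk.le)
  nlinarith [h3]

theorem det_norm_of_locInt {k : GLv v} (hk : k ∈ locInt v) :
    ‖(k : Matrix (Fin 2) (Fin 2) (v.adicCompletion L)).det‖ = 1 ∧
      ∀ i j, ‖k i j‖ ≤ 1 := by
  obtain ⟨k, rfl⟩ := hk
  refine ⟨?_, fun i j => norm_le_one_of_mem (SetLike.coe_mem (k i j))⟩
  have h : ∀ x : v.adicCompletionIntegers L, IsUnit x → ‖(x : v.adicCompletion L)‖ = 1 := by
    rintro x ⟨u, rfl⟩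
    have h1 := norm_le_one_of_mem (u : v.adicCompletionIntegers L).2
    have h2 := norm_le_one_of_mem ((u⁻¹ : _ˣ) : v.adicCompletionIntegers L).2
    have h3 : ‖((u : v.adicCompletionIntegers L) : v.adicCompletion L)‖ *
        ‖(((u⁻¹ : _ˣ) : v.adicCompletionIntegers L) : v.adicCompletion L)‖ = 1 := by
      rw [← norm_mul]
      exact (congrArg (fun y : v.adicCompletionIntegers L => ‖(y : v.adicCompletion L)‖)
        u.mul_inv).trans norm_one
    nlinarith [norm_nonneg ((u : v.adicCompletionIntegers L) : v.adicCompletion L)]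
  have hd : (((Matrix.GeneralLinearGroup.map (v.adicCompletionIntegers L).toSubring.subtype) k :
      GLv v) : Matrix (Fin 2) (Fin 2) (v.adicCompletion L)).det =
      (v.adicCompletionIntegers L).toSubring.subtype (k : Matrix (Fin 2) (Fin 2) _).det :=
    (RingHom.map_det _ _).symm
  rw [hd]
  exact h _ ((Matrix.isUnit_iff_isUnit_det _).mp k.isUnit)

theorem hLoc_mul_locInt (M : GLv v) {k : GLv v} (hk : k ∈ locInt v) :
    hLoc v (M * k) = hLoc v M := by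
  have key : ∀ (M k : GLv v), k ∈ locInt v → hLoc v M ≤ hLoc v (M * k) := fun M k hk => by
    obtain ⟨hd, he⟩ := det_norm_of_locInt hk
    refine (hLoc_mul_le M k).trans (mul_le_of_le_one_right (hLoc_pos _).le ?_)
    rw [hd, div_one]
    exact pow_le_one₀ (le_trans (norm_nonneg _) ((le_max_left _ _).trans (le_max_left _ _)))
      (by simp [he])
  refine le_antisymm ?_ (key M k hk)
  simpa using key (M * k) k⁻¹ (inv_mem hk)

theorem hLoc_mul_locLevel {𝔫 : Ideal (𝓞 L)} (M : GLv v) {k : GLv v} (hk : k ∈ locLevel 𝔫 v) :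
    hLoc v (M * k) = hLoc v M := by
  obtain ⟨a, ha, z, hz, rfl⟩ := Subgroup.mem_sup_of_normal_right.mp hk
  rw [Matrix.GeneralLinearGroup.center_eq_range_scalar] at hz
  obtain ⟨c, rfl⟩ := hz
  obtain ⟨b, -, rfl⟩ := Subgroup.mem_map.mp ha
  rw [← mul_assoc]
  set N := M * Matrix.GeneralLinearGroup.map (v.adicCompletionIntegers L).toSubring.subtype b
  have hs : hLoc v (N * Matrix.GeneralLinearGroup.scalar (Fin 2) c) = hLoc v N := by
    have hc : ‖(c : v.adicCompletion L)‖ ≠ 0 := norm_ne_zero_iff.mpr c.ne_zero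
    have e : ∀ i j, (N * Matrix.GeneralLinearGroup.scalar (Fin 2) c : GLv v) i j =
        N i j * (c : v.adicCompletion L) := fun i j => by
      rw [Matrix.GeneralLinearGroup.coe_mul, Matrix.GeneralLinearGroup.coe_scalar]
      simp [Matrix.mul_diagonal]
    rw [hLoc, hLoc, e, e, Units.val_mul, Matrix.det_mul, Matrix.GeneralLinearGroup.coe_scalar,
      Matrix.scalar_apply, Matrix.det_diagonal, Fin.prod_univ_two, norm_mul, norm_mul,
      norm_mul, norm_mul, ← max_mul_of_nonneg _ _ (norm_nonneg _), mul_pow, ← sq,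
      mul_div_mul_right _ _ (pow_ne_zero 2 hc)]
  rw [hs]
  exact hLoc_mul_locInt M ⟨b, rfl⟩

theorem hLoc_one : hLoc v (1 : GLv v) = 1 := by simp [hLoc]

theorem hLoc_of_locInt {k : GLv v} (hk : k ∈ locInt v) : hLoc v k = 1 := by
  simpa [hLoc_one] using hLoc_mul_locInt 1 hk

/-- Two rows at one place. -/
theorem hLoc_mul_hLoc_le (A B : GLv v) :
    hLoc v A * hLoc v B * ‖A 1 0 * B 1 1 - A 1 1 * B 1 0‖ ^ 2 ≤
      ‖(A : Matrix (Fin 2) (Fin 2) (v.adicCompletion L)).det‖ *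
        ‖(B : Matrix (Fin 2) (Fin 2) (v.adicCompletion L)).det‖ := by
  have ha := rowMax_pos A
  have hb := rowMax_pos B
  have h : ‖A 1 0 * B 1 1 - A 1 1 * B 1 0‖ ≤ max ‖A 1 0‖ ‖A 1 1‖ * max ‖B 1 0‖ ‖B 1 1‖ := by
    rw [sub_eq_add_neg]
    refine (IsUltrametricDist.norm_add_le_max _ _).trans (max_le ?_ ?_)
    · rw [norm_mul]
      exact mul_le_mul (le_max_left _ _) (le_max_right _ _) (norm_nonneg _) ha.le
    · rw [norm_neg, norm_mul]
      exact mul_le_mul (le_max_right _ _) (le_max_left _ _) (norm_nonneg _) ha.le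
  have h2 := pow_le_pow_left₀ (norm_nonneg _) h 2
  rw [hLoc, hLoc, div_mul_div_comm, div_mul_eq_mul_div,
    div_le_iff₀ (mul_pos (pow_pos ha 2) (pow_pos hb 2)), ← mul_pow]
  exact mul_le_mul_of_nonneg_left h2 (by positivity)

theorem eventually_hLoc_eq_one (g : GAf L) : ∀ᶠ w in cofinite, hLoc w (compAt w g) = 1 :=
  (eventually_comp_mem_int g).mono fun _ hw => hLoc_of_locInt hw

/-! ### The archimedean places -/

/-- The height at an infinite place. -/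
def hInfPt (M : GL (Fin 2) ℂ) (P : H3) : ℝ := (M • P).t ^ 2

theorem t_smul_eq (M : GL (Fin 2) ℂ) (P : H3) :
    (M • P).t = ‖(M : Matrix (Fin 2) (Fin 2) ℂ).det‖ * P.t / H3.den M P := rfl

theorem hInfPt_mul_le (A B : GL (Fin 2) ℂ) (P : H3) :
    hInfPt A P * hInfPt B P * ‖A 1 0 * B 1 1 - A 1 1 * B 1 0‖ ^ 4 ≤
      ‖(A : Matrix (Fin 2) (Fin 2) ℂ).det‖ ^ 2 * ‖(B : Matrix (Fin 2) (Fin 2) ℂ).det‖ ^ 2 := by
  have ha := H3.den_pos A P
  have hb := H3.den_pos B P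
  have h : ‖A 1 0 * B 1 1 - A 1 1 * B 1 0‖ ^ 2 * P.t ^ 2 ≤ H3.den A P * H3.den B P := by
    set a := A 1 0 * P.z + A 1 1
    set b := B 1 0 * P.z + B 1 1
    have e : A 1 0 * B 1 1 - A 1 1 * B 1 0 = A 1 0 * b - a * B 1 0 := by ring
    rw [e, H3.den, H3.den, Complex.normSq_eq_norm_sq, Complex.normSq_eq_norm_sq,
      Complex.normSq_eq_norm_sq, Complex.normSq_eq_norm_sq]
    have h1 : ‖A 1 0 * b - a * B 1 0‖ ≤ ‖A 1 0‖ * ‖b‖ + ‖a‖ * ‖B 1 0‖ := by
      refine (norm_sub_le _ _).trans ?_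
      rw [norm_mul, norm_mul]
    have h2 := pow_le_pow_left₀ (norm_nonneg _) h1 2
    have h3 : (‖A 1 0‖ * ‖b‖ + ‖a‖ * ‖B 1 0‖) ^ 2 * P.t ^ 2 ≤
        (‖a‖ ^ 2 + ‖A 1 0‖ ^ 2 * P.t ^ 2) * (‖b‖ ^ 2 + ‖B 1 0‖ ^ 2 * P.t ^ 2) := by
      nlinarith [sq_nonneg (‖a‖ * ‖b‖ - ‖A 1 0‖ * ‖B 1 0‖ * P.t ^ 2)]
    exact (mul_le_mul_of_nonneg_right h2 (sq_nonneg _)).trans h3
  have h2 := pow_le_pow_left₀ (by positivity) h 2
  rw [hInfPt, hInfPt, t_smul_eq, t_smul_eq, div_pow, div_pow, div_mul_div_comm, div_mul_eq_mul_div,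
    div_le_iff₀ (mul_pos (pow_pos ha 2) (pow_pos hb 2))]
  calc (‖(A : Matrix (Fin 2) (Fin 2) ℂ).det‖ * P.t) ^ 2 *
        (‖(B : Matrix (Fin 2) (Fin 2) ℂ).det‖ * P.t) ^ 2 *
        ‖A 1 0 * B 1 1 - A 1 1 * B 1 0‖ ^ 4
      = ‖(A : Matrix (Fin 2) (Fin 2) ℂ).det‖ ^ 2 * ‖(B : Matrix (Fin 2) (Fin 2) ℂ).det‖ ^ 2 *
          (‖A 1 0 * B 1 1 - A 1 1 * B 1 0‖ ^ 2 * P.t ^ 2) ^ 2 := by ring
    _ ≤ _ := by
      rw [← mul_pow (H3.den A P)]
      exact mul_le_mul_of_nonneg_left h2 (by positivity)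

theorem t_le_mul_coshDist (P Q : H3) : P.t ≤ 2 * H3.coshDist P Q * Q.t := by
  have hP := P.t_pos
  have hQ := Q.t_pos
  rw [H3.coshDist]
  have := Complex.normSq_nonneg (P.z - Q.z)
  have key : 2 * (1 + (Complex.normSq (P.z - Q.z) + (P.t - Q.t) ^ 2) / (2 * P.t * Q.t)) * Q.t =
      (2 * P.t * Q.t + Complex.normSq (P.z - Q.z) + (P.t - Q.t) ^ 2) / P.t := by
    field_simp
    ring
  rw [key, le_div_iff₀ hP]
  nlinarith

end FermatAgent.LT
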