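import Mathlib
import Fermat.Agent.LT.Descent.Geom.Height

set_option autoImplicit false

/-!
# Heights of the cusps on the space and their product
-/

noncomputable section

open MeasureTheory NumberField IsDedekindDomain Filter
open scoped MatrixGroups

namespace FermatAgent.LT

variable {L : Type*} [Field L] [NumberField L] {𝔫 : Ideal (𝓞 L)}

theorem norm_loc (v : HeightOneSpectrum (𝓞 L)) (x : L) :
    ‖loc v x‖ = (FinitePlace.mk v) x := rfl

theorem finprod_norm_loc (x : L) :
    ∏ᶠ v : HeightOneSpectrum (𝓞 L), ‖loc v x‖ = ∏ᶠ w : FinitePlace L, w x := by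
  rw [← finprod_comp_equiv FinitePlace.equivHeightOneSpectrum]
  refine finprod_congr fun w => ?_
  rw [norm_loc]
  exact congrArg (fun u : FinitePlace L => u x) (FinitePlace.mk_maximalIdeal w)

/-- The product formula. -/
theorem prod_norm_eq_one [IsTotallyComplex L] {x : L} (hx : x ≠ 0) :
    (∏ w : InfinitePlace L, ‖w.embedding x‖ ^ 2) * ∏ᶠ v : HeightOneSpectrum (𝓞 L), ‖loc v x‖ = 1 := by
  rw [finprod_norm_loc]
  convert prod_abs_eq_one hx using 3 with w
  rw [InfinitePlace.mult, if_neg (InfinitePlace.not_isReal_iff_isComplex.mpr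
    (IsTotallyComplex.isComplex w)), InfinitePlace.norm_embedding_eq]

theorem eventually_norm_loc {x : L} (hx : x ≠ 0) :
    ∀ᶠ v : HeightOneSpectrum (𝓞 L) in cofinite, ‖loc v x‖ = 1 := by
  have h := eventually_hLoc_eq_one (rationalMat (upperTri (Units.mk0 x hx) 0 1))
  filter_upwards [h] with v hv
  rw [compAt_rationalMat, hLoc] at hv
  simpa [locMat, upperTri, Matrix.det_fin_two] using hv

/-- The height of a cusp on the space. -/
def heightY (γ : GL (Fin 2) L) (y : YSpace 𝔫) : ℝ := heightAt γ y.1 y.2.out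

theorem heightY_eq (γ : GL (Fin 2) L) (x : XInf L) (g : GAf L) :
    heightY γ ((x, (g : Cosets 𝔫)) : YSpace 𝔫) =
      (∏ w, hInfPt (Matrix.GeneralLinearGroup.map w.embedding γ) (x w)) *
        ∏ᶠ v, hLoc v (locMat v γ * compAt v g) := by
  rw [heightY, heightAt, height, heightFin_eq]
  congr 1
  refine finprod_congr fun v => ?_
  rw [map_mul, compAt_rationalMat]
  set g' := (g : Cosets 𝔫).out
  have h : g⁻¹ * g' ∈ levelGroup 𝔫 := QuotientGroup.eq.mp (QuotientGroup.out_eq' _).symm
  rw [show locMat v γ * compAt v g' = locMat v γ * compAt v g * compAt v (g⁻¹ * g') by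
    rw [map_mul, map_inv]; group]
  exact hLoc_mul_locLevel _ (levelGroup_le_comap v h)

theorem heightY_pos (γ : GL (Fin 2) L) (y : YSpace 𝔫) : 0 < heightY γ y := by
  obtain ⟨x, q⟩ := y
  obtain ⟨g, rfl⟩ := QuotientGroup.mk_surjective q
  rw [heightY_eq]
  refine mul_pos (Finset.prod_pos fun w _ => pow_pos (H3.t_pos _) 2) ?_
  exact finprod_induction (fun r : ℝ => 0 < r) one_pos (fun _ _ => mul_pos) fun v => hLoc_pos _

omit [NumberField L] in
theorem infAct_mul (γ η : GL (Fin 2) L) (x : XInf L) (w : InfinitePlace L) :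
    Matrix.GeneralLinearGroup.map w.embedding γ • infAct η x w =
      Matrix.GeneralLinearGroup.map w.embedding (γ * η) • x w := by
  rw [infAct, map_mul, mul_smul]

theorem heightY_smul (γ η : GL (Fin 2) L) (y : YSpace 𝔫) :
    heightY γ (Matrix.ProjGenLinGroup.mk η • y) = heightY (γ * η) y := by
  obtain ⟨x, q⟩ := y
  obtain ⟨g, rfl⟩ := QuotientGroup.mk_surjective q
  rw [mk_smul, MulAction.Quotient.smul_coe, smul_eq_mul, heightY_eq, heightY_eq]
  refine congrArg₂ (· * ·) (Finset.prod_congr rfl fun w _ => ?_) (finprod_congr fun v => ?_)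
  · rw [hInfPt, hInfPt, infAct_mul]
  · rw [map_mul, compAt_rationalMat, map_mul, mul_assoc]

variable [IsTotallyComplex L]

omit [IsTotallyComplex L] in
theorem eventually_hLoc_global (γ : GL (Fin 2) L) (g : GAf L) :
    ∀ᶠ v in cofinite, hLoc v (locMat v γ * compAt v g) = 1 := by
  filter_upwards [eventually_hLoc_eq_one (rationalMat γ * g)] with v hv
  rwa [map_mul, compAt_rationalMat] at hv

/-- **Two cusps**: if the bottom rows are independent the heights multiply to at most one. -/
theorem heightY_mul_le_one (α β : GL (Fin 2) L) (hne : α 1 0 * β 1 1 - α 1 1 * β 1 0 ≠ 0)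
    (y : YSpace 𝔫) : heightY α y * heightY β y ≤ 1 := by
  obtain ⟨x, q⟩ := y
  obtain ⟨g, rfl⟩ := QuotientGroup.mk_surjective q
  set D := α 1 0 * β 1 1 - α 1 1 * β 1 0
  set c : L := (α : Matrix (Fin 2) (Fin 2) L).det * (β : Matrix (Fin 2) (Fin 2) L).det / D ^ 2
  have hc : c ≠ 0 := div_ne_zero (mul_ne_zero α.det_ne_zero β.det_ne_zero) (pow_ne_zero 2 hne)
  have hinf : ∀ w : InfinitePlace L, hInfPt (Matrix.GeneralLinearGroup.map w.embedding α) (x w) *
      hInfPt (Matrix.GeneralLinearGroup.map w.embedding β) (x w) ≤ ‖w.embedding c‖ ^ 2 := by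
    intro w
    have h := hInfPt_mul_le (Matrix.GeneralLinearGroup.map w.embedding α)
      (Matrix.GeneralLinearGroup.map w.embedding β) (x w)
    simp only [Matrix.GeneralLinearGroup.map_apply] at h
    rw [← map_mul w.embedding, ← map_mul w.embedding, ← map_sub w.embedding,
      show α 1 0 * β 1 1 - α 1 1 * β 1 0 = D from rfl] at h
    have hD : 0 < ‖w.embedding D‖ := norm_pos_iff.mpr ((map_ne_zero _).mpr hne)
    have ha : ∀ γ : GL (Fin 2) L, ((Matrix.GeneralLinearGroup.map w.embedding γ : GL (Fin 2) ℂ) :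
        Matrix (Fin 2) (Fin 2) ℂ).det = w.embedding (γ : Matrix (Fin 2) (Fin 2) L).det :=
      fun γ => (RingHom.map_det _ _).symm
    rw [ha, ha] at h
    simp only [c, map_div₀, map_mul, map_pow, norm_div, norm_mul, norm_pow, div_pow, ← pow_mul]
    rw [le_div_iff₀ (pow_pos hD _)]
    calc _ ≤ _ := h
      _ = _ := by ring
  have hfin : ∀ v : HeightOneSpectrum (𝓞 L), hLoc v (locMat v α * compAt v g) *
      hLoc v (locMat v β * compAt v g) ≤ ‖loc v c‖ := by
    intro v
    set A := locMat v α * compAt v g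
    set B := locMat v β * compAt v g
    have h := hLoc_mul_hLoc_le A B
    set G := compAt v g
    have e : A 1 0 * B 1 1 - A 1 1 * B 1 0 =
        loc v D * (G : Matrix (Fin 2) (Fin 2) (v.adicCompletion L)).det := by
      simp only [A, B, Matrix.GeneralLinearGroup.coe_mul, Matrix.mul_apply, Fin.sum_univ_two,
        locMat, Matrix.GeneralLinearGroup.map_apply, Matrix.det_fin_two, D, map_sub, map_mul]
      ring
    have hd : ∀ γ : GL (Fin 2) L, ((locMat v γ * G : GLv v) :
        Matrix (Fin 2) (Fin 2) (v.adicCompletion L)).det =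
        loc v (γ : Matrix (Fin 2) (Fin 2) L).det *
          (G : Matrix (Fin 2) (Fin 2) (v.adicCompletion L)).det := fun γ => by
      rw [Units.val_mul, Matrix.det_mul]
      congr 1
      exact (RingHom.map_det _ _).symm
    rw [e, hd, hd, norm_mul, norm_mul, norm_mul, mul_pow] at h
    have hD : 0 < ‖loc v D‖ := norm_pos_iff.mpr ((map_ne_zero _).mpr hne)
    have hG : 0 < ‖(G : Matrix (Fin 2) (Fin 2) (v.adicCompletion L)).det‖ :=
      norm_pos_iff.mpr G.det_ne_zero
    simp only [c, map_div₀, map_mul, map_pow, norm_div, norm_mul, norm_pow]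
    rw [le_div_iff₀ (pow_pos hD 2)]
    refine le_of_mul_le_mul_right ?_ (pow_pos hG 2)
    calc _ = _ := by ring
      _ ≤ _ := h
      _ = _ := by ring
  rw [heightY_eq, heightY_eq, mul_mul_mul_comm, ← Finset.prod_mul_distrib,
    ← finprod_mul_distrib (eventually_cofinite.mp (eventually_hLoc_global α g))
      (eventually_cofinite.mp (eventually_hLoc_global β g))]
  rw [← prod_norm_eq_one hc]
  have hpos : ∀ v, 0 ≤ hLoc v (locMat v α * compAt v g) * hLoc v (locMat v β * compAt v g) :=
    fun v => (mul_pos (hLoc_pos _) (hLoc_pos _)).le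
  refine mul_le_mul (Finset.prod_le_prod
    (fun w _ => mul_nonneg (sq_nonneg _) (sq_nonneg _)) fun w _ => hinf w) ?_
    (finprod_nonneg hpos) (Finset.prod_nonneg fun w _ => sq_nonneg _)
  classical
  set s := ((eventually_cofinite.mp (eventually_hLoc_global α g)).toFinset ∪
    (eventually_cofinite.mp (eventually_hLoc_global β g)).toFinset ∪
    (eventually_cofinite.mp (eventually_norm_loc hc)).toFinset)
  rw [finprod_eq_prod_of_mulSupport_subset (s := s) _ (fun v hv => by
      by_contra h; simp [s] at h; exact hv (show _ * _ = _ by rw [h.1, h.2.1, mul_one])),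
    finprod_eq_prod_of_mulSupport_subset (s := s) _ (fun v hv => by
      by_contra h; simp [s] at h; exact hv h.2.2)]
  exact Finset.prod_le_prod (fun v _ => hpos v) fun v _ => hfin v

/-- The height depends on the bottom row up to a scalar. -/
theorem heightY_eq_of_row (α β : GL (Fin 2) L) (h : α 1 0 * β 1 1 - α 1 1 * β 1 0 = 0)
    (y : YSpace 𝔫) : heightY α y = heightY β y := by
  obtain ⟨a, b, d, hB⟩ : ∃ (a : Lˣ) (b : L) (d : Lˣ), β * α⁻¹ = upperTri a b d := by
    set C := β * α⁻¹ with hC
    have h10 : C 1 0 = 0 := by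
      have : (C : Matrix (Fin 2) (Fin 2) L) 1 0 * (α : Matrix (Fin 2) (Fin 2) L).det =
          -(α 1 0 * β 1 1 - α 1 1 * β 1 0) := by
        have hb : β = C * α := by rw [hC, inv_mul_cancel_right]
        clear_value C
        clear hC
        subst hb
        rw [Matrix.GeneralLinearGroup.coe_mul, Matrix.mul_apply, Matrix.mul_apply,
          Fin.sum_univ_two, Fin.sum_univ_two, Matrix.det_fin_two]
        ring
      rw [h, neg_zero, mul_eq_zero] at this
      exact this.resolve_right α.det_ne_zero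
    have hd := C.det_ne_zero
    rw [Matrix.det_fin_two, h10, mul_zero, sub_zero] at hd
    refine ⟨Units.mk0 _ (left_ne_zero_of_mul hd), C 0 1, Units.mk0 _ (right_ne_zero_of_mul hd), ?_⟩
    refine Matrix.GeneralLinearGroup.ext fun i j => ?_
    fin_cases i <;> fin_cases j <;> simp [upperTri, h10]
  obtain ⟨x, q⟩ := y
  obtain ⟨g, rfl⟩ := QuotientGroup.mk_surjective q
  have hβ : β = upperTri a b d * α := by rw [← hB, inv_mul_cancel_right]
  set r : L := (a : L) / (d : L)
  have hr : r ≠ 0 := div_ne_zero a.ne_zero d.ne_zero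
  have hi : ∀ w : InfinitePlace L, hInfPt (Matrix.GeneralLinearGroup.map w.embedding β) (x w) =
      ‖w.embedding r‖ ^ 2 * hInfPt (Matrix.GeneralLinearGroup.map w.embedding α) (x w) := by
    intro w
    rw [hInfPt, hInfPt, hβ, map_mul, mul_smul, t_smul_eq, ← mul_pow]
    congr 1
    have hd : ‖w.embedding (d : L)‖ ≠ 0 := norm_ne_zero_iff.mpr ((map_ne_zero _).mpr d.ne_zero)
    simp only [H3.den, upperTri, Matrix.GeneralLinearGroup.map_apply, r]
    rw [Matrix.det_fin_two]
    simp [map_div₀, Complex.normSq_eq_norm_sq]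
    field_simp
  have hv : ∀ v : HeightOneSpectrum (𝓞 L), hLoc v (locMat v β * compAt v g) =
      ‖loc v r‖ * hLoc v (locMat v α * compAt v g) := by
    intro v
    rw [hβ, map_mul, mul_assoc]
    set M := locMat v α * compAt v g
    have hd : ‖loc v (d : L)‖ ≠ 0 := norm_ne_zero_iff.mpr ((map_ne_zero _).mpr d.ne_zero)
    have e : ∀ j, (locMat v (upperTri a b d) * M : GLv v) 1 j = loc v (d : L) * M 1 j := fun j => by
      simp [Matrix.mul_apply, Fin.sum_univ_two, locMat, upperTri]
    rw [hLoc, hLoc, e, e, Units.val_mul, Matrix.det_mul, norm_mul, norm_mul, norm_mul,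
      ← mul_max_of_nonneg _ _ (norm_nonneg _)]
    simp only [r, map_div₀, norm_div, locMat, upperTri, Matrix.det_fin_two]
    simp
    field_simp
  rw [heightY_eq, heightY_eq]
  simp only [hi, hv, Finset.prod_mul_distrib]
  rw [finprod_mul_distrib (eventually_cofinite.mp (eventually_norm_loc hr))
    (eventually_cofinite.mp (eventually_hLoc_global α g)), mul_mul_mul_comm, prod_norm_eq_one hr,
    one_mul]

end FermatAgent.LT
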