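import Mathlib
import Fermat.Agent.LT.Descent.Geom.HeightY
import Fermat.Agent.LT.Descent.Kernel.CosetOp.Gal
import Fermat.Agent.LT.Descent.Spectral.Twist
import Fermat.Agent.LT.Descent.Spectral.YKer
import Fermat.Agent.LT.Descent.Facts.Places
import Fermat.Agent.LT.Base.FundDomain

set_option autoImplicit false

/-!
# Truncation by the cusps

`trunc l` is the invariant set where all cusp heights are at most `l`.  On a fundamental domain cut
by it a kernel meets boundedly many translates; a cusp high above a point of the support of a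
twisted term is fixed by that term.
-/

noncomputable section

open MeasureTheory NumberField IsDedekindDomain Filter
open scoped MatrixGroups ENNReal

namespace FermatAgent.LT

variable {L : Type*} [Field L] [NumberField L] {𝔫 : Ideal (𝓞 L)}

theorem norm_galLoc (σ : L ≃+* L) (w : HeightOneSpectrum (𝓞 L))
    (x : (galPlace σ w).adicCompletion L) : ‖galLoc σ w x‖ = ‖x‖ := by
  have key : ∀ (N N' : NNReal) (hN : N ≠ 0) (hN' : N' ≠ 0) (a : WithZero (Multiplicative ℤ)),
      N = N' → (WithZeroMulInt.toNNReal hN a : ℝ) = (WithZeroMulInt.toNNReal hN' a : ℝ) :=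
    fun N N' hN hN' a h => by subst h; rfl
  rw [FinitePlace.norm_def, FinitePlace.norm_def, CO.valued_galLoc]
  exact key _ _ _ _ _ (by rw [absNorm_galPlace])

theorem hLoc_map_galLoc (σ : L ≃+* L) (w : HeightOneSpectrum (𝓞 L)) (M : GLv (galPlace σ w)) :
    hLoc w (Matrix.GeneralLinearGroup.map (galLoc σ w) M) = hLoc (galPlace σ w) M := by
  have hd : ((Matrix.GeneralLinearGroup.map (galLoc σ w) M : GLv w) :
      Matrix (Fin 2) (Fin 2) (w.adicCompletion L)).det =
      galLoc σ w (M : Matrix (Fin 2) (Fin 2) ((galPlace σ w).adicCompletion L)).det :=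
    (RingHom.map_det _ _).symm
  rw [hLoc, hLoc, hd, Matrix.GeneralLinearGroup.map_apply, Matrix.GeneralLinearGroup.map_apply,
    norm_galLoc, norm_galLoc, norm_galLoc]

theorem compAt_galGAf (σ : L ≃+* L) (w : HeightOneSpectrum (𝓞 L)) (g : GAf L) :
    compAt w (galGAf σ g) =
      Matrix.GeneralLinearGroup.map (galLoc σ w) (compAt (galPlace σ w) g) :=
  Units.ext (Matrix.ext fun _ _ => rfl)

/-- The heights at the image of a point. -/
theorem heightY_galY (h𝔫 : 𝔫 ≠ ⊥) {σ : L ≃+* L} (hσ : 𝔫.map (galInt σ) = 𝔫) (γ : GL (Fin 2) L)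
    (y : YSpace 𝔫) :
    heightY γ (galY σ y) = heightY (Matrix.GeneralLinearGroup.map σ.symm.toRingHom γ) y := by
  obtain ⟨x, q⟩ := y
  obtain ⟨g, rfl⟩ := QuotientGroup.mk_surjective q
  set γ' := Matrix.GeneralLinearGroup.map σ.symm.toRingHom γ
  have hγ : Matrix.GeneralLinearGroup.map σ.toRingHom γ' = γ :=
    Units.ext (Matrix.ext fun i j => σ.apply_symm_apply _)
  rw [galY, galCoset_mk h𝔫 hσ, heightY_eq, heightY_eq]
  refine congrArg₂ (· * ·) ?_ ?_
  · refine Fintype.prod_equiv (galPerm σ) _ _ fun w => ?_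
    have h1 : Matrix.GeneralLinearGroup.map w.embedding γ • galX σ x w =
        galX σ (infAct γ' x) w := by
      rw [galX_infAct, hγ]
      rfl
    rw [hInfPt, hInfPt, h1, ← galFlip_apply]
    congr 1
    unfold galFlip
    split_ifs <;> rfl
  · rw [← finprod_comp_equiv ((HeightOneSpectrum.equivOfRingEquiv (galInt σ)).symm)
      (f := fun v => hLoc v (locMat v γ' * compAt v g))]
    refine finprod_congr fun w => ?_
    rw [compAt_galGAf]
    have e : locMat w γ = Matrix.GeneralLinearGroup.map (galLoc σ w) (locMat (galPlace σ w) γ') := by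
      conv_lhs => rw [← hγ]
      exact Units.ext (Matrix.ext fun i j => (galLoc_coe σ w (γ' i j)).symm)
    rw [e, ← map_mul, hLoc_map_galLoc]
    rfl

variable [IsTotallyComplex L]

/-- All heights at a point are bounded. -/
theorem exists_heightY_le (y : YSpace 𝔫) : ∃ l : ℝ, ∀ γ : GL (Fin 2) L, heightY γ y ≤ l := by
  refine ⟨max (heightY 1 y) (1 / heightY 1 y), fun γ => ?_⟩
  by_cases h : γ 1 0 * (1 : GL (Fin 2) L) 1 1 - γ 1 1 * (1 : GL (Fin 2) L) 1 0 = 0
  · exact (heightY_eq_of_row γ 1 h y).le.trans (le_max_left _ _)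
  · exact ((le_div_iff₀ (heightY_pos 1 y)).mpr (heightY_mul_le_one γ 1 h y)).trans
      (le_max_right _ _)

/-- Two cusps of height above one coincide. -/
theorem row_eq_of_one_lt {α β : GL (Fin 2) L} {y : YSpace 𝔫} (hα : 1 < heightY α y)
    (hβ : 1 < heightY β y) : α 1 0 * β 1 1 - α 1 1 * β 1 0 = 0 := by
  by_contra h
  nlinarith [heightY_mul_le_one α β h y]

variable (𝔫) in
/-- The truncated space. -/
def trunc (l : ℝ) : Set (YSpace 𝔫) := {y | ∀ γ : GL (Fin 2) L, heightY γ y ≤ l}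

omit [IsTotallyComplex L] in
theorem smul_mem_trunc {l : ℝ} (η : PGL(2, L)) {y : YSpace 𝔫} (hy : y ∈ trunc 𝔫 l) :
    η • y ∈ trunc 𝔫 l := by
  intro γ
  induction η using Matrix.ProjGenLinGroup.induction_on with | mk η =>
  rw [heightY_smul]
  exact hy _

omit [IsTotallyComplex L] in
theorem smul_mem_trunc_iff {l : ℝ} (η : PGL(2, L)) {y : YSpace 𝔫} :
    η • y ∈ trunc 𝔫 l ↔ y ∈ trunc 𝔫 l :=
  ⟨fun h => by simpa using smul_mem_trunc η⁻¹ h, smul_mem_trunc η⟩

omit [IsTotallyComplex L] in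
theorem measurable_heightY (h𝔫 : 𝔫 ≠ ⊥) (γ : GL (Fin 2) L) :
    Measurable (heightY γ : YSpace 𝔫 → ℝ) := by
  have : Countable (Cosets 𝔫) := countable_cosets h𝔫
  refine measurable_from_prod_countable_left fun q => ?_
  show Measurable fun x : XInf L => (∏ w, (infAct γ x w).t ^ 2) * heightFin (rationalMat γ * q.out)
  refine (Finset.measurable_prod _ fun w _ => ?_).mul_const _
  exact ((H3.continuous_coord_t.comp
    ((continuous_apply w).comp (continuous_infAct γ))).measurable.pow_const 2)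

omit [IsTotallyComplex L] in
theorem measurableSet_trunc (h𝔫 : 𝔫 ≠ ⊥) (l : ℝ) : MeasurableSet (trunc 𝔫 l) := by
  have : Countable L := (Module.finBasis ℚ L).equivFun.toEquiv.injective.countable
  have : Countable (Matrix (Fin 2) (Fin 2) L) := inferInstanceAs (Countable (Fin 2 → Fin 2 → L))
  have : Countable (GL (Fin 2) L) := Units.val_injective.countable
  rw [show trunc 𝔫 l = ⋂ γ : GL (Fin 2) L, {y | heightY γ y ≤ l} by ext y; simp [trunc]]
  exact MeasurableSet.iInter fun γ => measurableSet_le (measurable_heightY h𝔫 γ) measurable_const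

omit [IsTotallyComplex L] in
theorem trunc_mono {l l' : ℝ} (h : l ≤ l') : trunc 𝔫 l ⊆ trunc 𝔫 l' :=
  fun _ hy γ => (hy γ).trans h

theorem iUnion_trunc : (⋃ n : ℕ, trunc 𝔫 (n : ℝ)) = Set.univ :=
  Set.eq_univ_of_forall fun y => by
    obtain ⟨l, hl⟩ := exists_heightY_le y
    exact Set.mem_iUnion.mpr ⟨⌈l⌉₊, fun γ => (hl γ).trans (Nat.le_ceil l)⟩

/-- Restricting to the truncations tends to the whole integral. -/
theorem tendsto_setIntegral_trunc (h𝔫 : 𝔫 ≠ ⊥) {s : Set (YSpace 𝔫)} {F : YSpace 𝔫 → ℂ}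
    (hs : NullMeasurableSet s (yVol 𝔫)) (hF : IntegrableOn F s (yVol 𝔫)) :
    Tendsto (fun n : ℕ => ∫ y in s ∩ trunc 𝔫 (n : ℝ), F y ∂(yVol 𝔫)) atTop
      (nhds (∫ y in s, F y ∂(yVol 𝔫))) := by
  have h := tendsto_setIntegral_of_monotone₀ (μ := yVol 𝔫) (f := F)
    (s := fun n : ℕ => s ∩ trunc 𝔫 (n : ℝ))
    (fun n => hs.inter (measurableSet_trunc h𝔫 _).nullMeasurableSet)
    (fun m n hmn => Set.inter_subset_inter_right _ (trunc_mono (by exact_mod_cast hmn)))
    (hF.mono_set (by simp [← Set.inter_iUnion]))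
  rwa [← Set.inter_iUnion, iUnion_trunc, Set.inter_univ] at h

/-! ### Heights over the support of a kernel -/

omit [IsTotallyComplex L] in
/-- Heights vary boundedly over the support of an invariant kernel. -/
theorem exists_height_ratio {h : InfinitePlace L → H3 → H3 → ℂ} (hh : ∀ w, H3.IsInvKer (h w))
    {T : Module.End ℂ (Cosets 𝔫 → ℂ)} (hT : IsCosetOp T) :
    ∃ C : ℝ, 0 ≤ C ∧ ∀ y y', yKer h T y y' ≠ 0 →
      ∀ γ : GL (Fin 2) L, heightY γ y ≤ C * heightY γ y' := by
  choose R hR using fun w => (hh w).supp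
  have hs := hT.row ((1 : GAf L) : Cosets 𝔫)
  let b : Cosets 𝔫 → HeightOneSpectrum (𝓞 L) → ℝ := fun d v =>
    (max (max ‖compAt v d.out 0 0‖ ‖compAt v d.out 0 1‖)
      (max ‖compAt v d.out 1 0‖ ‖compAt v d.out 1 1‖)) ^ 2 /
      ‖(compAt v d.out : Matrix (Fin 2) (Fin 2) (v.adicCompletion L)).det‖
  have hb0 : ∀ d v, 0 ≤ b d v := fun d v => by positivity
  set C₁ := ∏ w : InfinitePlace L, (2 * |R w|) ^ 2 with hC₁
  refine ⟨C₁ * ∑ d ∈ hs.toFinset, ∏ᶠ v, b d v, mul_nonneg (Finset.prod_nonneg fun w _ => by positivity)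
    (Finset.sum_nonneg fun d _ => finprod_nonneg (hb0 d)), fun y y' hne γ => ?_⟩
  obtain ⟨x, q⟩ := y
  obtain ⟨x', q'⟩ := y'
  obtain ⟨g, rfl⟩ := QuotientGroup.mk_surjective q
  obtain ⟨hp, hf⟩ := mul_ne_zero_iff.mp hne
  -- the coset of the second point relative to the first
  set d : Cosets 𝔫 := g⁻¹ • q' with hd
  have hds : d ∈ hs.toFinset := by
    rw [Set.Finite.mem_toFinset, Function.mem_support, hd, ← hT.finKer_smul g, smul_inv_smul,
      MulAction.Quotient.smul_coe, smul_eq_mul, mul_one]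
    exact hf
  have hq' : q' = ((g * d.out : GAf L) : Cosets 𝔫) := by
    rw [← smul_eq_mul, ← MulAction.Quotient.smul_coe, QuotientGroup.out_eq', hd, smul_inv_smul]
  rw [hq', heightY_eq, heightY_eq]
  have hinf : ∀ w, hInfPt (Matrix.GeneralLinearGroup.map w.embedding γ) (x w) ≤
      (2 * |R w|) ^ 2 * hInfPt (Matrix.GeneralLinearGroup.map w.embedding γ) (x' w) := by
    intro w
    have h1 := t_le_mul_coshDist (Matrix.GeneralLinearGroup.map w.embedding γ • x w)
      (Matrix.GeneralLinearGroup.map w.embedding γ • x' w)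
    rw [H3.coshDist_inv] at h1
    have h2 : H3.coshDist (x w) (x' w) ≤ |R w| :=
      (hR w _ _ (Finset.prod_ne_zero_iff.mp hp w (Finset.mem_univ w))).trans (le_abs_self _)
    rw [hInfPt, hInfPt, ← mul_pow]
    exact pow_le_pow_left₀ (H3.t_pos _).le (h1.trans (mul_le_mul_of_nonneg_right
      (mul_le_mul_of_nonneg_left h2 two_pos.le) (H3.t_pos _).le)) 2
  have hfin : ∀ v, hLoc v (locMat v γ * compAt v g) ≤
      hLoc v (locMat v γ * compAt v (g * d.out)) * b d v := fun v => by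
    rw [map_mul, ← mul_assoc]
    exact hLoc_mul_le _ _
  have hb1 : ∀ᶠ v in cofinite, b d v = 1 := by
    filter_upwards [eventually_comp_mem_int d.out] with v hv
    obtain ⟨hdet, hent⟩ := det_norm_of_locInt hv
    have h1 : max (max ‖compAt v d.out 0 0‖ ‖compAt v d.out 0 1‖)
        (max ‖compAt v d.out 1 0‖ ‖compAt v d.out 1 1‖) = 1 := by
      refine le_antisymm (by simp [hent]) ?_
      by_contra h
      simp only [not_le, max_lt_iff] at h
      have h2 : ‖(compAt v d.out : Matrix (Fin 2) (Fin 2) (v.adicCompletion L)).det‖ < 1 := by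
        rw [Matrix.det_fin_two, sub_eq_add_neg]
        refine (IsUltrametricDist.norm_add_le_max _ _).trans_lt (max_lt ?_ ?_)
        · rw [norm_mul]; exact mul_lt_one_of_nonneg_of_lt_one_left (norm_nonneg _) h.1.1 (hent 1 1)
        · rw [norm_neg, norm_mul]
          exact mul_lt_one_of_nonneg_of_lt_one_left (norm_nonneg _) h.1.2 (hent 1 0)
      exact h2.ne hdet
    simp only [b, h1, hdet, one_pow, div_one]
  have hp1 : ∏ w, hInfPt (Matrix.GeneralLinearGroup.map w.embedding γ) (x w) ≤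
      C₁ * ∏ w, hInfPt (Matrix.GeneralLinearGroup.map w.embedding γ) (x' w) := by
    rw [hC₁, ← Finset.prod_mul_distrib]
    exact Finset.prod_le_prod (fun w _ => sq_nonneg _) fun w _ => hinf w
  have hp2 : ∏ᶠ v, hLoc v (locMat v γ * compAt v g) ≤
      (∏ᶠ v, hLoc v (locMat v γ * compAt v (g * d.out))) * ∏ᶠ v, b d v := by
    classical
    rw [← finprod_mul_distrib (eventually_cofinite.mp (eventually_hLoc_global γ (g * d.out)))
      (eventually_cofinite.mp hb1)]
    set s := (eventually_cofinite.mp (eventually_hLoc_global γ g)).toFinset ∪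
      (eventually_cofinite.mp (eventually_hLoc_global γ (g * d.out))).toFinset ∪
      (eventually_cofinite.mp hb1).toFinset
    rw [finprod_eq_prod_of_mulSupport_subset (s := s) _ (fun v hv => by
        by_contra h; simp [s] at h; exact hv h.1),
      finprod_eq_prod_of_mulSupport_subset (s := s) _ (fun v hv => by
        by_contra h; simp [s] at h
        exact hv (show _ * _ = _ by rw [map_mul, h.2.1, h.2.2, mul_one]))]
    exact Finset.prod_le_prod (fun v _ => (hLoc_pos _).le) fun v _ => hfin v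
  have hB : ∏ᶠ v, b d v ≤ ∑ e ∈ hs.toFinset, ∏ᶠ v, b e v :=
    Finset.single_le_sum (f := fun e => ∏ᶠ v, b e v) (fun e _ => finprod_nonneg (hb0 e)) hds
  have hX : 0 ≤ ∏ w, hInfPt (Matrix.GeneralLinearGroup.map w.embedding γ) (x' w) :=
    Finset.prod_nonneg fun w _ => sq_nonneg _
  have hC0 : 0 ≤ C₁ := Finset.prod_nonneg fun w _ => by positivity
  have hY : 0 ≤ ∏ᶠ v, hLoc v (locMat v γ * compAt v (g * d.out)) :=
    finprod_nonneg fun v => (hLoc_pos _).le
  calc _ ≤ (C₁ * ∏ w, hInfPt (Matrix.GeneralLinearGroup.map w.embedding γ) (x' w)) *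
        ((∏ᶠ v, hLoc v (locMat v γ * compAt v (g * d.out))) * ∏ᶠ v, b d v) :=
      mul_le_mul hp1 hp2 (finprod_nonneg fun v => (hLoc_pos _).le) (mul_nonneg hC0 hX)
    _ ≤ _ := by
      have h1 := mul_le_mul_of_nonneg_left hB (mul_nonneg (mul_nonneg hC0 hX) hY)
      calc _ = C₁ * (∏ w, hInfPt (Matrix.GeneralLinearGroup.map w.embedding γ) (x' w)) *
            (∏ᶠ v, hLoc v (locMat v γ * compAt v (g * d.out))) * ∏ᶠ v, b d v := by ring
        _ ≤ _ := h1
        _ = _ := by ring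

/-! ### A cusp high over the support -/

/-- A cusp high above the support of a moved kernel is preserved by the moving element. -/
theorem exists_high_cusp_fixed {h : InfinitePlace L → H3 → H3 → ℂ}
    (hh : ∀ w, H3.IsInvKer (h w)) {T : Module.End ℂ (Cosets 𝔫 → ℂ)} (hT : IsCosetOp T)
    {τ : YSpace 𝔫 → YSpace 𝔫} {c : GL (Fin 2) L → GL (Fin 2) L}
    (hτ : ∀ γ y, heightY γ (τ y) = heightY (c γ) y) :
    ∃ l₀ : ℝ, 1 ≤ l₀ ∧ ∀ (η : GL (Fin 2) L) (y : YSpace 𝔫),
      yKer h T y (Matrix.ProjGenLinGroup.mk η • τ y) ≠ 0 →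
        ∀ α : GL (Fin 2) L, l₀ < heightY α y →
          α 1 0 * (c (α * η)) 1 1 - α 1 1 * (c (α * η)) 1 0 = 0 := by
  obtain ⟨C, hC0, hC⟩ := exists_height_ratio hh hT
  refine ⟨max C 1, le_max_right _ _, fun η y hne α hα => row_eq_of_one_lt (y := y)
    ((le_max_right _ _).trans_lt hα) ?_⟩
  have h1 := hC y _ hne α
  rw [heightY_smul, hτ] at h1
  by_contra h2
  exact absurd hα (not_lt.mpr (h1.trans ((mul_le_of_le_one_right hC0 (not_lt.mp h2)).trans
    (le_max_left _ _))))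

/-! ### Counting on a truncated fundamental domain -/

omit [NumberField L] [IsTotallyComplex L] in
theorem ptEmb_bounds (x : XInf L) (φ : L →+* ℂ) :
    ‖(ptEmb x φ).z‖ = ‖(x (InfinitePlace.mk φ)).z‖ ∧
      (ptEmb x φ).t = (x (InfinitePlace.mk φ)).t := by
  unfold ptEmb
  split_ifs
  · exact ⟨rfl, rfl⟩
  · exact ⟨RCLike.norm_conj _, rfl⟩

/-- The maps of the space used in the traces. -/
structure IsBoxMap (τ : YSpace 𝔫 → YSpace 𝔫) (c : PGL(2, L) → PGL(2, L))
    (p : InfinitePlace L → InfinitePlace L) (q : Cosets 𝔫 → Cosets 𝔫) : Prop where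
  measurable : Measurable τ
  bijective : Function.Bijective c
  smul : ∀ γ y, τ (γ • y) = c γ • τ y
  coset : ∀ y, (τ y).2 = q y.2
  point : ∀ y w, ‖((τ y).1 w).z‖ = ‖(y.1 (p w)).z‖ ∧ ((τ y).1 w).t = (y.1 (p w)).t

omit [IsTotallyComplex L] in
theorem isBoxMap_id : IsBoxMap (𝔫 := 𝔫) id id id id :=
  ⟨measurable_id, Function.bijective_id, fun _ _ => rfl, fun _ => rfl, fun _ _ => ⟨rfl, rfl⟩⟩

omit [IsTotallyComplex L] in
theorem isBoxMap_galY (h𝔫 : 𝔫 ≠ ⊥) {σ : L ≃+* L} (hσ : 𝔫.map (galInt σ) = 𝔫) :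
    IsBoxMap (galY (𝔫 := 𝔫) σ) (galPGL σ) (galPerm σ) (galCoset σ) := by
  have : Fact (𝔫 ≠ ⊥) := ⟨h𝔫⟩
  refine ⟨?_, galPGL_bijective σ, galY_smul hσ, fun y => rfl, fun y w => ?_⟩
  · rw [show (galY (𝔫 := 𝔫) σ) = ⇑(galYEquiv hσ) from funext fun y => (galYEquiv_apply hσ y).symm]
    exact (galYEquiv hσ).measurable
  · have h := ptEmb_bounds y.1 (w.embedding.comp σ.toRingHom)
    have e : InfinitePlace.mk (w.embedding.comp σ.toRingHom) = galPerm σ w := by
      rw [← InfinitePlace.comap_mk, InfinitePlace.mk_embedding]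
      rfl
    rw [← e]
    exact h

variable {k : YSpace 𝔫 → YSpace 𝔫 → ℂ}

omit [IsTotallyComplex L] in
theorem tsum_enorm_smul {τ : YSpace 𝔫 → YSpace 𝔫} {c : PGL(2, L) → PGL(2, L)}
    {p : InfinitePlace L → InfinitePlace L} {q : Cosets 𝔫 → Cosets 𝔫} (hk : IsYKernel k)
    (hτ : IsBoxMap τ c p q) (η : PGL(2, L)) (y : YSpace 𝔫) :
    ∑' γ : PGL(2, L), ‖k (η • y) (γ • τ (η • y))‖ₑ = ∑' γ : PGL(2, L), ‖k y (γ • τ y)‖ₑ := by
  rw [← ((Equiv.mulLeft η).trans (Equiv.mulRight (c η)⁻¹)).tsum_eq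
    fun γ => ‖k (η • y) (γ • τ (η • y))‖ₑ]
  refine tsum_congr fun γ => ?_
  simp only [Equiv.trans_apply, Equiv.coe_mulLeft, Equiv.coe_mulRight, hτ.smul, smul_smul,
    inv_mul_cancel_right]
  rw [mul_smul, hk.invariant]

/-- **Finiteness on the truncated domain.** -/
theorem lintegral_trunc_lt_top (h𝔫 : 𝔫 ≠ ⊥) (hk : IsYKernel k) {τ : YSpace 𝔫 → YSpace 𝔫}
    {c : PGL(2, L) → PGL(2, L)} {p : InfinitePlace L → InfinitePlace L}
    {q : Cosets 𝔫 → Cosets 𝔫} (hτ : IsBoxMap τ c p q) {𝔉 : Set (YSpace 𝔫)}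
    (hF : IsFundamentalDomain PGL(2, L) 𝔉 (yVol 𝔫)) (l : ℝ) :
    ∫⁻ y in 𝔉, (trunc 𝔫 l).indicator (fun y => ∑' γ : PGL(2, L), ‖k y (γ • τ y)‖ₑ) y
      ∂(yVol 𝔫) < ⊤ := by
  classical
  obtain ⟨𝔉₀, D, c₀, R, hD, hc₀, hR, hm₀, hF₀, hsub, hvol, -⟩ := exists_fundDomain h𝔫
  have : Countable (Cosets 𝔫) := countable_cosets h𝔫
  have : MeasurableConstSMul PGL(2, L) (YSpace 𝔫) := ⟨fun γ => measurable_ySmul h𝔫 γ⟩
  have : SMulInvariantMeasure PGL(2, L) (YSpace 𝔫) (yVol 𝔫) :=
    ⟨fun γ _ hs => (measurePreserving_ySmul h𝔫 γ).measure_preimage hs.nullMeasurableSet⟩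
  rw [hF.setLIntegral_eq hF₀ _ fun η y => ?_]
  swap
  · by_cases hy : y ∈ trunc 𝔫 l
    · rw [Set.indicator_of_mem hy, Set.indicator_of_mem (smul_mem_trunc η hy), tsum_enorm_smul hk hτ]
    · rw [Set.indicator_of_notMem hy,
        Set.indicator_of_notMem fun h => hy ((smul_mem_trunc_iff η).mp h)]
  -- the box holding the truncated domain
  obtain ⟨Bk, hBk⟩ := hk.bounded
  obtain ⟨R₀, hR₀⟩ := hk.supp
  choose s hs hsk using hk.fin
  set n := Fintype.card (InfinitePlace L) with hn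
  set Tb : ℝ := ∑ d ∈ hD.toFinset, |l / heightFin (d.out : GAf L)|
  set T : ℝ := (1 + R ^ 2) ^ n * (1 + Tb) with hT
  have hTb : 0 ≤ Tb := Finset.sum_nonneg fun d _ => abs_nonneg _
  set B : ℝ := R + T + 2 * |R₀| * T + 1 / c₀ + 2 * |R₀| / c₀ + 1 with hB
  set Γ := hD.toFinset.biUnion fun d => ((hs d).biUnion fun d' _ => finite_moving (q d) d' B).toFinset
  have hone : 1 ≤ (1 + R ^ 2) ^ n := one_le_pow₀ (by nlinarith)
  have key : ∀ y ∈ 𝔉₀, y ∈ trunc 𝔫 l → ∀ γ, k y (γ • τ y) ≠ 0 → γ ∈ Γ := by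
    intro y hy hyl γ hne
    obtain ⟨hyS, hyD⟩ := hsub hy
    have hmax : ∀ w, (y.1 w).t ≤ T := by
      intro w
      have h1 := hyl 1
      rw [heightY, heightAt, height, map_one, one_mul,
        show infAct (1 : GL (Fin 2) L) y.1 = y.1 from funext fun v => by simp [infAct]] at h1
      have hf : 0 < heightFin (y.2.out : GAf L) := by
        rw [heightFin_eq]
        exact finprod_induction (fun r : ℝ => 0 < r) one_pos (fun _ _ => mul_pos) fun v => hLoc_pos _
      have h2 : ∏ u, (y.1 u).t ^ 2 ≤ 1 + Tb := by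
        refine ((le_div_iff₀ hf).mpr h1).trans (((le_abs_self _).trans ?_).trans
          (le_add_of_nonneg_left zero_le_one))
        exact Finset.single_le_sum (f := fun d : Cosets 𝔫 => |l / heightFin (d.out : GAf L)|)
          (fun d _ => abs_nonneg _) (hD.mem_toFinset.mpr hyD)
      have ht := (y.1 w).t_pos
      have h3 : ((y.1 w).t ^ 2) ^ n ≤ (1 + R ^ 2) ^ n * ∏ u, (y.1 u).t ^ 2 := by
        rw [hn, ← Finset.card_univ, ← Finset.prod_const, ← Finset.prod_const,
          ← Finset.prod_mul_distrib]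
        refine Finset.prod_le_prod (fun u _ => sq_nonneg _) fun u _ => ?_
        have := (hyS w).2.2 u
        nlinarith [pow_le_pow_left₀ ht.le this 2, sq_nonneg (y.1 u).t]
      rcases le_or_gt (y.1 w).t 1 with h | h
      · exact h.trans (by nlinarith)
      · calc (y.1 w).t ≤ (y.1 w).t ^ 2 := by nlinarith
          _ = ((y.1 w).t ^ 2) ^ 1 := (pow_one _).symm
          _ ≤ ((y.1 w).t ^ 2) ^ n := pow_le_pow_right₀ (by nlinarith) Fintype.card_pos
          _ ≤ _ := h3.trans (mul_le_mul_of_nonneg_left h2 (by linarith))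
    refine Finset.mem_biUnion.mpr ⟨y.2, hD.mem_toFinset.mpr hyD, ?_⟩
    rw [Set.Finite.mem_toFinset]
    refine Set.mem_iUnion₂.mpr ⟨(γ • τ y).2, (hsk y.2 _ _ hne).1 rfl, (τ y).1, fun w => ?_,
      fun w => ?_, ?_⟩
    · obtain ⟨e1, e2⟩ := hτ.point y w
      obtain ⟨a1, a2, -⟩ := hyS (p w)
      rw [e1, e2]
      have h1 := hmax (p w)
      have hT0 : 0 ≤ T := (y.1 (p w)).t_pos.le.trans h1
      have a4 : 0 ≤ 2 * |R₀| * T := by positivity
      have a5 : 0 ≤ 2 * |R₀| / c₀ := by positivity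
      have a6 : 0 < 1 / c₀ := by positivity
      refine ⟨by linarith, le_trans ?_ a2, by linarith⟩
      rw [div_le_iff₀ (by linarith)]
      have a7 : 1 / c₀ ≤ B := by linarith
      rwa [div_le_iff₀ hc₀, mul_comm] at a7
    · have e : ((τ y).1, q y.2) = τ y := Prod.ext rfl (hτ.coset y).symm
      rw [e]
      obtain ⟨b1, b2, b3⟩ := H3.near_bounds ((hR₀ _ _ hne w).trans (le_abs_self R₀))
      set Q := (γ • τ y).1 w
      obtain ⟨a1, a2, -⟩ := hyS w
      have h1 := hmax w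
      have hP := (y.1 w).t_pos
      have hQ := Q.t_pos
      have a4 : 0 ≤ 2 * |R₀| := by positivity
      have a5 : 2 * |R₀| * (y.1 w).t ≤ 2 * |R₀| * T := mul_le_mul_of_nonneg_left h1 a4
      have a6 : 0 ≤ 1 / c₀ := by positivity
      have a7 : 0 ≤ 2 * |R₀| / c₀ := by positivity
      refine ⟨by linarith, ?_, by linarith⟩
      rw [div_le_iff₀ (by linarith)]
      have a8 : 2 * |R₀| / c₀ ≤ B := by linarith
      rw [div_le_iff₀ hc₀] at a8
      have a9 : c₀ ≤ 2 * |R₀| * Q.t := a2.trans b2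
      by_contra hcon
      nlinarith
    · rw [show ((τ y).1, q y.2) = τ y from Prod.ext rfl (hτ.coset y).symm]
  refine lt_of_le_of_lt (lintegral_mono_ae
    (g := fun _ => (Γ.card : ℝ≥0∞) * ENNReal.ofReal Bk) ?_) ?_
  · filter_upwards [ae_restrict_mem hm₀] with y hy
    by_cases hyl : y ∈ trunc 𝔫 l
    · rw [Set.indicator_of_mem hyl, tsum_eq_sum (s := Γ) fun γ hγ => ?_]
      · calc ∑ γ ∈ Γ, ‖k y (γ • τ y)‖ₑ ≤ ∑ γ ∈ Γ, ENNReal.ofReal Bk := by
              refine Finset.sum_le_sum fun γ _ => ?_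
              rw [← ofReal_norm]
              exact ENNReal.ofReal_le_ofReal (hBk _ _)
          _ = _ := by rw [Finset.sum_const, nsmul_eq_mul]
      · by_contra h0
        exact hγ (key y hy hyl γ fun h => h0 (by rw [h, enorm_zero]))
    · rw [Set.indicator_of_notMem hyl]
      exact zero_le
  · rw [setLIntegral_const]
    exact ENNReal.mul_lt_top (ENNReal.mul_lt_top (ENNReal.natCast_lt_top _) ENNReal.ofReal_lt_top) hvol

end FermatAgent.LT
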