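import Mathlib

set_option autoImplicit false

/-!
# Weights for measure preserving actions of countable groups

A weight replaces a fundamental domain: a nonnegative function whose translates sum to one.
Integrals of invariant functions against two weights agree, and weights may be pulled back along
equivariant maps and unfolded along subgroups.
-/

noncomputable section

open MeasureTheory
open scoped ENNReal Pointwise

namespace FermatAgent.LT.Weight

variable {G Z : Type*} [Group G] [MulAction G Z] [MeasurableSpace Z]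

/-- A weight: measurable with translates summing to one almost everywhere. -/
structure IsWeight (H : Subgroup G) (μ : Measure Z) (w : Z → ℝ≥0∞) : Prop where
  measurable : Measurable w
  sum_eq : ∀ᵐ z ∂μ, ∑' g : H, w ((g : G) • z) = 1

/-- The measure attached to a weight. -/
def wMeas (μ : Measure Z) (w : Z → ℝ≥0∞) : Measure Z := μ.withDensity w

variable [Countable G] {μ : Measure Z} (hμ : ∀ g : G, MeasurePreserving (fun z : Z => g • z) μ μ)

/-- The indicator of a fundamental domain is a weight. -/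
theorem isWeight_fundDomain [MeasurableConstSMul G Z] {s : Set Z} (hs : IsFundamentalDomain G s μ)
    (hm : MeasurableSet s) : IsWeight (⊤ : Subgroup G) μ (s.indicator 1) := by
  refine ⟨measurable_one.indicator hm, ?_⟩
  filter_upwards [hs.ae_covers, ae_all_iff.mpr fun p : {p : G × G // p.1 ≠ p.2} =>
    measure_eq_zero_iff_ae_notMem.mp (hs.aedisjoint p.2)] with z ⟨g, hg⟩ hd
  rw [tsum_eq_single (⟨g, trivial⟩ : (⊤ : Subgroup G))]
  · simp [hg]
  · rintro ⟨b, hbt⟩ hb
    refine Set.indicator_of_notMem (fun hbz => ?_) _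
    refine hd ⟨(g⁻¹, b⁻¹), fun h => hb (Subtype.ext (inv_inj.mp h.symm))⟩ ⟨?_, ?_⟩
    · exact Set.mem_inv_smul_set_iff.mpr hg
    · exact Set.mem_inv_smul_set_iff.mpr hbz

variable {H : Subgroup G} {w w' : Z → ℝ≥0∞}
include hμ

omit [Countable G] in
/-- Translations may be moved inside an integral. -/
theorem lintegral_smul (g : G) {f : Z → ℝ≥0∞} (hf : Measurable f) :
    ∫⁻ z, f (g • z) ∂μ = ∫⁻ z, f z ∂μ := (hμ g).lintegral_comp hf

/-- Two weights give the same integrals of invariant functions. -/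
theorem lintegral_eq (hw : IsWeight H μ w) (hw' : IsWeight H μ w') {F : Z → ℝ≥0∞}
    (hF : Measurable F) (hinv : ∀ g ∈ H, ∀ z, F (g • z) = F z) :
    ∫⁻ z, F z * w z ∂μ = ∫⁻ z, F z * w' z ∂μ := by
  have hm : ∀ g : H, Measurable fun z => w' ((g : G) • z) := fun g =>
    hw'.measurable.comp (hμ _).measurable
  have hm' : ∀ g : H, Measurable fun z => w ((g : G) • z) := fun g =>
    hw.measurable.comp (hμ _).measurable
  calc ∫⁻ z, F z * w z ∂μ = ∫⁻ z, ∑' g : H, F z * w z * w' ((g : G) • z) ∂μ := by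
        refine lintegral_congr_ae ?_
        filter_upwards [hw'.sum_eq] with z hz
        rw [ENNReal.tsum_mul_left, hz, mul_one]
    _ = ∑' g : H, ∫⁻ z, F z * w z * w' ((g : G) • z) ∂μ :=
        lintegral_tsum fun g => ((hF.mul hw.measurable).mul (hm g)).aemeasurable
    _ = ∑' g : H, ∫⁻ z, F z * w ((g⁻¹ : H) • z) * w' z ∂μ := tsum_congr fun g => by
        have hFw : Measurable fun z => F z * w z * w' ((g : G) • z) :=
          (hF.mul hw.measurable).mul (hm g)
        rw [← lintegral_smul hμ ((g⁻¹ : H) : G) hFw]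
        refine lintegral_congr fun z => ?_
        simp [hinv _ (inv_mem g.2), Subgroup.smul_def]
    _ = ∫⁻ z, ∑' g : H, F z * w ((g⁻¹ : H) • z) * w' z ∂μ :=
        (lintegral_tsum fun g => ((hF.mul (hm' g⁻¹)).mul hw'.measurable).aemeasurable).symm
    _ = _ := by
        refine lintegral_congr_ae ?_
        filter_upwards [hw.sum_eq] with z hz
        rw [ENNReal.tsum_mul_right, ENNReal.tsum_mul_left]
        rw [show ∑' g : H, w ((g⁻¹ : H) • z) = 1 from
          ((Equiv.inv H).tsum_eq fun g : H => w ((g : G) • z)).trans hz, mul_one]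

/-- Two weights give the same measure on invariant functions. -/
theorem map_wMeas_eq (hw : IsWeight H μ w) (hw' : IsWeight H μ w') {β : Type*} [MeasurableSpace β]
    {F : Z → β} (hF : Measurable F) (hinv : ∀ g ∈ H, ∀ z, F (g • z) = F z) :
    (wMeas μ w).map F = (wMeas μ w').map F := by
  refine Measure.ext fun s hs => ?_
  have hs' := hF hs
  have key : ∀ v : Z → ℝ≥0∞, (fun z => (F ⁻¹' s).indicator v z) =
      fun z => (F ⁻¹' s).indicator (fun _ => 1) z * v z :=
    fun v => funext fun z => by by_cases h : z ∈ F ⁻¹' s <;> simp [h]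
  rw [Measure.map_apply hF hs, Measure.map_apply hF hs, wMeas, wMeas, withDensity_apply _ hs',
    withDensity_apply _ hs', ← lintegral_indicator hs', ← lintegral_indicator hs', key w, key w']
  refine lintegral_eq hμ hw hw' (measurable_const.indicator hs') fun g hg z => ?_
  by_cases h : F z ∈ s <;> simp [h, hinv g hg]

theorem integrable_wMeas_iff (hw : IsWeight H μ w) (hw' : IsWeight H μ w') {F : Z → ℂ}
    (hF : Measurable F) (hinv : ∀ g ∈ H, ∀ z, F (g • z) = F z) :
    Integrable F (wMeas μ w) ↔ Integrable F (wMeas μ w') := by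
  have h : ∀ ν : Measure Z, Integrable F ν ↔ Integrable id (ν.map F) := fun ν =>
    (integrable_map_measure aestronglyMeasurable_id hF.aemeasurable).symm
  rw [h, h, map_wMeas_eq hμ hw hw' hF hinv]

theorem integral_wMeas_eq (hw : IsWeight H μ w) (hw' : IsWeight H μ w') {F : Z → ℂ}
    (hF : Measurable F) (hinv : ∀ g ∈ H, ∀ z, F (g • z) = F z) :
    ∫ z, F z ∂(wMeas μ w) = ∫ z, F z ∂(wMeas μ w') := by
  have h : ∀ ν : Measure Z, ∫ z, F z ∂ν = ∫ c, c ∂(ν.map F) := fun ν =>
    (integral_map (f := id) hF.aemeasurable aestronglyMeasurable_id).symm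
  rw [h, h, map_wMeas_eq hμ hw hw' hF hinv]

instance countable_quotient (S : Subgroup G) : Countable (G ⧸ S) :=
  QuotientGroup.mk_surjective.countable

/-- An element is the product of the representative of its coset and an element of the subgroup. -/
def cosetProdEquiv (S : Subgroup G) : (G ⧸ S) × S ≃ G where
  toFun p := p.1.out * p.2
  invFun g := ((g : G ⧸ S), ⟨(g : G ⧸ S).out⁻¹ * g,
    QuotientGroup.eq.mp (QuotientGroup.out_eq' _)⟩)
  left_inv p := by
    have h : ((p.1.out * p.2 : G) : G ⧸ S) = p.1 := by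
      rw [QuotientGroup.mk_mul_of_mem _ p.2.2, QuotientGroup.out_eq']
    refine Prod.ext h (Subtype.ext ?_)
    show ((p.1.out * p.2 : G) : G ⧸ S).out⁻¹ * (p.1.out * p.2) = p.2
    rw [h, inv_mul_cancel_left]
  right_inv g := mul_inv_cancel_left _ _

/-- The unfolded weight along representatives of the left cosets of `S`. -/
def unfold (S : Subgroup G) (w : Z → ℝ≥0∞) (z : Z) : ℝ≥0∞ := ∑' q : G ⧸ S, w (q.out • z)

theorem measurable_unfold (S : Subgroup G) (hw : Measurable w) : Measurable (unfold S w) :=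
  Measurable.tsum fun q => hw.comp (hμ q.out).measurable

omit [Countable G] hμ [MeasurableSpace Z] in
theorem tsum_unfold (S : Subgroup G) (w : Z → ℝ≥0∞) (z : Z) :
    ∑' s : S, unfold S w ((s : G) • z) = ∑' g : G, w (g • z) := by
  rw [← (cosetProdEquiv S).tsum_eq fun g : G => w (g • z), ENNReal.tsum_prod']
  simp only [unfold]
  rw [ENNReal.tsum_comm]
  refine tsum_congr fun q => tsum_congr fun s => ?_
  rw [← mul_smul]
  rfl

theorem isWeight_unfold (hw : IsWeight (⊤ : Subgroup G) μ w) (S : Subgroup G) :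
    IsWeight S μ (unfold S w) := by
  refine ⟨measurable_unfold hμ S hw.measurable, ?_⟩
  filter_upwards [hw.sum_eq] with z hz
  rw [tsum_unfold, ← hz]
  exact ((Subgroup.topEquiv (G := G)).toEquiv.tsum_eq fun g : G => w (g • z)).symm

/-- The unfolding identity. -/
theorem lintegral_unfold (S : Subgroup G) (hw : Measurable w) {φ : Z → ℝ≥0∞} (hφ : Measurable φ) :
    ∫⁻ z, φ z * unfold S w z ∂μ = ∫⁻ z, (∑' q : G ⧸ S, φ (q.out⁻¹ • z)) * w z ∂μ := by
  have hq : ∀ q : G ⧸ S, Measurable fun z => φ z * w (q.out • z) := fun q =>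
    hφ.mul (hw.comp (hμ q.out).measurable)
  simp only [unfold, ← ENNReal.tsum_mul_left, ← ENNReal.tsum_mul_right]
  rw [lintegral_tsum fun q => (hq q).aemeasurable,
    lintegral_tsum (f := fun (q : G ⧸ S) z => φ (q.out⁻¹ • z) * w z)
      fun q => ((hφ.comp (hμ q.out⁻¹).measurable).mul hw).aemeasurable]
  refine tsum_congr fun q => ?_
  rw [← lintegral_smul hμ q.out⁻¹ (hq q)]
  simp

/-- The unfolding identity for complex functions. -/
theorem integral_unfold (S : Subgroup G) (hw : Measurable w) (hw1 : ∀ᵐ z ∂μ, w z ≠ ⊤)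
    {φ : Z → ℂ} (hφ : Measurable φ)
    (hfin : ∫⁻ z, (∑' q : G ⧸ S, ‖φ (q.out⁻¹ • z)‖ₑ) * w z ∂μ ≠ ⊤) :
    Integrable φ (wMeas μ (unfold S w)) ∧
      ∫ z, φ z ∂(wMeas μ (unfold S w)) =
        ∫ z, (w z).toReal • (∑' q : G ⧸ S, φ (q.out⁻¹ • z)) ∂μ := by
  have hmu := measurable_unfold hμ S hw
  have hW : ∫⁻ z, ‖φ z‖ₑ * unfold S w z ∂μ ≠ ⊤ := by
    rwa [lintegral_unfold hμ S hw hφ.enorm]
  have hint : Integrable φ (wMeas μ (unfold S w)) := by
    refine ⟨hφ.aestronglyMeasurable, ?_⟩
    rw [HasFiniteIntegral, wMeas, lintegral_withDensity_eq_lintegral_mul _ hmu hφ.enorm]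
    simpa [mul_comm, lt_top_iff_ne_top] using hW
  refine ⟨hint, ?_⟩
  set ψ : G ⧸ S → Z → ℂ := fun q z => (w (q.out • z)).toReal • φ z with hψ
  have hwq : ∀ q : G ⧸ S, Measurable fun z => w (q.out • z) := fun q =>
    hw.comp (hμ q.out).measurable
  have hfinite : ∀ q : G ⧸ S, ∀ᵐ z ∂μ, w (q.out • z) < ⊤ := fun q =>
    (hμ q.out).quasiMeasurePreserving.ae (hw1.mono fun z hz => hz.lt_top)
  have hsumm : wMeas μ (unfold S w) =
      Measure.sum fun q : G ⧸ S => μ.withDensity fun z => w (q.out • z) := by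
    rw [← withDensity_tsum hwq, wMeas]
    congr 1
    funext z
    rw [unfold, ENNReal.tsum_apply]
  have h1 : ∫ z, φ z ∂(wMeas μ (unfold S w)) = ∑' q, ∫ z, ψ q z ∂μ := by
    rw [hsumm] at hint ⊢
    rw [integral_sum_measure hint]
    refine tsum_congr fun q => ?_
    exact integral_withDensity_eq_integral_toReal_smul (hwq q) (hfinite q) φ
  rw [h1]
  have h2 : ∀ q, ∫ z, ψ q z ∂μ = ∫ z, (w z).toReal • φ (q.out⁻¹ • z) ∂μ := fun q => by
    have hm : Measurable fun z => (w z).toReal • φ (q.out⁻¹ • z) :=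
      hw.ennreal_toReal.smul (hφ.comp (hμ _).measurable)
    have h := integral_map (μ := μ) (hμ q.out).aemeasurable
      (f := fun z => (w z).toReal • φ (q.out⁻¹ • z)) hm.aestronglyMeasurable
    rw [(hμ q.out).map_eq] at h
    rw [h]
    refine integral_congr_ae (Filter.Eventually.of_forall fun z => ?_)
    show (w (q.out • z)).toReal • φ z = (w (q.out • z)).toReal • φ (q.out⁻¹ • q.out • z)
    rw [inv_smul_smul]
  set g : G ⧸ S → Z → ℂ := fun q z => (w z).toReal • φ (q.out⁻¹ • z) with hg
  have hgm : ∀ q, Measurable (g q) := fun q =>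
    hw.ennreal_toReal.smul (hφ.comp (hμ q.out⁻¹).measurable)
  have hgfin : ∑' q, ∫⁻ z, ‖g q z‖ₑ ∂μ ≠ ⊤ := by
    rw [← lintegral_tsum fun q => (hgm q).enorm.aemeasurable]
    refine ne_top_of_le_ne_top hfin (lintegral_mono fun z => ?_)
    rw [← ENNReal.tsum_mul_right]
    refine ENNReal.tsum_le_tsum fun q => ?_
    simp only [hg]
    rw [enorm_smul, Real.enorm_eq_ofReal ENNReal.toReal_nonneg, mul_comm]
    exact mul_le_mul_right ENNReal.ofReal_toReal_le _
  have h3 : (∫ z, ∑' q, g q z ∂μ) = ∑' q, ∫ z, g q z ∂μ :=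
    integral_tsum (fun q => (hgm q).aestronglyMeasurable) hgfin
  refine (tsum_congr h2).trans (h3.symm.trans ?_)
  refine integral_congr_ae (Filter.Eventually.of_forall fun z => ?_)
  exact tsum_const_smul'' _

/-- A weight of a subgroup of finite index, from a weight of the group. -/
def coarsen (S T : Subgroup G) (w : Z → ℝ≥0∞) (z : Z) : ℝ≥0∞ :=
  ∑' q : S ⧸ T.subgroupOf S, w ((q.out : G) • z)

theorem isWeight_coarsen {S T : Subgroup G} (hTS : T ≤ S) (hw : IsWeight S μ w) :
    IsWeight T μ (coarsen S T w) := by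
  refine ⟨Measurable.tsum fun q => hw.measurable.comp (hμ (q.out : G)).measurable, ?_⟩
  filter_upwards [hw.sum_eq] with z hz
  refine Eq.trans ?_ hz
  refine Eq.trans ?_ (tsum_unfold (G := S) (T.subgroupOf S) w z)
  rw [← (Subgroup.subgroupOfEquivOfLe hTS).toEquiv.tsum_eq]
  rfl

theorem map_wMeas_coarsen {S T : Subgroup G} [Finite (S ⧸ T.subgroupOf S)]
    (hw : Measurable w) {β : Type*} [MeasurableSpace β] {F : Z → β} (hF : Measurable F)
    (hinv : ∀ g ∈ S, ∀ z, F (g • z) = F z) :
    (wMeas μ (coarsen S T w)).map F =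
      (Nat.card (S ⧸ T.subgroupOf S) : ℝ≥0∞) • (wMeas μ w).map F := by
  refine Measure.ext fun s hs => ?_
  have hs' := hF hs
  rw [Measure.smul_apply, Measure.map_apply hF hs, Measure.map_apply hF hs, wMeas, wMeas,
    withDensity_apply _ hs', withDensity_apply _ hs', ← lintegral_indicator hs',
    ← lintegral_indicator hs', smul_eq_mul]
  have e : ∀ z, (F ⁻¹' s).indicator (coarsen S T w) z =
      ∑' q : S ⧸ T.subgroupOf S, (F ⁻¹' s).indicator w ((q.out : G) • z) := by
    intro z
    by_cases h : F z ∈ s <;> simp [coarsen, h, hinv _ (SetLike.coe_mem _)]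
  simp only [e]
  rw [lintegral_tsum (f := fun (q : S ⧸ T.subgroupOf S) z =>
      (F ⁻¹' s).indicator w ((q.out : G) • z)) fun q => ((hw.indicator hs').comp (hμ (q.out : G)).measurable).aemeasurable,
    tsum_congr fun q : S ⧸ T.subgroupOf S => lintegral_smul hμ (q.out : G) (hw.indicator hs'),
    ENNReal.tsum_const, ENat.card_eq_coe_natCard]
  simp

/-- Comparing weights of a group and of a subgroup of finite index. -/
theorem integral_subgroup {S T : Subgroup G} (hTS : T ≤ S) [Finite (S ⧸ T.subgroupOf S)]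
    (hw : IsWeight S μ w) (hw' : IsWeight T μ w') {F : Z → ℂ} (hF : Measurable F)
    (hinv : ∀ g ∈ S, ∀ z, F (g • z) = F z) :
    ∫ z, F z ∂(wMeas μ w) =
      (Nat.card (S ⧸ T.subgroupOf S) : ℂ)⁻¹ * ∫ z, F z ∂(wMeas μ w') := by
  have hn : (Nat.card (S ⧸ T.subgroupOf S) : ℂ) ≠ 0 := by exact_mod_cast Nat.card_pos.ne'
  have h : ∀ ν : Measure Z, ∫ z, F z ∂ν = ∫ c, c ∂(ν.map F) := fun ν =>
    (integral_map (f := id) hF.aemeasurable aestronglyMeasurable_id).symm
  rw [integral_wMeas_eq hμ hw' (isWeight_coarsen hμ hTS hw) hF fun g hg => hinv g (hTS hg),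
    h, h, map_wMeas_coarsen hμ hw.measurable hF hinv, integral_smul_measure]
  simp [hn]

theorem integrable_subgroup_iff {S T : Subgroup G} (hTS : T ≤ S) [Finite (S ⧸ T.subgroupOf S)]
    (hw : IsWeight S μ w) (hw' : IsWeight T μ w') {F : Z → ℂ} (hF : Measurable F)
    (hinv : ∀ g ∈ S, ∀ z, F (g • z) = F z) :
    Integrable F (wMeas μ w') ↔ Integrable F (wMeas μ w) := by
  have h : ∀ ν : Measure Z, Integrable F ν ↔ Integrable id (ν.map F) := fun ν =>
    (integrable_map_measure aestronglyMeasurable_id hF.aemeasurable).symm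
  rw [integrable_wMeas_iff hμ hw' (isWeight_coarsen hμ hTS hw) hF fun g hg => hinv g (hTS hg),
    h, h, map_wMeas_coarsen hμ hw.measurable hF hinv]
  exact integrable_smul_measure (by exact_mod_cast Nat.card_pos.ne') (ENNReal.natCast_ne_top _)

omit [Countable G] hμ in
/-- Pulling back a weight along an equivariant map. -/
theorem IsWeight.comp {Z' : Type*} [MeasurableSpace Z'] [MulAction G Z'] {μ' : Measure Z'}
    {f : Z → Z'} (hf : Measure.QuasiMeasurePreserving f μ μ') (heq : ∀ g ∈ H, ∀ z, f (g • z) = g • f z)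
    {v : Z' → ℝ≥0∞} (hv : IsWeight H μ' v) : IsWeight H μ (v ∘ f) := by
  refine ⟨hv.measurable.comp hf.measurable, ?_⟩
  filter_upwards [hf.ae hv.sum_eq] with z hz
  rw [← hz]
  exact tsum_congr fun g => by simp [heq g g.2]

end FermatAgent.LT.Weight
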