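import Mathlib
import Fermat.Agent.LT.Descent.Classes.Defs
import Fermat.Agent.LT.Descent.Geom.Weight
import Fermat.Agent.LT.Descent.Geom.Cusp

set_option autoImplicit false

/-!
# Integrals of sums of kernels by twisted classes
-/

noncomputable section

open MeasureTheory NumberField IsDedekindDomain
open scoped MatrixGroups ENNReal

namespace FermatAgent.LT

open Classes Weight

variable {L : Type*} [Field L] [NumberField L] {𝔫 : Ideal (𝓞 L)}

/-- Representatives of the twisted classes in a set. -/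
structure ClassSys (τ : MulAut PGL(2, L)) (P : Set PGL(2, L)) (I : Type*) where
  /-- the representatives -/
  rep : I → PGL(2, L)
  /-- the parametrisation -/
  equiv : (Σ c : I, PGL(2, L) ⧸ twStab τ (rep c)) ≃ P
  equiv_mk : ∀ (c : I) (η : PGL(2, L)),
    (equiv ⟨c, (η : PGL(2, L) ⧸ twStab τ (rep c))⟩ : PGL(2, L)) = η * rep c * (τ η)⁻¹

namespace ClassSys

variable {τ : MulAut PGL(2, L)} {P : Set PGL(2, L)} {I : Type*}

/-- Conjugating the representatives. -/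
def conjBy (C : ClassSys τ P I) (h : I → PGL(2, L)) : ClassSys τ P I where
  rep c := (h c)⁻¹ * C.rep c * τ (h c)
  equiv := (Equiv.sigmaCongrRight fun c =>
    Quotient.congr (Equiv.mulRight (h c)⁻¹) fun a b => by
      rw [QuotientGroup.leftRel_apply, QuotientGroup.leftRel_apply, mem_twStab, mem_twStab]
      simp only [Equiv.coe_mulRight, mul_inv_rev, inv_inv, map_mul, map_inv]
      rw [show h c * b⁻¹ * (a * (h c)⁻¹) * C.rep c * (τ (h c) * (τ a)⁻¹ * (τ b * (τ (h c))⁻¹)) =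
          h c * (b⁻¹ * a * ((h c)⁻¹ * C.rep c * τ (h c)) * ((τ a)⁻¹ * τ b)) * (τ (h c))⁻¹ by group,
        mul_inv_eq_iff_eq_mul, mul_assoc (h c)⁻¹, eq_inv_mul_iff_mul_eq]).trans C.equiv
  equiv_mk c η := by
    show (C.equiv ⟨c, ((η * (h c)⁻¹ : PGL(2, L)) : PGL(2, L) ⧸ twStab τ (C.rep c))⟩ :
      PGL(2, L)) = _
    rw [C.equiv_mk, map_mul, map_inv]
    group

omit [NumberField L] in
theorem countable (C : ClassSys τ P I) [Countable PGL(2, L)] : Countable I :=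
  Function.Injective.countable
    (f := fun c : I => C.equiv ⟨c, ((1 : PGL(2, L)) : PGL(2, L) ⧸ twStab τ (C.rep c))⟩)
    fun _ _ h => congrArg Sigma.fst (C.equiv.injective h)

end ClassSys

/-- The twisted term of a class, cut by an invariant set. -/
def classTerm (k : YSpace 𝔫 → YSpace 𝔫 → ℂ) (τ₀ : YSpace 𝔫 → YSpace 𝔫) (A : Set (YSpace 𝔫))
    (r : PGL(2, L)) : YSpace 𝔫 → ℂ :=
  A.indicator fun y => k y (r • τ₀ y)

variable [IsTotallyComplex L] {k : YSpace 𝔫 → YSpace 𝔫 → ℂ} {τ₀ : YSpace 𝔫 → YSpace 𝔫}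
  {τ : MulAut PGL(2, L)} {P : Set PGL(2, L)} {I : Type*} {A : Set (YSpace 𝔫)}

omit [IsTotallyComplex L] in
theorem classTerm_smul (hk : IsYKernel k) (hτ : ∀ g y, τ₀ (g • y) = τ g • τ₀ y)
    (hA : ∀ (η : PGL(2, L)) y, η • y ∈ A ↔ y ∈ A) {r η : PGL(2, L)} (hη : η ∈ twStab τ r)
    (y : YSpace 𝔫) : classTerm k τ₀ A r (η • y) = classTerm k τ₀ A r y := by
  have e : r * τ η = η * r := by
    conv_rhs => rw [← mem_twStab.mp hη]
    group
  unfold classTerm
  by_cases hy : y ∈ A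
  · rw [Set.indicator_of_mem hy, Set.indicator_of_mem ((hA η y).mpr hy), hτ, smul_smul, e,
      mul_smul, hk.invariant]
  · rw [Set.indicator_of_notMem hy, Set.indicator_of_notMem fun h => hy ((hA η y).mp h)]

omit [IsTotallyComplex L] in
/-- **The sum over the classes.** -/
theorem integral_classes (h𝔫 : 𝔫 ≠ ⊥) (hk : IsYKernel k) (hτ₀ : Measurable τ₀)
    (hτ : ∀ g y, τ₀ (g • y) = τ g • τ₀ y) (C : ClassSys τ P I)
    (hP : ∀ γ ∉ P, ∀ y, k y (γ • τ₀ y) = 0) {𝔉 : Set (YSpace 𝔫)}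
    (hF : IsFundamentalDomain PGL(2, L) 𝔉 (yVol 𝔫)) (hm : MeasurableSet 𝔉)
    (hAm : MeasurableSet A) (hA : ∀ (η : PGL(2, L)) y, η • y ∈ A ↔ y ∈ A)
    (hfin : ∫⁻ y in 𝔉, A.indicator (fun y => ∑' γ : PGL(2, L), ‖k y (γ • τ₀ y)‖ₑ) y
      ∂(yVol 𝔫) < ⊤)
    (T : I → Subgroup PGL(2, L)) (hT : ∀ c, T c ≤ twStab τ (C.rep c))
    (hTfin : ∀ c, Finite (twStab τ (C.rep c) ⧸ (T c).subgroupOf (twStab τ (C.rep c))))
    (v : I → YSpace 𝔫 → ℝ≥0∞) (hv : ∀ c, IsWeight (T c) (yVol 𝔫) (v c)) :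
    (∀ c, Integrable (classTerm k τ₀ A (C.rep c)) (wMeas (yVol 𝔫) (v c))) ∧
      ∫ y in 𝔉, A.indicator (fun y => kerSum k y (τ₀ y)) y ∂(yVol 𝔫) =
        ∑' c, ((T c).relIndex (twStab τ (C.rep c)) : ℂ)⁻¹ *
          ∫ y, classTerm k τ₀ A (C.rep c) y ∂(wMeas (yVol 𝔫) (v c)) := by
  classical
  have : Countable I := C.countable
  set μ := yVol 𝔫
  have hμ : ∀ g : PGL(2, L), MeasurePreserving (fun y : YSpace 𝔫 => g • y) μ μ :=
    measurePreserving_ySmul h𝔫
  have : MeasurableConstSMul PGL(2, L) (YSpace 𝔫) := ⟨fun γ => measurable_ySmul h𝔫 γ⟩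
  set w : YSpace 𝔫 → ℝ≥0∞ := 𝔉.indicator 1 with hwdef
  have hw : IsWeight (⊤ : Subgroup PGL(2, L)) μ w := isWeight_fundDomain hF hm
  have hw1 : ∀ y, w y ≠ ⊤ := fun y => by
    by_cases h : y ∈ 𝔉 <;> simp [w, h]
  set φ : I → YSpace 𝔫 → ℂ := fun c => classTerm k τ₀ A (C.rep c)
  have hφ : ∀ c, Measurable (φ c) := fun c =>
    (hk.measurable.comp (measurable_id.prodMk ((measurable_ySmul h𝔫 _).comp hτ₀))).indicator hAm
  -- the terms of a class
  have hterm : ∀ (c : I) (q : PGL(2, L) ⧸ twStab τ (C.rep c)) (y : YSpace 𝔫),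
      φ c (q.out⁻¹ • y) =
        A.indicator (fun y => k y ((C.equiv ⟨c, q⟩ : PGL(2, L)) • τ₀ y)) y := by
    intro c q y
    have e := C.equiv_mk c q.out
    rw [QuotientGroup.out_eq'] at e
    simp only [φ, classTerm]
    by_cases hy : y ∈ A
    · rw [Set.indicator_of_mem hy, Set.indicator_of_mem ((hA _ y).mpr hy), e, hτ, map_inv,
        smul_smul, ← hk.invariant q.out (q.out⁻¹ • y), smul_inv_smul, smul_smul, mul_assoc]
    · rw [Set.indicator_of_notMem hy, Set.indicator_of_notMem fun h => hy ((hA _ y).mp h)]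
  have hsupp : ∀ y, Function.support (fun γ => k y (γ • τ₀ y)) ⊆ P := fun y γ hγ => by
    by_contra h; exact hγ (hP γ h y)
  -- the whole absolute sum
  have habs : ∀ y, ∑' c, ∑' q : PGL(2, L) ⧸ twStab τ (C.rep c), ‖φ c (q.out⁻¹ • y)‖ₑ =
      A.indicator (fun y => ∑' γ : PGL(2, L), ‖k y (γ • τ₀ y)‖ₑ) y := by
    intro y
    simp only [hterm]
    by_cases hy : y ∈ A
    · simp only [Set.indicator_of_mem hy]
      rw [← ENNReal.tsum_sigma, C.equiv.tsum_eq fun γ : P => ‖k y ((γ : PGL(2, L)) • τ₀ y)‖ₑ]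
      exact tsum_subtype_eq_of_support_subset (f := fun γ => ‖k y (γ • τ₀ y)‖ₑ) fun γ hγ =>
        hsupp y fun h => hγ (by simp [h])
    · simp [Set.indicator_of_notMem hy]
  have hfin' : ∫⁻ y, (∑' c, ∑' q : PGL(2, L) ⧸ twStab τ (C.rep c), ‖φ c (q.out⁻¹ • y)‖ₑ) * w y ∂μ
      ≠ ⊤ := by
    simp only [habs]
    refine ne_of_lt (lt_of_eq_of_lt ?_ hfin)
    rw [← lintegral_indicator hm]
    refine lintegral_congr fun y => ?_
    by_cases h : y ∈ 𝔉 <;> simp [w, h]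
  have hc : ∀ c, ∫⁻ y, (∑' q : PGL(2, L) ⧸ twStab τ (C.rep c), ‖φ c (q.out⁻¹ • y)‖ₑ) * w y ∂μ
      ≠ ⊤ := fun c => ne_top_of_le_ne_top hfin' (lintegral_mono fun y =>
        mul_le_mul_left (ENNReal.le_tsum c) _)
  have hS := fun c => integral_unfold hμ (twStab τ (C.rep c)) hw.measurable
    (Filter.Eventually.of_forall hw1) (hφ c) (hc c)
  have hinv : ∀ c, ∀ g ∈ twStab τ (C.rep c), ∀ y, φ c (g • y) = φ c y :=
    fun c g hg => classTerm_smul hk hτ hA hg
  have hwS : ∀ c, IsWeight (twStab τ (C.rep c)) μ (unfold (twStab τ (C.rep c)) w) := fun c =>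
    isWeight_unfold hμ hw _
  refine ⟨fun c => (integrable_subgroup_iff hμ (hT c) (hwS c) (hv c) (hφ c) (hinv c)).mpr (hS c).1,
    ?_⟩
  have hval : ∀ c, ((T c).relIndex (twStab τ (C.rep c)) : ℂ)⁻¹ * ∫ y, φ c y ∂(wMeas μ (v c)) =
      ∫ y, (w y).toReal • ∑' q : PGL(2, L) ⧸ twStab τ (C.rep c), φ c (q.out⁻¹ • y) ∂μ := fun c => by
    rw [← (hS c).2, integral_subgroup hμ (hT c) (hwS c) (hv c) (hφ c) (hinv c)]
    rfl
  rw [tsum_congr hval, ← integral_indicator hm, ← integral_tsum]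
  rotate_left
  · intro c
    exact (hw.measurable.ennreal_toReal.smul (Measurable.tsum fun q =>
      (hφ c).comp (measurable_ySmul h𝔫 _))).aestronglyMeasurable
  · rw [← lintegral_tsum (f := fun c y => ‖(w y).toReal •
      ∑' q : PGL(2, L) ⧸ twStab τ (C.rep c), φ c (q.out⁻¹ • y)‖ₑ) fun c =>
      (hw.measurable.ennreal_toReal.smul (Measurable.tsum fun q =>
        (hφ c).comp (measurable_ySmul h𝔫 _))).enorm.aemeasurable]
    refine ne_top_of_le_ne_top hfin' (lintegral_mono fun y => ?_)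
    rw [← ENNReal.tsum_mul_right]
    refine ENNReal.tsum_le_tsum fun c => ?_
    rw [enorm_smul, Real.enorm_eq_ofReal ENNReal.toReal_nonneg, mul_comm]
    exact mul_le_mul' enorm_tsum_le_tsum_enorm ENNReal.ofReal_toReal_le
  -- pointwise
  have hM : Measurable fun y => (∑' c, ∑' q : PGL(2, L) ⧸ twStab τ (C.rep c),
      ‖φ c (q.out⁻¹ • y)‖ₑ) * w y :=
    (Measurable.tsum fun c => Measurable.tsum fun q =>
      ((hφ c).comp (measurable_ySmul h𝔫 _)).enorm).mul hw.measurable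
  refine integral_congr_ae ?_
  filter_upwards [ae_lt_top hM hfin'] with y hy
  by_cases hyF : y ∈ 𝔉
  swap
  · simp [w, hyF]
  simp only [w, Set.indicator_of_mem hyF, Pi.one_apply, ENNReal.toReal_one, one_smul]
  simp only [w, Set.indicator_of_mem hyF, Pi.one_apply, mul_one] at hy
  have hsum : Summable fun p : Σ c, PGL(2, L) ⧸ twStab τ (C.rep c) => φ p.1 (p.2.out⁻¹ • y) := by
    refine Summable.of_enorm ?_
    rw [ENNReal.tsum_sigma']
    exact hy.ne
  rw [← hsum.tsum_sigma]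
  simp only [hterm]
  by_cases hyA : y ∈ A
  · simp only [Set.indicator_of_mem hyA]
    rw [C.equiv.tsum_eq fun γ : P => k y ((γ : PGL(2, L)) • τ₀ y)]
    exact (tsum_subtype_eq_of_support_subset (hsupp y)).symm
  · simp [Set.indicator_of_notMem hyA]

end FermatAgent.LT
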