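import Mathlib
import Fermat.Agent.LT.Descent.GeometricDefs

set_option autoImplicit false

/-!
# The automorphism of `F/K` has order three
-/

noncomputable section

open NumberField

namespace FermatAgent.LT

local notation "Qb" => AlgebraicClosure ℚ
local notation "GQ" => AlgebraicClosure ℚ ≃ₐ[ℚ] AlgebraicClosure ℚ

attribute [local instance] FermatAgent.RT.isGalois_algClosureRat

set_option synthInstance.maxSize 1024 in
theorem GL2F3.TQ8_tpow_three : ∀ t : GL2F3.Tup, GL2F3.tdet t = 1 →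
    GL2F3.TQ8 (GL2F3.tpow t 3) := by
  decide

set_option synthInstance.maxSize 1024 in
theorem GL2F3.TQ8_cosets : ∀ a : GL2F3.Tup, GL2F3.tdet a = 1 → ¬ GL2F3.TQ8 a →
    ∀ h : GL2F3.Tup, GL2F3.tdet h = 1 → ∃ k : Fin 3, GL2F3.TQ8 (GL2F3.tmul (GL2F3.tpow a k.1) h) := by
  decide +kernel

variable {S : Setup} {σ : S.F ≃+* S.F}

/-- An extension to the algebraic closure, fixing `K`. -/
theorem Setup.IsGalGen.exists_extension (hσ : S.IsGalGen σ) :
    ∃ g : GQ, g ∈ S.K.fixingSubgroup ∧ ∀ x : S.F, g (x : Qb) = ((σ x : S.F) : Qb) := by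
  let f : S.F ≃ₐ[ℚ] S.F := AlgEquiv.ofRingEquiv (f := σ) fun r => map_ratCast σ r
  refine ⟨f.liftNormal Qb, ?_, fun x => f.liftNormal_commutes Qb x⟩
  rw [IntermediateField.mem_fixingSubgroup_iff]
  intro x hx
  have h := f.liftNormal_commutes Qb (S.inclKF ⟨x, hx⟩)
  exact h.trans (congrArg Subtype.val (hσ.2 ⟨x, hx⟩))

theorem Setup.IsGalGen.cube (hσ : S.IsGalGen σ) (x : S.F) : σ (σ (σ x)) = x := by
  obtain ⟨g, hg, hgx⟩ := hσ.exists_extension
  refine Subtype.ext ?_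
  have h3 : S.ρ (g ^ 3) ∈ quaternionSubgroup := by
    have hd := S.det_eq_one_of_fix hg
    rw [← GL2F3.tdet_toTup] at hd
    have h := GL2F3.TQ8_tpow_three _ hd
    rw [← GL2F3.toTup_pow] at h
    rw [map_pow]
    rw [GL2F3.tq8_toTup, ← Units.val_pow_eq_pow_val] at h
    exact h
  have h := S.apply_eq_self_of_q8 h3 x.2
  rw [← hgx, ← hgx, ← hgx]
  simpa [pow_succ, AlgEquiv.mul_apply] using h

theorem Setup.IsGalGen.sq_ne (hσ : S.IsGalGen σ) : ∃ x : S.F, σ (σ x) ≠ x := by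
  by_contra! h
  refine hσ.1 (RingEquiv.ext fun x => ?_)
  have h3 := hσ.cube x
  rw [h] at h3
  exact h3

/-- The restrictions to `F` of the elements fixing `K` are the powers of `σ`. -/
theorem Setup.IsGalGen.exists_pow_eq (hσ : S.IsGalGen σ) {g : GQ} (hg : g ∈ S.K.fixingSubgroup) :
    ∃ k : Fin 3, ∀ x : S.F, g (x : Qb) = ((σ^[k.1] x : S.F) : Qb) := by
  obtain ⟨g₀, hg₀, hgx⟩ := hσ.exists_extension
  have hd : ∀ g ∈ S.K.fixingSubgroup,
      GL2F3.tdet (GL2F3.toTup (S.ρ g : Matrix (Fin 2) (Fin 2) (ZMod 3))) = 1 := fun g hg => by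
    rw [GL2F3.tdet_toTup, S.det_eq_one_of_fix hg]
  have hne : ¬ GL2F3.TQ8 (GL2F3.toTup (S.ρ g₀ : Matrix (Fin 2) (Fin 2) (ZMod 3))) := fun h => by
    refine hσ.1 (RingEquiv.ext fun x => Subtype.ext ?_)
    rw [← hgx]
    exact S.apply_eq_self_of_q8 ((GL2F3.tq8_toTup _).1 h) x.2
  obtain ⟨k, hk⟩ := GL2F3.TQ8_cosets _ (hd _ hg₀) hne _ (hd _ hg)
  rw [← GL2F3.toTup_pow, ← GL2F3.toTup_mul, GL2F3.tq8_toTup, ← Units.val_pow_eq_pow_val,
    ← Units.val_mul, ← map_pow, ← map_mul] at hk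
  have hfix : ∀ x : S.F, (g₀ ^ k.1) (g (x : Qb)) = (x : Qb) := fun x =>
    S.apply_eq_self_of_q8 hk x.2
  have hpow : ∀ (n : ℕ) (x : S.F), (g₀ ^ n) (x : Qb) = ((σ^[n] x : S.F) : Qb) := by
    intro n
    induction n with
    | zero => intro x; rfl
    | succ n ih =>
      intro x
      rw [pow_succ, AlgEquiv.mul_apply, hgx, ih, Function.iterate_succ_apply]
  refine ⟨⟨(3 - k.1) % 3, by omega⟩, fun x => (g₀ ^ k.1).injective ?_⟩
  rw [hfix, hpow, ← Function.iterate_add_apply]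
  have h3 : ∀ y : S.F, σ^[3] y = y := hσ.cube
  fin_cases k
  · rfl
  · exact congrArg Subtype.val (h3 x).symm
  · exact congrArg Subtype.val (h3 x).symm

/-- The embeddings of `F` agreeing on `K` differ by powers of `σ`. -/
theorem Setup.IsGalGen.exists_embedding_eq (hσ : S.IsGalGen σ) (φ φ' : S.F →+* ℂ)
    (h : φ.comp S.inclKF.toRingHom = φ'.comp S.inclKF.toRingHom) :
    ∃ k : Fin 3, ∀ x : S.F, φ' x = φ (σ^[k.1] x) := by
  have hlift : ∀ f : S.F →+* ℂ, ∃ Φ : Qb →ₐ[ℚ] ℂ, ∀ x : S.F, Φ (x : Qb) = f x := by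
    intro f
    let _ : Algebra S.F ℂ := f.toAlgebra
    have : IsScalarTower ℚ S.F ℂ := IsScalarTower.of_algebraMap_eq fun r => by simp
    have : Algebra.IsAlgebraic S.F Qb :=
      Algebra.IsAlgebraic.tower_top (K := ℚ) S.F
    exact ⟨(IsAlgClosed.lift (R := S.F) (S := Qb) (M := ℂ)).restrictScalars ℚ, fun x =>
      (IsAlgClosed.lift (R := S.F) (S := Qb) (M := ℂ)).commutes x⟩
  obtain ⟨Φ, hΦ⟩ := hlift φ
  obtain ⟨Φ', hΦ'⟩ := hlift φ'
  let _ : Algebra Qb ℂ := Φ.toRingHom.toAlgebra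
  have : IsScalarTower ℚ Qb ℂ := IsScalarTower.of_algebraMap_eq fun r => (Φ.commutes r).symm
  let g : GQ := Φ'.restrictNormal' Qb
  have hg : ∀ x : Qb, Φ (g x) = Φ' x := fun x => Φ'.restrictNormal_commutes Qb x
  have hgK : g ∈ S.K.fixingSubgroup := by
    rw [IntermediateField.mem_fixingSubgroup_iff]
    intro x hx
    refine Φ.toRingHom.injective ?_
    show Φ (g x) = Φ x
    rw [hg]
    exact ((hΦ' (S.inclKF ⟨x, hx⟩)).trans (RingHom.congr_fun h ⟨x, hx⟩).symm).trans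
      (hΦ (S.inclKF ⟨x, hx⟩)).symm
  obtain ⟨k, hk⟩ := hσ.exists_pow_eq hgK
  refine ⟨k, fun x => ?_⟩
  rw [← hΦ', ← hg, hk, hΦ]

end FermatAgent.LT
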