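import Mathlib
import Fermat.Agent.LT.Descent.Geom.Galois0
import Fermat.Agent.LT.Descent.Classical.Eis
import Fermat.Agent.LT.Descent.Kernel.Conv
import Fermat.Agent.LT.Descent.Spectral.Twist

set_option autoImplicit false

/-!
# The three places of `F` over the place of `K` and the convolution at infinity
-/

noncomputable section

open MeasureTheory NumberField
open scoped MatrixGroups ENNReal

namespace FermatAgent.LT

theorem ptEmb_of_embedding {L : Type*} [Field L] [NumberField L] (x : XInf L) (w : InfinitePlace L) :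
    ptEmb x w.embedding = x w := by
  unfold ptEmb
  rw [if_pos (by rw [InfinitePlace.mk_embedding])]
  exact congrArg x (InfinitePlace.mk_embedding w)

theorem ptEmb_conjugate {L : Type*} [Field L] [NumberField L] [IsTotallyComplex L] (x : XInf L)
    (φ : L →+* ℂ) : ptEmb x (ComplexEmbedding.conjugate φ) = H3.conjPt (ptEmb x φ) := by
  have hne : ComplexEmbedding.conjugate (InfinitePlace.mk φ).embedding ≠
      (InfinitePlace.mk φ).embedding := fun h =>
    (InfinitePlace.not_isReal_iff_isComplex.mpr (IsTotallyComplex.isComplex _))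
      (InfinitePlace.isReal_iff.mpr h)
  unfold ptEmb
  rw [InfinitePlace.mk_conjugate_eq φ]
  rcases InfinitePlace.mk_eq_iff.mp (InfinitePlace.mk_embedding (InfinitePlace.mk φ)) with h | h
  · rw [if_pos h.symm, if_neg]
    intro h2
    exact hne ((congrArg ComplexEmbedding.conjugate h).trans h2)
  · have h' : (InfinitePlace.mk φ).embedding = ComplexEmbedding.conjugate φ :=
      (star_star (InfinitePlace.mk φ).embedding).symm.trans (congrArg star h)
    rw [if_pos h'.symm, if_neg, H3.conjPt_conjPt]
    intro h2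
    exact hne (h.trans h2)

/-- Kernels read in a chart of the place. -/
theorem IsInvKer.apply_ptEmb {L : Type*} [Field L] [NumberField L] [IsTotallyComplex L]
    {h : H3 → H3 → ℂ} (hh : H3.IsInvKer h) (φ : L →+* ℂ) (x x' : XInf L) :
    h (ptEmb x φ) (ptEmb x' φ) = h (x (InfinitePlace.mk φ)) (x' (InfinitePlace.mk φ)) := by
  unfold ptEmb
  split_ifs
  · rfl
  · exact hh.conjInv _ _

theorem ptEmb_galX {L : Type*} [Field L] [NumberField L] [IsTotallyComplex L] (σ : L ≃+* L)
    (x : XInf L) (φ : L →+* ℂ) :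
    ptEmb (galX σ x) φ = ptEmb x (φ.comp σ.toRingHom) := by
  rcases InfinitePlace.mk_eq_iff.mp (InfinitePlace.mk_embedding (InfinitePlace.mk φ)) with h | h
  · rw [← h, ptEmb_of_embedding]
    rfl
  · rw [← h, ptEmb_conjugate, ptEmb_of_embedding, galX, ← ptEmb_conjugate]
    rfl

variable (S : Setup) (σ : S.F ≃+* S.F) (w₁ : InfinitePlace S.K → InfinitePlace S.F)

open Classical in
/-- An embedding of the first place over the embedding of `K`. -/
def Setup.phi0 : S.F →+* ℂ :=
  if (w₁ default).embedding.comp S.inclKF.toRingHom = S.emb then (w₁ default).embedding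
  else ComplexEmbedding.conjugate (w₁ default).embedding

/-- The three embeddings. -/
def Setup.phiAt : Fin 3 → S.F →+* ℂ :=
  ![S.phi0 w₁, (S.phi0 w₁).comp σ.toRingHom,
    ((S.phi0 w₁).comp σ.toRingHom).comp σ.toRingHom]

theorem Setup.mk_phi0 : InfinitePlace.mk (S.phi0 w₁) = w₁ default := by
  unfold Setup.phi0
  split_ifs
  · exact InfinitePlace.mk_embedding _
  · rw [InfinitePlace.mk_conjugate_eq, InfinitePlace.mk_embedding]

variable {S σ w₁} (hσ : S.IsGalGen σ) (hw₁ : ∀ u, (w₁ u).comap S.inclKF.toRingHom = u)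

include hw₁ in
theorem Setup.phi0_incl : (S.phi0 w₁).comp S.inclKF.toRingHom = S.emb := by
  unfold Setup.phi0
  split_ifs with h
  · exact h
  · have h1 : InfinitePlace.mk ((w₁ default).embedding.comp S.inclKF.toRingHom) =
        InfinitePlace.mk (default : InfinitePlace S.K).embedding := by
      rw [← InfinitePlace.comap_mk, InfinitePlace.mk_embedding, hw₁, InfinitePlace.mk_embedding]
    rcases InfinitePlace.mk_eq_iff.mp h1 with h2 | h2
    · exact absurd h2 h
    · exact RingHom.ext fun x => RingHom.congr_fun h2 x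

theorem Setup.phiAt_place : ∀ i : Fin 3, InfinitePlace.mk (S.phiAt σ w₁ i) =
    ![w₁ default, (w₁ default).comap σ.toRingHom,
      ((w₁ default).comap σ.toRingHom).comap σ.toRingHom] i := by
  have h := S.mk_phi0 w₁
  intro i
  fin_cases i
  · exact h
  · show InfinitePlace.mk ((S.phi0 w₁).comp σ.toRingHom) = _
    rw [← InfinitePlace.comap_mk, h]
    rfl
  · show InfinitePlace.mk (((S.phi0 w₁).comp σ.toRingHom).comp σ.toRingHom) = _
    rw [← InfinitePlace.comap_mk, ← InfinitePlace.comap_mk, h]
    rfl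

include hσ hw₁ in
theorem Setup.phiAt_incl (i : Fin 3) : (S.phiAt σ w₁ i).comp S.inclKF.toRingHom = S.emb := by
  have h := Setup.phi0_incl hw₁
  have h1 : σ.toRingHom.comp S.inclKF.toRingHom = S.inclKF.toRingHom := RingHom.ext hσ.2
  fin_cases i
  · exact h
  · show ((S.phi0 w₁).comp σ.toRingHom).comp _ = _
    rw [RingHom.comp_assoc, h1, h]
  · show (((S.phi0 w₁).comp σ.toRingHom).comp σ.toRingHom).comp _ = _
    rw [RingHom.comp_assoc, h1, RingHom.comp_assoc, h1, h]

include hσ hw₁ in
theorem Setup.mk_phiAt_bijective :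
    Function.Bijective fun i : Fin 3 => InfinitePlace.mk (S.phiAt σ w₁ i) := by
  constructor
  · intro i j hij
    rcases InfinitePlace.mk_eq_iff.mp hij with h | h
    · obtain ⟨x, hx⟩ := hσ.sq_ne
      obtain ⟨y, hy⟩ : ∃ y, σ y ≠ y := by
        by_contra! hc; exact hσ.1 (RingEquiv.ext hc)
      have hinj := (S.phi0 w₁).injective
      fin_cases i <;> fin_cases j <;> first
        | rfl
        | exact absurd (hinj (RingHom.congr_fun h y)).symm hy
        | exact absurd (hinj (RingHom.congr_fun h y)) hy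
        | exact absurd (hinj (RingHom.congr_fun h x)).symm hx
        | exact absurd (hinj (RingHom.congr_fun h x)) hx
        | exact absurd (σ.injective (hinj (RingHom.congr_fun h y))).symm hy
        | exact absurd (σ.injective (hinj (RingHom.congr_fun h y))) hy
    · exfalso
      have h2 := congrArg (fun φ : S.F →+* ℂ => φ.comp S.inclKF.toRingHom) h
      rw [Setup.phiAt_incl hσ hw₁] at h2
      have h3 : ComplexEmbedding.conjugate S.emb = S.emb := by
        conv_lhs => rw [← Setup.phiAt_incl hσ hw₁ i]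
        exact RingHom.ext fun x => RingHom.congr_fun h2 x
      exact (InfinitePlace.not_isReal_iff_isComplex.mpr (IsTotallyComplex.isComplex _))
        (InfinitePlace.isReal_iff.mpr h3)
  · intro w
    obtain ⟨φ, hφ, hφ'⟩ : ∃ φ : S.F →+* ℂ, InfinitePlace.mk φ = w ∧
        φ.comp S.inclKF.toRingHom = S.emb := by
      by_cases h : w.embedding.comp S.inclKF.toRingHom = S.emb
      · exact ⟨_, InfinitePlace.mk_embedding w, h⟩
      refine ⟨ComplexEmbedding.conjugate w.embedding,
        by rw [InfinitePlace.mk_conjugate_eq, InfinitePlace.mk_embedding], ?_⟩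
      have h1 : InfinitePlace.mk (w.embedding.comp S.inclKF.toRingHom) =
          InfinitePlace.mk (default : InfinitePlace S.K).embedding := Subsingleton.elim _ _
      rcases InfinitePlace.mk_eq_iff.mp h1 with h2 | h2
      · exact absurd h2 h
      · exact RingHom.ext fun x => RingHom.congr_fun h2 x
    obtain ⟨k, hk⟩ := hσ.exists_embedding_eq _ φ ((Setup.phi0_incl hw₁).trans hφ'.symm)
    refine ⟨k, ?_⟩
    rw [← hφ]
    show InfinitePlace.mk (S.phiAt σ w₁ k) = InfinitePlace.mk φ
    congr 1
    refine RingHom.ext fun x => (Eq.trans ?_ (hk x).symm)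
    fin_cases k <;> rfl

/-- The places of `F` numbered from the first one. -/
def Setup.placeEquiv : Fin 3 ≃ InfinitePlace S.F :=
  Equiv.ofBijective _ (Setup.mk_phiAt_bijective hσ hw₁)

/-- The chart of the archimedean space of `F` in three copies of `H3`. -/
def Setup.chart : XInf S.F ≃ᵐ H3 × H3 × H3 :=
  ((MeasurableEquiv.piCongrLeft (fun _ : InfinitePlace S.F => H3)
      (Setup.placeEquiv hσ hw₁)).symm.trans
    (MeasurableEquiv.piCongrRight fun i : Fin 3 =>
      open Classical in
      if S.phiAt σ w₁ i = (InfinitePlace.mk (S.phiAt σ w₁ i)).embedding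
        then MeasurableEquiv.refl H3 else H3.conjEquiv)).trans
    ((MeasurableEquiv.piFinSuccAbove (fun _ => H3) 0).trans
      (MeasurableEquiv.prodCongr (MeasurableEquiv.refl H3) MeasurableEquiv.finTwoArrow))

theorem Setup.chart_apply (x : XInf S.F) :
    Setup.chart hσ hw₁ x = (ptEmb x (S.phiAt σ w₁ 0), ptEmb x (S.phiAt σ w₁ 1),
      ptEmb x (S.phiAt σ w₁ 2)) := by
  have h : ∀ i : Fin 3, (open Classical in
      (MeasurableEquiv.piCongrRight fun i : Fin 3 =>
        if S.phiAt σ w₁ i = (InfinitePlace.mk (S.phiAt σ w₁ i)).embedding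
          then MeasurableEquiv.refl H3 else H3.conjEquiv)
        ((MeasurableEquiv.piCongrLeft (fun _ : InfinitePlace S.F => H3)
          (Setup.placeEquiv hσ hw₁)).symm x) i) = ptEmb x (S.phiAt σ w₁ i) := by
    classical
    intro i
    show (if _ then _ else _ : H3 ≃ᵐ H3) (x (InfinitePlace.mk (S.phiAt σ w₁ i))) = _
    unfold ptEmb
    split_ifs <;> rfl
  exact Prod.ext (h 0) (Prod.ext (h 1) (h 2))

theorem Setup.measurePreserving_chart :
    MeasurePreserving (Setup.chart hσ hw₁) (Measure.pi fun _ : InfinitePlace S.F => H3.vol)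
      (H3.vol.prod (H3.vol.prod H3.vol)) := by
  classical
  refine MeasurePreserving.trans (MeasurePreserving.trans
    ((measurePreserving_piCongrLeft (fun _ : InfinitePlace S.F => H3.vol)
      (Setup.placeEquiv hσ hw₁)).symm _) ?_) ?_ (μb := Measure.pi fun _ : Fin 3 => H3.vol)
  · refine measurePreserving_pi (f := fun i : Fin 3 => ⇑(if S.phiAt σ w₁ i =
      (InfinitePlace.mk (S.phiAt σ w₁ i)).embedding then MeasurableEquiv.refl H3
        else H3.conjEquiv)) _ _ fun i => ?_
    split_ifs
    · exact MeasurePreserving.id _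
    · exact H3.measurePreserving_conjPt
  · exact MeasurePreserving.trans (measurePreserving_piFinSuccAbove (fun _ : Fin 3 => H3.vol) 0)
      ((MeasurePreserving.id H3.vol).prod (measurePreserving_finTwoArrow H3.vol))

variable {h : InfinitePlace S.F → H3 → H3 → ℂ}

include hσ hw₁ in
/-- The twisted kernel in the chart. -/
theorem Setup.prodKer_twist (hh : ∀ w, H3.IsInvKer (h w)) (δ : GL (Fin 2) S.F) (x : XInf S.F) :
    prodKer h x (infAct δ (galX σ x)) =
      h (w₁ default) (ptEmb x (S.phiAt σ w₁ 0))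
          (Matrix.GeneralLinearGroup.map (S.phiAt σ w₁ 0) δ • ptEmb x (S.phiAt σ w₁ 1)) *
        (h ((w₁ default).comap σ.toRingHom) (ptEmb x (S.phiAt σ w₁ 1))
            (Matrix.GeneralLinearGroup.map (S.phiAt σ w₁ 1) δ • ptEmb x (S.phiAt σ w₁ 2)) *
          h (((w₁ default).comap σ.toRingHom).comap σ.toRingHom) (ptEmb x (S.phiAt σ w₁ 2))
            (Matrix.GeneralLinearGroup.map (S.phiAt σ w₁ 2) δ • ptEmb x (S.phiAt σ w₁ 0))) := by
  have hterm : ∀ i : Fin 3, h (InfinitePlace.mk (S.phiAt σ w₁ i)) (x _)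
      (infAct δ (galX σ x) (InfinitePlace.mk (S.phiAt σ w₁ i))) =
      h (InfinitePlace.mk (S.phiAt σ w₁ i)) (ptEmb x (S.phiAt σ w₁ i))
        (Matrix.GeneralLinearGroup.map (S.phiAt σ w₁ i) δ •
          ptEmb x ((S.phiAt σ w₁ i).comp σ.toRingHom)) := fun i => by
    rw [← IsInvKer.apply_ptEmb (hh _) (S.phiAt σ w₁ i), ptEmb_infAct, ptEmb_galX]
  have h3 : (S.phiAt σ w₁ 2).comp σ.toRingHom = S.phiAt σ w₁ 0 :=
    RingHom.ext fun y => congrArg (S.phi0 w₁) (hσ.cube y)
  rw [prodKer, ← Fintype.prod_equiv (Setup.placeEquiv hσ hw₁)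
    (fun i => h (InfinitePlace.mk (S.phiAt σ w₁ i)) (x (InfinitePlace.mk (S.phiAt σ w₁ i)))
      (infAct δ (galX σ x) (InfinitePlace.mk (S.phiAt σ w₁ i)))) _ fun i => rfl,
    Fin.prod_univ_three, hterm 0, hterm 1, hterm 2, h3, Setup.phiAt_place 0, Setup.phiAt_place 1,
    Setup.phiAt_place 2, mul_assoc]
  rfl

include hσ hw₁ in
/-- **The kernel at infinity.** Integrals of the twisted kernel against a function of the first
coordinate are integrals of the convolution. -/
theorem Setup.integral_infinity (hh : ∀ w, H3.IsInvKer (h w)) {t : GL (Fin 2) S.K}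
    {δ : GL (Fin 2) S.F}
    (hN : δ * Matrix.GeneralLinearGroup.map σ.toRingHom δ *
        Matrix.GeneralLinearGroup.map σ.toRingHom (Matrix.GeneralLinearGroup.map σ.toRingHom δ) =
      Matrix.GeneralLinearGroup.map S.inclKF.toRingHom t)
    {g : H3 → ℂ}
    (hint : Integrable (fun x => prodKer h x (infAct δ (galX σ x)) * g (ptEmb x (S.phi0 w₁)))
      (Measure.pi fun _ : InfinitePlace S.F => H3.vol)) :
    ∫ x, prodKer h x (infAct δ (galX σ x)) * g (ptEmb x (S.phi0 w₁))
        ∂(Measure.pi fun _ : InfinitePlace S.F => H3.vol) =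
      ∫ P, S.slotKer σ w₁ h default P (Matrix.GeneralLinearGroup.map S.emb t • P) * g P
        ∂H3.vol := by
  set μ := Measure.pi fun _ : InfinitePlace S.F => H3.vol
  set M : Fin 3 → GL (Fin 2) ℂ := fun i => Matrix.GeneralLinearGroup.map (S.phiAt σ w₁ i) δ
  set f₀ := h (w₁ default)
  set f₁ := h ((w₁ default).comap σ.toRingHom)
  set f₂ := h (((w₁ default).comap σ.toRingHom).comap σ.toRingHom)
  set G : H3 × H3 × H3 → ℂ := fun p =>
    f₀ p.1 (M 0 • p.2.1) * (f₁ p.2.1 (M 1 • p.2.2) * f₂ p.2.2 (M 2 • p.1)) * g p.1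
  have hpt : ∀ x, G (Setup.chart hσ hw₁ x) =
      prodKer h x (infAct δ (galX σ x)) * g (ptEmb x (S.phi0 w₁)) := fun x => by
    rw [Setup.chart_apply, Setup.prodKer_twist hσ hw₁ hh]
    rfl
  have hmp := Setup.measurePreserving_chart hσ hw₁
  have hG : Integrable G (H3.vol.prod (H3.vol.prod H3.vol)) :=
    (hmp.integrable_comp_emb (Setup.chart hσ hw₁).measurableEmbedding).mp
      (hint.congr (Filter.Eventually.of_forall fun x => (hpt x).symm))
  rw [← integral_congr_ae (Filter.Eventually.of_forall hpt),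
    hmp.integral_comp (Setup.chart hσ hw₁).measurableEmbedding, integral_prod G hG]
  refine integral_congr_ae ?_
  filter_upwards [hG.prod_right_ae] with P hP
  show ∫ q : H3 × H3, G (P, q) ∂(H3.vol.prod H3.vol) = _
  have hM : Matrix.GeneralLinearGroup.map S.emb t • P = (M 0 * M 1 * M 2) • P := by
    rw [← Setup.phi0_incl hw₁]
    congr 1
    refine Units.ext (Matrix.ext fun i j => ?_)
    have e := congrArg (fun m : GL (Fin 2) S.F =>
      Matrix.GeneralLinearGroup.map (S.phi0 w₁) m) hN
    simp only [map_mul] at e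
    exact (congrArg (fun m : GL (Fin 2) ℂ => (m : Matrix (Fin 2) (Fin 2) ℂ) i j) e).symm
  rw [Setup.slotKer, hM, integral_prod_symm _ hP]
  simp only [G, H3.kConv, mul_assoc, ← integral_mul_const]
  rw [← (H3.measurePreserving_h3_smul (M 0 * M 1)⁻¹).integral_comp
    (MeasurableEmbedding.of_measurable_inverse (g := fun Q => (M 0 * M 1) • Q)
      (H3.measurePreserving_h3_smul _).measurable (by
        rw [(MulAction.surjective (M 0 * M 1)⁻¹).range_eq]; exact MeasurableSet.univ)
      (H3.measurePreserving_h3_smul _).measurable fun Q => smul_inv_smul _ Q)]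
  refine integral_congr_ae (Filter.Eventually.of_forall fun R => ?_)
  dsimp only
  rw [← (H3.measurePreserving_h3_smul (M 0)⁻¹).integral_comp
    (MeasurableEmbedding.of_measurable_inverse (g := fun Q => (M 0) • Q)
      (H3.measurePreserving_h3_smul _).measurable (by
        rw [(MulAction.surjective (M 0)⁻¹).range_eq]; exact MeasurableSet.univ)
      (H3.measurePreserving_h3_smul _).measurable fun Q => smul_inv_smul _ Q)]
  refine integral_congr_ae (Filter.Eventually.of_forall fun Q => ?_)
  dsimp only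
  simp only [f₀, f₁, f₂, smul_inv_smul]
  rw [← (hh _).inv (M 0) ((M 0)⁻¹ • Q) (M 1 • (M 0 * M 1)⁻¹ • R), smul_inv_smul, smul_smul (M 0),
    smul_inv_smul, ← (hh _).inv (M 0 * M 1) ((M 0 * M 1)⁻¹ • R) (M 2 • P), smul_inv_smul,
    smul_smul (M 0 * M 1), mul_assoc (M 0) (M 1) (M 2)]

end FermatAgent.LT
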