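import Mathlib
import Fermat.Agent.LT.Descent.Geom.Coords
import Fermat.Agent.LT.Descent.Kernel.CosetOp

set_option autoImplicit false

/-!
# Operators on the finite cosets acting at one place, and their kernels
-/

noncomputable section

open NumberField IsDedekindDomain Filter
open scoped MatrixGroups

namespace FermatAgent.LT

variable {L : Type*} [Field L] [NumberField L] {𝔫 : Ideal (𝓞 L)}

theorem compAt_atPlace_self (v : HeightOneSpectrum (𝓞 L)) (k : GLv v) :
    compAt v (atPlace v k) = k :=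
  Units.ext (Matrix.ext fun _ _ => updAt_self v _ _)

theorem compAt_atPlace_ne {v w : HeightOneSpectrum (𝓞 L)} (h : w ≠ v) (k : GLv v) :
    compAt w (atPlace v k) = 1 :=
  Units.ext (Matrix.ext fun i j => by
    refine (updAt_of_ne v _ _ h).trans ?_
    rw [Units.val_one, Matrix.one_apply]
    split_ifs <;> simp)

/-- The coset with a new coordinate at `v`. -/
def updC (v : HeightOneSpectrum (𝓞 L)) (c : Cosets 𝔫) (x : LCos 𝔫 v) : Cosets 𝔫 :=
  ((c.out * atPlace v ((compAt v c.out)⁻¹ * x.out) : GAf L) : Cosets 𝔫)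

theorem coordAt_updC_self (v : HeightOneSpectrum (𝓞 L)) (c : Cosets 𝔫) (x : LCos 𝔫 v) :
    coordAt v (updC v c x) = x := by
  rw [updC, coordAt_mk, map_mul, compAt_atPlace_self, mul_inv_cancel_left, QuotientGroup.out_eq']

theorem coordAt_updC_ne {v w : HeightOneSpectrum (𝓞 L)} (h : w ≠ v) (c : Cosets 𝔫) (x : LCos 𝔫 v) :
    coordAt w (updC v c x) = coordAt w c := by
  rw [updC, coordAt_mk, map_mul, compAt_atPlace_ne h, mul_one, ← coordAt_mk, QuotientGroup.out_eq']

theorem updC_eq (h𝔫 : 𝔫 ≠ ⊥) (v : HeightOneSpectrum (𝓞 L)) (c c' : Cosets 𝔫) (x : LCos 𝔫 v)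
    (h1 : coordAt v c' = x) (h2 : ∀ w, w ≠ v → coordAt w c' = coordAt w c) : updC v c x = c' := by
  refine coordAt_injective h𝔫 fun w => ?_
  rcases eq_or_ne w v with rfl | hw
  · rw [coordAt_updC_self, h1]
  · rw [coordAt_updC_ne hw, h2 w hw]

theorem updC_coordAt (h𝔫 : 𝔫 ≠ ⊥) (v : HeightOneSpectrum (𝓞 L)) (c : Cosets 𝔫) :
    updC v c (coordAt v c) = c := updC_eq h𝔫 v c c _ rfl fun _ _ => rfl

theorem updC_updC (h𝔫 : 𝔫 ≠ ⊥) (v : HeightOneSpectrum (𝓞 L)) (c : Cosets 𝔫) (x y : LCos 𝔫 v) :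
    updC v (updC v c x) y = updC v c y := by
  refine (updC_eq h𝔫 v c _ y (coordAt_updC_self v _ y) fun w hw => ?_).symm
  rw [coordAt_updC_ne hw, coordAt_updC_ne hw]

theorem mk_mul_atPlace (h𝔫 : 𝔫 ≠ ⊥) (v : HeightOneSpectrum (𝓞 L)) (g : GAf L) (k : GLv v) :
    ((g * atPlace v k : GAf L) : Cosets 𝔫) =
      updC v (g : Cosets 𝔫) ((compAt v g * k : GLv v) : LCos 𝔫 v) := by
  refine (updC_eq h𝔫 v _ _ _ ?_ fun w hw => ?_).symm
  · rw [coordAt_mk, map_mul, compAt_atPlace_self]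
  · rw [coordAt_mk, coordAt_mk, map_mul, compAt_atPlace_ne hw, mul_one]

/-- The extension to all cosets of an operator at one place. -/
def liftAt (v : HeightOneSpectrum (𝓞 L)) :
    Module.End ℂ (LCos 𝔫 v → ℂ) →ₗ[ℂ] Module.End ℂ (Cosets 𝔫 → ℂ) where
  toFun A :=
    { toFun := fun f c => A (fun x => f (updC v c x)) (coordAt v c)
      map_add' := fun f g => funext fun c => by
        show A ((fun x => f (updC v c x)) + fun x => g (updC v c x)) _ = _
        rw [map_add]; rfl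
      map_smul' := fun a f => funext fun c => by
        show A (a • fun x => f (updC v c x)) _ = _
        rw [map_smul]; rfl }
  map_add' _ _ := rfl
  map_smul' _ _ := rfl

theorem liftAt_apply (v : HeightOneSpectrum (𝓞 L)) (A : Module.End ℂ (LCos 𝔫 v → ℂ))
    (f : Cosets 𝔫 → ℂ) (c : Cosets 𝔫) :
    liftAt v A f c = A (fun x => f (updC v c x)) (coordAt v c) := rfl

theorem liftAt_one (h𝔫 : 𝔫 ≠ ⊥) (v : HeightOneSpectrum (𝓞 L)) : liftAt (𝔫 := 𝔫) v 1 = 1 := by
  refine LinearMap.ext fun f => funext fun c => ?_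
  show f (updC v c (coordAt v c)) = f c
  rw [updC_coordAt h𝔫]

theorem liftAt_mul (h𝔫 : 𝔫 ≠ ⊥) (v : HeightOneSpectrum (𝓞 L))
    (A B : Module.End ℂ (LCos 𝔫 v → ℂ)) : liftAt v (A * B) = liftAt v A * liftAt v B := by
  refine LinearMap.ext fun f => funext fun c => ?_
  refine congrArg (fun φ => A φ (coordAt v c)) (funext fun x => ?_)
  show B (fun y => f (updC v c y)) x =
    B (fun y => f (updC v (updC v c x) y)) (coordAt v (updC v c x))
  simp only [updC_updC h𝔫, coordAt_updC_self]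

theorem liftAt_pow (h𝔫 : 𝔫 ≠ ⊥) (v : HeightOneSpectrum (𝓞 L))
    (A : Module.End ℂ (LCos 𝔫 v → ℂ)) : ∀ n : ℕ, liftAt v (A ^ n) = liftAt v A ^ n
  | 0 => by rw [pow_zero, pow_zero, liftAt_one h𝔫]
  | n + 1 => by rw [pow_succ, pow_succ, liftAt_mul h𝔫, liftAt_pow h𝔫 v A n]

/-- A sum of translations at one place given on all representatives is the extension of the sum
at that place. -/
theorem eq_liftAt_locSum (h𝔫 : 𝔫 ≠ ⊥) {v : HeightOneSpectrum (𝓞 L)} {ι : Type*} [Finite ι]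
    (c : ι → ℂ) (k : ι → GLv v) {T : Module.End ℂ (Cosets 𝔫 → ℂ)}
    (hT : ∀ (f : Cosets 𝔫 → ℂ) (g : GAf L),
      T f (g : Cosets 𝔫) = ∑ᶠ i, c i * f ((g * atPlace v (k i) : GAf L) : Cosets 𝔫)) :
    T = liftAt v (locSum 𝔫 v c k) := by
  refine LinearMap.ext fun f => funext fun q => ?_
  set g := q.out * atPlace v ((compAt v q.out)⁻¹ * (coordAt v q).out) with hg
  have hgq : (g : Cosets 𝔫) = q := by
    have := updC_coordAt h𝔫 v q
    rwa [updC] at this
  conv_lhs => rw [← hgq, hT]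
  show _ = ∑ᶠ i, c i * f (updC v q (((coordAt v q).out * k i : GLv v) : LCos 𝔫 v))
  refine finsum_congr fun i => ?_
  rw [mk_mul_atPlace h𝔫, hgq]
  congr 3
  rw [hg, map_mul, compAt_atPlace_self, mul_inv_cancel_left]

theorem conj_mem_locLevel {v : HeightOneSpectrum (𝓞 L)} {k : GLv v} (hk : k ∈ locInt v) {u : GLv v}
    (hu : u ∈ locLevel 𝔫 v) : k⁻¹ * u * k ∈ locLevel 𝔫 v := by
  obtain ⟨a, ha, z, hz, rfl⟩ := Subgroup.mem_sup_of_normal_right.mp hu
  have e : k⁻¹ * (a * z) * k = k⁻¹ * a * k * z := by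
    have := Subgroup.mem_center_iff.mp hz k
    calc k⁻¹ * (a * z) * k = k⁻¹ * a * (z * k) := by group
      _ = _ := by rw [← this]; group
  rw [e]
  refine mul_mem (Subgroup.mem_sup_left ?_) (Subgroup.mem_sup_right hz)
  obtain ⟨b, hb, rfl⟩ := Subgroup.mem_map.mp ha
  obtain ⟨k, rfl⟩ := hk
  rw [← map_inv, ← map_mul, ← map_mul]
  exact Subgroup.mem_map_of_mem _ (by simpa using (MonoidHom.normal_ker _).conj_mem b hb k⁻¹)

theorem rightOp_atPlace_apply (h𝔫 : 𝔫 ≠ ⊥) {v : HeightOneSpectrum (𝓞 L)} {k : GLv v}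
    (hk : k ∈ locInt v) (f : Cosets 𝔫 → ℂ) (g : GAf L) :
    rightOp 𝔫 (atPlace v k) f (g : Cosets 𝔫) = f ((g * atPlace v k : GAf L) : Cosets 𝔫) := by
  show f _ = f _
  congr 1
  rw [mk_mul_atPlace h𝔫, mk_mul_atPlace h𝔫, QuotientGroup.out_eq']
  congr 1
  have hu : (compAt v (g : Cosets 𝔫).out)⁻¹ * compAt v g ∈ locLevel 𝔫 v := by
    rw [← map_inv, ← map_mul]
    exact levelGroup_le_comap v (QuotientGroup.eq.mp (QuotientGroup.out_eq' _))
  rw [QuotientGroup.eq, mul_inv_rev, show k⁻¹ * (compAt v (g : Cosets 𝔫).out)⁻¹ * (compAt v g * k) =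
    k⁻¹ * ((compAt v (g : Cosets 𝔫).out)⁻¹ * compAt v g) * k by group]
  exact conj_mem_locLevel hk hu

theorem upperTri_mem_locInt (v : HeightOneSpectrum (𝓞 L)) (b : 𝓞 L) :
    upperTri (1 : (v.adicCompletion L)ˣ) (loc v (b : L)) 1 ∈ locInt v :=
  ⟨upperTri 1 (algebraMap (𝓞 L) (v.adicCompletionIntegers L) b) 1,
    Units.ext (Matrix.ext fun i j => by fin_cases i <;> fin_cases j <;> rfl)⟩

theorem psiOp_eq_liftAt (h𝔫 : 𝔫 ≠ ⊥) (v : HeightOneSpectrum (𝓞 L))
    (ψ : AddChar (𝓞 L ⧸ v.asIdeal) ℂ) : psiOp 𝔫 v ψ = liftAt v (locPsi 𝔫 v ψ) := by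
  refine eq_liftAt_locSum h𝔫 _ _ fun f g => ?_
  let _ : Fintype (𝓞 L ⧸ v.asIdeal) := Fintype.ofFinite _
  simp only [psiOp, finsum_eq_sum_of_fintype, LinearMap.smul_apply, LinearMap.coe_sum,
    Finset.sum_apply, Pi.smul_apply, smul_eq_mul, Finset.mul_sum]
  refine Finset.sum_congr rfl fun b _ => ?_
  rw [transl, rightOp_atPlace_apply h𝔫 (upperTri_mem_locInt v _), ← mul_assoc]
  rfl

theorem mem_locInt_of_entries {v : HeightOneSpectrum (𝓞 L)} (g : GLv v)
    (h : ∀ i j, Valued.v ((g : Matrix (Fin 2) (Fin 2) (v.adicCompletion L)) i j) ≤ 1)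
    (hd : Valued.v (g : Matrix (Fin 2) (Fin 2) (v.adicCompletion L)).det = 1) : g ∈ locInt v := by
  let A : Matrix (Fin 2) (Fin 2) (v.adicCompletionIntegers L) := Matrix.of fun i j => ⟨_, h i j⟩
  have hA : A.map (v.adicCompletionIntegers L).toSubring.subtype =
      (g : Matrix (Fin 2) (Fin 2) (v.adicCompletion L)) := Matrix.ext fun i j => rfl
  have hu : IsUnit A.det := by
    refine HeightOneSpectrum.adicCompletionIntegers.isUnit_iff_valued_eq_one.mpr ?_
    show Valued.v ((v.adicCompletionIntegers L).toSubring.subtype A.det) = 1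
    rw [RingHom.map_det, RingHom.mapMatrix_apply, hA, hd]
  exact ⟨Matrix.GeneralLinearGroup.mk'' A hu, Units.ext hA⟩

theorem v4Op_eq_liftAt (h𝔫 : 𝔫 ≠ ⊥) {v : HeightOneSpectrum (𝓞 L)} (h3 : (3 : 𝓞 L) ∈ v.asIdeal) :
    v4Op 𝔫 v = liftAt v (locV4 𝔫 v) := by
  have h2 : Valued.v (2 : v.adicCompletion L) = 1 := by
    rw [← map_ofNat (loc v) 2, valued_loc, show (2 : L) = algebraMap (𝓞 L) L 2 from (map_ofNat _ 2).symm,
      HeightOneSpectrum.valuation_of_algebraMap]
    refine (v.intValuation_eq_one_iff_mem_primeCompl 2).mpr fun h => v.isPrime.ne_top ?_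
    refine (Ideal.eq_top_iff_one _).mpr ?_
    have := v.asIdeal.sub_mem h3 h
    rwa [show (3 : 𝓞 L) - 2 = 1 by norm_num] at this
  have hI : ∀ a b c d : v.adicCompletion L, Valued.v a ≤ 1 → Valued.v b ≤ 1 → Valued.v c ≤ 1 →
      Valued.v d ≤ 1 → ∀ h : Matrix.det !![a, b; c, d] ≠ 0, Valued.v (a * d - b * c) = 1 →
      Matrix.GeneralLinearGroup.mkOfDetNeZero _ h ∈ locInt v := by
    intro a b c d ha hb hc hd h hdet
    refine mem_locInt_of_entries _ (fun i j => ?_) ?_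
    · show Valued.v ((!![a, b; c, d] : Matrix _ _ _) i j) ≤ 1
      fin_cases i <;> fin_cases j <;> simpa
    · show Valued.v (Matrix.det !![a, b; c, d]) = 1
      rwa [Matrix.det_fin_two_of]
  have hm : Valued.v (-1 : v.adicCompletion L) ≤ 1 := by rw [Valuation.map_neg, map_one]
  have hi := hI 0 (-1) 1 0 (by simp) hm (map_one _).le (by simp) (det_v4_i v) (by simp)
  have hj := hI 1 1 1 (-1) (map_one _).le (map_one _).le (map_one _).le hm (det_v4_j v)
    (by rw [show (1 : v.adicCompletion L) * -1 - 1 * 1 = -2 by ring, Valuation.map_neg, h2])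
  have hk := hI 1 (-1) (-1) (-1) (map_one _).le hm hm hm (det_v4_k v)
    (by rw [show (1 : v.adicCompletion L) * -1 - -1 * -1 = -2 by ring, Valuation.map_neg, h2])
  have h1 : rightOp 𝔫 (1 : GAf L) = rightOp 𝔫 (atPlace v 1) := by rw [map_one]
  refine eq_liftAt_locSum h𝔫 _ _ fun f g => ?_
  simp only [v4Op, h1, finsum_eq_sum_of_fintype, Fin.sum_univ_four, LinearMap.smul_apply,
    LinearMap.add_apply, Pi.smul_apply, Pi.add_apply, rightOp_atPlace_apply h𝔫 (one_mem _),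
    rightOp_atPlace_apply h𝔫 hi, rightOp_atPlace_apply h𝔫 hj, rightOp_atPlace_apply h𝔫 hk,
    smul_eq_mul, mul_add]
  rfl

theorem heckeOp_eq_liftAt (h𝔫 : 𝔫 ≠ ⊥) {v : HeightOneSpectrum (𝓞 L)} (hv : ¬ 𝔫 ≤ v.asIdeal) :
    heckeOp 𝔫 v = liftAt v (locHecke 𝔫 v) := by
  have x : XInf L := fun _ => ⟨0, 1, one_pos⟩
  set A : Module.End ℂ (Cosets 𝔫 → ℂ) := liftAt v
    (locSum 𝔫 v (fun _ : (𝓞 L ⧸ v.asIdeal) ⊕ Unit => 1)
      (Sum.elim (fun b => upperTri (piLoc v) (resLift v b) 1) fun _ => upperTri 1 0 (piLoc v))) with hA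
  have e : locSum 𝔫 v (fun _ : (𝓞 L ⧸ v.asIdeal) ⊕ Unit => (1 : ℂ))
      (Sum.elim (fun b => upperTri (piLoc v) (resLift v b) 1) fun _ => upperTri 1 0 (piLoc v)) =
      locHecke 𝔫 v := by
    refine LinearMap.ext fun f => funext fun q => ?_
    let _ : Fintype (𝓞 L ⧸ v.asIdeal) := Fintype.ofFinite _
    simp [locHecke, locSum, finsum_eq_sum_of_fintype, Fintype.sum_sum_type]
  rw [← e]
  refine eq_liftAt_locSum h𝔫 _ _ fun f g => ?_
  rw [heckeOp_mk h𝔫 hv f g x]
  let _ : Fintype (𝓞 L ⧸ v.asIdeal) := Fintype.ofFinite _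
  simp [heckeT, finsum_eq_sum_of_fintype, Fintype.sum_sum_type, resLift]

/-! ### Products -/

/-- A list of operators at places. -/
abbrev OpList (𝔫 : Ideal (𝓞 L)) :=
  List (Σ v : HeightOneSpectrum (𝓞 L), Module.End ℂ (LCos 𝔫 v → ℂ))

/-- The product of the extensions. -/
def liftProd (l : OpList 𝔫) : Module.End ℂ (Cosets 𝔫 → ℂ) :=
  (l.map fun p => liftAt p.1 p.2).prod

open Classical in
/-- The product of the operators at one place. -/
def opsAt : OpList 𝔫 → ∀ v : HeightOneSpectrum (𝓞 L), Module.End ℂ (LCos 𝔫 v → ℂ)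
  | [], _ => 1
  | p :: l, v => if h : p.1 = v then (h ▸ p.2) * opsAt l v else opsAt l v

theorem opsAt_cons_self (v : HeightOneSpectrum (𝓞 L)) (A : Module.End ℂ (LCos 𝔫 v → ℂ))
    (l : OpList 𝔫) : opsAt (⟨v, A⟩ :: l) v = A * opsAt l v := by
  rw [opsAt, dif_pos rfl]

theorem opsAt_cons_ne {v w : HeightOneSpectrum (𝓞 L)} (h : v ≠ w)
    (A : Module.End ℂ (LCos 𝔫 v → ℂ)) (l : OpList 𝔫) : opsAt (⟨v, A⟩ :: l) w = opsAt l w := by
  rw [opsAt, dif_neg h]

theorem opsAt_append (l l' : OpList 𝔫) (v : HeightOneSpectrum (𝓞 L)) :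
    opsAt (l ++ l') v = opsAt l v * opsAt l' v := by
  induction l with
  | nil => simp [opsAt]
  | cons p l ih =>
    rcases eq_or_ne p.1 v with rfl | h
    · obtain ⟨w, A⟩ := p
      rw [List.cons_append, opsAt_cons_self, opsAt_cons_self, ih, mul_assoc]
    · obtain ⟨w, A⟩ := p
      rw [List.cons_append, opsAt_cons_ne h, opsAt_cons_ne h, ih]

theorem opsAt_eq_one (l : OpList 𝔫) (v : HeightOneSpectrum (𝓞 L)) (h : ∀ p ∈ l, p.1 ≠ v) :
    opsAt l v = 1 := by
  induction l with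
  | nil => rfl
  | cons p l ih =>
    obtain ⟨w, A⟩ := p
    rw [opsAt_cons_ne (h _ List.mem_cons_self), ih fun q hq => h q (List.mem_cons_of_mem _ hq)]

theorem eventually_opsAt_eq_one (l : OpList 𝔫) : ∀ᶠ v in cofinite, opsAt l v = 1 :=
  eventually_cofinite.mpr ((l.map Sigma.fst).finite_toSet.subset fun v hv => by
    by_contra h
    exact hv (opsAt_eq_one l v fun p hp he => h (List.mem_map.mpr ⟨p, hp, he⟩)))

open Classical in
theorem lKer_one {v : HeightOneSpectrum (𝓞 L)} (a b : LCos 𝔫 v) :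
    lKer (1 : Module.End ℂ (LCos 𝔫 v → ℂ)) a b = if a = b then 1 else 0 := by
  rw [lKer, Module.End.one_apply, Pi.single_apply]

theorem eventually_lKer_eq_one (h𝔫 : 𝔫 ≠ ⊥) (l : OpList 𝔫) (a b : Cosets 𝔫) :
    ∀ᶠ v in cofinite, lKer (opsAt l v) (coordAt v a) (coordAt v b) = 1 := by
  filter_upwards [eventually_opsAt_eq_one l, eventually_coordAt_eq_base h𝔫 a,
    eventually_coordAt_eq_base h𝔫 b] with v h1 h2 h3
  rw [h1, h2, h3, lKer_one, if_pos rfl]

open Classical in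
/-- The kernel of a product of operators at places factors over the places. -/
theorem finKer_liftProd (h𝔫 : 𝔫 ≠ ⊥) (l : OpList 𝔫) (a b : Cosets 𝔫) :
    finKer (liftProd l) a b = ∏ᶠ v, lKer (opsAt l v) (coordAt v a) (coordAt v b) := by
  induction l generalizing a with
  | nil =>
    simp only [liftProd, List.map_nil, List.prod_nil, opsAt, finKer, lKer_one,
      Module.End.one_apply, Pi.single_apply]
    by_cases h : a = b
    · subst h; simp
    · rw [if_neg h]
      obtain ⟨v, hv⟩ : ∃ v, coordAt v a ≠ coordAt v b := by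
        by_contra! hc; exact h (coordAt_injective h𝔫 hc)
      refine (finprod_eq_zero _ v (by simp [hv]) ?_).symm
      refine (eventually_cofinite.mp ((eventually_coordAt_eq_base h𝔫 a).and
        (eventually_coordAt_eq_base h𝔫 b))).subset fun w hw => ?_
      simp only [Set.mem_ofPred_eq]
      intro hc
      exact hw (if_pos (hc.1.trans hc.2.symm))
  | cons p l ih =>
    obtain ⟨v, A⟩ := p
    have hfin : ∀ (l : OpList 𝔫) (a : Cosets 𝔫), Function.HasFiniteMulSupport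
        fun w => lKer (opsAt l w) (coordAt w a) (coordAt w b) := fun l a =>
      (eventually_cofinite.mp (eventually_lKer_eq_one h𝔫 l a b)).subset fun w hw => hw
    have hsplit : ∀ (l : OpList 𝔫) (a : Cosets 𝔫),
        ∏ᶠ w, lKer (opsAt l w) (coordAt w a) (coordAt w b) =
          lKer (opsAt l v) (coordAt v a) (coordAt v b) *
            ∏ᶠ (w) (_ : w ∈ ({v}ᶜ : Set _)), lKer (opsAt l w) (coordAt w a) (coordAt w b) :=
      fun l a => by
      rw [← finprod_mem_univ, ← Set.union_compl_self {v}, finprod_mem_union'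
        disjoint_compl_right ((hfin l a).subset Set.inter_subset_right)
        ((hfin l a).subset Set.inter_subset_right), finprod_mem_singleton]
    set R := ∏ᶠ (w) (_ : w ∈ ({v}ᶜ : Set _)), lKer (opsAt l w) (coordAt w a) (coordAt w b)
    have key : (fun x : LCos 𝔫 v => liftProd l (Pi.single b 1) (updC v a x)) =
        R • opsAt l v (Pi.single (coordAt v b) 1) := by
      funext x
      show finKer (liftProd l) (updC v a x) b = R * lKer (opsAt l v) x (coordAt v b)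
      rw [ih, hsplit, coordAt_updC_self, mul_comm]
      congr 1
      exact finprod_mem_congr rfl fun w hw => by rw [coordAt_updC_ne hw]
    have hR : ∏ᶠ (w) (_ : w ∈ ({v}ᶜ : Set _)),
        lKer (opsAt (⟨v, A⟩ :: l) w) (coordAt w a) (coordAt w b) = R :=
      finprod_mem_congr rfl fun w hw => by rw [opsAt_cons_ne (Ne.symm hw)]
    show A (fun x => liftProd l (Pi.single b 1) (updC v a x)) (coordAt v a) = _
    rw [key, map_smul, hsplit, opsAt_cons_self, hR, mul_comm _ R]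
    rfl

end FermatAgent.LT
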