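import Mathlib
import Fermat.Agent.LT.Descent.GeometricDefs
import Fermat.Agent.LT.Descent.Geom.LocalDefs
import Fermat.Agent.LT.Descent.Local.Inert.Fund
import Fermat.Agent.LT.Descent.Facts.Places

set_option autoImplicit false

/-!
# The data of the orbital sums at a place of `K`
-/

noncomputable section

open NumberField IsDedekindDomain WithZero
open scoped MatrixGroups

namespace FermatAgent.LT

variable (S : Setup)

/-- The places of `F` over a place of `K`. -/
abbrev Setup.OverK (v : HeightOneSpectrum (𝓞 S.K)) :=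
  {w : HeightOneSpectrum (𝓞 S.F) // S.underK w = v}

/-- The embedding of completions. -/
def Setup.inclLoc (w : HeightOneSpectrum (𝓞 S.F)) :
    (S.underK w).adicCompletion S.K →+* w.adicCompletion S.F :=
  letI : Algebra S.K S.F := S.inclKF.toRingHom.toAlgebra
  letI : Algebra (𝓞 S.K) (𝓞 S.F) := S.inclInt.toAlgebra
  haveI : IsScalarTower (𝓞 S.K) S.K S.F := IsScalarTower.of_algebraMap_eq fun _ => rfl
  haveI : IsScalarTower (𝓞 S.K) (𝓞 S.F) S.F := IsScalarTower.of_algebraMap_eq fun _ => rfl
  haveI : Module.IsTorsionFree (𝓞 S.K) (𝓞 S.F) :=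
    Module.isTorsionFree_iff_algebraMap_injective.mpr fun _ _ h => RingOfIntegers.coe_injective
      (S.inclKF.injective (congrArg (fun z : 𝓞 S.F => (z : S.F)) h))
  haveI : w.asIdeal.LiesOver (S.underK w).asIdeal := ⟨rfl⟩
  ((HeightOneSpectrum.adicCompletion.equiv S.F w).symm.toRingHom.comp
    (UniformSpace.Completion.mapRingHom
      (algebraMap (WithVal ((S.underK w).valuation S.K)) (WithVal (w.valuation S.F)))
      (HeightOneSpectrum.uniformContinuous_algebraMap_liesOver
        (K := S.K) S.F (S.underK w) w).continuous)).comp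
      (HeightOneSpectrum.adicCompletion.equiv S.K (S.underK w)).toRingHom

theorem Setup.inclLoc_loc (w : HeightOneSpectrum (𝓞 S.F)) (x : S.K) :
    S.inclLoc w (loc (S.underK w) x) = loc w (S.inclKF x) := by
  let _ : Algebra S.K S.F := S.inclKF.toRingHom.toAlgebra
  let _ : Algebra (𝓞 S.K) (𝓞 S.F) := S.inclInt.toAlgebra
  have : IsScalarTower (𝓞 S.K) S.K S.F := IsScalarTower.of_algebraMap_eq fun _ => rfl
  have : IsScalarTower (𝓞 S.K) (𝓞 S.F) S.F := IsScalarTower.of_algebraMap_eq fun _ => rfl
  have : Module.IsTorsionFree (𝓞 S.K) (𝓞 S.F) :=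
    Module.isTorsionFree_iff_algebraMap_injective.mpr fun _ _ h => RingOfIntegers.coe_injective
      (S.inclKF.injective (congrArg (fun z : 𝓞 S.F => (z : S.F)) h))
  have : w.asIdeal.LiesOver (S.underK w).asIdeal := ⟨rfl⟩
  change (HeightOneSpectrum.adicCompletion.equiv S.F w).symm _ = _
  rw [RingEquiv.symm_apply_eq]
  exact UniformSpace.Completion.mapRingHom_coe
    (HeightOneSpectrum.uniformContinuous_algebraMap_liesOver (K := S.K) S.F (S.underK w) w).continuous _

/-- The identification of completions at equal places. -/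
def placeCast {L : Type*} [Field L] [NumberField L] {v v' : HeightOneSpectrum (𝓞 L)} :
    v = v' → (v.adicCompletion L →+* v'.adicCompletion L)
  | rfl => RingHom.id _

/-- The embedding of completions at a place over `v`. -/
def Setup.inclOver {v : HeightOneSpectrum (𝓞 S.K)} (w : S.OverK v) :
    v.adicCompletion S.K →+* w.1.adicCompletion S.F :=
  (S.inclLoc w.1).comp (placeCast w.2.symm)

/-- The orbit data: a regular element of `GL₂(K)` and an element of norm it. -/
structure Setup.IsNormPair (σ : S.F ≃+* S.F) (t : GL (Fin 2) S.K) (δ : GL (Fin 2) S.F) : Prop where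
  regular : (t : Matrix (Fin 2) (Fin 2) S.K).trace ^ 2 ≠ 4 * (t : Matrix (Fin 2) (Fin 2) S.K).det
  norm : δ * Matrix.GeneralLinearGroup.map σ.toRingHom δ *
      Matrix.GeneralLinearGroup.map σ.toRingHom (Matrix.GeneralLinearGroup.map σ.toRingHom δ) =
    Matrix.GeneralLinearGroup.map S.inclKF.toRingHom t

variable (v : HeightOneSpectrum (𝓞 S.K))

/-- The cosets of `F` over `v`. -/
abbrev Setup.XF := ∀ w : S.OverK v, LCos (S.levelIdeal S.F) w.1

instance : MulAction (GLv v) (S.XF v) :=
  MulAction.compHom (S.XF v)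
    (MonoidHom.pi fun w : S.OverK v => Matrix.GeneralLinearGroup.map (S.inclOver w))

variable {S}

/-- The action of the automorphism on the cosets at a place. -/
def galLCos (σ : S.F ≃+* S.F) (w : HeightOneSpectrum (𝓞 S.F))
    (q : LCos (S.levelIdeal S.F) (galPlace σ w)) : LCos (S.levelIdeal S.F) w :=
  ((Matrix.GeneralLinearGroup.map (galLoc σ w) q.out : GLv w) : LCos (S.levelIdeal S.F) w)

/-- The next place over `v`. -/
def Setup.nextOver {σ : S.F ≃+* S.F} (hσ : S.IsGalGen σ) (w : S.OverK v) : S.OverK v :=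
  ⟨galPlace σ w.1, (S.underK_galPlace hσ w.1).trans w.2⟩

open Classical in
/-- The local operator at a place of `F` of the level and a word. -/
def Setup.opF (S : Setup) (Ψ : S.PsiData) (l : List (HeightOneSpectrum (𝓞 S.F)))
    (w : HeightOneSpectrum (𝓞 S.F)) :
    Module.End ℂ (LCos (S.levelIdeal S.F) w → ℂ) :=
  locLevelOp _ w (S.badPlaces S.F) (S.psiF Ψ) * locHecke _ w ^ l.count w

/-- The base change of the local Hecke operator. -/
def Setup.locBC (S : Setup) (v : HeightOneSpectrum (𝓞 S.K)) (w : HeightOneSpectrum (𝓞 S.F)) :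
    Module.End ℂ (LCos (S.levelIdeal S.K) v → ℂ) :=
  if Ideal.absNorm w.asIdeal = Ideal.absNorm v.asIdeal then locHecke _ v
  else locHecke _ v ^ 3 - (3 * Ideal.absNorm v.asIdeal : ℂ) • locHecke _ v

open Classical in
/-- The local operator at a place of `K` of the level and the matching word. -/
def Setup.opK (S : Setup) (Ψ : S.PsiData) (l : List (HeightOneSpectrum (𝓞 S.F)))
    (v : HeightOneSpectrum (𝓞 S.K)) :
    Module.End ℂ (LCos (S.levelIdeal S.K) v → ℂ) :=
  locLevelOp _ v (S.badPlaces S.K) Ψ *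
    ((l.filter fun w => decide (S.underK w = v)).map (S.locBC v)).prod

/-- The twisted local kernel over `v`. -/
def Setup.bF (S : Setup) (Ψ : S.PsiData) (l : List (HeightOneSpectrum (𝓞 S.F)))
    {σ : S.F ≃+* S.F} (hσ : S.IsGalGen σ) (δ : GL (Fin 2) S.F) (v : HeightOneSpectrum (𝓞 S.K))
    (x : S.XF v) : ℂ :=
  ∏ᶠ w : S.OverK v, lKer (S.opF Ψ l w.1) (x w)
    (locMat w.1 δ • galLCos σ w.1 (x (S.nextOver v hσ w)))

/-- The local kernel at `v`. -/
def Setup.bK (S : Setup) (Ψ : S.PsiData) (l : List (HeightOneSpectrum (𝓞 S.F)))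
    (t : GL (Fin 2) S.K) (v : HeightOneSpectrum (𝓞 S.K))
    (y : LCos (S.levelIdeal S.K) v) : ℂ :=
  lKer (S.opK Ψ l v) y (locMat v t • y)

/-- The centraliser of `t` at `v`. -/
def torusAt (t : GL (Fin 2) S.K) : Subgroup (GLv v) := Subgroup.centralizer {locMat v t}

/-- The image of a coset of `K` in the cosets of `F` at a place over it. -/
def Setup.inclLCos {v : HeightOneSpectrum (𝓞 S.K)} (w : S.OverK v)
    (y : LCos (S.levelIdeal S.K) v) : LCos (S.levelIdeal S.F) w.1 :=
  ((Matrix.GeneralLinearGroup.map (S.inclOver w) y.out : GLv w.1) : LCos (S.levelIdeal S.F) w.1)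

/-- Integrality up to scalars. -/
def IsUnitElt (g : GLv v) : Prop :=
  ∃ c : v.adicCompletion S.K, Valued.v (c ^ 2 * (g : Matrix (Fin 2) (Fin 2) _).det) = 1 ∧
    Valued.v (c * (g : Matrix (Fin 2) (Fin 2) _).trace) ≤ 1

/-- The bounded part of the centraliser. -/
def torusU (t : GL (Fin 2) S.K) : Subgroup (GLv v) :=
  Subgroup.closure {g | g ∈ torusAt v t ∧ IsUnitElt v g}

end FermatAgent.LT
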