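import Mathlib
import Fermat.Agent.LT.Descent.Geom.Lift
import Fermat.Agent.LT.Descent.Geom.LocalSetup
import Fermat.Agent.LT.Descent.Facts.Places

set_option autoImplicit false

/-!
# The kernels of the two sides factor over the places
-/

noncomputable section

open NumberField IsDedekindDomain Filter
open scoped MatrixGroups

namespace FermatAgent.LT

/-- An operator with its place. -/
abbrev opPair {L : Type*} [Field L] [NumberField L] {𝔫 : Ideal (𝓞 L)}
    (v : HeightOneSpectrum (𝓞 L)) (A : Module.End ℂ (LCos 𝔫 v → ℂ)) :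
    Σ u : HeightOneSpectrum (𝓞 L), Module.End ℂ (LCos 𝔫 u → ℂ) := ⟨v, A⟩

section General

variable {L : Type*} [Field L] [NumberField L] {𝔫 : Ideal (𝓞 L)}
  (s : Finset (HeightOneSpectrum (𝓞 L)))
  (ψ : ∀ v : HeightOneSpectrum (𝓞 L), AddChar (𝓞 L ⧸ v.asIdeal) ℂ)

/-- The level operators as a list. -/
def levelList : OpList 𝔫 := s.toList.map fun v => opPair v (locLevelOp 𝔫 v s ψ)

theorem levelOp_eq_liftProd (h𝔫 : 𝔫 ≠ ⊥) :
    levelOp 𝔫 s ψ = liftProd (levelList (𝔫 := 𝔫) s ψ) := by
  rw [levelOp, liftProd, levelList, List.map_map]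
  congr 1
  refine List.map_congr_left fun v hv => ?_
  have hvs := Finset.mem_toList.mp hv
  simp only [Function.comp_apply, locLevelOp, hvs, if_true]
  split_ifs with h3
  · rw [liftAt_mul h𝔫, v4Op_eq_liftAt h𝔫 h3, psiOp_eq_liftAt h𝔫]
  · rw [psiOp_eq_liftAt h𝔫]

open Classical in
theorem opsAt_map_nodup (f : ∀ v, Module.End ℂ (LCos 𝔫 v → ℂ))
    (v : HeightOneSpectrum (𝓞 L)) : ∀ l : List (HeightOneSpectrum (𝓞 L)), l.Nodup →
      opsAt (l.map fun w => opPair w (f w)) v = if v ∈ l then f v else 1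
  | [], _ => by simp [opsAt]
  | w :: l, h => by
    rw [List.nodup_cons] at h
    rw [List.map_cons]
    rcases eq_or_ne w v with rfl | hw
    · rw [opsAt_cons_self, opsAt_map_nodup f w l h.2, if_neg h.1, mul_one]
      simp
    · rw [opsAt_cons_ne hw, opsAt_map_nodup f v l h.2]
      simp [hw.symm]

open Classical in
theorem opsAt_levelList (v : HeightOneSpectrum (𝓞 L)) :
    opsAt (levelList (𝔫 := 𝔫) s ψ) v = locLevelOp 𝔫 v s ψ := by
  rw [levelList, opsAt_map_nodup (fun w => locLevelOp 𝔫 w s ψ) v _ s.nodup_toList]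
  split_ifs with h
  · rfl
  · rw [Finset.mem_toList] at h
    rw [locLevelOp, if_neg h]

open Classical in
theorem opsAt_heckeList (v : HeightOneSpectrum (𝓞 L)) :
    ∀ l : List (HeightOneSpectrum (𝓞 L)),
      opsAt (l.map fun w => opPair w (locHecke 𝔫 w)) v = locHecke 𝔫 v ^ l.count v
  | [] => by simp [opsAt]
  | w :: l => by
    rw [List.map_cons]
    rcases eq_or_ne w v with rfl | hw
    · rw [opsAt_cons_self, opsAt_heckeList w l, List.count_cons_self, pow_succ']
    · rw [opsAt_cons_ne hw, opsAt_heckeList v l, List.count_cons_of_ne hw]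

theorem heckeWord_eq_liftProd (h𝔫 : 𝔫 ≠ ⊥) (l : List (HeightOneSpectrum (𝓞 L)))
    (hl : ∀ w ∈ l, ¬ 𝔫 ≤ w.asIdeal) :
    heckeWord 𝔫 l = liftProd (l.map fun w => opPair w (locHecke 𝔫 w)) := by
  rw [heckeWord, liftProd, List.map_map]
  congr 1
  exact List.map_congr_left fun w hw => heckeOp_eq_liftAt h𝔫 (hl w hw)

omit s ψ in
theorem liftProd_append (l l' : OpList 𝔫) : liftProd (l ++ l') = liftProd l * liftProd l' := by
  rw [liftProd, liftProd, liftProd, List.map_append, List.prod_append]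

end General

variable (S : Setup) (Ψ : S.PsiData)

theorem Setup.not_levelIdeal_le {L : IntermediateField ℚ (AlgebraicClosure ℚ)} [NumberField L]
    {w : HeightOneSpectrum (𝓞 L)} (hw : ((3 * S.m : ℕ) : 𝓞 L) ∉ w.asIdeal) :
    ¬ S.levelIdeal L ≤ w.asIdeal := fun h =>
  hw (h (Ideal.le_radical (Ideal.mem_span_singleton_self _)))

/-- The kernel of the operator on `F` is the product of the local kernels. -/
theorem Setup.finKer_levelOpF (l : List (HeightOneSpectrum (𝓞 S.F)))
    (hl : ∀ w ∈ l, ((3 * S.m : ℕ) : 𝓞 S.F) ∉ w.asIdeal) (a b : Cosets (S.levelIdeal S.F)) :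
    finKer (S.levelOpF Ψ * heckeWord _ l) a b =
      ∏ᶠ w, lKer (S.opF Ψ l w) (coordAt w a) (coordAt w b) := by
  have h := S.levelIdeal_ne_bot S.F
  rw [Setup.levelOpF, levelOp_eq_liftProd _ _ h,
    heckeWord_eq_liftProd h l fun w hw => S.not_levelIdeal_le (hl w hw), ← liftProd_append,
    finKer_liftProd h]
  refine finprod_congr fun w => ?_
  rw [opsAt_append, opsAt_levelList, opsAt_heckeList]
  rfl

theorem Setup.not_levelIdeal_underK {w : HeightOneSpectrum (𝓞 S.F)}
    (hw : ((3 * S.m : ℕ) : 𝓞 S.F) ∉ w.asIdeal) :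
    ((3 * S.m : ℕ) : 𝓞 S.K) ∉ (S.underK w).asIdeal := fun h => hw (by
  have h' : S.inclInt ((3 * S.m : ℕ) : 𝓞 S.K) ∈ w.asIdeal := h
  rwa [map_natCast] at h')

theorem Setup.bcOp_eq_liftAt {w : HeightOneSpectrum (𝓞 S.F)}
    (hw : ((3 * S.m : ℕ) : 𝓞 S.F) ∉ w.asIdeal) :
    S.bcOp w = liftAt (S.underK w) (S.locBC (S.underK w) w) := by
  have h := S.levelIdeal_ne_bot S.K
  rw [Setup.bcOp, Setup.locBC, heckeOp_eq_liftAt h (S.not_levelIdeal_le (S.not_levelIdeal_underK hw))]
  split_ifs
  · rfl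
  · rw [map_sub, map_smul, liftAt_pow h]

open Classical in
theorem Setup.opsAt_bcList (v : HeightOneSpectrum (𝓞 S.K))
    (l : List (HeightOneSpectrum (𝓞 S.F))) :
    opsAt (l.map fun w => opPair (S.underK w) (S.locBC (S.underK w) w)) v =
      ((l.filter fun w => decide (S.underK w = v)).map (S.locBC v)).prod := by
  induction l with
  | nil => simp [opsAt]
  | cons w l ih =>
    rw [List.map_cons]
    rcases eq_or_ne (S.underK w) v with rfl | hw
    · rw [opsAt_cons_self, ih, List.filter_cons_of_pos (by simp), List.map_cons, List.prod_cons]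
    · rw [opsAt_cons_ne hw, ih, List.filter_cons_of_neg (by simp [hw])]

/-- The kernel of the operator on `K` is the product of the local kernels. -/
theorem Setup.finKer_levelOpK (l : List (HeightOneSpectrum (𝓞 S.F)))
    (hl : ∀ w ∈ l, ((3 * S.m : ℕ) : 𝓞 S.F) ∉ w.asIdeal) (a b : Cosets (S.levelIdeal S.K)) :
    finKer (S.levelOpK Ψ * (l.map S.bcOp).prod) a b =
      ∏ᶠ v, lKer (S.opK Ψ l v) (coordAt v a) (coordAt v b) := by
  have h := S.levelIdeal_ne_bot S.K
  have e : (l.map S.bcOp).prod =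
      liftProd (l.map fun w => opPair (S.underK w) (S.locBC (S.underK w) w)) := by
    rw [liftProd, List.map_map]
    congr 1
    exact List.map_congr_left fun w hw => S.bcOp_eq_liftAt (hl w hw)
  rw [Setup.levelOpK, levelOp_eq_liftProd _ _ h, e, ← liftProd_append, finKer_liftProd h]
  refine finprod_congr fun v => ?_
  rw [opsAt_append, opsAt_levelList, S.opsAt_bcList v l]
  rfl

end FermatAgent.LT
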