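import Mathlib
import Fermat.Agent.LT.Descent.Local.Inert.Fund

set_option autoImplicit false

/-!
# Fibres and sums on restricted products of orbit spaces

For every index `v` a commutative group `T v` acts on a pointed set `X v` with stabilisers in
`U v`.  There is an equivariant map to `T v / U v` sending the point to the class of one; the fibre
over one is a fundamental set.  Sums of products of invariant functions over a fibre of the
restricted product are products of the sums over these sets.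
-/

noncomputable section

open Filter
open scoped Pointwise

namespace FermatAgent.LT

/-- An equivariant map to the classes of `T` modulo `U`. -/
structure OrbitMap {G α : Type*} [Group G] [MulAction G α] (T U : Subgroup G) (x₀ : α) where
  /-- the map -/
  toFun : α → T ⧸ U.subgroupOf T
  map_base : toFun x₀ = ((1 : T) : T ⧸ U.subgroupOf T)
  map_smul : ∀ (g : T) (x : α), toFun ((g : G) • x) = g • toFun x

namespace OrbitMap

variable {G α : Type*} [Group G] [MulAction G α] {T U : Subgroup G} {x₀ : α}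

theorem nonempty (hstab : ∀ x : α, ∀ g ∈ T, g • x = x → g ∈ U) : Nonempty (OrbitMap T U x₀) := by
  classical
  -- representatives of the orbits, the base point representing its own
  let r : Setoid α := MulAction.orbitRel T α
  let rep : Quotient r → α := fun o => if o = Quotient.mk r x₀ then x₀ else o.out
  have hrep : ∀ x : α, ∃ g : T, (g : G) • rep (Quotient.mk r x) = x := by
    intro x
    have h : Quotient.mk r (rep (Quotient.mk r x)) = Quotient.mk r x := by
      simp only [rep]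
      split_ifs with h
      · exact h.symm
      · exact Quotient.out_eq _
    obtain ⟨g, hg⟩ := Quotient.exact h.symm
    exact ⟨g, hg⟩
  choose g hg using hrep
  refine ⟨⟨fun x => ((g x : T) : T ⧸ U.subgroupOf T), ?_, ?_⟩⟩
  · refine (QuotientGroup.eq.mpr ?_)
    rw [mul_one, Subgroup.mem_subgroupOf]
    refine inv_mem (hstab x₀ _ (g x₀).2 ?_)
    have h := hg x₀
    simp only [rep, if_pos] at h
    exact h
  · intro a x
    rw [MulAction.Quotient.smul_coe, smul_eq_mul, QuotientGroup.eq, Subgroup.mem_subgroupOf]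
    have hq : Quotient.mk r ((a : G) • x) = Quotient.mk r x := Quotient.sound ⟨a, rfl⟩
    have h1 := hg ((a : G) • x)
    rw [hq] at h1
    refine hstab (rep (Quotient.mk r x)) _ (SetLike.coe_mem _) ?_
    push_cast
    rw [mul_smul, mul_smul, hg, inv_smul_eq_iff]
    exact h1.symm

variable (Φ : OrbitMap T U x₀)

/-- The fibre over one. -/
def fibre : Set α := {x | Φ.toFun x = ((1 : T) : T ⧸ U.subgroupOf T)}

theorem base_mem : x₀ ∈ Φ.fibre := Φ.map_base

theorem isFundSet (hU : U ≤ T) : Inert.IsFundSet T U Set.univ Φ.fibre := by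
  refine ⟨Set.subset_univ _, fun u hu x hx => ?_, fun x _ => ?_, fun x hx t ht htx => ?_⟩
  · show Φ.toFun (((⟨u, hU hu⟩ : T) : G) • x) = _
    rw [Φ.map_smul, show Φ.toFun x = _ from hx, MulAction.Quotient.smul_coe, smul_eq_mul, mul_one,
      QuotientGroup.eq, mul_one]
    exact inv_mem hu
  · obtain ⟨a, ha⟩ := QuotientGroup.mk_surjective (Φ.toFun x)
    refine ⟨((a⁻¹ : T) : G), SetLike.coe_mem _, ?_⟩
    show Φ.toFun _ = _
    rw [Φ.map_smul, ← ha, MulAction.Quotient.smul_coe, smul_eq_mul, inv_mul_cancel]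
  · have h : Φ.toFun (((⟨t, ht⟩ : T) : G) • x) = ((1 : T) : T ⧸ U.subgroupOf T) := htx
    rw [Φ.map_smul, show Φ.toFun x = _ from hx, MulAction.Quotient.smul_coe, smul_eq_mul, mul_one,
      QuotientGroup.eq, mul_one, Subgroup.mem_subgroupOf] at h
    exact ⟨t, by simpa using h, rfl⟩

theorem mem_smul_fibre (a : T) (x : α) :
    x ∈ (a : G) • Φ.fibre ↔ Φ.toFun x = (a : T ⧸ U.subgroupOf T) := by
  rw [Set.mem_smul_set_iff_inv_smul_mem]
  show Φ.toFun ((a⁻¹ : T) • x) = _ ↔ _
  rw [show ((a⁻¹ : T) • x) = ((a⁻¹ : T) : G) • x from rfl, Φ.map_smul, inv_smul_eq_iff,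
    MulAction.Quotient.smul_coe, smul_eq_mul, mul_one]

theorem finsum_smul_fibre {M : Type*} [AddCommMonoid M] (a : T) {f : α → M}
    (hf : ∀ g ∈ T, ∀ x, f (g • x) = f x) :
    ∑ᶠ x ∈ (a : G) • Φ.fibre, f x = ∑ᶠ x ∈ Φ.fibre, f x :=
  (finsum_mem_eq_of_bijOn (fun x => (a : G) • x)
    ⟨fun x hx => Set.smul_mem_smul_set hx, (MulAction.injective (a : G)).injOn,
      fun y hy => by obtain ⟨x, hx, rfl⟩ := hy; exact ⟨x, hx, rfl⟩⟩
    fun x _ => (hf _ a.2 x).symm).symm

end OrbitMap

/-! ### Restricted products -/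

section RProd

variable {V : Type*} {X : V → Type*} {C : Type*} {x₀ : ∀ v, X v} (co : C → ∀ v, X v)
  (hinj : Function.Injective co)
  (hsurj : ∀ f : ∀ v, X v, (∀ᶠ v in cofinite, f v = x₀ v) → ∃ c, co c = f)
  (hev : ∀ c, ∀ᶠ v in cofinite, co c v = x₀ v)

include hinj hsurj hev

/-- Sums of products over a box of the restricted product. -/
theorem finsum_rprod {R : Type*} [CommSemiring R] [NoZeroDivisors R] [Nontrivial R]
    (Ω : ∀ v, Set (X v)) (b : ∀ v, X v → R) (hfin : ∀ v, (Ω v ∩ Function.support (b v)).Finite)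
    (hone : ∀ᶠ v in cofinite, x₀ v ∈ Ω v ∧ b v (x₀ v) = 1 ∧ ∀ x ∈ Ω v, x ≠ x₀ v → b v x = 0) :
    ({c | ∀ v, co c v ∈ Ω v} ∩ Function.support fun c => ∏ᶠ v, b v (co c v)).Finite ∧
      ∑ᶠ c ∈ {c | ∀ v, co c v ∈ Ω v}, ∏ᶠ v, b v (co c v) = ∏ᶠ v, ∑ᶠ x ∈ Ω v, b v x := by
  classical
  set s := (eventually_cofinite.mp hone).toFinset with hs_def
  have hs : ∀ v, v ∉ s → x₀ v ∈ Ω v ∧ b v (x₀ v) = 1 ∧ ∀ x ∈ Ω v, x ≠ x₀ v → b v x = 0 :=
    fun v hv => by simpa [hs_def] using hv
  set A : ∀ v, Finset (X v) := fun v => (hfin v).toFinset with hA_def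
  have hA : ∀ v x, x ∈ A v ↔ x ∈ Ω v ∧ b v x ≠ 0 := fun v x => by simp [hA_def]
  let ext' : (∀ v ∈ s, X v) → ∀ v, X v := fun p v => if hv : v ∈ s then p v hv else x₀ v
  have hexists : ∀ p : ∀ v ∈ s, X v, ∃ c, co c = ext' p := fun p =>
    hsurj _ (eventually_cofinite.mpr (s.finite_toSet.subset fun v hv => by
      by_contra h; exact hv (dif_neg h)))
  choose F hF using hexists
  -- the value on a point of the box
  have hval : ∀ c, (∀ v, v ∉ s → co c v = x₀ v) →
      ∏ᶠ v, b v (co c v) = ∏ v ∈ s, b v (co c v) := fun c hc =>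
    finprod_eq_prod_of_mulSupport_subset _ fun v hv => by
      by_contra h; exact hv (show b v (co c v) = 1 by rw [hc v h]; exact (hs v h).2.1)
  -- the support
  have hsupp : ∀ c, (∀ v, co c v ∈ Ω v) → ∏ᶠ v, b v (co c v) ≠ 0 →
      (∀ v, v ∉ s → co c v = x₀ v) ∧ ∀ v, b v (co c v) ≠ 0 := by
    intro c hc hne
    have hms : Function.HasFiniteMulSupport fun v => b v (co c v) := by
      refine ((eventually_cofinite.mp (hev c)).union s.finite_toSet).subset fun v hv => ?_
      by_contra h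
      simp only [Set.mem_union, Set.mem_ofPred_eq, not_or, not_not] at h
      exact hv (show b v (co c v) = 1 by rw [h.1]; exact (hs v h.2).2.1)
    have h0 : ∀ v, b v (co c v) ≠ 0 := fun v h => hne (finprod_eq_zero _ v h hms)
    exact ⟨fun v hv => by_contra fun h => h0 v ((hs v hv).2.2 _ (hc v) h), h0⟩
  have himg : ({c | ∀ v, co c v ∈ Ω v} ∩ Function.support fun c => ∏ᶠ v, b v (co c v)) ⊆
      F '' (s.pi A : Set (∀ v ∈ s, X v)) := by
    rintro c ⟨hc, hne⟩
    obtain ⟨hc₀, h0⟩ := hsupp c hc hne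
    refine ⟨fun v _ => co c v, Finset.mem_coe.mpr (Finset.mem_pi.mpr fun v _ =>
      (hA v _).mpr ⟨hc v, h0 v⟩), hinj ?_⟩
    rw [hF]
    funext v
    by_cases hv : v ∈ s
    · simp [ext', hv]
    · simp [ext', hv, hc₀ v hv]
  have hFbox : ∀ p ∈ s.pi A, ∀ v, co (F p) v ∈ Ω v := fun p hp v => by
    rw [hF]
    by_cases hv : v ∈ s
    · simpa [ext', hv] using ((hA v _).mp (Finset.mem_pi.mp hp v hv)).1
    · simpa [ext', hv] using (hs v hv).1
  have hFinj : Set.InjOn F (s.pi A : Set (∀ v ∈ s, X v)) := fun p _ q _ h => by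
    have h' := (hF p).symm.trans ((congrArg co h).trans (hF q))
    funext v hv
    simpa [ext', hv] using congrFun h' v
  refine ⟨((s.pi A).finite_toSet.image F).subset himg, ?_⟩
  rw [finsum_mem_eq_sum_of_inter_support_eq (t := (s.pi A).image F) _ ?_]
  · rw [Finset.sum_image hFinj]
    rw [finprod_eq_prod_of_mulSupport_subset (s := s) _ fun v hv => ?_]
    · rw [Finset.prod_congr rfl fun v _ => finsum_mem_eq_sum _ (hfin v), Finset.prod_sum]
      refine Finset.sum_congr rfl fun p _ => ?_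
      rw [hval _ fun v hv => by rw [hF]; simp [ext', hv]]
      rw [← Finset.prod_attach s fun v => b v (co (F p) v)]
      refine Finset.prod_congr rfl fun v _ => ?_
      rw [hF]
      simp [ext', v.2]
    · by_contra h
      refine hv ?_
      show ∑ᶠ x ∈ Ω v, b v x = 1
      rw [finsum_mem_eq_sum_of_inter_support_eq (t := {x₀ v}) _ ?_, Finset.sum_singleton]
      · exact (hs v h).2.1
      · ext x
        simp only [Set.mem_inter_iff, Function.mem_support, Finset.coe_singleton,
          Set.mem_singleton_iff]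
        exact ⟨fun hx => ⟨by_contra fun hne => hx.2 ((hs v h).2.2 x hx.1 hne), hx.2⟩,
          fun hx => ⟨hx.1 ▸ (hs v h).1, hx.2⟩⟩
  · ext c
    refine ⟨fun hc => ⟨?_, hc.2⟩, fun hc => ⟨?_, hc.2⟩⟩
    · simpa using himg hc
    · obtain ⟨p, hp, rfl⟩ := Finset.mem_image.mp (Finset.mem_coe.mp hc.1)
      exact hFbox p hp

/-- The sums over all fibres of an equivariant map of a product of invariant functions agree. -/
theorem finsum_fibre {R : Type*} [CommSemiring R] [NoZeroDivisors R] [Nontrivial R]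
    {G : V → Type*} [∀ v, Group (G v)] [∀ v, MulAction (G v) (X v)] {T U : ∀ v, Subgroup (G v)}
    (Φ : ∀ v, OrbitMap (T v) (U v) (x₀ v)) (b : ∀ v, X v → R)
    (hinv : ∀ v, ∀ g ∈ T v, ∀ x, b v (g • x) = b v x)
    (hfin : ∀ v, ((Φ v).fibre ∩ Function.support (b v)).Finite)
    (hone : ∀ᶠ v in cofinite, b v (x₀ v) = 1 ∧ ∀ x ∈ (Φ v).fibre, x ≠ x₀ v → b v x = 0)
    (a : ∀ v, T v ⧸ (U v).subgroupOf (T v))
    (ha : ∀ᶠ v in cofinite, a v = ((1 : T v) : T v ⧸ (U v).subgroupOf (T v))) :
    ({c | ∀ v, (Φ v).toFun (co c v) = a v} ∩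
        Function.support fun c => ∏ᶠ v, b v (co c v)).Finite ∧
      ∑ᶠ c ∈ {c | ∀ v, (Φ v).toFun (co c v) = a v}, ∏ᶠ v, b v (co c v) =
        ∏ᶠ v, ∑ᶠ x ∈ (Φ v).fibre, b v x := by
  classical
  let t : ∀ v, T v := fun v =>
    if a v = ((1 : T v) : T v ⧸ (U v).subgroupOf (T v)) then 1 else (a v).out
  have ht : ∀ v, ((t v : T v) : T v ⧸ (U v).subgroupOf (T v)) = a v := fun v => by
    simp only [t]
    split_ifs with h
    · exact h.symm
    · exact QuotientGroup.out_eq' _
  have hset : {c | ∀ v, (Φ v).toFun (co c v) = a v} =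
      {c | ∀ v, co c v ∈ (t v : G v) • (Φ v).fibre} := by
    ext c
    exact forall_congr' fun v => by rw [OrbitMap.mem_smul_fibre, ht]
  have hfin' : ∀ v, ((t v : G v) • (Φ v).fibre ∩ Function.support (b v)).Finite := fun v => by
    refine ((hfin v).image fun x => (t v : G v) • x).subset ?_
    rintro _ ⟨⟨x, hx, rfl⟩, hx'⟩
    exact ⟨x, ⟨hx, by rwa [Function.mem_support, hinv v _ (t v).2] at hx'⟩, rfl⟩
  have hone' : ∀ᶠ v in cofinite, x₀ v ∈ (t v : G v) • (Φ v).fibre ∧ b v (x₀ v) = 1 ∧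
      ∀ x ∈ (t v : G v) • (Φ v).fibre, x ≠ x₀ v → b v x = 0 := by
    filter_upwards [hone, ha] with v hv hav
    rw [show (t v : G v) = 1 by simp [t, hav], one_smul]
    exact ⟨(Φ v).base_mem, hv⟩
  have h := finsum_rprod co hinj hsurj hev (fun v => (t v : G v) • (Φ v).fibre) b hfin' hone'
  rw [hset]
  refine ⟨h.1, h.2.trans (finprod_congr fun v => ?_)⟩
  exact (Φ v).finsum_smul_fibre (t v) (hinv v)

end RProd

end FermatAgent.LT
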