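import Mathlib
import Fermat.Agent.LT.Descent.Geom.Cusp
import Fermat.Agent.LT.Descent.Geom.Factor
import Fermat.Agent.LT.Descent.Geom.Restricted
import Fermat.Agent.LT.Descent.Geom.Local.InertField
import Fermat.Agent.LT.Descent.Geom.Local.Statements

set_option autoImplicit false

/-!
# Coordinates over the places of `K` and orbital sums of the finite kernels
-/

noncomputable section

open NumberField IsDedekindDomain Filter
open scoped MatrixGroups

namespace FermatAgent.LT

variable {S : Setup}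

theorem Setup.finite_overK (v : HeightOneSpectrum (𝓞 S.K)) :
    {w : HeightOneSpectrum (𝓞 S.F) | S.underK w = v}.Finite := by
  obtain ⟨x, hx, hx0⟩ := Submodule.exists_mem_ne_zero_of_ne_bot v.ne_bot
  have h0 : Ideal.span {S.inclInt x} ≠ ⊥ := by
    rw [Ne, Ideal.span_singleton_eq_bot]
    refine fun h => hx0 (RingOfIntegers.ext (S.inclKF.injective ?_))
    simpa [Setup.inclInt] using congrArg (fun z : 𝓞 S.F => (z : S.F)) h
  refine (Ideal.finite_factors h0).subset fun w hw => Ideal.dvd_iff_le.mpr ?_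
  rw [Ideal.span_singleton_le_iff_mem]
  exact (hw.symm ▸ hx : x ∈ (S.underK w).asIdeal)

theorem Setup.tendsto_underK : Tendsto S.underK cofinite cofinite :=
  tendsto_def.mpr fun s hs => mem_cofinite.mpr (((mem_cofinite.mp hs).biUnion
    fun v _ => S.finite_overK v).subset fun w hw => by simpa using hw)

/-- An eventual property of the places of `F` holds eventually at all places over those of `K`. -/
theorem Setup.eventually_overK {p : HeightOneSpectrum (𝓞 S.F) → Prop}
    (h : ∀ᶠ w in cofinite, p w) :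
    ∀ᶠ v in cofinite, ∀ w : S.OverK v, p w.1 :=
  eventually_cofinite.mpr (((eventually_cofinite.mp h).image S.underK).subset fun v hv => by
    obtain ⟨w, hw⟩ := not_forall.mp hv
    exact ⟨w.1, hw, w.2⟩)

theorem Setup.map_inclOver_locMat {v : HeightOneSpectrum (𝓞 S.K)} (w : S.OverK v)
    (γ : GL (Fin 2) S.K) :
    Matrix.GeneralLinearGroup.map (S.inclOver w) (locMat v γ) =
      locMat w.1 (Matrix.GeneralLinearGroup.map S.inclKF.toRingHom γ) :=
  Units.ext (Matrix.ext fun i j => S.inclOver_loc w (γ i j))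

/-! ### Coordinates -/

/-- The coordinates over a place of `K`. -/
def Setup.coordF (S : Setup) (v : HeightOneSpectrum (𝓞 S.K)) (c : Cosets (S.levelIdeal S.F)) :
    S.XF v :=
  fun w => coordAt w.1 c

/-- The base point over a place of `K`. -/
def Setup.baseF (S : Setup) (v : HeightOneSpectrum (𝓞 S.K)) : S.XF v :=
  fun w => ((1 : GLv w.1) : LCos (S.levelIdeal S.F) w.1)

/-- The base point at a place of `K`. -/
def Setup.baseK (S : Setup) (v : HeightOneSpectrum (𝓞 S.K)) : LCos (S.levelIdeal S.K) v :=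
  ((1 : GLv v) : LCos (S.levelIdeal S.K) v)

theorem Setup.coordF_injective : Function.Injective fun c v => S.coordF v c :=
  fun _ _ h => coordAt_injective (S.levelIdeal_ne_bot S.F) fun w =>
    congrFun (congrFun h (S.underK w)) ⟨w, rfl⟩

theorem Setup.eventually_coordF (c : Cosets (S.levelIdeal S.F)) :
    ∀ᶠ v in cofinite, S.coordF v c = S.baseF v :=
  (S.eventually_overK (eventually_coordAt_eq_base (S.levelIdeal_ne_bot S.F) c)).mono
    fun _ h => funext h

theorem Setup.exists_coordF_eq (f : ∀ v, S.XF v) (hf : ∀ᶠ v in cofinite, f v = S.baseF v) :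
    ∃ c, (fun v => S.coordF v c) = f := by
  obtain ⟨c, hc⟩ := exists_coordAt_eq (fun w => f (S.underK w) ⟨w, rfl⟩) (by
    filter_upwards [S.tendsto_underK.eventually hf] with w hw
    rw [hw]
    rfl)
  refine ⟨c, funext fun v => funext fun ⟨w, hw⟩ => ?_⟩
  subst hw
  exact hc w

theorem Setup.coordF_smul (γ : GL (Fin 2) S.K) (c : Cosets (S.levelIdeal S.F))
    (v : HeightOneSpectrum (𝓞 S.K)) :
    S.coordF v (rationalMat (Matrix.GeneralLinearGroup.map S.inclKF.toRingHom γ) • c) =
      locMat v γ • S.coordF v c := by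
  funext w
  show coordAt w.1 (_ • c) = Matrix.GeneralLinearGroup.map (S.inclOver w) (locMat v γ) • coordAt w.1 c
  rw [coordAt_smul, compAt_rationalMat, S.map_inclOver_locMat]

theorem Setup.coordK_injective :
    Function.Injective fun (c : Cosets (S.levelIdeal S.K)) v => coordAt v c :=
  fun _ _ h => coordAt_injective (S.levelIdeal_ne_bot S.K) (congrFun h)

theorem Setup.exists_coordK_eq (f : ∀ v, LCos (S.levelIdeal S.K) v)
    (hf : ∀ᶠ v in cofinite, f v = S.baseK v) : ∃ c, (fun v => coordAt v c) = f :=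
  (exists_coordAt_eq f hf).imp fun _ h => funext h

theorem coordK_smul {L : Type*} [Field L] [NumberField L] {𝔫 : Ideal (𝓞 L)}
    (γ : GL (Fin 2) L) (c : Cosets 𝔫) (v : HeightOneSpectrum (𝓞 L)) :
    coordAt v (rationalMat γ • c) = locMat v γ • coordAt v c := by
  rw [coordAt_smul, compAt_rationalMat]

theorem map_galLoc_mem_locLevel {σ : S.F ≃+* S.F} (w : HeightOneSpectrum (𝓞 S.F))
    {k : GLv (galPlace σ w)} (hk : k ∈ locLevel (S.levelIdeal S.F) (galPlace σ w)) :
    Matrix.GeneralLinearGroup.map (galLoc σ w) k ∈ locLevel (S.levelIdeal S.F) w := by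
  obtain ⟨a, ha, z, hz, rfl⟩ := Subgroup.mem_sup_of_normal_right.mp hk
  rw [map_mul]
  refine mul_mem ?_ (Subgroup.mem_sup_right (Matrix.GeneralLinearGroup.map_center_le _ hz))
  have hA : atPlace (galPlace σ w) a ∈ congrSubgroup (S.levelIdeal S.F) :=
    mem_congrSubgroup_of_local fun u => by
      rcases eq_or_ne u (galPlace σ w) with rfl | hu
      · rwa [compAt_atPlace_self]
      · rw [compAt_atPlace_ne hu]; exact one_mem _
  have h := levelGroup_le_comap w (CO.galGAf_mem_level (S.levelIdeal_ne_bot S.F)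
    (S.levelIdeal_map σ) (Subgroup.mem_sup_left hA))
  rwa [Subgroup.mem_comap, compAt_galGAf, compAt_atPlace_self] at h

theorem coordAt_galCoset (σ : S.F ≃+* S.F) (w : HeightOneSpectrum (𝓞 S.F))
    (c : Cosets (S.levelIdeal S.F)) :
    coordAt w (galCoset σ c) = galLCos σ w (coordAt (galPlace σ w) c) := by
  obtain ⟨g, rfl⟩ := QuotientGroup.mk_surjective c
  rw [galCoset_mk (S.levelIdeal_ne_bot S.F) (S.levelIdeal_map σ), coordAt_mk, coordAt_mk,
    compAt_galGAf, galLCos, QuotientGroup.eq, ← map_inv, ← map_mul]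
  exact map_galLoc_mem_locLevel w (QuotientGroup.eq.mp (QuotientGroup.out_eq' _).symm)

theorem finprod_overK {M : Type*} [CommMonoid M] (f : HeightOneSpectrum (𝓞 S.F) → M)
    (hf : (Function.mulSupport f).Finite) :
    ∏ᶠ v, ∏ᶠ w : S.OverK v, f w.1 = ∏ᶠ w, f w := by
  classical
  have hin : ∀ v, ∏ᶠ w : S.OverK v, f w.1 = ∏ w ∈ hf.toFinset.filter (fun w => S.underK w = v), f w :=
    fun v => by
      rw [finprod_subtype_eq_finprod_cond (fun w => S.underK w = v)]
      exact finprod_cond_eq_prod_of_cond_iff f fun hx => by simp [hx]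
  simp only [hin]
  rw [finprod_eq_prod_of_mulSupport_subset (s := hf.toFinset.image S.underK) _ fun v hv => ?_,
    finprod_eq_prod f hf]
  · exact Finset.prod_fiberwise_of_maps_to (fun w hw => Finset.mem_image_of_mem _ hw) f
  by_contra h
  refine hv (Finset.prod_eq_one fun w hw => ?_)
  rw [Finset.mem_filter] at hw
  exact absurd (Finset.mem_coe.mpr (Finset.mem_image.mpr ⟨w, hw.1, hw.2⟩)) h

/-! ### Almost all places -/

variable (Ψ : S.PsiData) (l : List (HeightOneSpectrum (𝓞 S.F)))

theorem Setup.eventually_opF : ∀ᶠ w in cofinite, S.opF Ψ l w = 1 := by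
  classical
  refine eventually_cofinite.mpr (((S.badPlaces S.F).finite_toSet.union l.finite_toSet).subset
    fun w hw => ?_)
  by_contra h
  rw [Set.mem_union, not_or, Finset.mem_coe] at h
  exact hw (by rw [Setup.opF, locLevelOp, if_neg h.1, one_mul, List.count_eq_zero.mpr h.2, pow_zero])

theorem Setup.eventually_opK : ∀ᶠ v in cofinite, S.opK Ψ l v = 1 := by
  classical
  refine eventually_cofinite.mpr (((S.badPlaces S.K).finite_toSet.union
    ((l.map S.underK).finite_toSet)).subset fun v hv => ?_)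
  by_contra h
  rw [Set.mem_union, not_or, Finset.mem_coe] at h
  have h2 : l.filter (fun w => decide (S.underK w = v)) = [] :=
    List.filter_eq_nil_iff.mpr fun w hw he => h.2 (List.mem_map.mpr ⟨w, hw, by simpa using he⟩)
  exact hv (by rw [Setup.opK, locLevelOp, if_neg h.1, h2, List.map_nil, List.prod_nil, one_mul])

theorem eventually_locMat_base {L : Type*} [Field L] [NumberField L] {𝔫 : Ideal (𝓞 L)}
    (h𝔫 : 𝔫 ≠ ⊥) (γ : GL (Fin 2) L) :
    ∀ᶠ v in cofinite, locMat v γ • ((1 : GLv v) : LCos 𝔫 v) = ((1 : GLv v) : LCos 𝔫 v) := by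
  filter_upwards [eventually_coordAt_eq_base h𝔫 ((rationalMat γ : GAf L) : Cosets 𝔫)] with v hv
  rw [MulAction.Quotient.smul_coe, smul_eq_mul, mul_one]
  exact hv

variable {σ : S.F ≃+* S.F} (hσ : S.IsGalGen σ) (δ : GL (Fin 2) S.F) (t : GL (Fin 2) S.K)

theorem Setup.galLCos_base (w : HeightOneSpectrum (𝓞 S.F)) :
    galLCos σ w ((1 : GLv (galPlace σ w)) : LCos (S.levelIdeal S.F) (galPlace σ w)) =
      ((1 : GLv w) : LCos (S.levelIdeal S.F) w) := by
  rw [galLCos, QuotientGroup.eq, mul_one]
  refine inv_mem (map_galLoc_mem_locLevel w ?_)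
  simpa using QuotientGroup.eq.mp (QuotientGroup.out_eq'
    ((1 : GLv (galPlace σ w)) : LCos (S.levelIdeal S.F) (galPlace σ w))).symm

theorem Setup.eventually_bF_base : ∀ᶠ v in cofinite,
    S.bF Ψ l hσ δ v (S.baseF v) = 1 ∧ ∀ x, S.bF Ψ l hσ δ v x = 0 ∨ S.bF Ψ l hσ δ v x = 1 := by
  classical
  filter_upwards [S.eventually_overK ((S.eventually_opF Ψ l).and
    (eventually_locMat_base (S.levelIdeal_ne_bot S.F) δ))] with v hv
  have hfin : Finite (S.OverK v) := (S.finite_overK v).to_subtype
  constructor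
  · refine finprod_eq_one_of_forall_eq_one fun w => ?_
    rw [(hv w).1, lKer_one, if_pos]
    show _ = locMat w.1 δ • galLCos σ w.1 _
    exact ((congrArg _ (S.galLCos_base w.1)).trans (hv w).2).symm
  · intro x
    by_cases h : ∀ w : S.OverK v, x w = locMat w.1 δ • galLCos σ w.1 (x (S.nextOver v hσ w))
    · exact Or.inr (finprod_eq_one_of_forall_eq_one fun w => by rw [(hv w).1, lKer_one, if_pos (h w)])
    · obtain ⟨w, hw⟩ := not_forall.mp h
      exact Or.inl (finprod_eq_zero _ w (by rw [(hv w).1, lKer_one, if_neg hw]) (Set.toFinite _))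

theorem Setup.eventually_bK_base : ∀ᶠ v in cofinite, S.bK Ψ l t v (S.baseK v) = 1 ∧
    ∀ y, S.bK Ψ l t v y ≠ 0 → locMat v t • y = y := by
  classical
  filter_upwards [S.eventually_opK Ψ l, eventually_locMat_base (S.levelIdeal_ne_bot S.K) t]
    with v h1 h2
  refine ⟨by rw [Setup.bK, Setup.baseK, h1, lKer_one, if_pos h2.symm], fun y hy => ?_⟩
  rw [Setup.bK, h1, lKer_one] at hy
  exact (by_contra fun h => hy (if_neg fun e => h e.symm))

include hσ in
/-- The kernel of the twisted term is the product of the local ones. -/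
theorem Setup.finKer_twist (hl : ∀ w ∈ l, ((3 * S.m : ℕ) : 𝓞 S.F) ∉ w.asIdeal)
    (c : Cosets (S.levelIdeal S.F)) :
    finKer (S.levelOpF Ψ * heckeWord _ l) c (rationalMat δ • galCoset σ c) =
      ∏ᶠ v, S.bF Ψ l hσ δ v (S.coordF v c) := by
  classical
  rw [S.finKer_levelOpF Ψ l hl, ← finprod_overK (S := S) (fun w => lKer (S.opF Ψ l w) (coordAt w c)
    (coordAt w (rationalMat δ • galCoset σ c))) ?_]
  · refine finprod_congr fun v => finprod_congr fun w => ?_
    rw [coordK_smul, coordAt_galCoset]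
    rfl
  · refine eventually_cofinite.mp (?_ : ∀ᶠ w in cofinite, lKer (S.opF Ψ l w) (coordAt w c)
      (coordAt w (rationalMat δ • galCoset σ c)) = 1)
    filter_upwards [S.eventually_opF Ψ l,
      eventually_coordAt_eq_base (S.levelIdeal_ne_bot S.F) c,
      eventually_coordAt_eq_base (S.levelIdeal_ne_bot S.F) (rationalMat δ • galCoset σ c)]
      with w h1 h2 h3
    rw [h1, h2, h3, lKer_one, if_pos rfl]

theorem Setup.finKer_plain (hl : ∀ w ∈ l, ((3 * S.m : ℕ) : 𝓞 S.F) ∉ w.asIdeal)
    (c : Cosets (S.levelIdeal S.K)) :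
    finKer (S.levelOpK Ψ * (l.map S.bcOp).prod) c (rationalMat t • c) =
      ∏ᶠ v, S.bK Ψ l t v (coordAt v c) := by
  rw [S.finKer_levelOpK Ψ l hl]
  exact finprod_congr fun v => by rw [coordK_smul]; rfl

end FermatAgent.LT
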