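import Mathlib
import Fermat.Agent.LT.Descent.Geom.Orbit
import Fermat.Agent.LT.Descent.Geom.Local.InertPlace
import Fermat.Agent.LT.Descent.Classes.Matrix2
import Fermat.Agent.LT.Descent.Spectral.Words

set_option autoImplicit false

/-!
# Orbit maps and orbital sums of the finite kernels
-/

noncomputable section

open NumberField IsDedekindDomain Filter
open scoped MatrixGroups

namespace FermatAgent.LT

/-! ### Equivariance at one place -/

theorem lKer_opsAt_smul {L : Type*} [Field L] [NumberField L] {𝔫 : Ideal (𝓞 L)} (h𝔫 : 𝔫 ≠ ⊥)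
    (o : OpList 𝔫) (ho : IsCosetOp (liftProd o)) (v : HeightOneSpectrum (𝓞 L))
    (hne : ∀ p ∈ o, p.1 = v) (g : GLv v) (a b : LCos 𝔫 v) :
    lKer (opsAt o v) (g • a) (g • b) = lKer (opsAt o v) a b := by
  classical
  set c₀ : Cosets 𝔫 := ((1 : GAf L) : Cosets 𝔫)
  have key : ∀ x y : Cosets 𝔫, (∀ w, w ≠ v → coordAt w x = coordAt w y) →
      finKer (liftProd o) x y = lKer (opsAt o v) (coordAt v x) (coordAt v y) := by
    intro x y hxy
    rw [finKer_liftProd h𝔫]
    refine finprod_eq_single _ v fun w hw => ?_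
    rw [opsAt_eq_one o w fun p hp e => hw (e.symm.trans (hne p hp)), lKer_one, if_pos (hxy w hw)]
  have h1 := key (updC v c₀ a) (updC v c₀ b) fun w hw => by
    rw [coordAt_updC_ne hw, coordAt_updC_ne hw]
  have h2 := key (atPlace v g • updC v c₀ a) (atPlace v g • updC v c₀ b) fun w hw => by
    rw [coordAt_smul, coordAt_smul, coordAt_updC_ne hw, coordAt_updC_ne hw]
  rw [ho.finKer_smul, h1] at h2
  simpa only [coordAt_smul, compAt_atPlace_self, coordAt_updC_self] using h2.symm

variable {S : Setup} (Ψ : S.PsiData) (l : List (HeightOneSpectrum (𝓞 S.F)))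
  (hl : ∀ w ∈ l, ((3 * S.m : ℕ) : 𝓞 S.F) ∉ w.asIdeal)

theorem locLevelOp_filter {L : Type*} [Field L] [NumberField L] {𝔫 : Ideal (𝓞 L)}
    (s : Finset (HeightOneSpectrum (𝓞 L)))
    (ψ : ∀ v : HeightOneSpectrum (𝓞 L), AddChar (𝓞 L ⧸ v.asIdeal) ℂ)
    (v : HeightOneSpectrum (𝓞 L)) [DecidablePred fun u : HeightOneSpectrum (𝓞 L) => u = v] :
    locLevelOp 𝔫 v (s.filter fun u => u = v) ψ = locLevelOp 𝔫 v s ψ := by
  unfold locLevelOp
  by_cases h : v ∈ s <;> simp [Finset.mem_filter, h]

include hl in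
theorem Setup.lKer_opF_smul (w : HeightOneSpectrum (𝓞 S.F)) (g : GLv w)
    (a b : LCos (S.levelIdeal S.F) w) :
    lKer (S.opF Ψ l w) (g • a) (g • b) = lKer (S.opF Ψ l w) a b := by
  classical
  set s := (S.badPlaces S.F).filter fun u => u = w
  set l' := l.filter fun u => decide (u = w)
  have hl' : ∀ u ∈ l', ((3 * S.m : ℕ) : 𝓞 S.F) ∉ u.asIdeal := fun u hu => hl u (List.mem_of_mem_filter hu)
  have h := S.levelIdeal_ne_bot S.F
  set o : OpList (S.levelIdeal S.F) :=
    levelList s (S.psiF Ψ) ++ l'.map fun u => opPair u (locHecke _ u)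
  have ho : IsCosetOp (liftProd o) := by
    rw [liftProd_append, ← levelOp_eq_liftProd _ _ h,
      ← heckeWord_eq_liftProd h _ fun u hu => S.not_levelIdeal_le (hl' u hu)]
    refine IsCosetOp.mul (isCosetOp_levelOp h
      (fun u hu => S.badPlaces_level S.F u (Finset.mem_of_mem_filter u hu))
      fun u hu => S.card_residue_three_F u (Finset.mem_of_mem_filter u hu)) ?_
    unfold heckeWord
    clear_value l'
    induction l' with
    | nil => simpa using isCosetOp_one
    | cons u l' ih =>
      simp only [List.map_cons, List.prod_cons]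
      exact (isCosetOp_heckeOp h (S.not_levelIdeal_le (hl' u List.mem_cons_self))).mul
        (ih fun x hx => hl' x (List.mem_cons_of_mem _ hx))
  have e : opsAt o w = S.opF Ψ l w := by
    rw [opsAt_append, opsAt_levelList, opsAt_heckeList, locLevelOp_filter,
      List.count_filter (by simp)]
    rfl
  rw [← e]
  refine lKer_opsAt_smul h o ho w (fun p hp => ?_) g a b
  rcases List.mem_append.mp hp with hp | hp
  · obtain ⟨u, hu, rfl⟩ := List.mem_map.mp hp
    exact (Finset.mem_filter.mp (Finset.mem_toList.mp hu)).2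
  · obtain ⟨u, hu, rfl⟩ := List.mem_map.mp hp
    simpa using (List.mem_filter.mp hu).2

include hl in
theorem Setup.lKer_opK_smul (v : HeightOneSpectrum (𝓞 S.K)) (g : GLv v)
    (a b : LCos (S.levelIdeal S.K) v) :
    lKer (S.opK Ψ l v) (g • a) (g • b) = lKer (S.opK Ψ l v) a b := by
  classical
  set s := (S.badPlaces S.K).filter fun u => u = v
  set l' := l.filter fun u => decide (S.underK u = v)
  have hl' : ∀ u ∈ l', ((3 * S.m : ℕ) : 𝓞 S.F) ∉ u.asIdeal := fun u hu => hl u (List.mem_of_mem_filter hu)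
  have h := S.levelIdeal_ne_bot S.K
  set o : OpList (S.levelIdeal S.K) :=
    levelList s Ψ ++ l'.map fun u => opPair (S.underK u) (S.locBC (S.underK u) u)
  have ho : IsCosetOp (liftProd o) := by
    rw [liftProd_append, ← levelOp_eq_liftProd _ _ h,
      show liftProd (l'.map fun u => opPair (S.underK u) (S.locBC (S.underK u) u)) =
        (l'.map S.bcOp).prod by
        rw [liftProd, List.map_map]
        exact congrArg List.prod (List.map_congr_left fun u hu => (S.bcOp_eq_liftAt (hl' u hu)).symm)]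
    refine IsCosetOp.mul (isCosetOp_levelOp h
      (fun u hu => S.badPlaces_level S.K u (Finset.mem_of_mem_filter u hu))
      fun u hu => S.card_residue_three_K u (Finset.mem_of_mem_filter u hu)) ?_
    clear_value l'
    induction l' with
    | nil => simpa using isCosetOp_one
    | cons u l' ih =>
      simp only [List.map_cons, List.prod_cons]
      exact (S.isCosetOp_bcOp (hl' u List.mem_cons_self)).mul
        (ih fun x hx => hl' x (List.mem_cons_of_mem _ hx))
  have e : opsAt o v = S.opK Ψ l v := by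
    rw [opsAt_append, opsAt_levelList, S.opsAt_bcList v l', locLevelOp_filter, List.filter_filter]
    simp only [Bool.and_self]
    rfl
  rw [← e]
  refine lKer_opsAt_smul h o ho v (fun p hp => ?_) g a b
  rcases List.mem_append.mp hp with hp | hp
  · obtain ⟨u, hu, rfl⟩ := List.mem_map.mp hp
    exact (Finset.mem_filter.mp (Finset.mem_toList.mp hu)).2
  · obtain ⟨u, hu, rfl⟩ := List.mem_map.mp hp
    simpa using (List.mem_filter.mp hu).2

include hl in
theorem Setup.bK_smul (t : GL (Fin 2) S.K) (v : HeightOneSpectrum (𝓞 S.K)) {g : GLv v}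
    (hg : g ∈ torusAt v t) (y : LCos (S.levelIdeal S.K) v) :
    S.bK Ψ l t v (g • y) = S.bK Ψ l t v y := by
  have e : locMat v t * g = g * locMat v t := Subgroup.mem_centralizer_singleton_iff.mp hg |>.symm
  rw [Setup.bK, Setup.bK, ← mul_smul, e, mul_smul, S.lKer_opK_smul Ψ l hl]

variable {σ : S.F ≃+* S.F} (hσ : S.IsGalGen σ) {t : GL (Fin 2) S.K} {δ : GL (Fin 2) S.F}

theorem Setup.galLoc_inclOver {v : HeightOneSpectrum (𝓞 S.K)} (w : S.OverK v) (x : v.adicCompletion S.K) :
    galLoc σ w.1 (S.inclOver (S.nextOver v hσ w) x) = S.inclOver w x := by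
  refine congrFun (DenseRange.equalizer (HeightOneSpectrum.denseRange_algebraMap (K := S.K) v)
    ((continuous_galLoc σ w.1).comp (S.continuous_inclOver _)) (S.continuous_inclOver w)
    (funext fun k => ?_)) x
  show galLoc σ w.1 (S.inclOver (S.nextOver v hσ w) (loc v k)) = S.inclOver w (loc v k)
  rw [S.inclOver_loc, S.inclOver_loc]
  show galLoc σ w.1 (loc (galPlace σ w.1) (S.inclKF k)) = _
  rw [galLoc_coe, hσ.2]

include hl in
theorem Setup.bF_smul (h : S.IsNormPair σ t δ) (v : HeightOneSpectrum (𝓞 S.K)) {g : GLv v}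
    (hg : g ∈ torusAt v t) (x : S.XF v) : S.bF Ψ l hσ δ v (g • x) = S.bF Ψ l hσ δ v x := by
  refine finprod_congr fun w => ?_
  show lKer _ (Matrix.GeneralLinearGroup.map (S.inclOver w) g • x w)
    (locMat w.1 δ • galLCos σ w.1 (Matrix.GeneralLinearGroup.map (S.inclOver (S.nextOver v hσ w)) g •
      x (S.nextOver v hσ w))) = _
  have hgal : Matrix.GeneralLinearGroup.map (galLoc σ w.1)
      (Matrix.GeneralLinearGroup.map (S.inclOver (S.nextOver v hσ w)) g) =
      Matrix.GeneralLinearGroup.map (S.inclOver w) g :=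
    Units.ext (Matrix.ext fun i j => S.galLoc_inclOver hσ w (g i j))
  have hsm : ∀ (k : GLv (galPlace σ w.1)) (q : LCos (S.levelIdeal S.F) (galPlace σ w.1)),
      galLCos σ w.1 (k • q) =
        Matrix.GeneralLinearGroup.map (galLoc σ w.1) k • galLCos σ w.1 q := fun k q => by
    obtain ⟨a, rfl⟩ := QuotientGroup.mk_surjective q
    have hm : ∀ b : GLv (galPlace σ w.1),
        galLCos σ w.1 (b : LCos (S.levelIdeal S.F) (galPlace σ w.1)) =
          ((Matrix.GeneralLinearGroup.map (galLoc σ w.1) b : GLv w.1) : LCos (S.levelIdeal S.F) w.1) :=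
      fun b => by
        rw [galLCos, QuotientGroup.eq, ← map_inv, ← map_mul]
        exact map_galLoc_mem_locLevel w.1 (QuotientGroup.eq.mp (QuotientGroup.out_eq' _))
    rw [MulAction.Quotient.smul_coe, hm, hm, MulAction.Quotient.smul_coe, smul_eq_mul, smul_eq_mul,
      map_mul]
  have hcomm : locMat w.1 δ * Matrix.GeneralLinearGroup.map (S.inclOver w) g =
      Matrix.GeneralLinearGroup.map (S.inclOver w) g * locMat w.1 δ := by
    set T := Matrix.GeneralLinearGroup.map (S.inclOver w) (locMat v t) with hT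
    have hM : Classes.NonScalar (T : Matrix (Fin 2) (Fin 2) (w.1.adicCompletion S.F)) :=
      Classes.nonScalar_of_disc (regular_inclGL w h.regular)
    have e1 : locMat w.1 δ * T = T * locMat w.1 δ := by
      rw [hT, S.map_inclOver_locMat, ← map_mul, ← map_mul, h.commute hσ hσ.cube]
    have e2 : Matrix.GeneralLinearGroup.map (S.inclOver w) g * T =
        T * Matrix.GeneralLinearGroup.map (S.inclOver w) g := by
      rw [hT, ← map_mul, ← map_mul, Subgroup.mem_centralizer_singleton_iff.mp hg]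
    exact Units.ext (Classes.commute_of_commute hM (congrArg Units.val e1) (congrArg Units.val e2))
  refine (congrArg (fun q => lKer (S.opF Ψ l w.1)
    (Matrix.GeneralLinearGroup.map (S.inclOver w) g • x w) (locMat w.1 δ • q))
    ((hsm _ (x (S.nextOver v hσ w))).trans
      (congrArg (fun k : GLv w.1 => k • galLCos σ w.1 (x (S.nextOver v hσ w))) hgal))).trans ?_
  rw [← mul_smul, hcomm, mul_smul, S.lKer_opF_smul Ψ l hl]

/-! ### Orbit maps and sums -/

variable (ht : (t : Matrix (Fin 2) (Fin 2) S.K).trace ^ 2 ≠ 4 * (t : Matrix (Fin 2) (Fin 2) S.K).det)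

/-- The orbit map at a place of `K`. -/
def Setup.phiK (v : HeightOneSpectrum (𝓞 S.K)) : OrbitMap (torusAt v t) (torusU v t) (S.baseK v) :=
  Classical.choice (OrbitMap.nonempty fun y g hg he =>
    stabilizer_le_torusU ht v y (S.baseF v) g hg (Or.inl he))

/-- The orbit map over a place of `K`. -/
def Setup.phiF (v : HeightOneSpectrum (𝓞 S.K)) : OrbitMap (torusAt v t) (torusU v t) (S.baseF v) :=
  Classical.choice (OrbitMap.nonempty fun x g hg he =>
    stabilizer_le_torusU ht v (S.baseK v) x g hg (Or.inr he))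

theorem Setup.isFundSet_phiK (v : HeightOneSpectrum (𝓞 S.K)) :
    Inert.IsFundSet (torusAt v t) (torusU v t) Set.univ (S.phiK ht v).fibre :=
  (S.phiK ht v).isFundSet (torusU_le ht v).1

theorem Setup.isFundSet_phiF (v : HeightOneSpectrum (𝓞 S.K)) :
    Inert.IsFundSet (torusAt v t) (torusU v t) Set.univ (S.phiF ht v).fibre :=
  (S.phiF ht v).isFundSet (torusU_le ht v).1

/-- The orbital sum of the finite kernel on `K`. -/
def Setup.orbK : ℂ := ∏ᶠ v, ∑ᶠ y ∈ (S.phiK ht v).fibre, S.bK Ψ l t v y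

/-- Almost everywhere the base point is the only contribution. -/
theorem Setup.eventually_phiK : ∀ᶠ v in cofinite, S.bK Ψ l t v (S.baseK v) = 1 ∧
    ∀ y ∈ (S.phiK ht v).fibre, y ≠ S.baseK v → S.bK Ψ l t v y = 0 := by
  filter_upwards [S.eventually_bK_base Ψ l t, eventually_single_orbit ht] with v h1 h2
  refine ⟨h1.1, fun y hy hne => by_contra fun h0 => hne ?_⟩
  obtain ⟨g, hg, rfl⟩ := h2.2 y (h1.2 y h0)
  have h3 : ((⟨g, hg⟩ : torusAt v t) : torusAt v t ⧸ (torusU v t).subgroupOf (torusAt v t)) =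
      ((1 : torusAt v t) : torusAt v t ⧸ (torusU v t).subgroupOf (torusAt v t)) := by
    refine Eq.trans ?_ hy
    have e := (S.phiK ht v).map_smul ⟨g, hg⟩ (S.baseK v)
    rw [(S.phiK ht v).map_base, MulAction.Quotient.smul_coe, smul_eq_mul, mul_one] at e
    exact e.symm
  rw [QuotientGroup.eq, mul_one, Subgroup.mem_subgroupOf] at h3
  show g • ((1 : GLv v) : LCos (S.levelIdeal S.K) v) = ((1 : GLv v) : LCos (S.levelIdeal S.K) v)
  rw [MulAction.Quotient.smul_coe, smul_eq_mul, mul_one, QuotientGroup.eq, mul_one]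
  exact inv_mem (h2.1 g (by simpa using inv_mem h3))

theorem finsum_fibre_bK_eq_one : ∀ᶠ v in cofinite,
    ∑ᶠ y ∈ (S.phiK ht v).fibre, S.bK Ψ l t v y = 1 := by
  filter_upwards [S.eventually_phiK Ψ l ht] with v hv
  rw [finsum_mem_eq_sum_of_inter_support_eq (t := {S.baseK v}) _ ?_, Finset.sum_singleton, hv.1]
  ext y
  simp only [Set.mem_inter_iff, Function.mem_support, Finset.coe_singleton, Set.mem_singleton_iff]
  exact ⟨fun h => ⟨by_contra fun hne => h.2 (hv.2 y h.1 hne), h.2⟩,
    fun h => ⟨h.1 ▸ (S.phiK ht v).base_mem, h.2⟩⟩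

include hl in
/-- The sums over the fibres on `K`. -/
theorem Setup.finsum_fibre_K (a : ∀ v, torusAt v t ⧸ (torusU v t).subgroupOf (torusAt v t))
    (ha : ∀ᶠ v in cofinite, a v =
      ((1 : torusAt v t) : torusAt v t ⧸ (torusU v t).subgroupOf (torusAt v t))) :
    ({c : Cosets (S.levelIdeal S.K) | ∀ v, (S.phiK ht v).toFun (coordAt v c) = a v} ∩
        Function.support fun c => finKer (S.levelOpK Ψ * (l.map S.bcOp).prod) c
          (rationalMat t • c)).Finite ∧
      ∑ᶠ c ∈ {c : Cosets (S.levelIdeal S.K) | ∀ v, (S.phiK ht v).toFun (coordAt v c) = a v},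
        finKer (S.levelOpK Ψ * (l.map S.bcOp).prod) c (rationalMat t • c) = S.orbK Ψ l ht := by
  simp only [S.finKer_plain Ψ l t hl]
  exact finsum_fibre (fun (c : Cosets (S.levelIdeal S.K)) v => coordAt v c) S.coordK_injective
    S.exists_coordK_eq (eventually_coordAt_eq_base (S.levelIdeal_ne_bot S.K)) (S.phiK ht)
    (S.bK Ψ l t) (fun v g hg y => S.bK_smul Ψ l hl t v hg y)
    (fun v => finite_supp_bK ht Ψ l v (S.isFundSet_phiK ht v)) (S.eventually_phiK Ψ l ht) a ha

variable (hΨ : Ψ.Nontriv)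

include hσ hΨ hl in
/-- Almost everywhere the base point is the only contribution over a place of `K`. -/
theorem Setup.eventually_phiF (h : S.IsNormPair σ t δ) :
    ∀ᶠ v in cofinite, S.bF Ψ l hσ δ v (S.baseF v) = 1 ∧
      ∀ x ∈ (S.phiF h.regular v).fibre, x ≠ S.baseF v → S.bF Ψ l hσ δ v x = 0 := by
  filter_upwards [finsum_fibre_bK_eq_one Ψ l h.regular, S.eventually_bF_base Ψ l hσ δ]
    with v h1 h2
  obtain ⟨hfin, hm⟩ := local_matching hσ Ψ hΨ l hl h v (S.isFundSet_phiF h.regular v)
    (S.isFundSet_phiK h.regular v)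
  refine ⟨h2.1, fun x hx hne => by_contra fun hx0 => ?_⟩
  have hs : ∀ y ∈ hfin.toFinset, S.bF Ψ l hσ δ v y = 1 := fun y hy =>
    (h2.2 y).resolve_left ((hfin.mem_toFinset.mp hy).2)
  rw [h1, finsum_mem_eq_sum _ hfin, Finset.sum_congr rfl hs, Finset.sum_const, nsmul_one,
    Nat.cast_eq_one] at hm
  obtain ⟨z, hz⟩ := Finset.card_eq_one.mp hm
  have hb : S.baseF v ∈ hfin.toFinset :=
    hfin.mem_toFinset.mpr ⟨(S.phiF h.regular v).base_mem, by
      rw [Function.mem_support, h2.1]; exact one_ne_zero⟩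
  have hx' : x ∈ hfin.toFinset := hfin.mem_toFinset.mpr ⟨hx, hx0⟩
  rw [hz, Finset.mem_singleton] at hb hx'
  exact hne (hx'.trans hb.symm)

include hσ hΨ hl in
/-- **The orbital sums of the twisted kernel are those of the plain one.** -/
theorem Setup.finsum_fibre_F (h : S.IsNormPair σ t δ)
    (a : ∀ v, torusAt v t ⧸ (torusU v t).subgroupOf (torusAt v t))
    (ha : ∀ᶠ v in cofinite, a v =
      ((1 : torusAt v t) : torusAt v t ⧸ (torusU v t).subgroupOf (torusAt v t))) :
    ({c : Cosets (S.levelIdeal S.F) | ∀ v, (S.phiF h.regular v).toFun (S.coordF v c) = a v} ∩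
        Function.support fun c => finKer (S.levelOpF Ψ * heckeWord _ l) c
          (rationalMat δ • galCoset σ c)).Finite ∧
      ∑ᶠ c ∈ {c : Cosets (S.levelIdeal S.F) | ∀ v, (S.phiF h.regular v).toFun (S.coordF v c) = a v},
        finKer (S.levelOpF Ψ * heckeWord _ l) c (rationalMat δ • galCoset σ c) =
          S.orbK Ψ l h.regular := by
  simp only [S.finKer_twist Ψ l hσ δ hl]
  have hlm := fun v => local_matching hσ Ψ hΨ l hl h v (S.isFundSet_phiF h.regular v)
    (S.isFundSet_phiK h.regular v)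
  have := finsum_fibre (fun (c : Cosets (S.levelIdeal S.F)) v => S.coordF v c) S.coordF_injective
    S.exists_coordF_eq S.eventually_coordF (S.phiF h.regular) (S.bF Ψ l hσ δ)
    (fun v g hg x => S.bF_smul Ψ l hl hσ h v hg x) (fun v => (hlm v).1)
    (S.eventually_phiF Ψ l hl hσ hΨ h) a ha
  exact ⟨this.1, this.2.trans (finprod_congr fun v => (hlm v).2)⟩

end FermatAgent.LT
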