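import Mathlib
import Fermat.Agent.LT.Descent.Geom.OrbitSum
import Fermat.Agent.LT.Descent.Geom.Infinity
import Fermat.Agent.LT.Descent.Geom.Weight
import Fermat.Agent.LT.Descent.Classes.Matrix2

set_option autoImplicit false

/-!
# The space of the torus and weights on it

The points of both spaces are sent to a point of `H3` and the classes of the orbit maps.  A weight
there gives weights of the torus on both spaces.
-/

noncomputable section

open MeasureTheory NumberField IsDedekindDomain Filter
open scoped MatrixGroups ENNReal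

namespace FermatAgent.LT

open Weight

variable {S : Setup} {σ : S.F ≃+* S.F} (t : GL (Fin 2) S.K)

/-- The orbit classes at all places. -/
abbrev Setup.TOrb (S : Setup) (t : GL (Fin 2) S.K) :=
  {a : ∀ v : HeightOneSpectrum (𝓞 S.K), torusAt v t ⧸ (torusU v t).subgroupOf (torusAt v t) //
    ∀ᶠ v in cofinite, a v =
      ((1 : torusAt v t) : torusAt v t ⧸ (torusU v t).subgroupOf (torusAt v t))}

instance : MeasurableSpace (S.TOrb t) := ⊤

instance : MeasurableSingletonClass (S.TOrb t) := ⟨fun _ => trivial⟩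

variable {t} (ht : (t : Matrix (Fin 2) (Fin 2) S.K).trace ^ 2 ≠ 4 * (t : Matrix (Fin 2) (Fin 2) S.K).det)

/-- The orbit classes of a coset of `K`. -/
def Setup.orbitOfK (c : Cosets (S.levelIdeal S.K)) : S.TOrb t :=
  ⟨fun v => (S.phiK ht v).toFun (coordAt v c),
    (eventually_coordAt_eq_base (S.levelIdeal_ne_bot S.K) c).mono fun v hv =>
      (congrArg (S.phiK ht v).toFun hv).trans (S.phiK ht v).map_base⟩

/-- The orbit classes of a coset of `F`. -/
def Setup.orbitOfF (c : Cosets (S.levelIdeal S.F)) : S.TOrb t :=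
  ⟨fun v => (S.phiF ht v).toFun (S.coordF v c),
    (S.eventually_coordF c).mono fun v hv =>
      (congrArg (S.phiF ht v).toFun hv).trans (S.phiF ht v).map_base⟩

/-- The image of a point of the space of `K`. -/
def Setup.zK (y : YSpace (S.levelIdeal S.K)) : H3 × S.TOrb t :=
  (y.1 default, S.orbitOfK ht y.2)

/-- The image of a point of the space of `F`. -/
def Setup.zF (w₁ : InfinitePlace S.K → InfinitePlace S.F) (y : YSpace (S.levelIdeal S.F)) :
    H3 × S.TOrb t :=
  (ptEmb y.1 (S.phi0 w₁), S.orbitOfF ht y.2)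

/-- The measure of the space of the torus. -/
def Setup.zVol (S : Setup) (t : GL (Fin 2) S.K) : Measure (H3 × S.TOrb t) :=
  H3.vol.prod Measure.count

/-- The local components of an element of the centraliser. -/
def Setup.locTorus (γ : Subgroup.centralizer ({t} : Set (GL (Fin 2) S.K)))
    (v : HeightOneSpectrum (𝓞 S.K)) : torusAt v t :=
  ⟨locMat v (γ : GL (Fin 2) S.K), Subgroup.mem_centralizer_singleton_iff.mpr (by
    rw [← map_mul, ← map_mul, Subgroup.mem_centralizer_singleton_iff.mp γ.2])⟩

include ht in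
theorem Setup.eventually_locTorus (γ : Subgroup.centralizer ({t} : Set (GL (Fin 2) S.K)))
    (a : S.TOrb t) : ∀ᶠ v in cofinite, S.locTorus γ v • a.1 v =
      ((1 : torusAt v t) : torusAt v t ⧸ (torusU v t).subgroupOf (torusAt v t)) := by
  filter_upwards [a.2, eventually_single_orbit ht,
    eventually_locMat_base (S.levelIdeal_ne_bot S.K) (γ : GL (Fin 2) S.K)] with v h1 h2 h3
  rw [h1, MulAction.Quotient.smul_coe, smul_eq_mul, mul_one, QuotientGroup.eq, mul_one,
    Subgroup.mem_subgroupOf]
  exact inv_mem (stabilizer_le_torusU ht v ((1 : GLv v) : LCos (S.levelIdeal S.K) v)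
    (S.baseF v) _ (S.locTorus γ v).2 (Or.inl h3))

/-- The action of the centraliser. -/
def Setup.zAct (γ : Subgroup.centralizer ({t} : Set (GL (Fin 2) S.K))) (z : H3 × S.TOrb t) :
    H3 × S.TOrb t :=
  (Matrix.GeneralLinearGroup.map S.emb (γ : GL (Fin 2) S.K) • z.1,
    ⟨fun v => S.locTorus γ v • z.2.1 v, S.eventually_locTorus ht γ z.2⟩)

theorem Setup.orbitOfK_smul (γ : Subgroup.centralizer ({t} : Set (GL (Fin 2) S.K)))
    (c : Cosets (S.levelIdeal S.K)) (v : HeightOneSpectrum (𝓞 S.K)) :
    (S.orbitOfK ht (rationalMat (γ : GL (Fin 2) S.K) • c)).1 v =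
      S.locTorus γ v • (S.orbitOfK ht c).1 v := by
  show (S.phiK ht v).toFun (coordAt v _) = _
  rw [coordK_smul]
  exact (S.phiK ht v).map_smul (S.locTorus γ v) (coordAt v c)

theorem Setup.orbitOfF_smul (γ : Subgroup.centralizer ({t} : Set (GL (Fin 2) S.K)))
    (c : Cosets (S.levelIdeal S.F)) (v : HeightOneSpectrum (𝓞 S.K)) :
    (S.orbitOfF ht
      (rationalMat (Matrix.GeneralLinearGroup.map S.inclKF.toRingHom (γ : GL (Fin 2) S.K)) • c)).1 v =
      S.locTorus γ v • (S.orbitOfF ht c).1 v := by
  show (S.phiF ht v).toFun (S.coordF v _) = _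
  rw [S.coordF_smul]
  exact (S.phiF ht v).map_smul (S.locTorus γ v) (S.coordF v c)

theorem Setup.zK_smul (γ : Subgroup.centralizer ({t} : Set (GL (Fin 2) S.K)))
    (y : YSpace (S.levelIdeal S.K)) :
    S.zK ht (Matrix.ProjGenLinGroup.mk (γ : GL (Fin 2) S.K) • y) = S.zAct ht γ (S.zK ht y) := by
  obtain ⟨x, c⟩ := y
  rw [mk_smul]
  exact Prod.ext rfl (Subtype.ext (funext fun v => S.orbitOfK_smul ht γ c v))

theorem Setup.zF_smul {w₁ : InfinitePlace S.K → InfinitePlace S.F}
    (hw₁ : ∀ u, (w₁ u).comap S.inclKF.toRingHom = u)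
    (γ : Subgroup.centralizer ({t} : Set (GL (Fin 2) S.K))) (y : YSpace (S.levelIdeal S.F)) :
    S.zF ht w₁ (Classes.pIncl S (Matrix.ProjGenLinGroup.mk (γ : GL (Fin 2) S.K)) • y) =
      S.zAct ht γ (S.zF ht w₁ y) := by
  obtain ⟨x, c⟩ := y
  rw [Classes.pIncl, Classes.pMap_mk, mk_smul]
  refine Prod.ext ?_ (Subtype.ext (funext fun v => S.orbitOfF_smul ht γ c v))
  show ptEmb (infAct _ x) (S.phi0 w₁) = Matrix.GeneralLinearGroup.map S.emb _ • ptEmb x (S.phi0 w₁)
  rw [ptEmb_infAct, ← Setup.phi0_incl hw₁]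
  rfl

/-! ### A finite invariant set in each fibre -/

/-- The cosets in the orbit of the base point at all places. -/
def Setup.baseCosets (S : Setup) (t : GL (Fin 2) S.K) : Set (Cosets (S.levelIdeal S.K)) :=
  {c | ∀ v, ∃ g ∈ torusAt v t, g • S.baseK v = coordAt v c}

/-- The part of a fibre in the orbit of the base point. -/
def Setup.baseFibre (a : S.TOrb t) : Set (Cosets (S.levelIdeal S.K)) :=
  {c | c ∈ S.baseCosets t ∧ S.orbitOfK ht c = a}

theorem Setup.finite_baseFibre (a : S.TOrb t) : (S.baseFibre ht a).Finite := by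
  classical
  let b : ∀ v, LCos (S.levelIdeal S.K) v → ℕ := fun v x =>
    if ∃ g ∈ torusAt v t, g • S.baseK v = x then 1 else 0
  have hU : ∀ (v : HeightOneSpectrum (𝓞 S.K)) x, x ∈ (S.phiK ht v).fibre → b v x ≠ 0 →
      ∃ g ∈ torusU v t, g • S.baseK v = x := by
    intro v x hx hb
    obtain ⟨g, hg, rfl⟩ : ∃ g ∈ torusAt v t, g • S.baseK v = x := by
      by_contra h; exact hb (if_neg h)
    have e := (S.phiK ht v).map_smul ⟨g, hg⟩ (S.baseK v)
    rw [show (S.phiK ht v).toFun _ = _ from hx, (S.phiK ht v).map_base,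
      MulAction.Quotient.smul_coe, smul_eq_mul, mul_one, QuotientGroup.eq, inv_one,
      one_mul, Subgroup.mem_subgroupOf] at e
    exact ⟨g, e, rfl⟩
  have h := finsum_fibre (fun (c : Cosets (S.levelIdeal S.K)) v => coordAt v c) S.coordK_injective
    S.exists_coordK_eq (eventually_coordAt_eq_base (S.levelIdeal_ne_bot S.K)) (S.phiK ht) b
    (fun v g hg x => if_congr ⟨fun ⟨k, hk, e⟩ => ⟨g⁻¹ * k, mul_mem (inv_mem hg) hk,
      by rw [mul_smul, e, inv_smul_smul]⟩, fun ⟨k, hk, e⟩ => ⟨g * k, mul_mem hg hk,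
      by rw [mul_smul, e]⟩⟩ rfl rfl)
    (fun v => (finite_torusU_orbit ht v (S.baseK v) (S.baseF v)).1.subset fun x hx =>
      (hU v x hx.1 hx.2))
    ((eventually_single_orbit ht).mono fun v hv => ⟨if_pos ⟨1, one_mem _, one_smul _ _⟩,
      fun x hx hne => by_contra fun hb => hne (by
        obtain ⟨g, hg, rfl⟩ := hU v x hx hb
        show g • ((1 : GLv v) : LCos (S.levelIdeal S.K) v) = ((1 : GLv v) : LCos (S.levelIdeal S.K) v)
        rw [MulAction.Quotient.smul_coe, smul_eq_mul, mul_one, QuotientGroup.eq, mul_one]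
        exact inv_mem (hv.1 g hg))⟩) a.1 a.2
  refine h.1.subset fun c hc => ⟨fun v => congrFun (congrArg Subtype.val hc.2) v, ?_⟩
  rw [Function.mem_support, finprod_eq_one_of_forall_eq_one fun v => if_pos (hc.1 v)]
  exact one_ne_zero

theorem Setup.nonempty_baseFibre (a : S.TOrb t) : (S.baseFibre ht a).Nonempty := by
  classical
  let g : ∀ v, torusAt v t := fun v =>
    if a.1 v = ((1 : torusAt v t) : torusAt v t ⧸ (torusU v t).subgroupOf (torusAt v t)) then 1
    else (a.1 v).out
  obtain ⟨c, hc⟩ := exists_coordAt_eq (fun v => (g v : GLv v) • S.baseK v)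
    (a.2.mono fun v hv => by simp only [g, if_pos hv, OneMemClass.coe_one, one_smul]; rfl)
  refine ⟨c, fun v => ⟨g v, SetLike.coe_mem _, (hc v).symm⟩, Subtype.ext (funext fun v => ?_)⟩
  show (S.phiK ht v).toFun (coordAt v c) = _
  rw [hc, (S.phiK ht v).map_smul, (S.phiK ht v).map_base, MulAction.Quotient.smul_coe, smul_eq_mul,
    mul_one]
  simp only [g]
  split_ifs with h
  · exact h.symm
  · exact QuotientGroup.out_eq' _

include ht in
theorem Setup.countable_tOrb : Countable (S.TOrb t) := by
  have : Countable (Cosets (S.levelIdeal S.K)) := countable_cosets (S.levelIdeal_ne_bot S.K)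
  exact Function.Surjective.countable (f := S.orbitOfK ht)
    fun a => (S.nonempty_baseFibre ht a).imp fun c hc => hc.2

/-! ### The weight -/

/-- The torus in `PGL₂(K)`. -/
def Setup.torusK (S : Setup) (t : GL (Fin 2) S.K) : Subgroup PGL(2, S.K) :=
  (Subgroup.centralizer ({t} : Set (GL (Fin 2) S.K))).map Matrix.ProjGenLinGroup.mk

/-- The torus in `PGL₂(F)`. -/
def Setup.torusF (S : Setup) (t : GL (Fin 2) S.K) : Subgroup PGL(2, S.F) :=
  (S.torusK t).map (Classes.pIncl S)

/-- The average of a function over the finite sets of the fibres. -/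
def Setup.avg (w : YSpace (S.levelIdeal S.K) → ℝ≥0∞) (z : H3 × S.TOrb t) : ℝ≥0∞ :=
  (∑ c ∈ (S.finite_baseFibre ht z.2).toFinset,
      w ((MeasurableEquiv.funUnique (InfinitePlace S.K) H3).symm z.1, c)) /
    (S.finite_baseFibre ht z.2).toFinset.card

theorem Setup.baseCosets_smul (γ : Subgroup.centralizer ({t} : Set (GL (Fin 2) S.K)))
    {c : Cosets (S.levelIdeal S.K)} (hc : c ∈ S.baseCosets t) :
    rationalMat (γ : GL (Fin 2) S.K) • c ∈ S.baseCosets t := fun v => by
  obtain ⟨g, hg, e⟩ := hc v
  refine ⟨locMat v (γ : GL (Fin 2) S.K) * g, mul_mem (Subgroup.mem_centralizer_singleton_iff.mpr (by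
    rw [← map_mul, ← map_mul, Subgroup.mem_centralizer_singleton_iff.mp γ.2])) hg, ?_⟩
  rw [coordK_smul, mul_smul, e]

theorem Setup.avg_zAct (w : YSpace (S.levelIdeal S.K) → ℝ≥0∞)
    (γ : Subgroup.centralizer ({t} : Set (GL (Fin 2) S.K))) (z : H3 × S.TOrb t) :
    S.avg ht w (S.zAct ht γ z) = (∑ c ∈ (S.finite_baseFibre ht z.2).toFinset,
      w (Matrix.ProjGenLinGroup.mk (γ : GL (Fin 2) S.K) •
        ((MeasurableEquiv.funUnique (InfinitePlace S.K) H3).symm z.1, c))) /
      (S.finite_baseFibre ht z.2).toFinset.card := by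
  classical
  obtain ⟨P, a⟩ := z
  set e := fun c : Cosets (S.levelIdeal S.K) => rationalMat (γ : GL (Fin 2) S.K) • c
  have him : (S.finite_baseFibre ht (S.zAct ht γ (P, a)).2).toFinset =
      (S.finite_baseFibre ht a).toFinset.image e := by
    ext c
    rw [Finset.mem_image, Set.Finite.mem_toFinset]
    have horb : ∀ d : Cosets (S.levelIdeal S.K),
        S.orbitOfK ht (e d) = (S.zAct ht γ (P, S.orbitOfK ht d)).2 := fun d =>
      congrArg Prod.snd (S.zK_smul ht γ ((fun _ => P), d))
    constructor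
    · rintro ⟨h1, h2⟩
      refine ⟨rationalMat (γ⁻¹ : Subgroup.centralizer ({t} : Set (GL (Fin 2) S.K))).1 • c,
        (Set.Finite.mem_toFinset _).mpr ⟨S.baseCosets_smul γ⁻¹ h1, ?_⟩, ?_⟩
      · set d := rationalMat (γ⁻¹ : Subgroup.centralizer ({t} : Set (GL (Fin 2) S.K))).1 • c
        have hd : e d = c := by simp [e, d, map_inv]
        have h3 := horb d
        rw [hd, h2] at h3
        refine Subtype.ext (funext fun v => ?_)
        have h4 := congrFun (congrArg Subtype.val h3) v
        simp only [Setup.zAct] at h4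
        exact (smul_left_cancel_iff _).mp h4.symm
      · simp [e, map_inv]
    · rintro ⟨d, hd, rfl⟩
      rw [Set.Finite.mem_toFinset] at hd
      exact ⟨S.baseCosets_smul γ hd.1, (horb d).trans (by rw [hd.2])⟩
  have hinj : Function.Injective e := MulAction.injective _
  rw [Setup.avg, him, Finset.sum_image (fun _ _ _ _ h => hinj h),
    Finset.card_image_of_injective _ hinj]
  congr 1
  refine Finset.sum_congr rfl fun c _ => congrArg w ?_
  rw [mk_smul]
  refine Prod.ext (funext fun u => ?_) rfl
  show Matrix.GeneralLinearGroup.map S.emb (γ : GL (Fin 2) S.K) • P =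
    Matrix.GeneralLinearGroup.map u.embedding (γ : GL (Fin 2) S.K) • P
  rw [S.embedding_eq]

theorem absolutelyContinuous_map_count {α β : Type*} [MeasurableSpace α] [MeasurableSpace β]
    [MeasurableSingletonClass β] {g : α → β} (hg : Measurable g) :
    (Measure.count : Measure α).map g ≪ (Measure.count : Measure β) :=
  Measure.AbsolutelyContinuous.mk fun s hs h0 => by
    rw [Measure.count_eq_zero_iff] at h0
    rw [Measure.map_apply hg hs, h0, Set.preimage_empty, measure_empty]

theorem Setup.measurePreserving_point (S : Setup) :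
    MeasurePreserving (MeasurableEquiv.funUnique (InfinitePlace S.K) H3)
      (Measure.pi fun _ : InfinitePlace S.K => H3.vol) H3.vol := by
  convert measurePreserving_funUnique H3.vol (InfinitePlace S.K) using 2

theorem Setup.qmp_zK :
    Measure.QuasiMeasurePreserving (S.zK (t := t) ht) (yVol (S.levelIdeal S.K)) (S.zVol t) := by
  have : Countable (Cosets (S.levelIdeal S.K)) := countable_cosets (S.levelIdeal_ne_bot S.K)
  have : Countable (S.TOrb t) := S.countable_tOrb ht
  exact MeasureTheory.QuasiMeasurePreserving.prodMap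
    S.measurePreserving_point.quasiMeasurePreserving
    (g := S.orbitOfK ht) ⟨measurable_of_countable _,
      absolutelyContinuous_map_count (measurable_of_countable _)⟩

theorem Setup.qmp_zF {w₁ : InfinitePlace S.K → InfinitePlace S.F} (hσ : S.IsGalGen σ)
    (hw₁ : ∀ u, (w₁ u).comap S.inclKF.toRingHom = u) :
    Measure.QuasiMeasurePreserving (S.zF (t := t) ht w₁) (yVol (S.levelIdeal S.F)) (S.zVol t) := by
  have : Countable (Cosets (S.levelIdeal S.F)) := countable_cosets (S.levelIdeal_ne_bot S.F)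
  have : Countable (S.TOrb t) := S.countable_tOrb ht
  have h := (Measure.quasiMeasurePreserving_fst (μ := H3.vol) (ν := H3.vol.prod H3.vol)).comp
    (Setup.measurePreserving_chart hσ hw₁).quasiMeasurePreserving
  have e : (Prod.fst ∘ Setup.chart hσ hw₁) = fun x => ptEmb x (S.phi0 w₁) := funext fun x => by
    rw [Function.comp_apply, Setup.chart_apply]
    rfl
  rw [e] at h
  exact MeasureTheory.QuasiMeasurePreserving.prodMap h (g := S.orbitOfF ht)
    ⟨measurable_of_countable _, absolutelyContinuous_map_count (measurable_of_countable _)⟩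

theorem Setup.pIncl_injective : Function.Injective (Classes.pIncl S) := by
  intro a b h
  induction a using Matrix.ProjGenLinGroup.induction_on with | mk a =>
  induction b using Matrix.ProjGenLinGroup.induction_on with | mk b =>
  rw [Classes.pIncl, Classes.pMap_mk, Classes.pMap_mk] at h
  obtain ⟨c, hc⟩ := Classes.mk_eq_mk_iff_smul.mp h
  have he : ∀ i j, c * S.inclKF (a i j) = S.inclKF (b i j) := fun i j =>
    congrFun (congrFun hc i) j
  obtain ⟨i, j, hij⟩ : ∃ i j, a i j ≠ 0 := by
    by_contra! h0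
    exact a.ne_zero (Matrix.ext h0)
  have hc' : c = S.inclKF (b i j / a i j) := by
    rw [map_div₀, eq_div_iff ((map_ne_zero _).mpr hij)]
    exact he i j
  refine Classes.mk_eq_mk_iff_smul.mpr ⟨b i j / a i j, Matrix.ext fun k l => S.inclKF.injective ?_⟩
  show S.inclKF ((b i j / a i j) * a k l) = S.inclKF (b k l)
  rw [map_mul, ← hc', he]

/-- **A weight on the space of the torus gives weights on both sides.** -/
theorem Setup.exists_torusWeight {w₁ : InfinitePlace S.K → InfinitePlace S.F}
    (hσ : S.IsGalGen σ) (hw₁ : ∀ u, (w₁ u).comap S.inclKF.toRingHom = u) :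
    ∃ V : H3 × S.TOrb t → ℝ≥0∞, Measurable V ∧
      IsWeight (S.torusK t) (yVol (S.levelIdeal S.K)) (V ∘ S.zK ht) ∧
      IsWeight (S.torusF t) (yVol (S.levelIdeal S.F)) (V ∘ S.zF ht w₁) := by
  classical
  have hb := S.levelIdeal_ne_bot S.K
  have : Countable (Cosets (S.levelIdeal S.K)) := countable_cosets hb
  have : Countable (S.TOrb t) := S.countable_tOrb ht
  have : MeasurableConstSMul PGL(2, S.K) (YSpace (S.levelIdeal S.K)) :=
    ⟨fun γ => measurable_ySmul hb γ⟩
  obtain ⟨𝔉, -, -, -, -, -, -, hm, hF, -, -, -⟩ := exists_fundDomain hb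
  have hμ : ∀ g : PGL(2, S.K), MeasurePreserving (fun y : YSpace (S.levelIdeal S.K) => g • y)
      (yVol (S.levelIdeal S.K)) (yVol (S.levelIdeal S.K)) := measurePreserving_ySmul hb
  set w := unfold (S.torusK t) (𝔉.indicator (1 : YSpace (S.levelIdeal S.K) → ℝ≥0∞))
  have hw : IsWeight (S.torusK t) (yVol (S.levelIdeal S.K)) w :=
    isWeight_unfold hμ (isWeight_fundDomain hF hm) _
  -- lifts of the elements of the torus
  choose γ hγ hγe using fun g : S.torusK t => Subgroup.mem_map.mp g.2
  set V := S.avg ht w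
  have hV : Measurable V := measurable_from_prod_countable_left fun a => by
    show Measurable fun P => (∑ c ∈ (S.finite_baseFibre ht a).toFinset,
      w ((MeasurableEquiv.funUnique (InfinitePlace S.K) H3).symm P, c)) /
        (S.finite_baseFibre ht a).toFinset.card
    exact (Finset.measurable_sum _ fun c _ => hw.measurable.comp
      ((MeasurableEquiv.funUnique (InfinitePlace S.K) H3).symm.measurable.prodMk
        measurable_const)).div_const _
  -- the sum over the torus on the space of the torus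
  have hsum : ∀ᵐ z ∂(S.zVol t), ∑' g : S.torusK t, V (S.zAct ht ⟨γ g, hγ g⟩ z) = 1 := by
    set e := (MeasurableEquiv.funUnique (InfinitePlace S.K) H3).symm
    have he : MeasurePreserving e H3.vol (Measure.pi fun _ : InfinitePlace S.K => H3.vol) :=
      S.measurePreserving_point.symm _
    have h2 : ∀ᵐ P ∂H3.vol, ∀ c : Cosets (S.levelIdeal S.K),
        ∑' g : S.torusK t, w ((g : PGL(2, S.K)) • (e P, c)) = 1 := by
      rw [ae_all_iff]
      intro c
      have h3 := hw.sum_eq
      rw [yVol] at h3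
      have h4 := Measure.ae_ae_of_ae_prod (Measure.measurePreserving_swap.quasiMeasurePreserving.ae h3)
      exact he.quasiMeasurePreserving.ae (Measure.ae_count_iff.mp h4 c)
    refine (Measure.quasiMeasurePreserving_fst (ν := (Measure.count : Measure (S.TOrb t)))).ae h2
      |>.mono fun z hz => ?_
    obtain ⟨P, a⟩ := z
    simp only [V, S.avg_zAct ht w, hγe, div_eq_mul_inv]
    rw [ENNReal.tsum_mul_right, Summable.tsum_finsetSum fun c _ => ENNReal.summable,
      Finset.sum_congr rfl fun c _ => hz c, Finset.sum_const, nsmul_one, ENNReal.mul_inv_cancel]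
    · simpa using (S.nonempty_baseFibre ht a).ne_empty
    · simp
  refine ⟨V, hV, ⟨hV.comp (S.qmp_zK ht).measurable, ?_⟩,
    ⟨hV.comp (S.qmp_zF ht hσ hw₁).measurable, ?_⟩⟩
  · filter_upwards [(S.qmp_zK ht).ae hsum] with y hy
    refine Eq.trans ?_ hy
    refine tsum_congr fun g => congrArg V ?_
    rw [← S.zK_smul ht ⟨γ g, hγ g⟩ y, hγe]
  · filter_upwards [(S.qmp_zF ht hσ hw₁).ae hsum] with y hy
    refine Eq.trans ?_ hy
    have hinj : Function.Injective (Classes.pIncl S) := S.pIncl_injective
    refine ((((S.torusK t).equivMapOfInjective (Classes.pIncl S) hinj).toEquiv.tsum_eq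
      fun g : S.torusF t => V (S.zF ht w₁ ((g : PGL(2, S.F)) • y))).symm).trans ?_
    refine tsum_congr fun g => congrArg V ?_
    rw [← S.zF_smul ht hw₁ ⟨γ g, hγ g⟩ y, hγe]
    rfl

end FermatAgent.LT
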