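import Mathlib
import Fermat.Agent.LT.Descent.Geom.ZWeight

set_option autoImplicit false

/-!
# Integrals over the fibres of the orbit classes

A twisted term of `F` integrated against a function of the point of the first place and of the orbit
classes is the orbital sum times the integral of the convolution, as is the plain term of `K`.
-/

noncomputable section

open MeasureTheory NumberField IsDedekindDomain
open scoped MatrixGroups ENNReal

namespace FermatAgent.LT

theorem integral_fibre {X C D Q : Type*} [MeasurableSpace X] (m : Measure X) [SFinite m]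
    [MeasurableSpace C] [MeasurableSingletonClass C] [Countable C] (π : X → Q) (ψ : C → D)
    (B : C → ℂ) (A : X → ℂ) (W : Q × D → ℂ) (O : ℂ)
    (hfib : ∀ a, ({c | ψ c = a} ∩ Function.support B).Finite ∧ ∑ᶠ c ∈ {c | ψ c = a}, B c = O)
    (hint : Integrable (fun p : X × C => A p.1 * B p.2 * W (π p.1, ψ p.2)) (m.prod Measure.count)) :
    (O ≠ 0 → ∀ a, Integrable (fun x => A x * W (π x, a)) m) ∧
      ∫ p, A p.1 * B p.2 * W (π p.1, ψ p.2) ∂(m.prod Measure.count) =
        O * ∑' a, ∫ x, A x * W (π x, a) ∂m := by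
  have hslice : ∀ c, Integrable (fun x => A x * B c * W (π x, ψ c)) m :=
    Measure.ae_count_iff.mp hint.prod_left_ae
  refine ⟨fun hO a => ?_, ?_⟩
  · obtain ⟨c, hc, hB⟩ : ∃ c, ψ c = a ∧ B c ≠ 0 := by
      by_contra! h
      exact hO ((hfib a).2.symm.trans (finsum_mem_of_eqOn_zero fun c hc => h c hc))
    refine ((hslice c).const_mul (B c)⁻¹).congr (Filter.Eventually.of_forall fun x => ?_)
    dsimp only
    rw [hc]
    field_simp
  · set I : D → ℂ := fun a => ∫ x, A x * W (π x, a) ∂m
    have hval : ∀ c, ∫ x, A x * B c * W (π x, ψ c) ∂m = B c * I (ψ c) := fun c => by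
      rw [← integral_const_mul]
      exact integral_congr_ae (Filter.Eventually.of_forall fun x => by ring)
    have hi := hint.integral_prod_right
    simp only [hval] at hi
    have hsum : Summable fun c => B c * I (ψ c) := (integrable_count_iff.mp hi).of_norm
    rw [integral_prod_symm _ hint]
    simp only [hval]
    rw [integral_countable hi]
    simp only [Measure.real, Measure.count_singleton, ENNReal.toReal_one, one_smul]
    have hs2 : Summable fun p : Σ a, {c // ψ c = a} => B p.2.1 * I (ψ p.2.1) :=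
      (Equiv.sigmaFiberEquiv ψ).summable_iff.mpr hsum
    rw [← tsum_mul_left, ← (Equiv.sigmaFiberEquiv ψ).tsum_eq]
    refine hs2.tsum_sigma.trans ?_
    refine tsum_congr fun a => ?_
    calc ∑' c : {c // ψ c = a}, B c.1 * I (ψ c.1) = ∑' c : {c // ψ c = a}, B c.1 * I a :=
          tsum_congr fun c => by rw [c.2]
      _ = (∑' c : {c // ψ c = a}, B c.1) * I a := tsum_mul_right
      _ = O * I a := by
        congr 1
        rw [← (hfib a).2, tsum_eq_finsum, finsum_subtype_eq_finsum_cond (fun c => ψ c = a)]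
        · rfl
        · refine ((hfib a).1.preimage Subtype.val_injective.injOn).subset fun c hc => ⟨c.2, hc⟩

variable {S : Setup} {σ : S.F ≃+* S.F} (hσ : S.IsGalGen σ) {t : GL (Fin 2) S.K}
  {δ : GL (Fin 2) S.F} {w₁ : InfinitePlace S.K → InfinitePlace S.F}
  (hw₁ : ∀ u, (w₁ u).comap S.inclKF.toRingHom = u)
  (Ψ : S.PsiData) (hΨ : Ψ.Nontriv) (l : List (HeightOneSpectrum (𝓞 S.F)))
  (hl : ∀ w ∈ l, ((3 * S.m : ℕ) : 𝓞 S.F) ∉ w.asIdeal)
  {h : InfinitePlace S.F → H3 → H3 → ℂ}

/-- The twisted term of `F`. -/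
def Setup.termF (h : InfinitePlace S.F → H3 → H3 → ℂ) (σ : S.F ≃+* S.F) (δ : GL (Fin 2) S.F)
    (y : YSpace (S.levelIdeal S.F)) : ℂ :=
  yKer h (S.levelOpF Ψ * heckeWord _ l) y (Matrix.ProjGenLinGroup.mk δ • galY σ y)

/-- The plain term of `K`. -/
def Setup.termK (h : InfinitePlace S.F → H3 → H3 → ℂ) (σ : S.F ≃+* S.F)
    (w₁ : InfinitePlace S.K → InfinitePlace S.F) (t : GL (Fin 2) S.K)
    (y : YSpace (S.levelIdeal S.K)) : ℂ :=
  yKer (S.slotKer σ w₁ h) (S.levelOpK Ψ * (l.map S.bcOp).prod) y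
    (Matrix.ProjGenLinGroup.mk t • y)

include hσ hw₁ hΨ hl in
theorem Setup.integral_termF (hh : ∀ w, H3.IsInvKer (h w)) (hn : S.IsNormPair σ t δ)
    {G : H3 × S.TOrb t → ℂ}
    (hint : Integrable (fun y => S.termF Ψ l h σ δ y * G (S.zF hn.regular w₁ y))
      (yVol (S.levelIdeal S.F))) :
    ∫ y, S.termF Ψ l h σ δ y * G (S.zF hn.regular w₁ y) ∂(yVol (S.levelIdeal S.F)) =
      S.orbK Ψ l hn.regular *
        ∑' a, ∫ P, S.slotKer σ w₁ h default P (Matrix.GeneralLinearGroup.map S.emb t • P) *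
          G (P, a) ∂H3.vol := by
  have : Countable (Cosets (S.levelIdeal S.F)) := countable_cosets (S.levelIdeal_ne_bot S.F)
  set A : XInf S.F → ℂ := fun x => prodKer h x (infAct δ (galX σ x))
  set B : Cosets (S.levelIdeal S.F) → ℂ := fun c =>
    finKer (S.levelOpF Ψ * heckeWord _ l) c (rationalMat δ • galCoset σ c)
  have e : ∀ y : YSpace (S.levelIdeal S.F), S.termF Ψ l h σ δ y * G (S.zF hn.regular w₁ y) =
      A y.1 * B y.2 * G (ptEmb y.1 (S.phi0 w₁), S.orbitOfF hn.regular y.2) := by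
    rintro ⟨x, c⟩
    rw [Setup.termF, galY, mk_smul]
    rfl
  simp only [e] at hint ⊢
  have hfib : ∀ a : S.TOrb t, ({c | S.orbitOfF hn.regular c = a} ∩ Function.support B).Finite ∧
      ∑ᶠ c ∈ {c | S.orbitOfF hn.regular c = a}, B c = S.orbK Ψ l hn.regular := fun a => by
    have h1 := S.finsum_fibre_F Ψ l hl hσ hΨ hn a.1 a.2
    have e' : {c | S.orbitOfF hn.regular c = a} =
        {c | ∀ v, (S.phiF hn.regular v).toFun (S.coordF v c) = a.1 v} := by
      ext c; exact ⟨fun h v => congrFun (congrArg Subtype.val h) v, fun h => Subtype.ext (funext h)⟩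
    rw [e']
    exact h1
  have hF := integral_fibre (Measure.pi fun _ : InfinitePlace S.F => H3.vol)
    (fun x => ptEmb x (S.phi0 w₁)) (S.orbitOfF hn.regular) B A G _ hfib hint
  refine hF.2.trans ?_
  rcases eq_or_ne (S.orbK Ψ l hn.regular) 0 with hO | hO
  · rw [hO, zero_mul, zero_mul]
  · congr 1
    exact tsum_congr fun a =>
      Setup.integral_infinity hσ hw₁ hh hn.norm (g := fun P => G (P, a)) (hF.1 hO a)

include hl in
theorem Setup.integral_termK
    (ht : (t : Matrix (Fin 2) (Fin 2) S.K).trace ^ 2 ≠ 4 * (t : Matrix (Fin 2) (Fin 2) S.K).det)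
    {G : H3 × S.TOrb t → ℂ}
    (hint : Integrable (fun y => S.termK Ψ l h σ w₁ t y * G (S.zK ht y)) (yVol (S.levelIdeal S.K))) :
    ∫ y, S.termK Ψ l h σ w₁ t y * G (S.zK ht y) ∂(yVol (S.levelIdeal S.K)) =
      S.orbK Ψ l ht *
        ∑' a, ∫ P, S.slotKer σ w₁ h default P (Matrix.GeneralLinearGroup.map S.emb t • P) *
          G (P, a) ∂H3.vol := by
  have : Countable (Cosets (S.levelIdeal S.K)) := countable_cosets (S.levelIdeal_ne_bot S.K)
  set A : H3 → ℂ := fun P =>
    S.slotKer σ w₁ h default P (Matrix.GeneralLinearGroup.map S.emb t • P)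
  set B : Cosets (S.levelIdeal S.K) → ℂ := fun c =>
    finKer (S.levelOpK Ψ * (l.map S.bcOp).prod) c (rationalMat t • c)
  have e : ∀ y : YSpace (S.levelIdeal S.K), S.termK Ψ l h σ w₁ t y * G (S.zK ht y) =
      A (y.1 default) * B y.2 * G (y.1 default, S.orbitOfK ht y.2) := by
    rintro ⟨x, c⟩
    rw [Setup.termK, mk_smul]
    show (∏ u, S.slotKer σ w₁ h u (x u) (infAct t x u)) * _ * _ = _
    rw [Fintype.prod_unique]
    rfl
  simp only [e] at hint ⊢
  have hfib : ∀ a : S.TOrb t, ({c | S.orbitOfK ht c = a} ∩ Function.support B).Finite ∧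
      ∑ᶠ c ∈ {c | S.orbitOfK ht c = a}, B c = S.orbK Ψ l ht := fun a => by
    have h1 := S.finsum_fibre_K Ψ l hl ht a.1 a.2
    have e' : {c | S.orbitOfK ht c = a} =
        {c | ∀ v, (S.phiK ht v).toFun (coordAt v c) = a.1 v} := by
      ext c; exact ⟨fun h v => congrFun (congrArg Subtype.val h) v, fun h => Subtype.ext (funext h)⟩
    rw [e']
    exact h1
  refine (integral_fibre (Measure.pi fun _ : InfinitePlace S.K => H3.vol)
    (fun x => x default) (S.orbitOfK ht) B (fun x => A (x default)) G _ hfib hint).2.trans ?_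
  congr 1
  exact tsum_congr fun a => S.measurePreserving_point.integral_comp
    (MeasurableEquiv.funUnique (InfinitePlace S.K) H3).measurableEmbedding
    fun P => A P * G (P, a)

end FermatAgent.LT
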