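import Mathlib
import Fermat.Agent.LT.Descent.Geom.Cusp
import Fermat.Agent.LT.Descent.Geom.FibreInt
import Fermat.Agent.LT.Descent.Geom.Local.GalFacts

set_option autoImplicit false

/-!
# Elliptic terms are supported below a fixed height
-/

noncomputable section

open MeasureTheory NumberField IsDedekindDomain
open scoped MatrixGroups ENNReal

namespace FermatAgent.LT

open Weight Matrix

/-- An eigen row makes the discriminant a square. -/
theorem isSquare_disc_of_row {L : Type*} [Field L] (M : Matrix (Fin 2) (Fin 2) L) {r : Fin 2 → L}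
    (hr : r ≠ 0) {ν : L} (h : r ᵥ* M = ν • r) : IsSquare (M.trace ^ 2 - 4 * M.det) := by
  have h0 := congrFun h 0
  have h1 := congrFun h 1
  simp [Matrix.vecMul, dotProduct, Fin.sum_univ_two] at h0 h1
  have key : ν ^ 2 - M.trace * ν + M.det = 0 := by
    have e0 : r 0 * (ν ^ 2 - M.trace * ν + M.det) = 0 := by
      rw [Matrix.trace_fin_two, Matrix.det_fin_two]
      linear_combination (M 1 1 - ν) * h0 - M 1 0 * h1
    have e1 : r 1 * (ν ^ 2 - M.trace * ν + M.det) = 0 := by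
      rw [Matrix.trace_fin_two, Matrix.det_fin_two]
      linear_combination (M 0 0 - ν) * h1 - M 0 1 * h0
    by_contra hk
    exact hr (funext fun i => by
      fin_cases i
      · exact (mul_eq_zero.mp e0).resolve_right hk
      · exact (mul_eq_zero.mp e1).resolve_right hk)
  exact ⟨2 * ν - M.trace, by linear_combination -4 * key⟩

/-- Proportional rows. -/
theorem exists_smul_of_cross {L : Type*} [Field L] {r s : Fin 2 → L} (hr : r ≠ 0)
    (h : r 0 * s 1 - r 1 * s 0 = 0) : ∃ ν : L, s = ν • r := by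
  by_cases h0 : r 0 = 0
  · have h1 : r 1 ≠ 0 := fun h1 => hr (funext fun i => by fin_cases i <;> assumption)
    refine ⟨s 1 / r 1, funext fun i => ?_⟩
    fin_cases i
    · rw [h0] at h
      have : s 0 = 0 := by simpa [h1] using h
      simp [this, h0]
    · simp [div_mul_cancel₀ _ h1]
  · refine ⟨s 0 / r 0, funext fun i => ?_⟩
    fin_cases i
    · simp [div_mul_cancel₀ _ h0]
    · show s 1 = s 0 / r 0 * r 1
      field_simp
      linear_combination h

theorem row_ne_zero {L : Type*} [Field L] (α : GL (Fin 2) L) :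
    (fun j => α 1 j : Fin 2 → L) ≠ 0 := fun h => by
  refine (Matrix.GeneralLinearGroup.det α).ne_zero ?_
  rw [Matrix.GeneralLinearGroup.val_det_apply, Matrix.det_fin_two,
    show α 1 0 = 0 from congrFun h 0, show α 1 1 = 0 from congrFun h 1]
  ring

variable {S : Setup} {σ : S.F ≃+* S.F}

theorem Setup.not_isSquare_inclKF (hσ : S.IsGalGen σ) {d : S.K} (hd : ¬ IsSquare d) :
    ¬ IsSquare (S.inclKF d) := by
  rintro ⟨x, hx⟩
  have h2 : σ x * σ x = x * x := by rw [← map_mul, ← hx, hσ.2]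
  rcases mul_self_eq_mul_self_iff.mp h2 with h | h
  · obtain ⟨y, rfl⟩ := hσ.exists_of_fixed h
    exact hd ⟨y, S.inclKF.injective (hx.trans (map_mul S.inclKF y y).symm)⟩
  · have h3 := hσ.cube x
    rw [h, map_neg, h, neg_neg, h, neg_eq_iff_add_eq_zero, ← two_mul] at h3
    have hx0 : x = 0 := (mul_eq_zero.mp h3).resolve_left two_ne_zero
    rw [hx0, mul_zero] at hx
    exact hd ⟨0, S.inclKF.injective (hx.trans (by rw [mul_zero]; exact (map_zero S.inclKF).symm))⟩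

variable (Ψ : S.PsiData) (l : List (HeightOneSpectrum (𝓞 S.F)))
  {h : InfinitePlace S.F → H3 → H3 → ℂ}
  {w₁ : InfinitePlace S.K → InfinitePlace S.F}

theorem Setup.exists_eigen_F (hσ : S.IsGalGen σ) (hh : ∀ w, H3.IsInvKer (h w))
    (hT : IsCosetOp (S.levelOpF Ψ * heckeWord (S.levelIdeal S.F) l)) :
    ∃ l₀ : ℝ, ∀ (t : GL (Fin 2) S.K) (δ : GL (Fin 2) S.F), S.IsNormPair σ t δ →
      ∀ y, S.termF Ψ l h σ δ y ≠ 0 → ∀ α : GL (Fin 2) S.F, l₀ < heightY α y →
        ∃ ν : S.F, (fun j => α 1 j : Fin 2 → S.F) ᵥ*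
          ((Matrix.GeneralLinearGroup.map S.inclKF.toRingHom t : GL (Fin 2) S.F) :
            Matrix (Fin 2) (Fin 2) S.F) = ν • (fun j => α 1 j : Fin 2 → S.F) := by
  obtain ⟨l₀, -, hl₀⟩ := exists_high_cusp_fixed hh hT (τ := galY σ)
    (c := Matrix.GeneralLinearGroup.map σ.symm.toRingHom)
    (fun γ y => heightY_galY (S.levelIdeal_ne_bot S.F) (S.levelIdeal_map σ) γ y)
  refine ⟨l₀, fun t δ hn y hy α hα => ?_⟩
  have hc := hl₀ δ y hy α hα
  set r : Fin 2 → S.F := fun j => α 1 j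
  set G := fun M : GL (Fin 2) S.F => Matrix.GeneralLinearGroup.map σ.toRingHom M
  -- the row is moved to a multiple of its conjugate
  obtain ⟨μ, hμ⟩ : ∃ μ : S.F, r ᵥ* (δ : Matrix (Fin 2) (Fin 2) S.F) = μ • (σ ∘ r) := by
    refine exists_smul_of_cross (fun h0 => row_ne_zero α (funext fun j => ?_)) ?_
    · exact σ.injective ((congrFun h0 j).trans (map_zero σ).symm)
    · have hrow : ∀ j, (α * δ) 1 j = (r ᵥ* (δ : Matrix (Fin 2) (Fin 2) S.F)) j := fun j => by
        simp [r, Matrix.vecMul, dotProduct, Matrix.mul_apply]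
      have key : ∀ (M : GL (Fin 2) S.F) (i j : Fin 2),
          σ ((Matrix.GeneralLinearGroup.map σ.symm.toRingHom M) i j) = M i j := fun M i j =>
        σ.apply_symm_apply _
      have h1 := congrArg σ hc
      rw [map_sub, map_zero, map_mul σ (α 1 0), map_mul σ (α 1 1), key, key, hrow, hrow] at h1
      exact h1
  have hμ' : ∀ (M : GL (Fin 2) S.F) (s : Fin 2 → S.F),
      (σ ∘ s) ᵥ* (G M : Matrix (Fin 2) (Fin 2) S.F) =
        σ ∘ (s ᵥ* (M : Matrix (Fin 2) (Fin 2) S.F)) := fun M s => by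
    funext j
    simp [G, Matrix.vecMul, dotProduct, map_mul]
  have hsm : ∀ (a : S.F) (s : Fin 2 → S.F), σ ∘ (a • s) = σ a • (σ ∘ s) := fun a s =>
    funext fun j => map_mul σ _ _
  have h3 : σ ∘ (σ ∘ (σ ∘ r)) = r := funext fun j => hσ.cube _
  have heig : r ᵥ* ((Matrix.GeneralLinearGroup.map S.inclKF.toRingHom t : GL (Fin 2) S.F) :
      Matrix (Fin 2) (Fin 2) S.F) = (μ * σ μ * σ (σ μ)) • r := by
    rw [← hn.norm, Units.val_mul, Units.val_mul, ← Matrix.vecMul_vecMul, ← Matrix.vecMul_vecMul, hμ,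
      Matrix.smul_vecMul, hμ', hμ, hsm, Matrix.smul_vecMul, Matrix.smul_vecMul, hμ', hμ', hμ, hsm,
      hsm, h3, smul_smul, smul_smul]
  exact ⟨_, heig⟩

theorem Setup.exists_trunc_F (hσ : S.IsGalGen σ) (hh : ∀ w, H3.IsInvKer (h w))
    (hT : IsCosetOp (S.levelOpF Ψ * heckeWord (S.levelIdeal S.F) l)) :
    ∃ l₀ : ℝ, ∀ (t : GL (Fin 2) S.K) (δ : GL (Fin 2) S.F), S.IsNormPair σ t δ →
      ¬ IsSquare ((t : Matrix (Fin 2) (Fin 2) S.K).trace ^ 2 -
        4 * (t : Matrix (Fin 2) (Fin 2) S.K).det) →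
      ∀ y, S.termF Ψ l h σ δ y ≠ 0 → y ∈ trunc (S.levelIdeal S.F) l₀ := by
  obtain ⟨l₀, hl₀⟩ := S.exists_eigen_F Ψ l hσ hh hT
  refine ⟨l₀, fun t δ hn hns y hy α => not_lt.mp fun hα => ?_⟩
  obtain ⟨ν, heig⟩ := hl₀ t δ hn y hy α hα
  refine S.not_isSquare_inclKF hσ hns ?_
  have h4 := isSquare_disc_of_row _ (row_ne_zero α) heig
  convert h4 using 1
  rw [map_sub, map_pow, map_mul, map_ofNat]
  rfl

theorem Setup.exists_eigen_K (hh : ∀ u, H3.IsInvKer (S.slotKer σ w₁ h u))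
    (hT : IsCosetOp (S.levelOpK Ψ * (l.map S.bcOp).prod)) :
    ∃ l₀ : ℝ, ∀ (t : GL (Fin 2) S.K) (y : YSpace (S.levelIdeal S.K)),
      S.termK Ψ l h σ w₁ t y ≠ 0 → ∀ α : GL (Fin 2) S.K, l₀ < heightY α y →
        ∃ ν : S.K, (fun j => α 1 j : Fin 2 → S.K) ᵥ* (t : Matrix (Fin 2) (Fin 2) S.K) =
          ν • (fun j => α 1 j : Fin 2 → S.K) := by
  obtain ⟨l₀, -, hl₀⟩ := exists_high_cusp_fixed hh hT (τ := id) (c := id) fun γ y => rfl
  refine ⟨l₀, fun t y hy α hα => exists_smul_of_cross (row_ne_zero α) ?_⟩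
  simpa [Matrix.vecMul, dotProduct, Matrix.mul_apply] using hl₀ t y hy α hα

theorem Setup.exists_trunc_K (hh : ∀ u, H3.IsInvKer (S.slotKer σ w₁ h u))
    (hT : IsCosetOp (S.levelOpK Ψ * (l.map S.bcOp).prod)) :
    ∃ l₀ : ℝ, ∀ t : GL (Fin 2) S.K,
      ¬ IsSquare ((t : Matrix (Fin 2) (Fin 2) S.K).trace ^ 2 -
        4 * (t : Matrix (Fin 2) (Fin 2) S.K).det) →
      ∀ y, S.termK Ψ l h σ w₁ t y ≠ 0 → y ∈ trunc (S.levelIdeal S.K) l₀ := by
  obtain ⟨l₀, hl₀⟩ := S.exists_eigen_K Ψ l hh hT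
  refine ⟨l₀, fun t hns y hy α => not_lt.mp fun hα => ?_⟩
  obtain ⟨ν, hν⟩ := hl₀ t y hy α hα
  exact hns (isSquare_disc_of_row _ (row_ne_zero α) hν)

end FermatAgent.LT
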