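import Mathlib
import Fermat.Agent.LT.Descent.Geom.OrbitSum
import Fermat.Agent.LT.Descent.Classes.Hasse
import Fermat.Agent.LT.Descent.Geom.Local.Statements

set_option autoImplicit false

/-!
# The classes which are not norms have a vanishing orbital sum
-/

noncomputable section

open NumberField IsDedekindDomain WithZero
open scoped MatrixGroups

namespace FermatAgent.LT

variable {S : Setup} {σ : S.F ≃+* S.F} (Ψ : S.PsiData) (l : List (HeightOneSpectrum (𝓞 S.F)))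
  (hl : ∀ w ∈ l, ((3 * S.m : ℕ) : 𝓞 S.F) ∉ w.asIdeal) {t : GL (Fin 2) S.K}
  (ht : (t : Matrix (Fin 2) (Fin 2) S.K).trace ^ 2 ≠ 4 * (t : Matrix (Fin 2) (Fin 2) S.K).det)

include hl in
theorem Setup.exists_place_of_not_norm (hσ : S.IsGalGen σ) (hΨ : Ψ.Nontriv)
    {w : HeightOneSpectrum (𝓞 S.F)}
    (hw : Ideal.absNorm w.asIdeal ≠ Ideal.absNorm (S.underK w).asIdeal)
    (hodd : Classes.OddVal (S.underK w) (Matrix.ProjGenLinGroup.mk t))
    (hno : ¬ ∃ δ : PGL(2, S.F),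
      TF.nm (Classes.pGal σ) δ = Classes.pIncl S (Matrix.ProjGenLinGroup.mk t)) :
    ∃ v₁ : HeightOneSpectrum (𝓞 S.K), (3 : 𝓞 S.K) ∉ v₁.asIdeal ∧
      ∑ᶠ y ∈ (S.phiK ht v₁).fibre, S.bK Ψ l t v₁ y = 0 := by
  by_contra hex
  push Not at hex
  apply hno
  refine Classes.exists_nm_of_local hσ hw hodd (fun u hu hu' hlt => ?_) fun v hv => ?_
  · by_contra hc
    have hv := S.not_levelIdeal_underK hu
    have hin : ∀ u' : S.OverK (S.underK u), galPlace σ u'.1 = u'.1 := fun u' => by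
      have hfix := (Classes.inert_gal_eq hσ hu').1
      rw [eq_of_galPlace_fixed hσ hfix u'.2]
      exact hfix
    set x := (S.underK u).valuation S.K (Classes.pRatio (Matrix.ProjGenLinGroup.mk t)) with hx
    have hx0 : x ≠ 0 := (zero_lt_one.trans hlt).ne'
    have hk : ¬ (3 : ℤ) ∣ log x := fun ⟨j, hj⟩ => hc ⟨exp j, by
      rw [← exp_log hx0, hj, ← exp_nsmul, nsmul_eq_mul]; rfl⟩
    have hk0 : 0 < log x := by
      rw [← exp_lt_exp, exp_zero, exp_log hx0]; exact hlt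
    refine hex (S.underK u) (fun h3 => hv ?_) (sum_bK_eq_zero_inert hσ ht Ψ hΨ l hl hv hin hk hk0 ?_
      (S.isFundSet_phiK ht _))
    · push_cast; exact Ideal.mul_mem_right _ _ h3
    · rw [exp_log hx0, hx, Classes.pRatio_mk]; rfl
  · by_contra hc
    refine hex v (fun h3 => ?_) (finsum_mem_eq_zero_of_forall_eq_zero fun y _ =>
      bK_eq_zero_tame Ψ hΨ l hl hv (by rwa [Classes.pRatio_mk] at hc) y)
    have hcop : IsCoprime (3 : ℤ) (S.m : ℤ) := (Nat.Coprime.isCoprime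
      ((Nat.Prime.coprime_iff_not_dvd Nat.prime_three).mpr S.three_not_dvd) : _)
    obtain ⟨a, b, hab⟩ := hcop
    apply v.isPrime.ne_top
    rw [Ideal.eq_top_iff_one]
    have h1 : (a : 𝓞 S.K) * 3 + (b : 𝓞 S.K) * (S.m : 𝓞 S.K) = 1 := by
      have := congrArg (Int.cast : ℤ → 𝓞 S.K) hab
      push_cast at this
      exact this
    rw [← h1]
    exact add_mem (Ideal.mul_mem_left _ _ h3) (Ideal.mul_mem_left _ _ hv)

end FermatAgent.LT
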