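import Mathlib
import Fermat.Agent.LT.Descent.Geom.Cusp
import Fermat.Agent.LT.Descent.Geom.Lift

set_option autoImplicit false

/-!
# The two cusps of the diagonal torus and the scaling at infinity
-/

noncomputable section

open MeasureTheory NumberField IsDedekindDomain Filter
open scoped MatrixGroups

namespace FermatAgent.LT

/-- The matrix exchanging the two cusps. -/
def antiGL (R : Type*) [Field R] : GL (Fin 2) R :=
  Matrix.GeneralLinearGroup.mkOfDetNeZero !![0, 1; 1, 0] (by simp [Matrix.det_fin_two])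

theorem antiGL_entries (R : Type*) [Field R] :
    ((antiGL R : GL (Fin 2) R) : Matrix (Fin 2) (Fin 2) R) = !![0, 1; 1, 0] := rfl

theorem map_antiGL {R R' : Type*} [Field R] [Field R'] (f : R →+* R') :
    Matrix.GeneralLinearGroup.map f (antiGL R) = antiGL R' :=
  Matrix.GeneralLinearGroup.ext fun i j => by
    fin_cases i <;> fin_cases j <;> simp [antiGL_entries, Matrix.GeneralLinearGroup.map_apply]

/-- A diagonal element. -/
def IsDiag2 {R : Type*} [Field R] (g : GL (Fin 2) R) : Prop := g 0 1 = 0 ∧ g 1 0 = 0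

theorem IsDiag2.ne_zero {R : Type*} [Field R] {g : GL (Fin 2) R} (hg : IsDiag2 g) :
    g 0 0 ≠ 0 ∧ g 1 1 ≠ 0 := by
  have hd := g.det_ne_zero
  rw [Matrix.det_fin_two, hg.1, zero_mul, sub_zero] at hd
  exact ⟨left_ne_zero_of_mul hd, right_ne_zero_of_mul hd⟩

/-- The scaling of `H3`. -/
def scaleG (r : ℝ) : GL (Fin 2) ℂ :=
  upperTri (Units.mk0 (Real.exp r : ℂ) (by exact_mod_cast (Real.exp_pos r).ne')) 0 1

theorem scaleG_entries (r : ℝ) :
    ((scaleG r : GL (Fin 2) ℂ) : Matrix (Fin 2) (Fin 2) ℂ) = !![(Real.exp r : ℂ), 0; 0, 1] := rfl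

theorem map_conj_scaleG (r : ℝ) :
    Matrix.GeneralLinearGroup.map (starRingEnd ℂ) (scaleG r) = scaleG r :=
  Matrix.GeneralLinearGroup.ext fun i j => by
    fin_cases i <;> fin_cases j <;>
      simp [scaleG_entries, Matrix.GeneralLinearGroup.map_apply, Complex.conj_ofReal, -Complex.ofReal_exp]

theorem scaleG_comm (r : ℝ) {g : GL (Fin 2) ℂ} (hg : IsDiag2 g) :
    g * scaleG r = scaleG r * g :=
  Matrix.GeneralLinearGroup.ext fun i j => by
    fin_cases i <;> fin_cases j <;>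
      simp [Matrix.mul_apply, Fin.sum_univ_two, scaleG_entries, hg.1, hg.2, mul_comm]

theorem hInfPt_one_scale (r : ℝ) (P : H3) :
    hInfPt 1 (scaleG r • P) = Real.exp (2 * r) * hInfPt 1 P := by
  rw [hInfPt, hInfPt, one_smul, one_smul, t_smul_eq, mul_comm 2 r, Real.exp_mul, Real.rpow_two]
  simp [H3.den, scaleG_entries, Matrix.det_fin_two, abs_of_pos (Real.exp_pos r), -Complex.ofReal_exp]
  ring

theorem hInfPt_anti_scale (r : ℝ) (P : H3) :
    hInfPt (antiGL ℂ) (scaleG r • P) = Real.exp (-(2 * r)) * hInfPt (antiGL ℂ) P := by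
  have he := Real.exp_pos r
  rw [hInfPt, hInfPt, ← mul_smul, t_smul_eq, t_smul_eq, Real.exp_neg, mul_comm 2 r, Real.exp_mul,
    Real.rpow_two]
  simp [H3.den, scaleG_entries, antiGL_entries, Matrix.det_fin_two, Matrix.mul_apply,
    Fin.sum_univ_two, abs_of_pos he, -Complex.ofReal_exp, Complex.normSq_eq_norm_sq]
  field_simp

theorem hInfPt_pos (M : GL (Fin 2) ℂ) (P : H3) : 0 < hInfPt M P := pow_pos (H3.t_pos _) 2

variable {L : Type*} [Field L] [NumberField L] {𝔫 : Ideal (𝓞 L)}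

/-- The scaling of the space at all infinite places. -/
def scaleX (r : ℝ) : XInf L ≃ᵐ XInf L :=
  MeasurableEquiv.piCongrRight fun _ : InfinitePlace L => H3.smulEquiv (scaleG r)

omit [NumberField L] in
theorem scaleX_apply (r : ℝ) (x : XInf L) (w : InfinitePlace L) :
    scaleX r x w = scaleG r • x w := rfl

/-- The scaling of the space. -/
def scaleY (r : ℝ) : YSpace 𝔫 ≃ᵐ YSpace 𝔫 :=
  MeasurableEquiv.prodCongr (scaleX r) (MeasurableEquiv.refl _)

theorem scaleY_apply (r : ℝ) (y : YSpace 𝔫) : scaleY r y = (scaleX r y.1, y.2) := rfl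

theorem measurePreserving_scaleY (h𝔫 : 𝔫 ≠ ⊥) (r : ℝ) :
    MeasurePreserving (scaleY (𝔫 := 𝔫) r) (yVol 𝔫) (yVol 𝔫) := by
  have : Countable (Cosets 𝔫) := countable_cosets h𝔫
  exact (measurePreserving_pi (f := fun _ : InfinitePlace L => fun P : H3 => scaleG r • P)
    (fun _ => H3.vol) (fun _ => H3.vol)
    fun _ => H3.measurePreserving_h3_smul (scaleG r)).prod (MeasurePreserving.id _)

omit [NumberField L] in
theorem infAct_scaleX (r : ℝ) {γ : GL (Fin 2) L} (hγ : IsDiag2 γ) (x : XInf L) :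
    infAct γ (scaleX r x) = scaleX r (infAct γ x) := by
  funext w
  rw [scaleX_apply, infAct, infAct, scaleX_apply, ← mul_smul, ← mul_smul, scaleG_comm]
  exact ⟨(congrArg w.embedding hγ.1).trans (map_zero _), (congrArg w.embedding hγ.2).trans (map_zero _)⟩

omit [NumberField L] in
theorem ptEmb_scaleX (r : ℝ) (x : XInf L) (φ : L →+* ℂ) :
    ptEmb (scaleX r x) φ = scaleG r • ptEmb x φ := by
  unfold ptEmb
  split_ifs
  · rfl
  · rw [scaleX_apply, H3.conjPt_smul, map_conj_scaleG]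

omit [NumberField L] in
theorem galX_scaleX (σ : L ≃+* L) (r : ℝ) (x : XInf L) :
    galX σ (scaleX r x) = scaleX r (galX σ x) :=
  funext fun _ => ptEmb_scaleX r x _

theorem prodKer_scaleX {h : InfinitePlace L → H3 → H3 → ℂ} (hh : ∀ w, H3.IsInvKer (h w)) (r : ℝ)
    (x x' : XInf L) : prodKer h (scaleX r x) (scaleX r x') = prodKer h x x' :=
  Finset.prod_congr rfl fun w _ => (hh w).inv _ _ _

/-! ### The parts of the product of the two heights -/

/-- The part at an infinite place. -/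
def partInf (P : H3) : ℝ := -Real.log (hInfPt 1 P * hInfPt (antiGL ℂ) P)

theorem partInf_nonneg (P : H3) : 0 ≤ partInf P := by
  refine neg_nonneg.mpr (Real.log_nonpos (mul_nonneg (hInfPt_pos _ _).le (hInfPt_pos _ _).le) ?_)
  have h := hInfPt_mul_le 1 (antiGL ℂ) P
  simpa [antiGL_entries, Matrix.det_fin_two] using h

theorem partInf_scale (r : ℝ) (P : H3) : partInf (scaleG r • P) = partInf P := by
  rw [partInf, partInf, hInfPt_one_scale, hInfPt_anti_scale, mul_mul_mul_comm, ← Real.exp_add,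
    add_neg_cancel, Real.exp_zero, one_mul]

/-- The part at a finite place. -/
def partFin (v : HeightOneSpectrum (𝓞 L)) (M : GLv v) : ℝ :=
  -Real.log (hLoc v M * hLoc v (antiGL _ * M))

theorem partFin_nonneg (v : HeightOneSpectrum (𝓞 L)) (M : GLv v) : 0 ≤ partFin v M := by
  refine neg_nonneg.mpr (Real.log_nonpos (mul_pos (hLoc_pos _) (hLoc_pos _)).le ?_)
  have h := hLoc_mul_hLoc_le M (antiGL _ * M)
  have hd : 0 < ‖(M : Matrix (Fin 2) (Fin 2) (v.adicCompletion L)).det‖ :=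
    norm_pos_iff.mpr M.det_ne_zero
  have e : M 1 0 * (antiGL (v.adicCompletion L) * M : GLv v) 1 1 -
      M 1 1 * (antiGL (v.adicCompletion L) * M : GLv v) 1 0 =
      -(M : Matrix (Fin 2) (Fin 2) (v.adicCompletion L)).det := by
    simp [Matrix.mul_apply, Fin.sum_univ_two, antiGL_entries, Matrix.det_fin_two]
    ring
  rw [e, norm_neg, Units.val_mul, Matrix.det_mul, antiGL_entries, Matrix.det_fin_two_of] at h
  simp only [mul_zero, mul_one, zero_sub, norm_mul, norm_neg, norm_one, one_mul] at h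
  rw [← sq] at h
  nlinarith [pow_pos hd 2]

theorem partFin_mul_level {v : HeightOneSpectrum (𝓞 L)} (M : GLv v) {k : GLv v}
    (hk : k ∈ locLevel 𝔫 v) : partFin v (M * k) = partFin v M := by
  rw [partFin, partFin, ← mul_assoc, hLoc_mul_locLevel M hk, hLoc_mul_locLevel _ hk]

theorem hLoc_diag_mul {v : HeightOneSpectrum (𝓞 L)} {g : GLv v} (hg : IsDiag2 g) (M : GLv v) :
    hLoc v (g * M) = ‖g 0 0‖ / ‖g 1 1‖ * hLoc v M := by
  obtain ⟨h0, h1⟩ := hg.ne_zero
  have e : ∀ j, (g * M : GLv v) 1 j = g 1 1 * M 1 j := fun j => by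
    simp [Matrix.mul_apply, Fin.sum_univ_two, hg.2]
  have hne : ‖g 1 1‖ ≠ 0 := norm_ne_zero_iff.mpr h1
  rw [hLoc, hLoc, e, e, Units.val_mul, Matrix.det_mul, norm_mul, norm_mul, norm_mul,
    ← mul_max_of_nonneg _ _ (norm_nonneg _), Matrix.det_fin_two, hg.1, zero_mul, sub_zero, norm_mul]
  field_simp

theorem isDiag2_anti_conj {R : Type*} [Field R] {g : GL (Fin 2) R} (hg : IsDiag2 g) :
    ∃ g' : GL (Fin 2) R, IsDiag2 g' ∧ antiGL R * g = g' * antiGL R ∧ g' 0 0 = g 1 1 ∧
      g' 1 1 = g 0 0 := by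
  refine ⟨antiGL R * g * (antiGL R)⁻¹, ?_⟩
  have e : ((antiGL R * g * (antiGL R)⁻¹ : GL (Fin 2) R) : Matrix (Fin 2) (Fin 2) R) =
      !![g 1 1, 0; 0, g 0 0] := by
    have hi : ((antiGL R)⁻¹ : GL (Fin 2) R) = antiGL R := inv_eq_of_mul_eq_one_right
      (Matrix.GeneralLinearGroup.ext fun i j => by
        fin_cases i <;> fin_cases j <;> simp [Matrix.mul_apply, Fin.sum_univ_two, antiGL_entries])
    rw [hi]
    ext i j
    fin_cases i <;> fin_cases j <;>
      simp [Matrix.mul_apply, Matrix.vecMul, dotProduct, Fin.sum_univ_two, antiGL_entries, hg.1, hg.2]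
  refine ⟨⟨?_, ?_⟩, by rw [inv_mul_cancel_right], ?_, ?_⟩ <;> simp [e]

theorem partFin_diag_mul {v : HeightOneSpectrum (𝓞 L)} {g : GLv v} (hg : IsDiag2 g) (M : GLv v) :
    partFin v (g * M) = partFin v M := by
  obtain ⟨g', hg', e, e0, e1⟩ := isDiag2_anti_conj hg
  obtain ⟨h0, h1⟩ := hg.ne_zero
  rw [partFin, partFin, ← mul_assoc, e, mul_assoc, hLoc_diag_mul hg, hLoc_diag_mul hg', e0, e1,
    mul_mul_mul_comm, div_mul_div_comm, mul_comm ‖g 0 0‖,
    div_self (mul_ne_zero (norm_ne_zero_iff.mpr h1) (norm_ne_zero_iff.mpr h0)), one_mul]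

/-- The part at a finite place of a coset. -/
def partCos (v : HeightOneSpectrum (𝓞 L)) (q : LCos 𝔫 v) : ℝ := partFin v q.out

theorem partCos_mk (v : HeightOneSpectrum (𝓞 L)) (M : GLv v) :
    partCos v (M : LCos 𝔫 v) = partFin v M := by
  obtain ⟨k, hk⟩ := QuotientGroup.mk_out_eq_mul (locLevel 𝔫 v) M
  rw [partCos, hk, partFin_mul_level M k.2]

theorem partCos_smul {v : HeightOneSpectrum (𝓞 L)} {g : GLv v} (hg : IsDiag2 g) (q : LCos 𝔫 v) :
    partCos v (g • q) = partCos v q := by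
  obtain ⟨M, rfl⟩ := QuotientGroup.mk_surjective q
  rw [MulAction.Quotient.smul_coe, partCos_mk, partCos_mk, smul_eq_mul, partFin_diag_mul hg]

theorem eventually_partCos (h𝔫 : 𝔫 ≠ ⊥) (c : Cosets 𝔫) :
    ∀ᶠ v in cofinite, partCos v (coordAt v c) = 0 := by
  filter_upwards [eventually_coordAt_eq_base h𝔫 c] with v hv
  rw [hv, partCos_mk, partFin, mul_one, hLoc_one, hLoc_of_locInt, mul_one, Real.log_one, neg_zero]
  refine mem_locInt_of_entries _ (fun i j => ?_) ?_
  · rw [antiGL_entries]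
    fin_cases i <;> fin_cases j <;> simp
  · rw [antiGL_entries]
    simp [Matrix.det_fin_two, Valuation.map_neg]

/-! ### The heights -/

/-- The logarithm of the product of the two heights. -/
def lowP (y : YSpace 𝔫) : ℝ :=
  Real.log (heightY 1 y) + Real.log (heightY (antiGL L) y)

theorem lowP_eq (_h𝔫 : 𝔫 ≠ ⊥) (y : YSpace 𝔫) :
    -lowP y = ∑ w, partInf (y.1 w) + ∑ᶠ v, partCos v (coordAt v y.2) := by
  obtain ⟨x, c⟩ := y
  obtain ⟨g, rfl⟩ := QuotientGroup.mk_surjective c
  have e1 : ∀ γ : GL (Fin 2) L,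
      (Function.mulSupport fun v => hLoc v (locMat v γ * compAt v g)).Finite := fun γ =>
    eventually_cofinite.mp (eventually_hLoc_global γ g)
  rw [lowP, heightY_eq, heightY_eq]
  simp only [map_one, one_mul, map_antiGL, locMat]
  have hpos : ∀ (M : GL (Fin 2) ℂ), (∏ w, hInfPt M (x w)) ≠ 0 := fun M =>
    Finset.prod_ne_zero_iff.mpr fun w _ => (hInfPt_pos _ _).ne'
  have h2 := e1 (antiGL L)
  have h3 := e1 1
  simp only [map_one, one_mul, map_antiGL, locMat] at h2 h3
  have hne : ∀ M : ∀ v : HeightOneSpectrum (𝓞 L), GLv v,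
      (∏ᶠ v, hLoc v (M v)) ≠ 0 := fun M =>
    (finprod_induction (fun r : ℝ => 0 < r) one_pos (fun _ _ => mul_pos) fun v => hLoc_pos _).ne'
  rw [Real.log_mul (hpos _) (hne _), Real.log_mul (hpos _) (hne _),
    Real.log_prod fun w _ => (hInfPt_pos _ _).ne', Real.log_prod fun w _ => (hInfPt_pos _ _).ne']
  classical
  set s := h2.toFinset ∪ h3.toFinset
  rw [finprod_eq_prod_of_mulSupport_subset (s := s) _ (by intro v hv; simp [s, hv]),
    finprod_eq_prod_of_mulSupport_subset (s := s) _ (by intro v hv; simp [s, hv]),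
    Real.log_prod fun v _ => (hLoc_pos _).ne', Real.log_prod fun v _ => (hLoc_pos _).ne',
    finsum_eq_sum_of_support_subset (s := s) _ ?_]
  · simp only [partInf, coordAt_mk, partCos_mk, partFin,
      Real.log_mul (hInfPt_pos _ _).ne' (hInfPt_pos _ _).ne',
      Real.log_mul (hLoc_pos _).ne' (hLoc_pos _).ne', Finset.sum_add_distrib, neg_add,
      Finset.sum_neg_distrib]
    ring
  · intro v hv
    by_contra h
    simp [s] at h
    refine hv ?_
    show partCos v (coordAt v (g : Cosets 𝔫)) = 0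
    rw [coordAt_mk, partCos_mk, partFin, h.1, h.2, one_mul, Real.log_one, neg_zero]

theorem lowP_nonpos (h𝔫 : 𝔫 ≠ ⊥) (y : YSpace 𝔫) : lowP y ≤ 0 := by
  have h := lowP_eq h𝔫 y
  have h1 : 0 ≤ ∑ w, partInf (y.1 w) := Finset.sum_nonneg fun w _ => partInf_nonneg _
  have h2 : 0 ≤ ∑ᶠ v, partCos v (coordAt v y.2) := finsum_nonneg fun v => partFin_nonneg v _
  linarith

theorem log_heightY_scale (r : ℝ) (y : YSpace 𝔫) :
    Real.log (heightY 1 (scaleY r y)) =
        Real.log (heightY 1 y) + 2 * Fintype.card (InfinitePlace L) * r ∧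
      Real.log (heightY (antiGL L) (scaleY r y)) =
        Real.log (heightY (antiGL L) y) - 2 * Fintype.card (InfinitePlace L) * r := by
  obtain ⟨x, c⟩ := y
  obtain ⟨g, rfl⟩ := QuotientGroup.mk_surjective c
  have hs : ∀ (γ : GL (Fin 2) L) (ε : ℝ), (∀ w : InfinitePlace L,
      hInfPt (Matrix.GeneralLinearGroup.map w.embedding γ) (scaleG r • x w) =
        Real.exp ε * hInfPt (Matrix.GeneralLinearGroup.map w.embedding γ) (x w)) →
      Real.log (heightY γ (scaleY r ((x, (g : Cosets 𝔫)) : YSpace 𝔫))) =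
        Real.log (heightY γ ((x, (g : Cosets 𝔫)) : YSpace 𝔫)) +
          Fintype.card (InfinitePlace L) * ε := by
    intro γ ε hε
    rw [scaleY_apply, heightY_eq, heightY_eq]
    simp only [scaleX_apply, hε, Finset.prod_mul_distrib, Finset.prod_const, Finset.card_univ,
      mul_assoc]
    rw [Real.log_mul (pow_ne_zero _ (Real.exp_ne_zero ε)), Real.log_pow, Real.log_exp, add_comm]
    exact mul_ne_zero (Finset.prod_ne_zero_iff.mpr fun w _ => (hInfPt_pos _ _).ne')
      (finprod_induction (fun r : ℝ => 0 < r) one_pos (fun _ _ => mul_pos) fun v => hLoc_pos _).ne'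
  refine ⟨?_, ?_⟩
  · rw [hs 1 (2 * r) fun w => by rw [map_one]; exact hInfPt_one_scale r _]
    ring
  · rw [hs (antiGL L) (-(2 * r)) fun w => by rw [map_antiGL]; exact hInfPt_anti_scale r _]
    ring

theorem lowP_scale (r : ℝ) (y : YSpace 𝔫) : lowP (scaleY r y) = lowP y := by
  rw [lowP, lowP, (log_heightY_scale r y).1, (log_heightY_scale r y).2]
  ring

variable [IsTotallyComplex L]

theorem heightY_diag_smul {γ : GL (Fin 2) L} (hγ : IsDiag2 γ) (y : YSpace 𝔫) :
    heightY 1 (Matrix.ProjGenLinGroup.mk γ • y) = heightY 1 y ∧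
      heightY (antiGL L) (Matrix.ProjGenLinGroup.mk γ • y) = heightY (antiGL L) y := by
  constructor <;> rw [heightY_smul] <;> refine heightY_eq_of_row _ _ ?_ y
  · simp [hγ.2]
  · simp [Matrix.mul_apply, Fin.sum_univ_two, antiGL_entries, hγ.1]

/-- Where high cusps have a diagonal eigen row, the truncation is given by the two cusps. -/
theorem mem_trunc_iff {a : L} (ha : a ≠ 1) {l : ℝ} (y : YSpace 𝔫)
    (heig : ∀ α : GL (Fin 2) L, l < heightY α y → ∃ ν : L, (α 1 0 * a = ν * α 1 0 ∧ α 1 1 = ν * α 1 1)) :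
    y ∈ trunc 𝔫 l ↔ heightY 1 y ≤ l ∧ heightY (antiGL L) y ≤ l := by
  refine ⟨fun h => ⟨h 1, h _⟩, fun h α => not_lt.mp fun hα => ?_⟩
  obtain ⟨ν, h0, h1⟩ := heig α hα
  by_cases hr : α 1 1 = 0
  · refine absurd hα (not_lt.mpr ?_)
    rw [heightY_eq_of_row α (antiGL L) (by simp [hr, antiGL_entries]) y]
    exact h.2
  · have hν : ν = 1 := mul_right_cancel₀ hr (by rw [one_mul]; exact h1.symm)
    have h10 : α 1 0 = 0 := by
      by_contra hne
      exact ha (mul_left_cancel₀ hne (by rw [h0, hν, one_mul, mul_one]))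
    refine absurd hα (not_lt.mpr ?_)
    rw [heightY_eq_of_row α 1 (by simp [h10]) y]
    exact h.1

end FermatAgent.LT
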