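import Mathlib
import Fermat.Agent.LT.Descent.Geom.SplitGeom
import Fermat.Agent.LT.Descent.Geom.OrbitSum
import Fermat.Agent.LT.Descent.Geom.Local.Places

set_option autoImplicit false

/-!
# Orbital sums carrying a part of the heights at one place
-/

noncomputable section

open NumberField IsDedekindDomain Filter
open scoped MatrixGroups

namespace FermatAgent.LT

variable {S : Setup} {σ : S.F ≃+* S.F} (hσ : S.IsGalGen σ) {t : GL (Fin 2) S.K}
  {δ : GL (Fin 2) S.F}
  (Ψ : S.PsiData) (hΨ : Ψ.Nontriv) (l : List (HeightOneSpectrum (𝓞 S.F)))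
  (hl : ∀ w ∈ l, ((3 * S.m : ℕ) : 𝓞 S.F) ∉ w.asIdeal)

theorem finprod_mul_single {ι M : Type*} [CommMonoid M] [DecidableEq ι] (f : ι → M) (i : ι) (x : M)
    (hf : (Function.mulSupport f).Finite) :
    ∏ᶠ j, f j * (if j = i then x else 1) = (∏ᶠ j, f j) * x := by
  rw [finprod_mul_distrib hf, finprod_eq_single _ i fun j hj => if_neg hj, if_pos rfl]
  exact (Set.finite_singleton i).subset fun j hj => by_contra fun h => hj (if_neg h)

variable (ht : (t : Matrix (Fin 2) (Fin 2) S.K).trace ^ 2 ≠ 4 * (t : Matrix (Fin 2) (Fin 2) S.K).det)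

open Classical in
/-- The orbital sum carrying a function at one place. -/
def Setup.orbMul (v₁ : HeightOneSpectrum (𝓞 S.K)) (p : LCos (S.levelIdeal S.K) v₁ → ℂ) : ℂ :=
  ∏ᶠ v, if h : v = v₁ then ∑ᶠ y ∈ (S.phiK ht v).fibre, S.bK Ψ l t v y * p (h ▸ y)
    else ∑ᶠ y ∈ (S.phiK ht v).fibre, S.bK Ψ l t v y

theorem Setup.orbMul_eq_zero {v₀ v₁ : HeightOneSpectrum (𝓞 S.K)}
    (p : LCos (S.levelIdeal S.K) v₁ → ℂ) (hne : v₀ ≠ v₁)
    (h0 : ∑ᶠ y ∈ (S.phiK ht v₀).fibre, S.bK Ψ l t v₀ y = 0) : S.orbMul Ψ l ht v₁ p = 0 := by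
  refine finprod_eq_zero _ v₀ (by rw [dif_neg hne]; exact h0) ?_
  refine eventually_cofinite.mp (?_ : ∀ᶠ v in cofinite, _)
  filter_upwards [finsum_fibre_bK_eq_one Ψ l ht, (Set.finite_singleton v₁).compl_mem_cofinite]
    with v hv hv1
  rw [dif_neg (show v ≠ v₁ from hv1), hv]

theorem Setup.orbK_eq_zero {v₀ : HeightOneSpectrum (𝓞 S.K)}
    (h0 : ∑ᶠ y ∈ (S.phiK ht v₀).fibre, S.bK Ψ l t v₀ y = 0) : S.orbK Ψ l ht = 0 :=
  finprod_eq_zero _ v₀ h0 (eventually_cofinite.mp (finsum_fibre_bK_eq_one Ψ l ht))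

include hl in
/-- Fibre sums on `K` carrying an invariant function at one place. -/
theorem Setup.finsum_fibre_K_mul (v₁ : HeightOneSpectrum (𝓞 S.K))
    (p : LCos (S.levelIdeal S.K) v₁ → ℂ) (hp : ∀ g ∈ torusAt v₁ t, ∀ y, p (g • y) = p y)
    (a : ∀ v, torusAt v t ⧸ (torusU v t).subgroupOf (torusAt v t))
    (ha : ∀ᶠ v in cofinite, a v =
      ((1 : torusAt v t) : torusAt v t ⧸ (torusU v t).subgroupOf (torusAt v t))) :
    ({c : Cosets (S.levelIdeal S.K) | ∀ v, (S.phiK ht v).toFun (coordAt v c) = a v} ∩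
        Function.support fun c => finKer (S.levelOpK Ψ * (l.map S.bcOp).prod) c
          (rationalMat t • c) * p (coordAt v₁ c)).Finite ∧
      ∑ᶠ c ∈ {c : Cosets (S.levelIdeal S.K) | ∀ v, (S.phiK ht v).toFun (coordAt v c) = a v},
        finKer (S.levelOpK Ψ * (l.map S.bcOp).prod) c (rationalMat t • c) * p (coordAt v₁ c) =
          S.orbMul Ψ l ht v₁ p := by
  classical
  set b : ∀ v, LCos (S.levelIdeal S.K) v → ℂ := fun v y =>
    S.bK Ψ l t v y * if h : v = v₁ then p (h ▸ y) else 1 with hb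
  have hprod : ∀ c : Cosets (S.levelIdeal S.K),
      finKer (S.levelOpK Ψ * (l.map S.bcOp).prod) c (rationalMat t • c) * p (coordAt v₁ c) =
        ∏ᶠ v, b v (coordAt v c) := fun c => by
    rw [S.finKer_plain Ψ l t hl, ← finprod_mul_single _ v₁]
    · refine finprod_congr fun v => ?_
      simp only [b]
      split_ifs with h
      · subst h; rfl
      · rfl
    · refine eventually_cofinite.mp (?_ : ∀ᶠ v in cofinite, _)
      filter_upwards [(S.eventually_bK_base Ψ l t),
        eventually_coordAt_eq_base (S.levelIdeal_ne_bot S.K) c] with v hv hc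
      rw [show coordAt v c = S.baseK v from hc]
      exact hv.1
  simp only [hprod]
  have hsupp : ∀ v, ((S.phiK ht v).fibre ∩ Function.support (b v)).Finite := fun v =>
    (finite_supp_bK ht Ψ l v (S.isFundSet_phiK ht v)).subset fun y hy =>
      ⟨hy.1, fun h => hy.2 (by simp only [b]; rw [h, zero_mul])⟩
  have h := finsum_fibre (fun (c : Cosets (S.levelIdeal S.K)) v => coordAt v c) S.coordK_injective
    S.exists_coordK_eq (eventually_coordAt_eq_base (S.levelIdeal_ne_bot S.K)) (S.phiK ht) b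
    (fun v g hg y => by
      simp only [b]
      rw [S.bK_smul Ψ l hl t v hg]
      split_ifs with h
      · subst h; rw [hp g hg]
      · rfl)
    hsupp ((S.eventually_phiK Ψ l ht).and (Set.finite_singleton v₁).compl_mem_cofinite |>.mono
      fun v hv => ⟨by simp only [b]; rw [dif_neg (show v ≠ v₁ from hv.2), mul_one]; exact hv.1.1,
        fun y hy hne => by simp only [b]; rw [hv.1.2 y hy hne, zero_mul]⟩) a ha
  refine ⟨h.1, h.2.trans (finprod_congr fun v => ?_)⟩
  simp only [b]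
  split_ifs with h
  · rfl
  · simp only [mul_one]

include hσ hΨ hl in
open Classical in
/-- Fibre sums on `F` carrying an invariant function at one slot. -/
theorem Setup.finsum_fibre_F_mul (hn : S.IsNormPair σ t δ) {v₁ : HeightOneSpectrum (𝓞 S.K)}
    (w : S.OverK v₁)
    (f : LCos (S.levelIdeal S.F) w.1 → ℂ) (hf : ∀ g ∈ torusAt v₁ t, ∀ x : S.XF v₁, f ((g • x) w) = f (x w))
    (a : ∀ v, torusAt v t ⧸ (torusU v t).subgroupOf (torusAt v t))
    (ha : ∀ᶠ v in cofinite, a v =
      ((1 : torusAt v t) : torusAt v t ⧸ (torusU v t).subgroupOf (torusAt v t))) :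
    ({c : Cosets (S.levelIdeal S.F) | ∀ v, (S.phiF hn.regular v).toFun (S.coordF v c) = a v} ∩
        Function.support fun c => finKer (S.levelOpF Ψ * heckeWord _ l) c
          (rationalMat δ • galCoset σ c) * f (coordAt w.1 c)).Finite ∧
      ∑ᶠ c ∈ {c : Cosets (S.levelIdeal S.F) | ∀ v, (S.phiF hn.regular v).toFun (S.coordF v c) = a v},
        finKer (S.levelOpF Ψ * heckeWord _ l) c (rationalMat δ • galCoset σ c) * f (coordAt w.1 c) =
          ∏ᶠ v, if h : v = v₁
            then ∑ᶠ x ∈ (S.phiF hn.regular v).fibre, S.bF Ψ l hσ δ v x * f ((h ▸ x : S.XF v₁) w)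
            else ∑ᶠ y ∈ (S.phiK hn.regular v).fibre, S.bK Ψ l t v y := by
  classical
  set b : ∀ v, S.XF v → ℂ := fun v x =>
    S.bF Ψ l hσ δ v x * if h : v = v₁ then f ((h ▸ x : S.XF v₁) w) else 1 with hb
  have hprod : ∀ c : Cosets (S.levelIdeal S.F),
      finKer (S.levelOpF Ψ * heckeWord _ l) c (rationalMat δ • galCoset σ c) * f (coordAt w.1 c) =
        ∏ᶠ v, b v (S.coordF v c) := fun c => by
    rw [S.finKer_twist Ψ l hσ δ hl, ← finprod_mul_single _ v₁]
    · refine finprod_congr fun v => ?_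
      simp only [b]
      split_ifs with h
      · subst h; rfl
      · rfl
    · refine eventually_cofinite.mp (?_ : ∀ᶠ v in cofinite, _)
      filter_upwards [(S.eventually_bF_base Ψ l hσ δ), S.eventually_coordF c] with v hv hc
      rw [hc]
      exact hv.1
  simp only [hprod]
  have hlm := fun v => local_matching hσ Ψ hΨ l hl hn v (S.isFundSet_phiF hn.regular v)
    (S.isFundSet_phiK hn.regular v)
  have hsupp : ∀ v, ((S.phiF hn.regular v).fibre ∩ Function.support (b v)).Finite := fun v =>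
    (hlm v).1.subset fun x hx => ⟨hx.1, fun h => hx.2 (by simp only [b]; rw [h, zero_mul])⟩
  have h := finsum_fibre (fun (c : Cosets (S.levelIdeal S.F)) v => S.coordF v c) S.coordF_injective
    S.exists_coordF_eq S.eventually_coordF (S.phiF hn.regular) b
    (fun v g hg x => by
      simp only [b]
      rw [S.bF_smul Ψ l hl hσ hn v hg]
      split_ifs with h
      · subst h; exact congrArg _ (hf g hg x)
      · rfl)
    hsupp ((S.eventually_phiF Ψ l hl hσ hΨ hn).and (Set.finite_singleton v₁).compl_mem_cofinite |>.mono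
      fun v hv => ⟨by simp only [b]; rw [dif_neg (show v ≠ v₁ from hv.2), mul_one]; exact hv.1.1,
        fun y hy hne => by simp only [b]; rw [hv.1.2 y hy hne, zero_mul]⟩) a ha
  refine ⟨h.1, h.2.trans (finprod_congr fun v => ?_)⟩
  simp only [b]
  split_ifs with h
  · rfl
  · simp only [mul_one]
    exact (hlm v).2

include hσ hΨ hl in
theorem Setup.finsum_fibre_F_slot (hn : S.IsNormPair σ t δ) {v₁ : HeightOneSpectrum (𝓞 S.K)}
    (w : S.OverK v₁) (hw : galPlace σ w.1 ≠ w.1)
    (f : LCos (S.levelIdeal S.F) w.1 → ℂ) (hf : ∀ g ∈ torusAt v₁ t, ∀ x : S.XF v₁, f ((g • x) w) = f (x w))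
    (a : ∀ v, torusAt v t ⧸ (torusU v t).subgroupOf (torusAt v t))
    (ha : ∀ᶠ v in cofinite, a v =
      ((1 : torusAt v t) : torusAt v t ⧸ (torusU v t).subgroupOf (torusAt v t))) :
    ({c : Cosets (S.levelIdeal S.F) | ∀ v, (S.phiF hn.regular v).toFun (S.coordF v c) = a v} ∩
        Function.support fun c => finKer (S.levelOpF Ψ * heckeWord _ l) c
          (rationalMat δ • galCoset σ c) * f (coordAt w.1 c)).Finite ∧
      ∑ᶠ c ∈ {c : Cosets (S.levelIdeal S.F) | ∀ v, (S.phiF hn.regular v).toFun (S.coordF v c) = a v},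
        finKer (S.levelOpF Ψ * heckeWord _ l) c (rationalMat δ • galCoset σ c) * f (coordAt w.1 c) =
          S.orbMul Ψ l hn.regular v₁ (fun y => f (S.inclLCos w y)) := by
  obtain ⟨h1, h2⟩ := S.finsum_fibre_F_mul hσ Ψ hΨ l hl hn w f hf a ha
  refine ⟨h1, h2.trans (finprod_congr fun v => ?_)⟩
  split_ifs with h
  · subst h
    exact local_matching_slot hσ Ψ hΨ l hl hn v w hw f hf (S.isFundSet_phiF hn.regular v)
      (S.isFundSet_phiK hn.regular v)
  · rfl

include hσ hΨ hl in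
/-- A vanishing place kills the sums carrying a function elsewhere. -/
theorem Setup.finsum_fibre_F_zero (hn : S.IsNormPair σ t δ) {v₀ v₁ : HeightOneSpectrum (𝓞 S.K)}
    (hne : v₀ ≠ v₁) (h0 : ∑ᶠ y ∈ (S.phiK hn.regular v₀).fibre, S.bK Ψ l t v₀ y = 0)
    (w : S.OverK v₁) (f : LCos (S.levelIdeal S.F) w.1 → ℂ)
    (hf : ∀ g ∈ torusAt v₁ t, ∀ x : S.XF v₁, f ((g • x) w) = f (x w))
    (a : ∀ v, torusAt v t ⧸ (torusU v t).subgroupOf (torusAt v t))
    (ha : ∀ᶠ v in cofinite, a v =
      ((1 : torusAt v t) : torusAt v t ⧸ (torusU v t).subgroupOf (torusAt v t))) :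
    ({c : Cosets (S.levelIdeal S.F) | ∀ v, (S.phiF hn.regular v).toFun (S.coordF v c) = a v} ∩
        Function.support fun c => finKer (S.levelOpF Ψ * heckeWord _ l) c
          (rationalMat δ • galCoset σ c) * f (coordAt w.1 c)).Finite ∧
      ∑ᶠ c ∈ {c : Cosets (S.levelIdeal S.F) | ∀ v, (S.phiF hn.regular v).toFun (S.coordF v c) = a v},
        finKer (S.levelOpF Ψ * heckeWord _ l) c (rationalMat δ • galCoset σ c) * f (coordAt w.1 c) =
          0 := by
  obtain ⟨h1, h2⟩ := S.finsum_fibre_F_mul hσ Ψ hΨ l hl hn w f hf a ha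
  refine ⟨h1, h2.trans (finprod_eq_zero _ v₀ (by rw [dif_neg hne]; exact h0) ?_)⟩
  refine eventually_cofinite.mp (?_ : ∀ᶠ v in cofinite, _)
  filter_upwards [finsum_fibre_bK_eq_one Ψ l hn.regular,
    (Set.finite_singleton v₁).compl_mem_cofinite] with v hv hv1
  rw [dif_neg (show v ≠ v₁ from hv1), hv]

/-! ### The part of the heights at a slot -/

theorem absNorm_eq_of_moved (hσ' : S.IsGalGen σ) {v : HeightOneSpectrum (𝓞 S.K)} (w : S.OverK v)
    (hne : galPlace σ w.1 ≠ w.1) : Ideal.absNorm w.1.asIdeal = Ideal.absNorm v.asIdeal := by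
  obtain ⟨w, rfl⟩ := w
  rw [← CFT.natCard_quotient_eq_absNorm, ← CFT.natCard_quotient_eq_absNorm]
  refine (Nat.card_congr (Equiv.ofBijective (Ideal.quotientMap w.asIdeal S.inclInt le_rfl)
    ⟨Ideal.quotientMap_injective' (H := le_rfl) le_rfl, fun o => ?_⟩)).symm
  obtain ⟨o, rfl⟩ := Ideal.Quotient.mk_surjective o
  obtain ⟨b, hb⟩ := surjective_residue_moved hσ' hne o
  exact ⟨Ideal.Quotient.mk _ b, (Ideal.Quotient.eq.mpr hb).symm⟩

theorem norm_inclOver (hσ' : S.IsGalGen σ) {v : HeightOneSpectrum (𝓞 S.K)} (w : S.OverK v)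
    (hne : galPlace σ w.1 ≠ w.1) (x : v.adicCompletion S.K) : ‖S.inclOver w x‖ = ‖x‖ := by
  have key : ∀ (N N' : NNReal) (hN : N ≠ 0) (hN' : N' ≠ 0) (a : WithZero (Multiplicative ℤ)),
      N = N' → (WithZeroMulInt.toNNReal hN a : ℝ) = (WithZeroMulInt.toNNReal hN' a : ℝ) :=
    fun N N' hN hN' a h => by subst h; rfl
  rw [FinitePlace.norm_def, FinitePlace.norm_def, valued_inclOver_pow, ramAt_eq_one hσ' hne, pow_one]
  exact key _ _ _ _ _ (by rw [absNorm_eq_of_moved hσ' w hne])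

theorem partCos_inclLCos {v : HeightOneSpectrum (𝓞 S.K)} (w : S.OverK v)
    (hne : galPlace σ w.1 ≠ w.1) (hσ' : S.IsGalGen σ) (y : LCos (S.levelIdeal S.K) v) :
    partCos w.1 (S.inclLCos w y) = partCos v y := by
  rw [Setup.inclLCos, partCos_mk, partCos, partFin, partFin]
  have hn : ∀ M : GLv v, hLoc w.1 (Matrix.GeneralLinearGroup.map (S.inclOver w) M) = hLoc v M :=
    fun M => by
      rw [hLoc, hLoc, Matrix.GeneralLinearGroup.map_apply, Matrix.GeneralLinearGroup.map_apply,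
        show ((Matrix.GeneralLinearGroup.map (S.inclOver w) M : GLv w.1) :
          Matrix (Fin 2) (Fin 2) (w.1.adicCompletion S.F)).det =
          S.inclOver w (M : Matrix (Fin 2) (Fin 2) (v.adicCompletion S.K)).det from
          (RingHom.map_det _ _).symm,
        norm_inclOver hσ' w hne, norm_inclOver hσ' w hne, norm_inclOver hσ' w hne]
  rw [← map_antiGL (S.inclOver w), ← map_mul, hn, hn]

end FermatAgent.LT
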