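import Mathlib
import Fermat.Agent.LT.Descent.Geom.Weight

set_option autoImplicit false

/-!
# Trading a window for its length

A flow commuting with the group moves `u` with speed `c` and `φ` with speed two.  For functions
invariant under both, integrals over the window `P - ℓ ≤ u ≤ ℓ` are integrals against the length
`2ℓ - P` of the window and the window `0 ≤ φ ≤ 1`.
-/

noncomputable section

open MeasureTheory
open scoped ENNReal

namespace FermatAgent.LT.Weight

variable {G Z : Type*} [Group G] [MulAction G Z] [MeasurableSpace Z] {μ : Measure Z}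

/-- The data of the trade. -/
structure ShiftData (H : Subgroup G) (μ : Measure Z) (w : Z → ℝ≥0∞) (c ℓ : ℝ) where
  /-- the flow -/
  flow : ℝ → Z ≃ᵐ Z
  mp : ∀ r, MeasurePreserving (flow r) μ μ
  flow_smul : ∀ (r : ℝ), ∀ g ∈ H, ∀ z, flow r (g • z) = g • flow r z
  weight : IsWeight H μ w
  /-- the window coordinate -/
  u : Z → ℝ
  /-- the lower end -/
  low : Z → ℝ
  /-- the coordinate of the fixed window -/
  φ : Z → ℝ
  pos : 0 < c
  u_meas : Measurable u
  low_meas : Measurable low
  φ_meas : Measurable φ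
  u_flow : ∀ r z, u (flow r z) = u z + c * r
  low_flow : ∀ r z, low (flow r z) = low z
  φ_flow : ∀ r z, φ (flow r z) = φ z + 2 * r
  u_inv : ∀ g ∈ H, ∀ z, u (g • z) = u z
  low_inv : ∀ g ∈ H, ∀ z, low (g • z) = low z
  φ_inv : ∀ g ∈ H, ∀ z, φ (g • z) = φ z

variable {H : Subgroup G} {w : Z → ℝ≥0∞} {c ℓ : ℝ} (D : ShiftData H μ w c ℓ)

/-- The window. -/
def ShiftData.win : Set Z := {z | D.low z - ℓ ≤ D.u z ∧ D.u z ≤ ℓ}

/-- The window of `φ`. -/
def ShiftData.rho : Z → ℝ≥0∞ := {z | 0 ≤ D.φ z ∧ D.φ z ≤ 1}.indicator 1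

/-- The density traded for the window. -/
def ShiftData.dens (z : Z) : ℝ≥0∞ := ENNReal.ofReal (2 / c * (2 * ℓ - D.low z)) * D.rho z

theorem ShiftData.measurableSet_win : MeasurableSet D.win :=
  (measurableSet_le (D.low_meas.sub_const ℓ) D.u_meas).inter (measurableSet_le D.u_meas measurable_const)

theorem ShiftData.measurable_rho : Measurable D.rho :=
  measurable_one.indicator ((measurableSet_le measurable_const D.φ_meas).inter
    (measurableSet_le D.φ_meas measurable_const))

theorem ShiftData.measurable_dens : Measurable D.dens :=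
  (ENNReal.measurable_ofReal.comp (((D.low_meas.const_sub _)).const_mul _)).mul D.measurable_rho

variable [SFinite μ] [Countable G] (hμ : ∀ g : G, MeasurePreserving (fun z : Z => g • z) μ μ)
include hμ

theorem ShiftData.lintegral_eq {F : Z → ℝ≥0∞} (hF : Measurable F)
    (hinv : ∀ g ∈ H, ∀ z, F (g • z) = F z) (hflow : ∀ r z, F (D.flow r z) = F z) :
    ∫⁻ z, F z * D.win.indicator 1 z * w z ∂μ = ∫⁻ z, F z * D.dens z * w z ∂μ := by
  have hc := D.pos
  set I : Z → ℝ≥0∞ := D.win.indicator 1
  have hI : Measurable I := measurable_one.indicator D.measurableSet_win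
  -- the time spent in the fixed window
  have hρ : ∀ z, ∫⁻ r, {r : ℝ | 0 ≤ D.φ z + 2 * r ∧ D.φ z + 2 * r ≤ 1}.indicator 1 r =
      ENNReal.ofReal (1 / 2) := fun z => by
    rw [show {r : ℝ | 0 ≤ D.φ z + 2 * r ∧ D.φ z + 2 * r ≤ 1} =
      Set.Icc (-D.φ z / 2) ((1 - D.φ z) / 2) by
        ext r; simp only [Set.mem_ofPred_eq, Set.mem_Icc]; constructor <;> intro h <;>
          constructor <;> linarith [h.1, h.2],
      lintegral_indicator_one measurableSet_Icc, Real.volume_Icc]
    congr 1; ring
  -- the time spent in the window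
  have hwin : ∀ z, ∫⁻ r, {r : ℝ | D.low z - ℓ ≤ D.u z - c * r ∧ D.u z - c * r ≤ ℓ}.indicator 1 r =
      ENNReal.ofReal ((2 * ℓ - D.low z) / c) := fun z => by
    rw [show {r : ℝ | D.low z - ℓ ≤ D.u z - c * r ∧ D.u z - c * r ≤ ℓ} =
      Set.Icc ((D.u z - ℓ) / c) ((D.u z - D.low z + ℓ) / c) by
        ext r
        simp only [Set.mem_ofPred_eq, Set.mem_Icc, div_le_iff₀ hc, le_div_iff₀ hc]
        constructor <;> intro h <;> constructor <;> linarith [h.1, h.2],
      lintegral_indicator_one measurableSet_Icc, Real.volume_Icc]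
    congr 1; field_simp; ring
  have hw := D.weight.measurable
  set A : Z × ℝ → ℝ≥0∞ := fun p => F p.1 * I p.1 * w p.1 *
    {p : Z × ℝ | 0 ≤ D.φ p.1 + 2 * p.2 ∧ D.φ p.1 + 2 * p.2 ≤ 1}.indicator 1 p
  set B : Z × ℝ → ℝ≥0∞ := fun p => F p.1 * D.rho p.1 * w p.1 *
    {p : Z × ℝ | D.low p.1 - ℓ ≤ D.u p.1 - c * p.2 ∧ D.u p.1 - c * p.2 ≤ ℓ}.indicator 1 p
  have hφ : Measurable fun p : Z × ℝ => D.φ p.1 + 2 * p.2 :=
    (D.φ_meas.comp measurable_fst).add (measurable_snd.const_mul 2)
  have hu : Measurable fun p : Z × ℝ => D.u p.1 - c * p.2 :=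
    (D.u_meas.comp measurable_fst).sub (measurable_snd.const_mul c)
  have hA : Measurable A := (((hF.mul hI).mul hw).comp measurable_fst).mul
    (measurable_one.indicator ((measurableSet_le measurable_const hφ).inter
      (measurableSet_le hφ measurable_const)))
  have hB : Measurable B := (((hF.mul D.measurable_rho).mul hw).comp measurable_fst).mul
    (measurable_one.indicator ((measurableSet_le ((D.low_meas.comp measurable_fst).sub_const ℓ) hu).inter
      (measurableSet_le hu measurable_const)))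
  have h1 : ∫⁻ z, ∫⁻ r, A (z, r) ∂volume ∂μ =
      ENNReal.ofReal (1 / 2) * ∫⁻ z, F z * I z * w z ∂μ := by
    rw [← lintegral_const_mul' _ _ ENNReal.ofReal_ne_top]
    refine lintegral_congr fun z => ?_
    show ∫⁻ r, F z * I z * w z *
      {r : ℝ | 0 ≤ D.φ z + 2 * r ∧ D.φ z + 2 * r ≤ 1}.indicator 1 r = _
    rw [lintegral_const_mul _ (measurable_one.indicator ?_), hρ, mul_comm]
    exact (measurableSet_le measurable_const ((measurable_id.const_mul 2).const_add _)).inter
      (measurableSet_le ((measurable_id.const_mul 2).const_add _) measurable_const)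
  have h2 : ∫⁻ z, ∫⁻ r, B (z, r) ∂volume ∂μ =
      ∫⁻ z, F z * D.rho z * w z * ENNReal.ofReal ((2 * ℓ - D.low z) / c) ∂μ := by
    refine lintegral_congr fun z => ?_
    show ∫⁻ r, F z * D.rho z * w z *
      {r : ℝ | D.low z - ℓ ≤ D.u z - c * r ∧ D.u z - c * r ≤ ℓ}.indicator 1 r = _
    rw [lintegral_const_mul _ (measurable_one.indicator ?_), hwin]
    exact (measurableSet_le measurable_const ((measurable_id.const_mul c).const_sub _)).inter
      (measurableSet_le ((measurable_id.const_mul c).const_sub _) measurable_const)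
  -- the change of variable at a fixed time
  have hswap : ∀ r : ℝ, ∫⁻ z, A (z, r) ∂μ = ∫⁻ z, B (z, r) ∂μ := by
    intro r
    set Φ : Z → ℝ≥0∞ := fun z => F z * D.rho z *
      {z | D.low z - ℓ ≤ D.u z - c * r ∧ D.u z - c * r ≤ ℓ}.indicator 1 z
    have hΦ : Measurable Φ := (hF.mul D.measurable_rho).mul (measurable_one.indicator
      ((measurableSet_le (D.low_meas.sub_const ℓ) (D.u_meas.sub_const _)).inter
        (measurableSet_le (D.u_meas.sub_const _) measurable_const)))
    have hΦi : ∀ g ∈ H, ∀ z, Φ (g • z) = Φ z := fun g hg z => by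
      simp only [Φ, ShiftData.rho, Set.indicator, Set.mem_ofPred_eq, hinv g hg, D.φ_inv g hg,
        D.u_inv g hg, D.low_inv g hg, Pi.one_apply]
    have hwr : IsWeight H μ (w ∘ D.flow (-r)) :=
      D.weight.comp (D.mp (-r)).quasiMeasurePreserving (D.flow_smul (-r))
    calc ∫⁻ z, A (z, r) ∂μ = ∫⁻ z, A (D.flow (-r) z, r) ∂μ :=
          ((D.mp (-r)).lintegral_comp (hA.comp measurable_prodMk_right)).symm
      _ = ∫⁻ z, Φ z * (w ∘ D.flow (-r)) z ∂μ := lintegral_congr fun z => by
          simp only [A, Φ, I, ShiftData.win, ShiftData.rho, Set.indicator, Set.mem_ofPred_eq,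
            hflow, D.u_flow, D.low_flow, D.φ_flow, Pi.one_apply, Function.comp_apply]
          ring_nf
      _ = ∫⁻ z, Φ z * w z ∂μ := Weight.lintegral_eq hμ hwr D.weight hΦ hΦi
      _ = _ := lintegral_congr fun z => by
          simp only [B, Φ, Set.indicator, Set.mem_ofPred_eq, Pi.one_apply]
          ring
  have h3 : ∫⁻ z, ∫⁻ r, A (z, r) ∂volume ∂μ = ∫⁻ z, ∫⁻ r, B (z, r) ∂volume ∂μ := by
    rw [lintegral_lintegral_swap (f := fun z r => A (z, r)) hA.aemeasurable,
      lintegral_lintegral_swap (f := fun z r => B (z, r)) hB.aemeasurable]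
    exact lintegral_congr hswap
  rw [h1, h2] at h3
  have htwo : ENNReal.ofReal 2 * ENNReal.ofReal (1 / 2) = 1 := by
    rw [← ENNReal.ofReal_mul (by norm_num)]; norm_num
  calc ∫⁻ z, F z * I z * w z ∂μ =
        ENNReal.ofReal 2 * (ENNReal.ofReal (1 / 2) * ∫⁻ z, F z * I z * w z ∂μ) := by
          rw [← mul_assoc, htwo, one_mul]
    _ = _ := by
      rw [h3, ← lintegral_const_mul' _ _ ENNReal.ofReal_ne_top]
      refine lintegral_congr fun z => ?_
      have e : ENNReal.ofReal 2 * ENNReal.ofReal ((2 * ℓ - D.low z) / c) =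
          ENNReal.ofReal (2 / c * (2 * ℓ - D.low z)) := by
        rw [← ENNReal.ofReal_mul (by norm_num)]; congr 1; ring
      rw [ShiftData.dens, ← e]
      ring

/-- **The trade for complex functions.** -/
theorem ShiftData.map_eq {β : Type*} [MeasurableSpace β] {F : Z → β} (hF : Measurable F)
    (hinv : ∀ g ∈ H, ∀ z, F (g • z) = F z) (hflow : ∀ r z, F (D.flow r z) = F z) :
    ((wMeas μ w).restrict D.win).map F = ((wMeas μ w).withDensity D.dens).map F := by
  refine Measure.ext fun s hs => ?_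
  have hs' := hF hs
  have hw := D.weight.measurable
  rw [Measure.map_apply hF hs, Measure.map_apply hF hs, Measure.restrict_apply hs', wMeas,
    ← withDensity_mul μ hw D.measurable_dens, withDensity_apply _ (hs'.inter D.measurableSet_win),
    withDensity_apply _ hs', ← lintegral_indicator (hs'.inter D.measurableSet_win),
    ← lintegral_indicator hs']
  have e1 : ∀ z, (F ⁻¹' s ∩ D.win).indicator w z =
      (F ⁻¹' s).indicator 1 z * D.win.indicator 1 z * w z := fun z => by
    by_cases h1 : z ∈ F ⁻¹' s <;> by_cases h2 : z ∈ D.win <;> simp [h1, h2]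
  have e2 : ∀ z, (F ⁻¹' s).indicator (w * D.dens) z =
      (F ⁻¹' s).indicator 1 z * D.dens z * w z := fun z => by
    by_cases h1 : z ∈ F ⁻¹' s <;> simp [h1, mul_comm]
  simp only [e1, e2]
  exact D.lintegral_eq hμ (measurable_one.indicator hs') (fun g hg z => by
    by_cases h : F z ∈ s <;> simp [h, hinv g hg]) fun r z => by
    by_cases h : F z ∈ s <;> simp [h, hflow r]

theorem ShiftData.integral_win {F : Z → ℂ} (hF : Measurable F)
    (hinv : ∀ g ∈ H, ∀ z, F (g • z) = F z) (hflow : ∀ r z, F (D.flow r z) = F z)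
    (hint : Integrable (D.win.indicator F) (wMeas μ w)) :
    Integrable F ((wMeas μ w).withDensity D.dens) ∧
      ∫ z, D.win.indicator F z ∂(wMeas μ w) = ∫ z, F z ∂((wMeas μ w).withDensity D.dens) := by
  rw [integrable_indicator_iff D.measurableSet_win, IntegrableOn] at hint
  have h : ∀ ν : Measure Z, ∫ z, F z ∂ν = ∫ x, x ∂(ν.map F) := fun ν =>
    (integral_map (f := id) hF.aemeasurable aestronglyMeasurable_id).symm
  have h' : ∀ ν : Measure Z, Integrable F ν ↔ Integrable id (ν.map F) := fun ν =>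
    (integrable_map_measure aestronglyMeasurable_id hF.aemeasurable).symm
  refine ⟨?_, ?_⟩
  · rw [h', ← D.map_eq hμ hF hinv hflow, ← h']
    exact hint
  · rw [integral_indicator D.measurableSet_win, h, h, D.map_eq hμ hF hinv hflow]

end FermatAgent.LT.Weight
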