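import Mathlib
import Fermat.Agent.LT.Descent.Geom.SplitGeom
import Fermat.Agent.LT.Descent.Geom.Shift

set_option autoImplicit false

/-!
# Integrals over the truncation of invariant functions of the diagonal torus
-/

noncomputable section

open MeasureTheory NumberField IsDedekindDomain Filter
open scoped MatrixGroups ENNReal

namespace FermatAgent.LT

open Weight

variable {L : Type*} [Field L] [NumberField L] {𝔫 : Ideal (𝓞 L)}

theorem Weight.IsWeight.ae_lt_top {G Z : Type*} [Group G] [MulAction G Z] [MeasurableSpace Z]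
    {H : Subgroup G} {μ : Measure Z} {w : Z → ℝ≥0∞} (hw : IsWeight H μ w) : ∀ᵐ z ∂μ, w z < ⊤ := by
  filter_upwards [hw.sum_eq] with z hz
  refine lt_of_le_of_lt ?_ ENNReal.one_lt_top
  have h := ENNReal.le_tsum (f := fun g : H => w ((g : G) • z)) 1
  rw [hz] at h
  simpa using h

/-- The window of `φ`. -/
def rhoR (x : ℝ) : ℝ := if 0 ≤ x ∧ x ≤ 1 then 1 else 0

theorem measurable_rhoR : Measurable rhoR :=
  Measurable.ite ((measurableSet_Ici).inter measurableSet_Iic) measurable_const measurable_const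

theorem measurable_hInfPt (M : GL (Fin 2) ℂ) : Measurable (hInfPt M) :=
  ((H3.continuous_coord_t.comp (H3.continuous_h3_smul M)).pow 2).measurable

theorem measurable_partInf : Measurable partInf :=
  (Real.measurable_log.comp ((measurable_hInfPt 1).mul (measurable_hInfPt (antiGL ℂ)))).neg

/-- The scaling as the flow of a trade. -/
def splitShift (h𝔫 : 𝔫 ≠ ⊥) [IsTotallyComplex L] {H : Subgroup PGL(2, L)}
    (hH : ∀ g ∈ H, ∃ γ : GL (Fin 2) L, IsDiag2 γ ∧ Matrix.ProjGenLinGroup.mk γ = g)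
    {w : YSpace 𝔫 → ℝ≥0∞} (hw : IsWeight H (yVol 𝔫) w) {φ : YSpace 𝔫 → ℝ} (hφ : Measurable φ)
    (hφs : ∀ r y, φ (scaleY r y) = φ y + 2 * r) (hφi : ∀ g ∈ H, ∀ y, φ (g • y) = φ y) (ℓ : ℝ) :
    ShiftData H (yVol 𝔫) w (2 * Fintype.card (InfinitePlace L)) ℓ where
  flow := scaleY
  mp := measurePreserving_scaleY h𝔫
  flow_smul r g hg y := by
    obtain ⟨γ, hγ, rfl⟩ := hH g hg
    obtain ⟨x, c⟩ := y
    rw [mk_smul, scaleY_apply, scaleY_apply, mk_smul]
    exact Prod.ext (infAct_scaleX r hγ x).symm rfl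
  weight := hw
  u y := Real.log (heightY 1 y)
  low := lowP
  φ := φ
  pos := by have := Fintype.card_pos (α := InfinitePlace L); positivity
  u_meas := Real.measurable_log.comp (measurable_heightY h𝔫 1)
  low_meas := (Real.measurable_log.comp (measurable_heightY h𝔫 1)).add
    (Real.measurable_log.comp (measurable_heightY h𝔫 _))
  φ_meas := hφ
  u_flow r y := (log_heightY_scale r y).1
  low_flow := lowP_scale
  φ_flow := hφs
  u_inv g hg y := by
    obtain ⟨γ, hγ, rfl⟩ := hH g hg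
    rw [(heightY_diag_smul hγ y).1]
  low_inv g hg y := by
    obtain ⟨γ, hγ, rfl⟩ := hH g hg
    rw [lowP, lowP, (heightY_diag_smul hγ y).1, (heightY_diag_smul hγ y).2]
  φ_inv := hφi

/-- **The truncated integral is an integral against the length of the window.** -/
theorem integral_split (h𝔫 : 𝔫 ≠ ⊥) [IsTotallyComplex L] {H : Subgroup PGL(2, L)}
    (hH : ∀ g ∈ H, ∃ γ : GL (Fin 2) L, IsDiag2 γ ∧ Matrix.ProjGenLinGroup.mk γ = g)
    {w : YSpace 𝔫 → ℝ≥0∞} (hw : IsWeight H (yVol 𝔫) w) {φ : YSpace 𝔫 → ℝ} (hφ : Measurable φ)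
    (hφs : ∀ r y, φ (scaleY r y) = φ y + 2 * r) (hφi : ∀ g ∈ H, ∀ y, φ (g • y) = φ y)
    {T : YSpace 𝔫 → ℂ} (hT : Measurable T) (hTi : ∀ g ∈ H, ∀ y, T (g • y) = T y)
    (hTs : ∀ r y, T (scaleY r y) = T y) {l : ℝ} (hl : 1 < l)
    (htr : ∀ y, T y ≠ 0 → (y ∈ trunc 𝔫 l ↔ heightY 1 y ≤ l ∧ heightY (antiGL L) y ≤ l))
    (hint : Integrable ((trunc 𝔫 l).indicator T) (wMeas (yVol 𝔫) w)) :
    Integrable (fun y => T y * (((w y).toReal * rhoR (φ y) : ℝ) : ℂ) *
        ((2 * Real.log l - lowP y : ℝ) : ℂ)) (yVol 𝔫) ∧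
      ∫ y, (trunc 𝔫 l).indicator T y ∂(wMeas (yVol 𝔫) w) =
        ((1 / Fintype.card (InfinitePlace L) : ℝ) : ℂ) *
          ∫ y, T y * (((w y).toReal * rhoR (φ y) : ℝ) : ℂ) *
            ((2 * Real.log l - lowP y : ℝ) : ℂ) ∂(yVol 𝔫) := by
  have : Countable (Cosets 𝔫) := countable_cosets h𝔫
  have : SFinite (yVol 𝔫) := by unfold yVol; infer_instance
  set n : ℝ := ((Fintype.card (InfinitePlace L) : ℕ) : ℝ) with hn_def
  have hn : 0 < n := Nat.cast_pos.mpr Fintype.card_pos
  set D := splitShift h𝔫 hH hw hφ hφs hφi (Real.log l)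
  have hlog : ∀ x : ℝ, 0 < x → (x ≤ l ↔ Real.log x ≤ Real.log l) := fun x hx =>
    (Real.log_le_log_iff hx (zero_lt_one.trans hl)).symm
  have hind : (trunc 𝔫 l).indicator T = D.win.indicator T := funext fun y => by
    by_cases hy : T y = 0
    · simp [Set.indicator, hy]
    · have e : y ∈ trunc 𝔫 l ↔ y ∈ D.win := by
        rw [htr y hy, hlog _ (heightY_pos _ _), hlog _ (heightY_pos _ _)]
        show _ ↔ lowP y - Real.log l ≤ Real.log (heightY 1 y) ∧
          Real.log (heightY 1 y) ≤ Real.log l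
        rw [lowP]
        constructor <;> intro h <;> constructor <;> linarith [h.1, h.2]
      by_cases h1 : y ∈ trunc 𝔫 l
      · rw [Set.indicator_of_mem h1, Set.indicator_of_mem (e.mp h1)]
      · rw [Set.indicator_of_notMem h1, Set.indicator_of_notMem fun h => h1 (e.mpr h)]
  rw [hind] at hint ⊢
  obtain ⟨hi, he⟩ := D.integral_win (measurePreserving_ySmul h𝔫) hT hTi hTs hint
  have hdens : ∀ᵐ y ∂(yVol 𝔫), (w * D.dens) y < ⊤ := by
    filter_upwards [hw.ae_lt_top] with y hy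
    refine ENNReal.mul_lt_top hy (ENNReal.mul_lt_top ENNReal.ofReal_lt_top ?_)
    exact lt_of_le_of_lt (Set.indicator_le_self' (fun _ _ => zero_le) y) ENNReal.one_lt_top
  have hval : ∀ y, ((w * D.dens) y).toReal • T y = ((1 / n : ℝ) : ℂ) *
      (T y * (((w y).toReal * rhoR (φ y) : ℝ) : ℂ) * ((2 * Real.log l - lowP y : ℝ) : ℂ)) := fun y => by
    have hL : 0 ≤ 2 * Real.log l - lowP y := by
      have := lowP_nonpos h𝔫 y
      have := Real.log_pos hl
      linarith
    have hρ : (D.rho y).toReal = rhoR (φ y) := by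
      show (({z | 0 ≤ φ z ∧ φ z ≤ 1} : Set (YSpace 𝔫)).indicator (1 : YSpace 𝔫 → ℝ≥0∞) y).toReal = _
      by_cases h : 0 ≤ φ y ∧ φ y ≤ 1 <;> simp [Set.indicator, rhoR, h]
    rw [Pi.mul_apply, ENNReal.toReal_mul, ShiftData.dens, ENNReal.toReal_mul, hρ,
      show D.low y = lowP y from rfl, ← hn_def,
      ENNReal.toReal_ofReal (mul_nonneg (div_nonneg (by norm_num) (by positivity)) hL)]
    show ((w y).toReal * (2 / (2 * n) * (2 * Real.log l - lowP y) * rhoR (φ y))) • T y = _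
    rw [Complex.real_smul]
    push_cast
    field_simp
  have hmw : Measurable (w * D.dens) := hw.measurable.mul D.measurable_dens
  rw [wMeas, ← withDensity_mul _ hw.measurable D.measurable_dens] at hi
  rw [he, wMeas, ← withDensity_mul _ hw.measurable D.measurable_dens,
    integral_withDensity_eq_integral_toReal_smul hmw hdens, integral_congr_ae (Eventually.of_forall hval),
    integral_const_mul]
  refine ⟨?_, rfl⟩
  have h1 := (integrable_withDensity_iff_integrable_smul' hmw hdens).mp hi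
  refine ((h1.congr (Eventually.of_forall hval)).const_mul (n : ℂ)).congr (Eventually.of_forall fun y => ?_)
  have hne : (n : ℂ) ≠ 0 := by exact_mod_cast hn.ne'
  push_cast
  field_simp

/-- **Only the parts at chosen finite places contribute.** -/
theorem integral_parts (h𝔫 : 𝔫 ≠ ⊥) {E : YSpace 𝔫 → ℂ} (hE : Measurable E) {ℓ : ℝ} (hℓ : 0 < ℓ)
    (hint : Integrable (fun y => E y * ((2 * ℓ - lowP y : ℝ) : ℂ)) (yVol 𝔫))
    (s : Finset (HeightOneSpectrum (𝓞 L)))
    (h0 : Integrable E (yVol 𝔫) → ∫ y, E y ∂(yVol 𝔫) = 0)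
    (hinf : ∀ w : InfinitePlace L, Integrable (fun y => E y * (partInf (y.1 w) : ℂ)) (yVol 𝔫) →
      ∫ y, E y * (partInf (y.1 w) : ℂ) ∂(yVol 𝔫) = 0)
    (hfin : ∀ v ∉ s, Integrable (fun y => E y * (partCos v (coordAt v y.2) : ℂ)) (yVol 𝔫) →
      ∫ y, E y * (partCos v (coordAt v y.2) : ℂ) ∂(yVol 𝔫) = 0) :
    (∀ v, Integrable (fun y => E y * (partCos v (coordAt v y.2) : ℂ)) (yVol 𝔫)) ∧
    ∫ y, E y * ((2 * ℓ - lowP y : ℝ) : ℂ) ∂(yVol 𝔫) =
      ∑ v ∈ s, ∫ y, E y * (partCos v (coordAt v y.2) : ℂ) ∂(yVol 𝔫) := by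
  have : Countable (Cosets 𝔫) := countable_cosets h𝔫
  have : Countable (Ideal (𝓞 L)) := by
    rw [← Set.countable_univ_iff]
    refine (Set.countable_iUnion fun n : ℕ =>
      (Ideal.finite_setOfPred_absNorm_eq (S := 𝓞 L) n).countable).mono fun I _ => ?_
    exact Set.mem_iUnion.mpr ⟨Ideal.absNorm I, rfl⟩
  have : Countable (HeightOneSpectrum (𝓞 L)) := Function.Injective.countable (f := fun P : HeightOneSpectrum (𝓞 L) => P.asIdeal) fun P Q h => HeightOneSpectrum.ext h
  set q : HeightOneSpectrum (𝓞 L) → YSpace 𝔫 → ℝ := fun v y => partCos v (coordAt v y.2)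
  set p : InfinitePlace L → YSpace 𝔫 → ℝ := fun w y => partInf (y.1 w)
  have hqm : ∀ v, Measurable (q v) := fun v =>
    (measurable_of_countable fun c : Cosets 𝔫 => partCos v (coordAt v c)).comp measurable_snd
  have hpm : ∀ w, Measurable (p w) := fun w =>
    measurable_partInf.comp ((measurable_pi_apply w).comp measurable_fst)
  have hq0 : ∀ v y, 0 ≤ q v y := fun v y => partFin_nonneg _ _
  have hp0 : ∀ w y, 0 ≤ p w y := fun w y => partInf_nonneg _
  have hqf : ∀ y, (Function.support fun v => q v y).Finite := fun y =>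
    eventually_cofinite.mp (eventually_partCos h𝔫 y.2)
  have hL : ∀ y, 2 * ℓ - lowP y = 2 * ℓ + ∑ w, p w y + ∑ᶠ v, q v y := fun y => by
    have := lowP_eq h𝔫 y
    simp only [p, q]
    linarith
  have hdom : ∀ (r : YSpace 𝔫 → ℝ), Measurable r → (∀ y, |r y| ≤ 2 * ℓ - lowP y) →
      Integrable (fun y => E y * (r y : ℂ)) (yVol 𝔫) := fun r hr hle =>
    hint.mono (hE.mul (Complex.measurable_ofReal.comp hr)).aestronglyMeasurable
      (Eventually.of_forall fun y => by
        rw [norm_mul, norm_mul, Complex.norm_real, Complex.norm_real, Real.norm_eq_abs,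
          Real.norm_eq_abs]
        exact mul_le_mul_of_nonneg_left ((hle y).trans (le_abs_self _)) (norm_nonneg _))
  have hsum0 : ∀ y, 0 ≤ ∑ w, p w y := fun y => Finset.sum_nonneg fun w _ => hp0 w y
  have hfs0 : ∀ y, 0 ≤ ∑ᶠ v, q v y := fun y => finsum_nonneg fun v => hq0 v y
  have hqle : ∀ v y, q v y ≤ ∑ᶠ u, q u y := fun v y =>
    single_le_finsum v (hqf y) fun u => hq0 u y
  have hEi : Integrable E (yVol 𝔫) := by
    refine ((hdom (fun _ => 2 * ℓ) measurable_const fun y => ?_).const_mul ((2 * ℓ : ℝ) : ℂ)⁻¹).congr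
      (Eventually.of_forall fun y => ?_)
    · rw [abs_of_pos (by linarith), hL]
      linarith [hsum0 y, hfs0 y]
    · have : ((2 * ℓ : ℝ) : ℂ) ≠ 0 := by exact_mod_cast (by linarith : (2 * ℓ : ℝ) ≠ 0)
      dsimp only
      field_simp
  have hpi : ∀ w, Integrable (fun y => E y * (p w y : ℂ)) (yVol 𝔫) := fun w =>
    hdom _ (hpm w) fun y => by
      rw [abs_of_nonneg (hp0 w y), hL]
      linarith [Finset.single_le_sum (f := fun u => p u y) (fun u _ => hp0 u y) (Finset.mem_univ w),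
        hfs0 y]
  have hqi : ∀ v, Integrable (fun y => E y * (q v y : ℂ)) (yVol 𝔫) := fun v =>
    hdom _ (hqm v) fun y => by
      rw [abs_of_nonneg (hq0 v y), hL]
      linarith [hsum0 y, hqle v y]
  have hts : ∀ y, ∑ᶠ v, q v y = ∑' v, q v y := fun y => (tsum_eq_finsum (hqf y)).symm
  have hsumm : ∀ y, Summable fun v => q v y := fun y => summable_of_hasFiniteSupport (hqf y)
  have hbound : ∑' v, ∫⁻ y, ‖E y * (q v y : ℂ)‖ₑ ∂(yVol 𝔫) ≠ ⊤ := by
    rw [← lintegral_tsum (f := fun v y => ‖E y * (q v y : ℂ)‖ₑ) fun v =>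
      (hE.mul (Complex.measurable_ofReal.comp (hqm v))).enorm.aemeasurable]
    refine ne_top_of_le_ne_top hint.2.ne (lintegral_mono fun y => ?_)
    simp only [enorm_mul]
    rw [ENNReal.tsum_mul_left]
    refine mul_le_mul_right ?_ _
    simp only [← ofReal_norm, Complex.norm_real, Real.norm_eq_abs, abs_of_nonneg (hq0 _ y)]
    rw [← ENNReal.ofReal_tsum_of_nonneg (fun v => hq0 v y) (hsumm y), ← hts y]
    exact ENNReal.ofReal_le_ofReal ((le_add_of_nonneg_left (by linarith [hsum0 y])).trans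
      ((hL y).symm.le.trans (le_abs_self _)))
  refine ⟨hqi, ?_⟩
  have e : (fun y => E y * ((2 * ℓ - lowP y : ℝ) : ℂ)) = fun y =>
      (((2 * ℓ : ℝ) : ℂ) * E y + ∑ w, E y * (p w y : ℂ)) + ∑' v, E y * (q v y : ℂ) := funext fun y => by
    rw [hL, hts, tsum_mul_left, ← Complex.ofReal_tsum, ← Finset.mul_sum]
    push_cast
    ring
  have h2 : Integrable (fun y => ∑ w, E y * (p w y : ℂ)) (yVol 𝔫) := integrable_finsetSum _ fun w _ => hpi w
  have h1 : Integrable (fun y => ((2 * ℓ : ℝ) : ℂ) * E y + ∑ w, E y * (p w y : ℂ)) (yVol 𝔫) :=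
    (hEi.const_mul _).add h2
  have h3 : Integrable (fun y => ∑' v, E y * (q v y : ℂ)) (yVol 𝔫) := by
    refine (hdom (fun y => ∑' v, q v y) (Measurable.tsum fun v => hqm v) fun y => ?_).congr
      (Eventually.of_forall fun y => ?_)
    · rw [← hts y, abs_of_nonneg (hfs0 y), hL]
      linarith [hsum0 y]
    · dsimp only
      rw [tsum_mul_left, Complex.ofReal_tsum]
  rw [e, integral_add h1 h3, integral_add (hEi.const_mul _) h2, integral_const_mul, h0 hEi,
    integral_finsetSum _ fun w _ => hpi w, Finset.sum_eq_zero fun w _ => hinf w (hpi w),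
    integral_tsum (fun v => (hqi v).1) hbound, mul_zero, zero_add, zero_add]
  exact tsum_eq_sum fun v hv => hfin v hv (hqi v)

end FermatAgent.LT
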