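import Mathlib
import Fermat.Agent.LT.Descent.Geom.FibreInt
import Fermat.Agent.LT.Descent.Geom.SplitFibre
import Fermat.Agent.LT.Descent.Geom.SplitGen
import Fermat.Agent.LT.Descent.Geom.Elliptic

set_option autoImplicit false

/-!
# The truncated split terms of both sides
-/

noncomputable section

open MeasureTheory NumberField IsDedekindDomain Filter
open scoped MatrixGroups ENNReal

namespace FermatAgent.LT

open Weight Matrix

theorem isDiag2_of_commute {R : Type*} [Field R] {a : R} (ha : a ≠ 1) {g t : GL (Fin 2) R}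
    (ht : (t : Matrix (Fin 2) (Fin 2) R) = Matrix.diagonal ![a, 1]) (h : g * t = t * g) :
    IsDiag2 g := by
  have e : ∀ i j, (g : Matrix (Fin 2) (Fin 2) R) i j * ![a, 1] j =
      ![a, 1] i * (g : Matrix (Fin 2) (Fin 2) R) i j := fun i j => by
    have h1 := congrArg (fun M : GL (Fin 2) R => (M : Matrix (Fin 2) (Fin 2) R) i j) h
    simp only [Units.val_mul, ht, Matrix.mul_diagonal, Matrix.diagonal_mul] at h1
    exact h1
  have h01 := e 0 1
  have h10 := e 1 0
  simp only [Matrix.cons_val_zero, Matrix.cons_val_one, mul_one, one_mul] at h01 h10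
  have ha' : a - 1 ≠ 0 := sub_ne_zero.mpr ha
  exact ⟨(mul_eq_zero.mp (show (a - 1) * g 0 1 = 0 by linear_combination -h01)).resolve_left ha',
    (mul_eq_zero.mp (show (a - 1) * g 1 0 = 0 by linear_combination h10)).resolve_left ha'⟩

variable {S : Setup} {σ : S.F ≃+* S.F}

/-- A split normalised class. -/
structure Setup.IsSplit (S : Setup) (t : GL (Fin 2) S.K) (a : S.K) : Prop where
  mat : (t : Matrix (Fin 2) (Fin 2) S.K) = Matrix.diagonal ![a, 1]
  regular : (t : Matrix (Fin 2) (Fin 2) S.K).trace ^ 2 ≠ 4 * (t : Matrix (Fin 2) (Fin 2) S.K).det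

variable {t : GL (Fin 2) S.K} {a : S.K} (hs : S.IsSplit t a)

include hs in
theorem Setup.IsSplit.ne_one : a ≠ 1 := fun h => hs.regular (by
  rw [hs.mat, h, Matrix.trace_fin_two, Matrix.det_fin_two]
  simp
  norm_num)

include hs in
theorem Setup.IsSplit.diag_centralizer (γ : Subgroup.centralizer ({t} : Set (GL (Fin 2) S.K))) :
    IsDiag2 (γ : GL (Fin 2) S.K) :=
  isDiag2_of_commute hs.ne_one hs.mat (Subgroup.mem_centralizer_singleton_iff.mp γ.2)

include hs in
theorem Setup.IsSplit.diag_torusAt {v : HeightOneSpectrum (𝓞 S.K)} {g : GLv v}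
    (hg : g ∈ torusAt v t) : IsDiag2 g := by
  refine isDiag2_of_commute (a := loc v a) (t := locMat v t) (fun h => hs.ne_one ((loc v).injective
    (h.trans (map_one _).symm))) ?_ (Subgroup.mem_centralizer_singleton_iff.mp hg)
  have e := congrArg ((loc v).mapMatrix) hs.mat
  refine e.trans ?_
  ext i j
  fin_cases i <;> fin_cases j <;> simp

theorem isDiag2_map {R R' : Type*} [Field R] [Field R'] (f : R →+* R') {g : GL (Fin 2) R}
    (hg : IsDiag2 g) : IsDiag2 (Matrix.GeneralLinearGroup.map f g) :=
  ⟨(congrArg f hg.1).trans (map_zero _), (congrArg f hg.2).trans (map_zero _)⟩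

include hs in
theorem Setup.IsSplit.diag_delta (hσ : S.IsGalGen σ) {δ : GL (Fin 2) S.F}
    (hn : S.IsNormPair σ t δ) : IsDiag2 δ := by
  refine isDiag2_of_commute (a := S.inclKF a) (fun h => hs.ne_one (S.inclKF.injective
    (h.trans (map_one S.inclKF).symm))) ?_ (hn.commute hσ hσ.cube)
  have e := congrArg (S.inclKF.toRingHom.mapMatrix) hs.mat
  refine e.trans ?_
  ext i j
  fin_cases i <;> fin_cases j <;> simp

/-! ### The fixed window -/

variable (ht : (t : Matrix (Fin 2) (Fin 2) S.K).trace ^ 2 ≠ 4 * (t : Matrix (Fin 2) (Fin 2) S.K).det)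

/-- The averaged logarithm of the height. -/
def Setup.phiZ (z : H3 × S.TOrb t) : ℝ :=
  (∑ c ∈ (S.finite_baseFibre ht z.2).toFinset, Real.log (heightY 1
    (((MeasurableEquiv.funUnique (InfinitePlace S.K) H3).symm z.1, c) :
      YSpace (S.levelIdeal S.K)))) /
    (S.finite_baseFibre ht z.2).toFinset.card

theorem Setup.measurable_phiZ : Measurable (S.phiZ ht) := by
  have : Countable (S.TOrb t) := S.countable_tOrb ht
  refine measurable_from_prod_countable_left fun a => ?_
  show Measurable fun P => (∑ c ∈ (S.finite_baseFibre ht a).toFinset, Real.log (heightY 1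
    (((MeasurableEquiv.funUnique (InfinitePlace S.K) H3).symm P, c) :
      YSpace (S.levelIdeal S.K)))) / (S.finite_baseFibre ht a).toFinset.card
  exact (Finset.measurable_sum _ fun c _ => Real.measurable_log.comp
    ((measurable_heightY (S.levelIdeal_ne_bot S.K) 1).comp
      ((MeasurableEquiv.funUnique (InfinitePlace S.K) H3).symm.measurable.prodMk
        measurable_const))).div_const _

theorem Setup.phiZ_scale (r : ℝ) (P : H3) (b : S.TOrb t) :
    S.phiZ ht (scaleG r • P, b) = S.phiZ ht (P, b) + 2 * r := by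
  have hcard : ((S.finite_baseFibre ht b).toFinset.card : ℝ) ≠ 0 := by
    rw [Nat.cast_ne_zero, Finset.card_ne_zero, Set.Finite.toFinset_nonempty]
    exact S.nonempty_baseFibre ht b
  set e := (MeasurableEquiv.funUnique (InfinitePlace S.K) H3).symm
  have key : ∀ c : Cosets (S.levelIdeal S.K),
      Real.log (heightY 1 ((e (scaleG r • P), c) : YSpace (S.levelIdeal S.K))) =
        Real.log (heightY 1 ((e P, c) : YSpace (S.levelIdeal S.K))) + 2 * r := fun c => by
    rw [show ((e (scaleG r • P), c) : YSpace (S.levelIdeal S.K)) = scaleY r (e P, c) from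
      Prod.ext (funext fun _ => rfl) rfl, (log_heightY_scale r _).1, Fintype.card_unique]
    simp
  simp only [Setup.phiZ, key, Finset.sum_add_distrib, Finset.sum_const, nsmul_eq_mul, e] at *
  field_simp

include hs in
theorem Setup.phiZ_zAct (γ : Subgroup.centralizer ({t} : Set (GL (Fin 2) S.K))) (z : H3 × S.TOrb t) :
    S.phiZ ht (S.zAct ht γ z) = S.phiZ ht z := by
  classical
  obtain ⟨P, b⟩ := z
  set e := fun c : Cosets (S.levelIdeal S.K) => rationalMat (γ : GL (Fin 2) S.K) • c
  have horb : ∀ d : Cosets (S.levelIdeal S.K),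
      S.orbitOfK ht (e d) = (S.zAct ht γ (P, S.orbitOfK ht d)).2 := fun d =>
    congrArg Prod.snd (S.zK_smul ht γ ((fun _ => P), d))
  have him : (S.finite_baseFibre ht (S.zAct ht γ (P, b)).2).toFinset =
      (S.finite_baseFibre ht b).toFinset.image e := by
    ext c
    rw [Finset.mem_image, Set.Finite.mem_toFinset]
    constructor
    · rintro ⟨h1, h2⟩
      refine ⟨rationalMat (γ⁻¹ : Subgroup.centralizer ({t} : Set (GL (Fin 2) S.K))).1 • c,
        (Set.Finite.mem_toFinset _).mpr ⟨S.baseCosets_smul γ⁻¹ h1, ?_⟩, by simp [e, map_inv]⟩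
      set d := rationalMat (γ⁻¹ : Subgroup.centralizer ({t} : Set (GL (Fin 2) S.K))).1 • c
      have h3 := horb d
      rw [show e d = c by simp [e, d, map_inv], h2] at h3
      refine Subtype.ext (funext fun v => ?_)
      have h4 := congrFun (congrArg Subtype.val h3) v
      simp only [Setup.zAct] at h4
      exact (smul_left_cancel_iff _).mp h4.symm
    · rintro ⟨d, hd, rfl⟩
      rw [Set.Finite.mem_toFinset] at hd
      exact ⟨S.baseCosets_smul γ hd.1, (horb d).trans (by rw [hd.2])⟩
  have hinj : Function.Injective e := MulAction.injective _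
  rw [Setup.phiZ, Setup.phiZ, him, Finset.sum_image (fun _ _ _ _ h => hinj h),
    Finset.card_image_of_injective _ hinj]
  congr 1
  refine Finset.sum_congr rfl fun c _ => congrArg Real.log ?_
  rw [show ((((MeasurableEquiv.funUnique (InfinitePlace S.K) H3).symm (S.zAct ht γ (P, b)).1, e c)) :
      YSpace (S.levelIdeal S.K)) = Matrix.ProjGenLinGroup.mk (γ : GL (Fin 2) S.K) •
        (((MeasurableEquiv.funUnique (InfinitePlace S.K) H3).symm P, c)) by
    rw [mk_smul]
    refine Prod.ext (funext fun u => ?_) rfl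
    show Matrix.GeneralLinearGroup.map S.emb (γ : GL (Fin 2) S.K) • P =
      Matrix.GeneralLinearGroup.map u.embedding (γ : GL (Fin 2) S.K) • P
    rw [S.embedding_eq]]
  exact (heightY_diag_smul (hs.diag_centralizer γ) _).1

/-- The function of the point of the torus space left after the trade. -/
def Setup.splitFn (V : H3 × S.TOrb t → ℝ≥0∞) (z : H3 × S.TOrb t) : ℂ :=
  (((V z).toReal * rhoR (S.phiZ ht z) : ℝ) : ℂ)

variable (Ψ : S.PsiData) (l : List (HeightOneSpectrum (𝓞 S.F)))
  (h : InfinitePlace S.F → H3 → H3 → ℂ) (σ) (w₁ : InfinitePlace S.K → InfinitePlace S.F)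

/-- The common value of a split term. -/
def Setup.splitVal (v₀ : HeightOneSpectrum (𝓞 S.K)) (V : H3 × S.TOrb t → ℝ≥0∞) : ℂ :=
  S.orbMul Ψ l ht v₀ (fun y => (partCos v₀ y : ℂ)) *
    ∑' b, ∫ P, S.slotKer σ w₁ h default P (Matrix.GeneralLinearGroup.map S.emb t • P) *
      S.splitFn ht V (P, b) ∂H3.vol

end FermatAgent.LT
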