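import Mathlib
import Fermat.Agent.LT.Descent.Geom.SplitInt

set_option autoImplicit false

/-!
# The value of the truncated split terms
-/

noncomputable section

open MeasureTheory NumberField IsDedekindDomain Filter
open scoped MatrixGroups ENNReal

namespace FermatAgent.LT

open Weight Matrix

theorem eigen_row_diag {L : Type*} [Field L] {a : L} {M : Matrix (Fin 2) (Fin 2) L}
    (hM : M = Matrix.diagonal ![a, 1]) {r : Fin 2 → L} {ν : L} (h : r ᵥ* M = ν • r) :
    r 0 * a = ν * r 0 ∧ r 1 = ν * r 1 := by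
  subst hM
  have h0 := congrFun h 0
  have h1 := congrFun h 1
  simp [Matrix.vecMul_diagonal] at h0 h1
  exact ⟨h0, h1⟩

theorem measurable_kernel_move {L : Type*} [Field L] [NumberField L] {𝔫 : Ideal (𝓞 L)}
    {k : YSpace 𝔫 → YSpace 𝔫 → ℂ} (hk : IsYKernel k) {f : YSpace 𝔫 → YSpace 𝔫} (hf : Measurable f) :
    Measurable fun y => k y (f y) :=
  hk.measurable.comp (measurable_id.prodMk hf)

variable {S : Setup} {σ : S.F ≃+* S.F} {w₁ : InfinitePlace S.K → InfinitePlace S.F}
  {h : InfinitePlace S.F → H3 → H3 → ℂ} (Ψ : S.PsiData) (l : List (HeightOneSpectrum (𝓞 S.F)))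
  (hl : ∀ w ∈ l, ((3 * S.m : ℕ) : 𝓞 S.F) ∉ w.asIdeal)
  {t : GL (Fin 2) S.K} {a : S.K} (hs : S.IsSplit t a) {v₀ : HeightOneSpectrum (𝓞 S.K)}
  (h0 : ∑ᶠ y ∈ (S.phiK hs.regular v₀).fibre, S.bK Ψ l t v₀ y = 0)
  {V : H3 × S.TOrb t → ℝ≥0∞}

include hl hs h0 in
/-- **The split term of `K`.** -/
theorem Setup.split_K (hk : IsYKernel (yKer (S.slotKer σ w₁ h)
      (S.levelOpK Ψ * (l.map S.bcOp).prod)))
    (hh : ∀ u, H3.IsInvKer (S.slotKer σ w₁ h u))
    (hVm : Measurable V)
    (hV : IsWeight (S.torusK t) (yVol (S.levelIdeal S.K)) (V ∘ S.zK hs.regular))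
    {L₀ : ℝ} (hL : ∀ y, S.termK Ψ l h σ w₁ t y ≠ 0 → ∀ α : GL (Fin 2) S.K, L₀ < heightY α y →
      ∃ ν : S.K, (fun j => α 1 j : Fin 2 → S.K) ᵥ* (t : Matrix (Fin 2) (Fin 2) S.K) =
        ν • (fun j => α 1 j : Fin 2 → S.K))
    {n : ℝ} (hn : L₀ ≤ n) (hn1 : 1 < n)
    (hint : Integrable ((trunc (S.levelIdeal S.K) n).indicator (S.termK Ψ l h σ w₁ t))
      (wMeas (yVol (S.levelIdeal S.K)) (V ∘ S.zK hs.regular))) :
    ∫ y, (trunc (S.levelIdeal S.K) n).indicator (S.termK Ψ l h σ w₁ t) y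
        ∂(wMeas (yVol (S.levelIdeal S.K)) (V ∘ S.zK hs.regular)) =
      S.splitVal σ hs.regular Ψ l h w₁ v₀ V := by
  classical
  have hb := S.levelIdeal_ne_bot S.K
  have : Countable (Cosets (S.levelIdeal S.K)) := countable_cosets hb
  have : Countable (S.TOrb t) := S.countable_tOrb hs.regular
  have : SFinite (yVol (S.levelIdeal S.K)) := by unfold yVol; infer_instance
  set ht := hs.regular
  have hH : ∀ g ∈ S.torusK t, ∃ γ : GL (Fin 2) S.K, IsDiag2 γ ∧ Matrix.ProjGenLinGroup.mk γ = g := by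
    rintro _ ⟨γ, hγ, rfl⟩
    exact ⟨γ, hs.diag_centralizer ⟨γ, hγ⟩, rfl⟩
  have hzs : ∀ (r : ℝ) (y : YSpace (S.levelIdeal S.K)), S.zK ht (scaleY r y) =
      (scaleG r • (S.zK ht y).1, (S.zK ht y).2) := fun r y => rfl
  have htd : IsDiag2 t := ⟨by rw [hs.mat]; simp, by rw [hs.mat]; simp⟩
  have hφi : ∀ g ∈ S.torusK t, ∀ y : YSpace (S.levelIdeal S.K),
      S.phiZ ht (S.zK ht (g • y)) = S.phiZ ht (S.zK ht y) := by
    rintro _ ⟨γ, hγ, rfl⟩ y
    rw [S.zK_smul ht ⟨γ, hγ⟩ y, S.phiZ_zAct hs ht]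
  have hTi : ∀ g ∈ S.torusK t, ∀ y, S.termK Ψ l h σ w₁ t (g • y) = S.termK Ψ l h σ w₁ t y := by
    rintro _ ⟨γ, hγ, rfl⟩ y
    have e : Matrix.ProjGenLinGroup.mk t • Matrix.ProjGenLinGroup.mk γ • y =
        Matrix.ProjGenLinGroup.mk γ • Matrix.ProjGenLinGroup.mk t • y := by
      rw [smul_smul, smul_smul, ← map_mul, ← map_mul, Subgroup.mem_centralizer_singleton_iff.mp hγ]
    rw [Setup.termK, Setup.termK, e, hk.invariant]
  have hTs : ∀ r y, S.termK Ψ l h σ w₁ t (scaleY r y) = S.termK Ψ l h σ w₁ t y := by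
    rintro r ⟨x, c⟩
    rw [Setup.termK, Setup.termK, scaleY_apply, mk_smul, mk_smul, yKer, yKer, infAct_scaleX r htd,
      prodKer_scaleX hh]
  have hTm : Measurable (S.termK Ψ l h σ w₁ t) := by
    unfold Setup.termK
    exact measurable_kernel_move hk (measurable_ySmul hb _)
  have htr : ∀ y, S.termK Ψ l h σ w₁ t y ≠ 0 → (y ∈ trunc (S.levelIdeal S.K) n ↔
      heightY 1 y ≤ n ∧ heightY (antiGL S.K) y ≤ n) := fun y hy =>
    mem_trunc_iff hs.ne_one y fun α hα => by
      obtain ⟨ν, hν⟩ := hL y hy α (hn.trans_lt hα)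
      exact ⟨ν, eigen_row_diag hs.mat hν⟩
  obtain ⟨hi, he⟩ := integral_split hb hH hV ((S.measurable_phiZ ht).comp (S.qmp_zK ht).measurable)
    (fun r y => by simp only [Function.comp_apply, hzs]; exact S.phiZ_scale ht r _ _)
    hφi hTm hTi hTs hn1 htr hint
  rw [he, Fintype.card_unique, Nat.cast_one, div_one, Complex.ofReal_one, one_mul]
  set G : H3 × S.TOrb t → ℂ := S.splitFn ht V
  have hGm : Measurable G := Complex.measurable_ofReal.comp
    (hVm.ennreal_toReal.mul (measurable_rhoR.comp (S.measurable_phiZ ht)))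
  set E : YSpace (S.levelIdeal S.K) → ℂ := fun y => S.termK Ψ l h σ w₁ t y * G (S.zK ht y)
  have hO : S.orbK Ψ l ht = 0 := S.orbK_eq_zero Ψ l ht h0
  have hEe : ∀ y : YSpace (S.levelIdeal S.K), E y =
      S.slotKer σ w₁ h default (y.1 default)
          (Matrix.GeneralLinearGroup.map S.emb t • y.1 default) *
        finKer (S.levelOpK Ψ * (l.map S.bcOp).prod) y.2 (rationalMat t • y.2) *
        G (y.1 default, S.orbitOfK ht y.2) := by
    rintro ⟨x, c⟩
    show yKer _ _ _ (Matrix.ProjGenLinGroup.mk t • _) * _ = _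
    rw [mk_smul]
    show (∏ u, S.slotKer σ w₁ h u (x u) (infAct t x u)) * _ * _ = _
    rw [Fintype.prod_unique]
    rfl
  have hfibEq : ∀ b : S.TOrb t, {c | S.orbitOfK ht c = b} =
      {c | ∀ v, (S.phiK ht v).toFun (coordAt v c) = b.1 v} := fun b => by
    ext c; exact ⟨fun h v => congrFun (congrArg Subtype.val h) v, fun h => Subtype.ext (funext h)⟩
  have hfib : ∀ b : S.TOrb t, ({c | S.orbitOfK ht c = b} ∩ Function.support fun c =>
      finKer (S.levelOpK Ψ * (l.map S.bcOp).prod) c (rationalMat t • c)).Finite ∧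
      ∑ᶠ c ∈ {c | S.orbitOfK ht c = b}, finKer (S.levelOpK Ψ * (l.map S.bcOp).prod) c
        (rationalMat t • c) = 0 := fun b => by
    rw [hfibEq, ← hO]; exact S.finsum_fibre_K Ψ l hl ht b.1 b.2
  have hp : ∀ v, ∀ g ∈ torusAt v t, ∀ q : LCos (S.levelIdeal S.K) v,
      (partCos v (g • q) : ℂ) = (partCos v q : ℂ) := fun v g hg q => by
    rw [partCos_smul (hs.diag_torusAt hg)]
  have hval : ∀ v, Integrable (fun y => E y * (partCos v (coordAt v y.2) : ℂ))
      (yVol (S.levelIdeal S.K)) →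
      ∫ y, E y * (partCos v (coordAt v y.2) : ℂ) ∂(yVol (S.levelIdeal S.K)) =
        S.orbMul Ψ l ht v (fun q => (partCos v q : ℂ)) *
          ∑' b, ∫ P, S.slotKer σ w₁ h default P (Matrix.GeneralLinearGroup.map S.emb t • P) *
            G (P, b) ∂H3.vol := by
    intro v hv
    have e : ∀ y : YSpace (S.levelIdeal S.K), E y * (partCos v (coordAt v y.2) : ℂ) =
        S.slotKer σ w₁ h default (y.1 default)
            (Matrix.GeneralLinearGroup.map S.emb t • y.1 default) *
          (finKer (S.levelOpK Ψ * (l.map S.bcOp).prod) y.2 (rationalMat t • y.2) *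
            (partCos v (coordAt v y.2) : ℂ)) *
          G (y.1 default, S.orbitOfK ht y.2) := fun y => by rw [hEe]; ring
    simp only [e] at hv ⊢
    refine (integral_fibre (Measure.pi fun _ : InfinitePlace S.K => H3.vol)
      (fun x : XInf S.K => x default) (S.orbitOfK ht)
      (fun c => finKer (S.levelOpK Ψ * (l.map S.bcOp).prod) c (rationalMat t • c) *
        (partCos v (coordAt v c) : ℂ))
      (fun x : XInf S.K => S.slotKer σ w₁ h default (x default)
        (Matrix.GeneralLinearGroup.map S.emb t • x default)) G _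
      (fun b => by
        rw [hfibEq]
        exact S.finsum_fibre_K_mul Ψ l hl ht v (fun q => (partCos v q : ℂ)) (hp v) b.1 b.2)
      hv).2.trans ?_
    congr 1
    exact tsum_congr fun b => S.measurePreserving_point.integral_comp
      (MeasurableEquiv.funUnique (InfinitePlace S.K) H3).measurableEmbedding
      fun P => S.slotKer σ w₁ h default P (Matrix.GeneralLinearGroup.map S.emb t • P) * G (P, b)
  obtain ⟨hqi, hparts⟩ := integral_parts hb
    (E := E) (hTm.mul (hGm.comp (S.qmp_zK ht).measurable)) (Real.log_pos hn1) hi {v₀}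
    (fun hEi => by
      have := S.integral_termK Ψ l hl ht (G := G) hEi
      rwa [hO, zero_mul] at this)
    (fun u hu => by
      simp only [hEe] at hu ⊢
      have e : ∀ y : YSpace (S.levelIdeal S.K),
          S.slotKer σ w₁ h default (y.1 default)
              (Matrix.GeneralLinearGroup.map S.emb t • y.1 default) *
            finKer (S.levelOpK Ψ * (l.map S.bcOp).prod) y.2 (rationalMat t • y.2) *
            G (y.1 default, S.orbitOfK ht y.2) * (partInf (y.1 u) : ℂ) =
          (S.slotKer σ w₁ h default (y.1 default)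
              (Matrix.GeneralLinearGroup.map S.emb t • y.1 default) * (partInf (y.1 u) : ℂ)) *
            finKer (S.levelOpK Ψ * (l.map S.bcOp).prod) y.2 (rationalMat t • y.2) *
            G (y.1 default, S.orbitOfK ht y.2) := fun y => by ring
      simp only [e] at hu ⊢
      exact (integral_fibre (Measure.pi fun _ : InfinitePlace S.K => H3.vol)
        (fun x : XInf S.K => x default) (S.orbitOfK ht)
        (fun c => finKer (S.levelOpK Ψ * (l.map S.bcOp).prod) c (rationalMat t • c))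
        (fun x : XInf S.K => S.slotKer σ w₁ h default (x default)
          (Matrix.GeneralLinearGroup.map S.emb t • x default) * (partInf (x u) : ℂ)) G _
        hfib hu).2.trans (zero_mul _))
    (fun v hv hvi => by
      rw [hval v hvi, S.orbMul_eq_zero Ψ l ht _ (fun e => hv (Finset.mem_singleton.mpr e.symm)) h0,
        zero_mul])
  refine hparts.trans ?_
  rw [Finset.sum_singleton]
  exact hval v₀ (hqi v₀)

end FermatAgent.LT
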