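import Mathlib
import Fermat.Agent.LT.Descent.Geom.SplitSides

set_option autoImplicit false

/-!
# The truncated split terms of `F`
-/

noncomputable section

open MeasureTheory NumberField IsDedekindDomain Filter
open scoped MatrixGroups ENNReal

namespace FermatAgent.LT

open Weight Matrix

theorem isDiag2_commute {R : Type*} [Field R] {g g' : GL (Fin 2) R} (hg : IsDiag2 g)
    (hg' : IsDiag2 g') : g * g' = g' * g :=
  Matrix.GeneralLinearGroup.ext fun i j => by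
    fin_cases i <;> fin_cases j <;>
      simp [Matrix.mul_apply, Fin.sum_univ_two, hg.1, hg.2, hg'.1, hg'.2, mul_comm]

variable {S : Setup} {σ : S.F ≃+* S.F}

theorem Setup.card_overK_three (hσ : S.IsGalGen σ) {v₀ : HeightOneSpectrum (𝓞 S.K)}
    (hv₀ : (3 : 𝓞 S.K) ∈ v₀.asIdeal) :
    (∀ w : S.OverK v₀, galPlace σ w.1 ≠ w.1) ∧ (S.finite_overK v₀).toFinset.card = 3 := by
  classical
  have hne : ∀ w : S.OverK v₀, galPlace σ w.1 ≠ w.1 := fun ⟨w, hw⟩ => by
    subst hw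
    refine galPlace_ne_of_three hσ ?_
    have h3 : S.inclInt (3 : 𝓞 S.K) ∈ w.asIdeal := hv₀
    rwa [map_ofNat] at h3
  refine ⟨hne, ?_⟩
  obtain ⟨⟨w, hw⟩⟩ := exists_overK_place S v₀
  have h1 := hne ⟨w, hw⟩
  obtain ⟨h2, h3⟩ := galPlace_moved hσ h1
  have e : (S.finite_overK v₀).toFinset = {w, galPlace σ w, galPlace σ (galPlace σ w)} := by
    ext u
    simp only [Set.Finite.mem_toFinset, Set.mem_ofPred_eq, Finset.mem_insert, Finset.mem_singleton]
    refine ⟨fun hu => galPlace_orbit hσ (hu.trans hw.symm), ?_⟩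
    rintro (rfl | rfl | rfl)
    · exact hw
    · exact (S.underK_galPlace hσ w).trans hw
    · exact ((S.underK_galPlace hσ _).trans (S.underK_galPlace hσ w)).trans hw
  rw [e, Finset.card_eq_three]
  exact ⟨_, _, _, h1.symm, h2.symm, h3.symm, rfl⟩

variable {w₁ : InfinitePlace S.K → InfinitePlace S.F}
  {h : InfinitePlace S.F → H3 → H3 → ℂ} (Ψ : S.PsiData) (hΨ : Ψ.Nontriv)
  (l : List (HeightOneSpectrum (𝓞 S.F)))
  (hl : ∀ w ∈ l, ((3 * S.m : ℕ) : 𝓞 S.F) ∉ w.asIdeal)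
  {t : GL (Fin 2) S.K} {δ : GL (Fin 2) S.F} {a : S.K} (hs : S.IsSplit t a)
  {v₀ : HeightOneSpectrum (𝓞 S.K)} (hv₀ : (3 : 𝓞 S.K) ∈ v₀.asIdeal)
  (h0 : ∑ᶠ y ∈ (S.phiK hs.regular v₀).fibre, S.bK Ψ l t v₀ y = 0)
  {V : H3 × S.TOrb t → ℝ≥0∞}

include hΨ hl hs hv₀ h0 in
/-- **The split term of `F`.** -/
theorem Setup.split_F (hσ : S.IsGalGen σ) (hw₁ : ∀ u, (w₁ u).comap S.inclKF.toRingHom = u)
    (hk : IsYKernel (yKer h (S.levelOpF Ψ * heckeWord (S.levelIdeal S.F) l)))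
    (hh : ∀ w, H3.IsInvKer (h w)) (hn : S.IsNormPair σ t δ) (hVm : Measurable V)
    (hV : IsWeight (S.torusF t) (yVol (S.levelIdeal S.F)) (V ∘ S.zF hs.regular w₁))
    {L₀ : ℝ} (hL : ∀ y, S.termF Ψ l h σ δ y ≠ 0 → ∀ α : GL (Fin 2) S.F, L₀ < heightY α y →
      ∃ ν : S.F, (fun j => α 1 j : Fin 2 → S.F) ᵥ*
        ((Matrix.GeneralLinearGroup.map S.inclKF.toRingHom t : GL (Fin 2) S.F) :
          Matrix (Fin 2) (Fin 2) S.F) = ν • (fun j => α 1 j : Fin 2 → S.F))
    {n : ℝ} (hn0 : L₀ ≤ n) (hn1 : 1 < n)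
    (hint : Integrable ((trunc (S.levelIdeal S.F) n).indicator (S.termF Ψ l h σ δ))
      (wMeas (yVol (S.levelIdeal S.F)) (V ∘ S.zF hs.regular w₁))) :
    ∫ y, (trunc (S.levelIdeal S.F) n).indicator (S.termF Ψ l h σ δ) y
        ∂(wMeas (yVol (S.levelIdeal S.F)) (V ∘ S.zF hs.regular w₁)) =
      S.splitVal σ hs.regular Ψ l h w₁ v₀ V := by
  classical
  have hb := S.levelIdeal_ne_bot S.F
  have : Fact (S.levelIdeal S.F ≠ ⊥) := ⟨hb⟩
  have : Countable (Cosets (S.levelIdeal S.F)) := countable_cosets hb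
  have : Countable (S.TOrb t) := S.countable_tOrb hs.regular
  have : SFinite (yVol (S.levelIdeal S.F)) := by unfold yVol; infer_instance
  set ht := hs.regular
  obtain ⟨hmov, hcard⟩ := Setup.card_overK_three hσ hv₀
  set ι := Matrix.GeneralLinearGroup.map (n := Fin 2) S.inclKF.toRingHom
  have hH : ∀ g ∈ S.torusF t, ∃ γ : GL (Fin 2) S.F, IsDiag2 γ ∧ Matrix.ProjGenLinGroup.mk γ = g := by
    rintro _ ⟨_, ⟨γ, hγ, rfl⟩, rfl⟩
    exact ⟨ι γ, isDiag2_map _ (hs.diag_centralizer ⟨γ, hγ⟩), rfl⟩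
  have hzs : ∀ (r : ℝ) (y : YSpace (S.levelIdeal S.F)), S.zF ht w₁ (scaleY r y) =
      (scaleG r • (S.zF ht w₁ y).1, (S.zF ht w₁ y).2) := fun r y =>
    Prod.ext (ptEmb_scaleX r y.1 _) rfl
  have hδd : IsDiag2 δ := hs.diag_delta hσ hn
  have hφi : ∀ g ∈ S.torusF t, ∀ y : YSpace (S.levelIdeal S.F),
      S.phiZ ht (S.zF ht w₁ (g • y)) = S.phiZ ht (S.zF ht w₁ y) := by
    rintro _ ⟨_, ⟨γ, hγ, rfl⟩, rfl⟩ y
    rw [S.zF_smul ht hw₁ ⟨γ, hγ⟩ y, S.phiZ_zAct hs ht]
  have hTi : ∀ g ∈ S.torusF t, ∀ y, S.termF Ψ l h σ δ (g • y) = S.termF Ψ l h σ δ y := by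
    rintro _ ⟨_, ⟨γ, hγ, rfl⟩, rfl⟩ y
    have hfix : galPGL σ (Classes.pIncl S (Matrix.ProjGenLinGroup.mk γ)) =
        Classes.pIncl S (Matrix.ProjGenLinGroup.mk γ) := by
      rw [Classes.pIncl, Classes.pMap_mk]
      exact congrArg Matrix.ProjGenLinGroup.mk (Matrix.GeneralLinearGroup.ext fun i j => hσ.2 _)
    have e : Matrix.ProjGenLinGroup.mk δ • galY σ (Classes.pIncl S (Matrix.ProjGenLinGroup.mk γ) • y) =
        Classes.pIncl S (Matrix.ProjGenLinGroup.mk γ) • Matrix.ProjGenLinGroup.mk δ • galY σ y := by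
      rw [galY_smul (S.levelIdeal_map σ), hfix, smul_smul, smul_smul, Classes.pIncl, Classes.pMap_mk,
        ← map_mul, ← map_mul, isDiag2_commute hδd (isDiag2_map _ (hs.diag_centralizer ⟨γ, hγ⟩))]
    rw [Setup.termF, Setup.termF, e, hk.invariant]
  have hTs : ∀ r y, S.termF Ψ l h σ δ (scaleY r y) = S.termF Ψ l h σ δ y := by
    rintro r ⟨x, c⟩
    rw [Setup.termF, Setup.termF, scaleY_apply, galY, galY, galX_scaleX, mk_smul, mk_smul, yKer, yKer,
      infAct_scaleX r hδd, prodKer_scaleX hh]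
  have hTm : Measurable (S.termF Ψ l h σ δ) := by
    unfold Setup.termF
    refine measurable_kernel_move hk ((measurable_ySmul hb _).comp ?_)
    rw [show (galY σ : YSpace (S.levelIdeal S.F) → _) = ⇑(galYEquiv (S.levelIdeal_map σ)) from
      funext fun y => (galYEquiv_apply _ y).symm]
    exact (galYEquiv (S.levelIdeal_map σ)).measurable
  have hta : S.inclKF a ≠ 1 := fun e => hs.ne_one (S.inclKF.injective (e.trans (map_one S.inclKF).symm))
  have htm : ((ι t : GL (Fin 2) S.F) : Matrix (Fin 2) (Fin 2) S.F) =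
      Matrix.diagonal ![S.inclKF a, 1] := by
    refine (congrArg S.inclKF.toRingHom.mapMatrix hs.mat).trans ?_
    ext i j
    fin_cases i <;> fin_cases j <;> simp
  have htr : ∀ y, S.termF Ψ l h σ δ y ≠ 0 → (y ∈ trunc (S.levelIdeal S.F) n ↔
      heightY 1 y ≤ n ∧ heightY (antiGL S.F) y ≤ n) := fun y hy =>
    mem_trunc_iff hta y fun α hα => by
      obtain ⟨ν, hν⟩ := hL y hy α (hn0.trans_lt hα)
      exact ⟨ν, eigen_row_diag htm hν⟩
  obtain ⟨hi, he⟩ := integral_split hb hH hV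
    ((S.measurable_phiZ ht).comp (S.qmp_zF ht hσ hw₁).measurable)
    (fun r y => by simp only [Function.comp_apply, hzs]; exact S.phiZ_scale ht r _ _)
    hφi hTm hTi hTs hn1 htr hint
  have hcardInf : Fintype.card (InfinitePlace S.F) = 3 := by
    rw [← Fintype.card_congr (Setup.placeEquiv hσ hw₁), Fintype.card_fin]
  rw [he, hcardInf]
  set G : H3 × S.TOrb t → ℂ := S.splitFn ht V
  have hGm : Measurable G := Complex.measurable_ofReal.comp
    (hVm.ennreal_toReal.mul (measurable_rhoR.comp (S.measurable_phiZ ht)))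
  set E : YSpace (S.levelIdeal S.F) → ℂ := fun y => S.termF Ψ l h σ δ y * G (S.zF ht w₁ y)
  have hO : S.orbK Ψ l ht = 0 := S.orbK_eq_zero Ψ l ht h0
  set A : XInf S.F → ℂ := fun x => prodKer h x (infAct δ (galX σ x))
  set B : Cosets (S.levelIdeal S.F) → ℂ := fun c =>
    finKer (S.levelOpF Ψ * heckeWord _ l) c (rationalMat δ • galCoset σ c)
  have hEe : ∀ y : YSpace (S.levelIdeal S.F), E y =
      A y.1 * B y.2 * G (ptEmb y.1 (S.phi0 w₁), S.orbitOfF ht y.2) := by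
    rintro ⟨x, c⟩
    show yKer _ _ _ (Matrix.ProjGenLinGroup.mk δ • galY σ _) * _ = _
    rw [galY, mk_smul]
    rfl
  have hfibEq : ∀ b : S.TOrb t, {c | S.orbitOfF ht c = b} =
      {c | ∀ v, (S.phiF ht v).toFun (S.coordF v c) = b.1 v} := fun b => by
    ext c; exact ⟨fun h v => congrFun (congrArg Subtype.val h) v, fun h => Subtype.ext (funext h)⟩
  have hp : ∀ (v : HeightOneSpectrum (𝓞 S.K)) (w : S.OverK v), ∀ g ∈ torusAt v t, ∀ x : S.XF v,
      (partCos w.1 ((g • x) w) : ℂ) = (partCos w.1 (x w) : ℂ) := fun v w g hg x => by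
    rw [XF_smul_apply, partCos_smul (isDiag2_map _ (hs.diag_torusAt hg))]
  set J : ℂ := ∑' b, ∫ P, S.slotKer σ w₁ h default P (Matrix.GeneralLinearGroup.map S.emb t • P) *
    G (P, b) ∂H3.vol
  have hslot : ∀ w : HeightOneSpectrum (𝓞 S.F),
      Integrable (fun y => E y * (partCos w (coordAt w y.2) : ℂ)) (yVol (S.levelIdeal S.F)) →
      ∫ y, E y * (partCos w (coordAt w y.2) : ℂ) ∂(yVol (S.levelIdeal S.F)) =
        if S.underK w = v₀ then S.orbMul Ψ l ht v₀ (fun q => (partCos v₀ q : ℂ)) * J else 0 := by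
    intro w hw
    have e : ∀ y : YSpace (S.levelIdeal S.F), E y * (partCos w (coordAt w y.2) : ℂ) =
        A y.1 * (B y.2 * (partCos w (coordAt w y.2) : ℂ)) *
          G (ptEmb y.1 (S.phi0 w₁), S.orbitOfF ht y.2) := fun y => by rw [hEe]; ring
    simp only [e] at hw ⊢
    by_cases hu : S.underK w = v₀
    · rw [if_pos hu]
      have hfib : ∀ b : S.TOrb t, ({c | S.orbitOfF ht c = b} ∩
          Function.support fun c => B c * (partCos w (coordAt w c) : ℂ)).Finite ∧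
          ∑ᶠ c ∈ {c | S.orbitOfF ht c = b}, B c * (partCos w (coordAt w c) : ℂ) =
            S.orbMul Ψ l ht v₀ (fun q => (partCos v₀ q : ℂ)) := fun b => by
        rw [hfibEq]
        obtain ⟨h1, h2⟩ := S.finsum_fibre_F_slot hσ Ψ hΨ l hl hn ⟨w, hu⟩ (hmov ⟨w, hu⟩)
          (fun q => (partCos w q : ℂ)) (hp v₀ ⟨w, hu⟩) b.1 b.2
        refine ⟨h1, h2.trans (congrArg (S.orbMul Ψ l ht v₀) (funext fun q => ?_))⟩
        exact congrArg Complex.ofReal (partCos_inclLCos ⟨w, hu⟩ (hmov ⟨w, hu⟩) hσ q)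
      have hF := integral_fibre (Measure.pi fun _ : InfinitePlace S.F => H3.vol)
        (fun x => ptEmb x (S.phi0 w₁)) (S.orbitOfF ht) _ A G _ hfib hw
      refine hF.2.trans ?_
      rcases eq_or_ne (S.orbMul Ψ l ht v₀ fun q => (partCos v₀ q : ℂ)) 0 with hz | hz
      · rw [hz, zero_mul, zero_mul]
      · congr 1
        exact tsum_congr fun b =>
          Setup.integral_infinity hσ hw₁ hh hn.norm (g := fun P => G (P, b)) (hF.1 hz b)
    · rw [if_neg hu]
      have hfib : ∀ b : S.TOrb t, ({c | S.orbitOfF ht c = b} ∩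
          Function.support fun c => B c * (partCos w (coordAt w c) : ℂ)).Finite ∧
          ∑ᶠ c ∈ {c | S.orbitOfF ht c = b}, B c * (partCos w (coordAt w c) : ℂ) = 0 := fun b => by
        rw [hfibEq]
        exact S.finsum_fibre_F_zero hσ Ψ hΨ l hl hn (Ne.symm hu) h0 ⟨w, rfl⟩
          (fun q => (partCos w q : ℂ)) (hp _ ⟨w, rfl⟩) b.1 b.2
      exact (integral_fibre (Measure.pi fun _ : InfinitePlace S.F => H3.vol)
        (fun x => ptEmb x (S.phi0 w₁)) (S.orbitOfF ht) _ A G 0 hfib hw).2.trans (zero_mul _)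
  obtain ⟨hqi, hparts⟩ := integral_parts hb
    (E := E) (hTm.mul (hGm.comp (S.qmp_zF ht hσ hw₁).measurable)) (Real.log_pos hn1) hi
    (S.finite_overK v₀).toFinset
    (fun hEi => by
      have := S.integral_termF hσ hw₁ Ψ hΨ l hl hh hn (G := G) hEi
      rwa [hO, zero_mul] at this)
    (fun u hu => by
      have e : ∀ y : YSpace (S.levelIdeal S.F), E y * (partInf (y.1 u) : ℂ) =
          (A y.1 * (partInf (y.1 u) : ℂ)) * B y.2 * G (ptEmb y.1 (S.phi0 w₁), S.orbitOfF ht y.2) :=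
        fun y => by rw [hEe]; ring
      simp only [e] at hu ⊢
      exact (integral_fibre (Measure.pi fun _ : InfinitePlace S.F => H3.vol)
        (fun x => ptEmb x (S.phi0 w₁)) (S.orbitOfF ht) B
        (fun x => A x * (partInf (x u) : ℂ)) G _
        (fun b => by
          rw [hfibEq, ← hO]
          exact S.finsum_fibre_F Ψ l hl hσ hΨ hn b.1 b.2) hu).2.trans (zero_mul _))
    (fun v hv hvi => by
      exact (hslot v hvi).trans (if_neg fun e => hv ((Set.Finite.mem_toFinset _).mpr e)))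
  refine (congrArg _ hparts).trans ?_
  rw [Finset.sum_congr rfl fun v hv =>
      (hslot v (hqi v)).trans (if_pos ((Set.Finite.mem_toFinset _).mp hv)),
    Finset.sum_const, hcard]
  show _ = S.orbMul Ψ l ht v₀ _ * J
  simp only [nsmul_eq_mul, Nat.cast_ofNat, one_div, Complex.ofReal_inv, Complex.ofReal_ofNat]
  field_simp

end FermatAgent.LT
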