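import Mathlib
import Fermat.Agent.LT.Descent.Geom.SplitSideF
import Fermat.Agent.LT.Descent.Geom.Elliptic
import Fermat.Agent.LT.Descent.Geom.NonNorm

set_option autoImplicit false

/-!
# The terms of one class on the truncated domains
-/

noncomputable section

open MeasureTheory NumberField IsDedekindDomain
open scoped MatrixGroups ENNReal

namespace FermatAgent.LT

open Weight Matrix

theorem integral_wMeas_toReal {G Z : Type*} [Group G] [MulAction G Z] [MeasurableSpace Z]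
    {μ : Measure Z} {H : Subgroup G} {v : Z → ℝ≥0∞} (hv : IsWeight H μ v) (f : Z → ℂ) :
    (Integrable f (wMeas μ v) ↔ Integrable (fun z => f z * ((v z).toReal : ℂ)) μ) ∧
      ∫ z, f z ∂(wMeas μ v) = ∫ z, f z * ((v z).toReal : ℂ) ∂μ := by
  have hfin : ∀ᵐ z ∂μ, v z < ⊤ := by
    filter_upwards [hv.sum_eq] with z hz
    have h1 := ENNReal.le_tsum (f := fun g : H => v ((g : G) • z)) 1
    rw [hz, OneMemClass.coe_one, one_smul] at h1
    exact h1.trans_lt ENNReal.one_lt_top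
  have e : (fun z => f z * ((v z).toReal : ℂ)) = fun z => (v z).toReal • f z :=
    funext fun z => by rw [Complex.real_smul, mul_comm]
  rw [e]
  exact ⟨integrable_withDensity_iff_integrable_smul' hv.measurable hfin,
    integral_withDensity_eq_integral_toReal_smul hv.measurable hfin f⟩

variable {S : Setup} {σ : S.F ≃+* S.F} {w₁ : InfinitePlace S.K → InfinitePlace S.F}
  {h : InfinitePlace S.F → H3 → H3 → ℂ} (Ψ : S.PsiData) (l : List (HeightOneSpectrum (𝓞 S.F)))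
  (hl : ∀ w ∈ l, ((3 * S.m : ℕ) : 𝓞 S.F) ∉ w.asIdeal)

/-- The bounds beyond which the truncations see only the fixed lines. -/
structure Setup.TermBounds (S : Setup) (σ : S.F ≃+* S.F) (w₁ : InfinitePlace S.K → InfinitePlace S.F)
    (h : InfinitePlace S.F → H3 → H3 → ℂ) (Ψ : S.PsiData)
    (l : List (HeightOneSpectrum (𝓞 S.F))) (L₀ : ℝ) : Prop where
  eigenF : ∀ (t : GL (Fin 2) S.K) (δ : GL (Fin 2) S.F), S.IsNormPair σ t δ →
    ∀ y, S.termF Ψ l h σ δ y ≠ 0 → ∀ α : GL (Fin 2) S.F, L₀ < heightY α y →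
      ∃ ν : S.F, (fun j => α 1 j : Fin 2 → S.F) ᵥ*
        ((Matrix.GeneralLinearGroup.map S.inclKF.toRingHom t : GL (Fin 2) S.F) :
          Matrix (Fin 2) (Fin 2) S.F) = ν • (fun j => α 1 j : Fin 2 → S.F)
  eigenK : ∀ (t : GL (Fin 2) S.K) (y : YSpace (S.levelIdeal S.K)),
    S.termK Ψ l h σ w₁ t y ≠ 0 → ∀ α : GL (Fin 2) S.K, L₀ < heightY α y →
      ∃ ν : S.K, (fun j => α 1 j : Fin 2 → S.K) ᵥ* (t : Matrix (Fin 2) (Fin 2) S.K) =
        ν • (fun j => α 1 j : Fin 2 → S.K)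
  truncF : ∀ (t : GL (Fin 2) S.K) (δ : GL (Fin 2) S.F), S.IsNormPair σ t δ →
    ¬ IsSquare ((t : Matrix (Fin 2) (Fin 2) S.K).trace ^ 2 -
      4 * (t : Matrix (Fin 2) (Fin 2) S.K).det) →
    ∀ y, S.termF Ψ l h σ δ y ≠ 0 → y ∈ trunc (S.levelIdeal S.F) L₀
  truncK : ∀ t : GL (Fin 2) S.K,
    ¬ IsSquare ((t : Matrix (Fin 2) (Fin 2) S.K).trace ^ 2 -
      4 * (t : Matrix (Fin 2) (Fin 2) S.K).det) →
    ∀ y, S.termK Ψ l h σ w₁ t y ≠ 0 → y ∈ trunc (S.levelIdeal S.K) L₀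

theorem Setup.exists_termBounds (hσ : S.IsGalGen σ) (hh : ∀ w, H3.IsInvKer (h w))
    (hhK : ∀ u, H3.IsInvKer (S.slotKer σ w₁ h u))
    (hTF : IsCosetOp (S.levelOpF Ψ * heckeWord (S.levelIdeal S.F) l))
    (hTK : IsCosetOp (S.levelOpK Ψ * (l.map S.bcOp).prod)) :
    ∃ L₀ : ℝ, 1 < L₀ ∧ S.TermBounds σ w₁ h Ψ l L₀ := by
  obtain ⟨a, ha⟩ := S.exists_eigen_F Ψ l hσ hh hTF
  obtain ⟨b, hb⟩ := S.exists_eigen_K (w₁ := w₁) Ψ l hhK hTK
  obtain ⟨c, hc⟩ := S.exists_trunc_F Ψ l hσ hh hTF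
  obtain ⟨d, hd⟩ := S.exists_trunc_K (w₁ := w₁) Ψ l hhK hTK
  refine ⟨max (max a b) (max (max c d) 2), ?_,
    fun t δ hn y hy α hα => ha t δ hn y hy α (lt_of_le_of_lt (by simp) hα),
    fun t y hy α hα => hb t y hy α (lt_of_le_of_lt (by simp) hα),
    fun t δ hn hns y hy => trunc_mono (by simp) (hc t δ hn hns y hy),
    fun t hns y hy => trunc_mono (by simp) (hd t hns y hy)⟩
  exact lt_max_of_lt_right (lt_max_of_lt_right one_lt_two)

variable {t : GL (Fin 2) S.K}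
  (ht : (t : Matrix (Fin 2) (Fin 2) S.K).trace ^ 2 ≠ 4 * (t : Matrix (Fin 2) (Fin 2) S.K).det)
  {V : H3 × S.TOrb t → ℝ≥0∞} (hVm : Measurable V)
  (hVK : IsWeight (S.torusK t) (yVol (S.levelIdeal S.K)) (V ∘ S.zK ht))

include hl hVK in
/-- An elliptic term of `K`. -/
theorem Setup.elliptic_K {L₀ n : ℝ} (hB : S.TermBounds σ w₁ h Ψ l L₀) (hn : L₀ ≤ n)
    (hns : ¬ IsSquare ((t : Matrix (Fin 2) (Fin 2) S.K).trace ^ 2 -
      4 * (t : Matrix (Fin 2) (Fin 2) S.K).det))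
    (hint : Integrable ((trunc (S.levelIdeal S.K) n).indicator (S.termK Ψ l h σ w₁ t))
      (wMeas (yVol (S.levelIdeal S.K)) (V ∘ S.zK ht))) :
    ∫ y, (trunc (S.levelIdeal S.K) n).indicator (S.termK Ψ l h σ w₁ t) y
        ∂(wMeas (yVol (S.levelIdeal S.K)) (V ∘ S.zK ht)) =
      S.orbK Ψ l ht *
        ∑' a, ∫ P, S.slotKer σ w₁ h default P (Matrix.GeneralLinearGroup.map S.emb t • P) *
          ((V (P, a)).toReal : ℂ) ∂H3.vol := by
  have e : (trunc (S.levelIdeal S.K) n).indicator (S.termK Ψ l h σ w₁ t) = S.termK Ψ l h σ w₁ t :=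
    Set.indicator_eq_self.mpr fun y hy => trunc_mono hn (hB.truncK t hns y hy)
  rw [e] at hint ⊢
  obtain ⟨h1, h2⟩ := integral_wMeas_toReal hVK (S.termK Ψ l h σ w₁ t)
  rw [h2]
  exact S.integral_termK Ψ l hl ht (G := fun z => ((V z).toReal : ℂ)) (h1.mp hint)

variable (hΨ : Ψ.Nontriv) (hσ : S.IsGalGen σ)
  (hw₁ : ∀ u, (w₁ u).comap S.inclKF.toRingHom = u)
  (hh : ∀ w, H3.IsInvKer (h w)) (hhK : ∀ u, H3.IsInvKer (S.slotKer σ w₁ h u))
  (hkK : IsYKernel (yKer (S.slotKer σ w₁ h) (S.levelOpK Ψ * (l.map S.bcOp).prod)))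
  (hsplit : IsSquare ((t : Matrix (Fin 2) (Fin 2) S.K).trace ^ 2 -
    4 * (t : Matrix (Fin 2) (Fin 2) S.K).det) → ∃ a, S.IsSplit t a)
  {L₀ n : ℝ} (hB : S.TermBounds σ w₁ h Ψ l L₀) (hn : L₀ ≤ n) (hn1 : 1 < n)

include hl hΨ hσ hw₁ hh hhK hkK hsplit hB hn hn1 hVm hVK in
/-- **The terms of a class which is a norm agree.** -/
theorem Setup.class_norm
    (hkF : IsYKernel (yKer h (S.levelOpF Ψ * heckeWord (S.levelIdeal S.F) l)))
    {δ : GL (Fin 2) S.F} (hp : S.IsNormPair σ t δ)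
    (hVF : IsWeight (S.torusF t) (yVol (S.levelIdeal S.F)) (V ∘ S.zF ht w₁))
    (hintF : Integrable ((trunc (S.levelIdeal S.F) n).indicator (S.termF Ψ l h σ δ))
      (wMeas (yVol (S.levelIdeal S.F)) (V ∘ S.zF ht w₁)))
    (hintK : Integrable ((trunc (S.levelIdeal S.K) n).indicator (S.termK Ψ l h σ w₁ t))
      (wMeas (yVol (S.levelIdeal S.K)) (V ∘ S.zK ht))) :
    ∫ y, (trunc (S.levelIdeal S.F) n).indicator (S.termF Ψ l h σ δ) y
        ∂(wMeas (yVol (S.levelIdeal S.F)) (V ∘ S.zF ht w₁)) =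
      ∫ y, (trunc (S.levelIdeal S.K) n).indicator (S.termK Ψ l h σ w₁ t) y
        ∂(wMeas (yVol (S.levelIdeal S.K)) (V ∘ S.zK ht)) := by
  by_cases hsq : IsSquare ((t : Matrix (Fin 2) (Fin 2) S.K).trace ^ 2 -
      4 * (t : Matrix (Fin 2) (Fin 2) S.K).det)
  · obtain ⟨a, hs⟩ := hsplit hsq
    obtain ⟨v₀, hv₀⟩ := Setup.exists_three_mem S.K
    have h0 := sum_bK_eq_zero_three ht Ψ hΨ l hl hv₀ hs.mat (S.isFundSet_phiK ht v₀)
    rw [S.split_F Ψ hΨ l hl hs hv₀ h0 hσ hw₁ hkF hh hp hVm hVF (hB.eigenF t δ hp) hn hn1 hintF,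
      S.split_K Ψ l hl hs h0 hkK hhK hVm hVK (hB.eigenK t) hn hn1 hintK]
  · rw [S.elliptic_K Ψ l hl ht hVK hB hn hsq hintK]
    have e : (trunc (S.levelIdeal S.F) n).indicator (S.termF Ψ l h σ δ) = S.termF Ψ l h σ δ :=
      Set.indicator_eq_self.mpr fun y hy => trunc_mono hn (hB.truncF t δ hp hsq y hy)
    rw [e] at hintF ⊢
    obtain ⟨h1, h2⟩ := integral_wMeas_toReal hVF (S.termF Ψ l h σ δ)
    rw [h2]
    exact S.integral_termF hσ hw₁ Ψ hΨ l hl hh hp (G := fun z => ((V z).toReal : ℂ)) (h1.mp hintF)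

include hl hΨ hσ hhK hkK hsplit hB hn hn1 hVm hVK in
/-- **The term of a class which is not a norm vanishes.** -/
theorem Setup.class_zero {w : HeightOneSpectrum (𝓞 S.F)}
    (hw : Ideal.absNorm w.asIdeal ≠ Ideal.absNorm (S.underK w).asIdeal)
    (hodd : Classes.OddVal (S.underK w) (Matrix.ProjGenLinGroup.mk t))
    (hno : ¬ ∃ δ : PGL(2, S.F),
      TF.nm (Classes.pGal σ) δ = Classes.pIncl S (Matrix.ProjGenLinGroup.mk t))
    (hintK : Integrable ((trunc (S.levelIdeal S.K) n).indicator (S.termK Ψ l h σ w₁ t))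
      (wMeas (yVol (S.levelIdeal S.K)) (V ∘ S.zK ht))) :
    ∫ y, (trunc (S.levelIdeal S.K) n).indicator (S.termK Ψ l h σ w₁ t) y
        ∂(wMeas (yVol (S.levelIdeal S.K)) (V ∘ S.zK ht)) = 0 := by
  obtain ⟨v₁, h3, h1⟩ := S.exists_place_of_not_norm Ψ l hl ht hσ hΨ hw hodd hno
  by_cases hsq : IsSquare ((t : Matrix (Fin 2) (Fin 2) S.K).trace ^ 2 -
      4 * (t : Matrix (Fin 2) (Fin 2) S.K).det)
  · obtain ⟨a, hs⟩ := hsplit hsq
    obtain ⟨v₀, hv₀⟩ := Setup.exists_three_mem S.K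
    have h0 := sum_bK_eq_zero_three ht Ψ hΨ l hl hv₀ hs.mat (S.isFundSet_phiK ht v₀)
    rw [S.split_K Ψ l hl hs h0 hkK hhK hVm hVK (hB.eigenK t) hn hn1 hintK, Setup.splitVal,
      S.orbMul_eq_zero Ψ l _ _ (fun e : v₁ = v₀ => h3 (e ▸ hv₀)) h1, zero_mul]
  · rw [S.elliptic_K Ψ l hl ht hVK hB hn hsq hintK, S.orbK_eq_zero Ψ l ht h1, zero_mul]

end FermatAgent.LT
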