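import Mathlib
import Fermat.Agent.LT.Descent.Geom.SplitInt
import Fermat.Agent.LT.Descent.Classes.Norm

set_option autoImplicit false

/-!
# Normalised representatives of the classes

A split class is represented by `diag (a, 1)`; the representative of a class which is a norm is
the norm of a lift on the nose.
-/

noncomputable section

open NumberField IsDedekindDomain
open scoped MatrixGroups

namespace FermatAgent.LT

open Classes TF Matrix

variable {S : Setup} {σ : S.F ≃+* S.F}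

theorem Setup.exists_scalar_norm (hσ : S.IsGalGen σ) {g : GL (Fin 2) S.K} {d : GL (Fin 2) S.F}
    (h : nm (pGal σ) (ProjGenLinGroup.mk d) = pIncl S (ProjGenLinGroup.mk g)) :
    ∃ μ : S.K, μ ≠ 0 ∧ d * gIncl S g = gIncl S g * d ∧
      (gNm σ d : Matrix (Fin 2) (Fin 2) S.F) =
        S.inclKF μ • (gIncl S g : Matrix (Fin 2) (Fin 2) S.F) := by
  rw [nm_mk, pIncl_mk, eq_comm, mk_eq_mk_iff_smul] at h
  obtain ⟨l, hl⟩ := h
  set N := gNm σ d with hN
  set G := gIncl S g with hG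
  have hl0 : l ≠ 0 := fun e => N.ne_zero (by rw [← hl, e, zero_smul])
  have hGfix : gGal σ G = G := gGal_gIncl hσ g
  have hgal : (gGal σ N : Matrix (Fin 2) (Fin 2) S.F) = σ l • (G : Matrix (Fin 2) (Fin 2) S.F) := by
    conv_rhs => rw [← hGfix]
    rw [coe_gGal, coe_gGal, ← hl]
    ext i j
    simp
  have hcomm : σ l • ((d : Matrix (Fin 2) (Fin 2) S.F) * G) =
      l • ((G : Matrix (Fin 2) (Fin 2) S.F) * d) := by
    have e := congrArg (Units.val) (gGal_gNm hσ d)
    rw [Units.val_mul, Units.val_mul, ← hN, hgal, ← hl, mul_smul_comm, smul_mul_assoc] at e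
    exact e
  have hfix : σ l = l := by
    refine gal_eq_of_sq hσ ?_
    have e := congrArg Matrix.det hcomm
    rw [Matrix.det_smul, Matrix.det_smul, Fintype.card_fin, Matrix.det_mul, Matrix.det_mul] at e
    exact mul_right_cancel₀ (mul_ne_zero G.det_ne_zero d.det_ne_zero)
      (by rw [← mul_comm (d : Matrix (Fin 2) (Fin 2) S.F).det]; linear_combination e)
  obtain ⟨μ, rfl⟩ := exists_inclKF_eq hσ hfix
  refine ⟨μ, fun e => hl0 (by rw [e, map_zero]), Units.ext ?_, hl.symm⟩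
  rw [hfix] at hcomm
  rw [Units.val_mul, Units.val_mul]
  exact smul_right_injective _ hl0 hcomm

theorem gNm_mul_scalar (d : GL (Fin 2) S.F) (u : S.Fˣ) :
    (gNm σ (d * GeneralLinearGroup.scalar (Fin 2) u) : Matrix (Fin 2) (Fin 2) S.F) =
      ((u : S.F) * σ u * σ (σ u)) • (gNm σ d : Matrix (Fin 2) (Fin 2) S.F) := by
  have e1 : ∀ (M : GL (Fin 2) S.F) (c : S.F) (X : GL (Fin 2) S.F),
      (X : Matrix (Fin 2) (Fin 2) S.F) = c • (M : Matrix (Fin 2) (Fin 2) S.F) →
      (gGal σ X : Matrix (Fin 2) (Fin 2) S.F) = σ c • (gGal σ M : Matrix (Fin 2) (Fin 2) S.F) := by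
    intro M c X hX
    rw [coe_gGal, coe_gGal, hX]
    ext i j
    simp
  have hd := coe_mul_scalar d u
  have hs := e1 _ _ _ hd
  have hs2 := e1 _ _ _ hs
  simp only [gNm, Units.val_mul] at hd hs hs2 ⊢
  rw [hd, hs, hs2]
  simp only [smul_mul_assoc, mul_smul_comm, smul_smul]
  congr 1
  ring

theorem isDiag2_gNm_apply {d : GL (Fin 2) S.F} (hd : IsDiag2 d) :
    (gNm σ d : Matrix (Fin 2) (Fin 2) S.F) 1 1 = d 1 1 * σ (d 1 1) * σ (σ (d 1 1)) := by
  simp [gNm, Matrix.mul_apply, Fin.sum_univ_two, hd.1, hd.2]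

/-- **Normalised representatives.** -/
theorem Setup.exists_normal_rep (hσ : S.IsGalGen σ) {t : PGL(2, S.K)} (ht : IsReg t)
    (δ : PGL(2, S.F)) :
    ∃ (h : PGL(2, S.K)) (g : GL (Fin 2) S.K), ProjGenLinGroup.mk g = h⁻¹ * t * h ∧
      (g : Matrix (Fin 2) (Fin 2) S.K).trace ^ 2 ≠ 4 * (g : Matrix (Fin 2) (Fin 2) S.K).det ∧
      (IsSquare ((g : Matrix (Fin 2) (Fin 2) S.K).trace ^ 2 -
          4 * (g : Matrix (Fin 2) (Fin 2) S.K).det) → ∃ a, S.IsSplit g a) ∧
      (nm (pGal σ) δ = pIncl S t → ∃ d : GL (Fin 2) S.F, S.IsNormPair σ g d ∧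
        ProjGenLinGroup.mk d = (pIncl S h)⁻¹ * δ * pGal σ (pIncl S h)) := by
  classical
  induction t using ProjGenLinGroup.induction_on with | mk g₀ =>
  set T := (g₀ : Matrix (Fin 2) (Fin 2) S.K).trace with hT
  set D := (g₀ : Matrix (Fin 2) (Fin 2) S.K).det with hD
  have hreg : T ^ 2 ≠ 4 * D := isReg_mk.mp ht
  have hnm : ∀ h : PGL(2, S.K), nm (pGal σ) δ = pIncl S (ProjGenLinGroup.mk g₀) →
      nm (pGal σ) ((pIncl S h)⁻¹ * δ * pGal σ (pIncl S h)) =
        pIncl S (h⁻¹ * ProjGenLinGroup.mk g₀ * h) := fun h e => by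
    rw [nm_conj (pGal_three hσ), e, map_mul, map_mul, map_inv]
  by_cases hsq : IsSquare (T ^ 2 - 4 * D)
  · obtain ⟨s, hs⟩ := hsq
    have hs0 : s ≠ 0 := fun e => hreg (by rw [e, mul_zero] at hs; exact sub_eq_zero.mp hs)
    set e₁ := (T + s) / 2
    set e₂ := (T - s) / 2
    have hmul : e₁ * e₂ = D := by
      simp only [e₁, e₂]
      field_simp
      linear_combination hs
    have hadd : e₁ + e₂ = T := by simp only [e₁, e₂]; ring
    have hD0 : e₁ * e₂ ≠ 0 := hmul.trans_ne g₀.det_ne_zero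
    have he₁ : e₁ ≠ 0 := left_ne_zero_of_mul hD0
    have he₂ : e₂ ≠ 0 := right_ne_zero_of_mul hD0
    set a := e₁ / e₂
    set G : GL (Fin 2) S.K := GeneralLinearGroup.mkOfDetNeZero (Matrix.diagonal ![a, 1]) (by
      simp [a, he₁, he₂])
    set E : GL (Fin 2) S.K := G * GeneralLinearGroup.scalar (Fin 2) (Units.mk0 e₂ he₂)
    have hG : (G : Matrix (Fin 2) (Fin 2) S.K) = Matrix.diagonal ![a, 1] := rfl
    have hE : (E : Matrix (Fin 2) (Fin 2) S.K) = Matrix.diagonal ![e₁, e₂] := by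
      rw [coe_mul_scalar, hG, ← Matrix.diagonal_smul]
      congr 1
      funext i
      fin_cases i
      · exact mul_div_cancel₀ e₁ he₂
      · exact mul_one e₂
    have hEt : (E : Matrix (Fin 2) (Fin 2) S.K).trace = T := by
      rw [hE, Matrix.trace_fin_two]; simpa using hadd
    have hEd : (E : Matrix (Fin 2) (Fin 2) S.K).det = D := by
      rw [hE, Matrix.det_diagonal, Fin.prod_univ_two]; simpa using hmul
    obtain ⟨P, hP⟩ := exists_conj_of_trace_det (nonScalar_of_isReg ht)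
      (nonScalar_of_disc (by rw [hEt, hEd]; exact hreg)) hEt.symm hEd.symm
    set h : PGL(2, S.K) := (ProjGenLinGroup.mk P)⁻¹
    have hmk : ProjGenLinGroup.mk G = h⁻¹ * ProjGenLinGroup.mk g₀ * h := by
      simp only [h, inv_inv]
      rw [← map_inv, ← map_mul, ← map_mul, hP, mk_eq_mk_iff_smul]
      exact ⟨e₂, (coe_mul_scalar G (Units.mk0 e₂ he₂)).symm⟩
    have hGreg : (G : Matrix (Fin 2) (Fin 2) S.K).trace ^ 2 ≠
        4 * (G : Matrix (Fin 2) (Fin 2) S.K).det := by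
      refine isReg_mk.mp ?_
      have : ProjGenLinGroup.mk G = ProjGenLinGroup.mk E :=
        mk_eq_mk_iff_smul.mpr ⟨e₂, (coe_mul_scalar G (Units.mk0 e₂ he₂)).symm⟩
      rw [this, isReg_mk, hEt, hEd]
      exact hreg
    refine ⟨h, G, hmk, hGreg, fun _ => ⟨a, hG, hGreg⟩, fun hn => ?_⟩
    obtain ⟨d, hd⟩ := ProjGenLinGroup.mk_surjective ((pIncl S h)⁻¹ * δ * pGal σ (pIncl S h))
    have hn' := hnm h hn
    rw [← hd, ← hmk] at hn'
    obtain ⟨μ, hμ, hcomm, hN⟩ := S.exists_scalar_norm hσ hn'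
    have ha1 : S.inclKF a ≠ 1 := fun e =>
      Setup.IsSplit.ne_one ⟨hG, hGreg⟩ (S.inclKF.injective (e.trans (map_one S.inclKF).symm))
    have hGF : (gIncl S G : Matrix (Fin 2) (Fin 2) S.F) = Matrix.diagonal ![S.inclKF a, 1] := by
      rw [coe_gIncl, hG]
      ext i j
      fin_cases i <;> fin_cases j <;> simp
    have hdd : IsDiag2 d := isDiag2_of_commute ha1 hGF hcomm
    have h11 := isDiag2_gNm_apply (σ := σ) hdd
    rw [hN, hGF] at h11
    simp only [Matrix.smul_apply, Matrix.diagonal_apply_eq, Matrix.cons_val_one,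
      Matrix.cons_val_zero, smul_eq_mul, mul_one] at h11
    have hd11 : d 1 1 ≠ 0 := hdd.ne_zero.2
    refine ⟨d * GeneralLinearGroup.scalar (Fin 2) (Units.mk0 _ hd11)⁻¹, ⟨hGreg, ?_⟩, ?_⟩
    · refine Units.ext ((gNm_mul_scalar d _).trans ?_)
      rw [hN, smul_smul, h11]
      simp only [Units.val_inv_eq_inv_val, Units.val_mk0, map_inv₀]
      rw [← mul_inv, ← mul_inv, inv_mul_cancel₀ (by simp [hd11]), one_smul]
    · rw [← hd, mk_eq_mk_iff_smul]
      exact ⟨d 1 1, by rw [coe_mul_scalar, smul_smul, Units.val_inv_eq_inv_val, Units.val_mk0,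
        mul_inv_cancel₀ hd11, one_smul]⟩
  · by_cases hn : nm (pGal σ) δ = pIncl S (ProjGenLinGroup.mk g₀)
    swap
    · exact ⟨1, g₀, by rw [inv_one, one_mul, mul_one], hreg, fun h => absurd h hsq,
        fun h => absurd h hn⟩
    obtain ⟨d, hd⟩ := ProjGenLinGroup.mk_surjective δ
    rw [← hd] at hn
    obtain ⟨μ, hμ, -, hN⟩ := S.exists_scalar_norm hσ hn
    set G := g₀ * GeneralLinearGroup.scalar (Fin 2) (Units.mk0 μ hμ)
    have hG : (G : Matrix (Fin 2) (Fin 2) S.K) = μ • (g₀ : Matrix (Fin 2) (Fin 2) S.K) :=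
      coe_mul_scalar _ _
    have hGreg : (G : Matrix (Fin 2) (Fin 2) S.K).trace ^ 2 ≠
        4 * (G : Matrix (Fin 2) (Fin 2) S.K).det := by
      rw [hG, Matrix.trace_smul, Matrix.det_smul, Fintype.card_fin, smul_eq_mul]
      intro e
      exact hreg (mul_left_cancel₀ (pow_ne_zero 2 hμ) (by linear_combination e))
    refine ⟨1, G, ?_, hGreg, fun ⟨r, hr⟩ => absurd ⟨r / μ, ?_⟩ hsq, fun _ => ⟨d, ⟨hGreg, ?_⟩, ?_⟩⟩
    · rw [inv_one, one_mul, mul_one, eq_comm, mk_eq_mk_iff_smul]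
      exact ⟨μ, hG.symm⟩
    · rw [hG, Matrix.trace_smul, Matrix.det_smul, Fintype.card_fin, smul_eq_mul] at hr
      field_simp
      linear_combination hr
    · refine Units.ext (hN.trans ?_)
      show _ = (gIncl S G : Matrix (Fin 2) (Fin 2) S.F)
      rw [coe_gIncl, coe_gIncl, hG]
      refine Matrix.ext fun i j => ?_
      exact (map_mul S.inclKF μ _).symm
    · rw [hd, map_one, map_one, inv_one, one_mul, mul_one]

end FermatAgent.LT
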