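import Mathlib
import Fermat.Agent.LT.Descent.Geom.OrbitSum
import Fermat.Agent.LT.Descent.Geom.Cusp
import Fermat.Agent.LT.Descent.Classes.Defs
import Fermat.Agent.LT.Descent.Classes.Galois
import Fermat.Agent.LT.Descent.Geom.Local.Spherical
import Fermat.Agent.LT.Descent.Geom.Local.Places

set_option autoImplicit false

/-!
# An odd word leaves only the elements of odd valuation
-/

noncomputable section

open NumberField IsDedekindDomain WithZero Filter
open scoped MatrixGroups

namespace FermatAgent.LT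

open Inert (heckeStep bcStep unitFun depth)

namespace Inert

theorem heckeStep_parity {q : ℂ} {f : ℕ → ℂ} {p : ℕ} (hf : ∀ d, f d ≠ 0 → (d + p) % 2 = 0) {d : ℕ}
    (hd : heckeStep q f d ≠ 0) : (d + (p + 1)) % 2 = 0 := by
  rcases d with _ | k
  · have := hf 1 (right_ne_zero_of_mul hd)
    omega
  · by_contra h
    refine hd ?_
    have h1 : f k = 0 := by_contra fun h' => by have := hf k h'; omega
    have h2 : f (k + 2) = 0 := by_contra fun h' => by have := hf (k + 2) h'; omega
    simp [heckeStep, h1, h2]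

theorem heckeStep_iterate_parity (q : ℂ) : ∀ (n : ℕ) {d : ℕ},
    (heckeStep q)^[n] unitFun d ≠ 0 → (d + n) % 2 = 0
  | 0, d, h => by
    have : d = 0 := by_contra fun hd => h (by simp [unitFun, hd])
    omega
  | n + 1, d, h => by
    rw [Function.iterate_succ_apply'] at h
    exact heckeStep_parity (fun d => heckeStep_iterate_parity q n) h

theorem bcStep_parity {q : ℂ} {f : ℕ → ℂ} {p : ℕ} (hf : ∀ d, f d ≠ 0 → (d + p) % 2 = 0) {d : ℕ}
    (hd : bcStep q f d ≠ 0) : (d + (p + 1)) % 2 = 0 := by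
  by_contra h
  refine hd ?_
  have h1 : ∀ d, heckeStep q f d ≠ 0 → (d + (p + 1)) % 2 = 0 := fun d => heckeStep_parity hf
  have h2 : ∀ d, heckeStep q (heckeStep q f) d ≠ 0 → (d + (p + 1 + 1)) % 2 = 0 :=
    fun d => heckeStep_parity h1
  have e1 : heckeStep q f d = 0 := by_contra fun h' => h (h1 d h')
  have e3 : heckeStep q (heckeStep q (heckeStep q f)) d = 0 :=
    by_contra fun h' => by have := heckeStep_parity h2 h'; omega
  simp [bcStep, e1, e3]

theorem bcStep_iterate_parity (q : ℂ) : ∀ (n : ℕ) {d : ℕ},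
    (bcStep q)^[n] unitFun d ≠ 0 → (d + n) % 2 = 0
  | 0, d, h => by
    have : d = 0 := by_contra fun hd => h (by simp [unitFun, hd])
    omega
  | n + 1, d, h => by
    rw [Function.iterate_succ_apply'] at h
    exact bcStep_parity (fun d => bcStep_iterate_parity q n) h

end Inert

section Local

variable {L : Type*} [Field L] [NumberField L] {v : HeightOneSpectrum (𝓞 L)}

theorem even_log_det_add_depth (g : GLv v) :
    Even (log (Valued.v (g : Matrix (Fin 2) (Fin 2) (v.adicCompletion L)).det) +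
      (depth (v.adicCompletionIntegers L) g : ℤ)) := by
  have hπ := irreducible_piInt v
  obtain ⟨d, hd⟩ := Inert.exists_hasDepth (O := v.adicCompletionIntegers L) hπ g
  rw [Inert.depth_eq hd]
  obtain ⟨c, hc, A, -, hcA, hdA⟩ := hd
  have hdet : c ^ 2 * (g : Matrix (Fin 2) (Fin 2) (v.adicCompletion L)).det =
      ((A.det : v.adicCompletionIntegers L) : v.adicCompletion L) := by
    have h := congrArg Matrix.det hcA
    rw [Matrix.det_smul, Fintype.card_fin] at h
    rw [h]
    exact (RingHom.map_det (algebraMap (v.adicCompletionIntegers L) (v.adicCompletion L)) A).symm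
  have hA0 : A.det ≠ 0 := fun h0 => mul_ne_zero (pow_ne_zero 2 hc) g.det_ne_zero
    (by rw [hdet, h0]; rfl)
  obtain ⟨n, u, hu⟩ := IsDiscreteValuationRing.eq_unit_mul_pow_irreducible hA0 hπ
  rw [IsDiscreteValuationRing.addVal_def A.det u hπ n hu] at hdA
  obtain rfl : n = d := by exact_mod_cast hdA
  have hu1 : Valued.v (((u : v.adicCompletionIntegers L)) : v.adicCompletion L) = 1 :=
    HeightOneSpectrum.adicCompletionIntegers.isUnit_iff_valued_eq_one.mp u.isUnit
  have hval := congrArg Valued.v hdet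
  rw [hu, map_mul, map_pow] at hval
  push_cast at hval
  rw [map_mul, map_pow, hu1, one_mul, piInt, valued_piLoc] at hval
  have hc0 : Valued.v c ≠ 0 := (_root_.map_ne_zero _).mpr hc
  have hg0 : Valued.v (g : Matrix (Fin 2) (Fin 2) (v.adicCompletion L)).det ≠ 0 :=
    (_root_.map_ne_zero _).mpr g.det_ne_zero
  have hlog := congrArg log hval
  rw [log_mul (pow_ne_zero 2 hc0) hg0, log_pow, log_pow, log_exp, nsmul_eq_mul, nsmul_eq_mul] at hlog
  refine ⟨-log (Valued.v c), ?_⟩
  push_cast at hlog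
  omega

theorem isSquare_even_log {x : ℤᵐ⁰} (hx : x ≠ 0) (h : IsSquare x) : Even (log x) := by
  obtain ⟨y, rfl⟩ := h
  exact ⟨log y, log_mul (left_ne_zero_of_mul hx) (left_ne_zero_of_mul hx)⟩

/-- An odd value of the distance forces an odd valuation. -/
theorem not_isSquare_of_dist {γ : GL (Fin 2) L} {a b : GLv v} {n : ℕ}
    (hab : Valued.v (a : Matrix (Fin 2) (Fin 2) (v.adicCompletion L)).det =
      Valued.v (b : Matrix (Fin 2) (Fin 2) (v.adicCompletion L)).det)
    (hn : Odd n) (hd : (depth (v.adicCompletionIntegers L) (a⁻¹ * (locMat v γ * b)) + n) % 2 = 0) :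
    ¬ IsSquare (v.valuation L (γ : Matrix (Fin 2) (Fin 2) L).det) := fun hsq => by
  obtain ⟨k, hk⟩ := even_log_det_add_depth (a⁻¹ * (locMat v γ * b))
  have hγ : ((locMat v γ : GLv v) : Matrix (Fin 2) (Fin 2) (v.adicCompletion L)).det =
      loc v (γ : Matrix (Fin 2) (Fin 2) L).det := (RingHom.map_det (loc v) _).symm
  have ha : Valued.v (a : Matrix (Fin 2) (Fin 2) (v.adicCompletion L)).det ≠ 0 :=
    (_root_.map_ne_zero _).mpr a.det_ne_zero
  have e : Valued.v ((a⁻¹ * (locMat v γ * b) : GLv v) :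
      Matrix (Fin 2) (Fin 2) (v.adicCompletion L)).det =
      v.valuation L (γ : Matrix (Fin 2) (Fin 2) L).det := by
    rw [Units.val_mul, Units.val_mul, Matrix.det_mul, Matrix.det_mul, Matrix.coe_units_inv,
      Matrix.det_nonsing_inv, Ring.inverse_eq_inv', map_mul, map_mul, map_inv₀, hγ, valued_loc,
      ← hab, mul_comm (v.valuation L _), inv_mul_cancel_left₀ ha]
  rw [e] at hk
  obtain ⟨j, hj⟩ := isSquare_even_log ((_root_.map_ne_zero _).mpr γ.det_ne_zero) hsq
  obtain ⟨i, rfl⟩ := hn
  omega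

end Local

variable {S : Setup} {σ : S.F ≃+* S.F} (Ψ : S.PsiData) (l : List (HeightOneSpectrum (𝓞 S.F)))
  (hl : ∀ w ∈ l, ((3 * S.m : ℕ) : 𝓞 S.F) ∉ w.asIdeal)
  {h : InfinitePlace S.F → H3 → H3 → ℂ} {w₁ : InfinitePlace S.K → InfinitePlace S.F}

include hl in
theorem Setup.oddVal_of_kerF (hσ : S.IsGalGen σ) {w : HeightOneSpectrum (𝓞 S.F)}
    (hw : Ideal.absNorm w.asIdeal ≠ Ideal.absNorm (S.underK w).asIdeal)
    (hodd : letI := Classical.decEq (HeightOneSpectrum (𝓞 S.F)); Odd (l.count w))
    {γ : PGL(2, S.F)} {y : YSpace (S.levelIdeal S.F)}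
    (hne : yKer h (S.levelOpF Ψ * heckeWord (S.levelIdeal S.F) l) y (γ • galY σ y) ≠ 0) :
    Classes.OddVal w γ := by
  classical
  obtain ⟨g, rfl⟩ := Matrix.ProjGenLinGroup.mk_surjective γ
  rw [Classes.oddVal_mk]
  have hwl : w ∈ l := List.count_pos_iff.mp hodd.pos
  have hgood := hl w hwl
  replace hne : finKer (S.levelOpF Ψ * heckeWord (S.levelIdeal S.F) l) y.2
      (rationalMat g • galCoset σ y.2) ≠ 0 := by
    rw [mk_smul] at hne
    exact right_ne_zero_of_mul hne
  rw [S.finKer_levelOpF Ψ l hl] at hne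
  have hfin : (Function.mulSupport fun u => lKer (S.opF Ψ l u) (coordAt u y.2)
      (coordAt u (rationalMat g • galCoset σ y.2))).Finite := by
    refine eventually_cofinite.mp (?_ : ∀ᶠ u in cofinite, lKer (S.opF Ψ l u) (coordAt u y.2)
      (coordAt u (rationalMat g • galCoset σ y.2)) = 1)
    filter_upwards [S.eventually_opF Ψ l,
      eventually_coordAt_eq_base (S.levelIdeal_ne_bot S.F) y.2,
      eventually_coordAt_eq_base (S.levelIdeal_ne_bot S.F) (rationalMat g • galCoset σ y.2)]
      with u h1 h2 h3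
    rw [h1, h2, h3, lKer_one, if_pos rfl]
  have hfac : lKer (S.opF Ψ l w) (coordAt w y.2)
      (coordAt w (rationalMat g • galCoset σ y.2)) ≠ 0 :=
    fun h0 => hne (finprod_eq_zero _ w h0 hfin)
  rw [Setup.opF, locLevelOp,
    if_neg (fun hb => hgood ((S.mem_badPlaces_iff S.F w).mp hb)), one_mul,
    lKer_locHecke_pow (S.not_levelIdeal_le hgood), coordAt_smul, compAt_rationalMat, galCoset,
    coordAt_mk] at hfac
  have hq : coordAt w y.2 = ((compAt w y.2.out : GLv w) : LCos (S.levelIdeal S.F) w) := by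
    conv_lhs => rw [← QuotientGroup.out_eq' y.2]
    rfl
  rw [hq] at hfac
  rw [MulAction.Quotient.smul_coe, smul_eq_mul, cosDist_mk (S.not_levelIdeal_le hgood)] at hfac
  refine not_isSquare_of_dist ?_ hodd (Inert.heckeStep_iterate_parity _ _ hfac)
  have hd : ((compAt w (galGAf σ y.2.out) : GLv w) :
      Matrix (Fin 2) (Fin 2) (w.adicCompletion S.F)).det = galLoc σ w
        ((compAt (galPlace σ w) y.2.out : GLv (galPlace σ w)) :
          Matrix (Fin 2) (Fin 2) ((galPlace σ w).adicCompletion S.F)).det := by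
    rw [compAt_galGAf]; exact (RingHom.map_det _ _).symm
  have key : ∀ p, p = w → Valued.v ((compAt p y.2.out : GLv p) :
      Matrix (Fin 2) (Fin 2) (p.adicCompletion S.F)).det = Valued.v ((compAt w y.2.out : GLv w) :
      Matrix (Fin 2) (Fin 2) (w.adicCompletion S.F)).det := by
    rintro p rfl; rfl
  rw [hd, CO.valued_galLoc, key _ (Classes.inert_gal_eq hσ hw).1]

include hl in
theorem Setup.oddVal_of_kerK (hσ : S.IsGalGen σ) {w : HeightOneSpectrum (𝓞 S.F)}
    (hw : Ideal.absNorm w.asIdeal ≠ Ideal.absNorm (S.underK w).asIdeal)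
    (hodd : letI := Classical.decEq (HeightOneSpectrum (𝓞 S.F)); Odd (l.count w))
    {γ : PGL(2, S.K)} {y : YSpace (S.levelIdeal S.K)}
    (hne : yKer (S.slotKer σ w₁ h) (S.levelOpK Ψ * (l.map S.bcOp).prod) y (γ • y) ≠ 0) :
    Classes.OddVal (S.underK w) γ := by
  classical
  obtain ⟨g, rfl⟩ := Matrix.ProjGenLinGroup.mk_surjective γ
  rw [Classes.oddVal_mk]
  set v := S.underK w
  have hwl : w ∈ l := List.count_pos_iff.mp hodd.pos
  have hv := S.not_levelIdeal_underK (hl w hwl)
  replace hne : finKer (S.levelOpK Ψ * (l.map S.bcOp).prod) y.2 (rationalMat g • y.2) ≠ 0 := by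
    rw [mk_smul] at hne
    exact right_ne_zero_of_mul hne
  rw [S.finKer_levelOpK Ψ l hl] at hne
  have hfin : (Function.mulSupport fun u => lKer (S.opK Ψ l u) (coordAt u y.2)
      (coordAt u (rationalMat g • y.2))).Finite := by
    refine eventually_cofinite.mp (?_ : ∀ᶠ u in cofinite, lKer (S.opK Ψ l u) (coordAt u y.2)
      (coordAt u (rationalMat g • y.2)) = 1)
    filter_upwards [S.eventually_opK Ψ l,
      eventually_coordAt_eq_base (S.levelIdeal_ne_bot S.K) y.2,
      eventually_coordAt_eq_base (S.levelIdeal_ne_bot S.K) (rationalMat g • y.2)] with u h1 h2 h3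
    rw [h1, h2, h3, lKer_one, if_pos rfl]
  have hfac : lKer (S.opK Ψ l v) (coordAt v y.2) (coordAt v (rationalMat g • y.2)) ≠ 0 :=
    fun h0 => hne (finprod_eq_zero _ v h0 hfin)
  have hop : S.opK Ψ l v = (locHecke (S.levelIdeal S.K) v ^ 3 -
      (3 * Ideal.absNorm v.asIdeal : ℂ) • locHecke (S.levelIdeal S.K) v) ^ l.count w := by
    have hiff : ∀ u, S.underK u = v ↔ u = w :=
      fun u => ⟨fun e => eq_of_galPlace_fixed hσ (Classes.inert_gal_eq hσ hw).1 e, fun e => e ▸ rfl⟩
    rw [Setup.opK, locLevelOp,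
      if_neg (fun hb => hv ((S.mem_badPlaces_iff S.K v).mp hb)), one_mul,
      show (l.filter fun u => decide (S.underK u = v)) = List.replicate (l.count w) w from ?_,
      List.map_replicate, List.prod_replicate, Setup.locBC, if_neg hw]
    rw [← List.filter_eq]
    exact List.filter_congr fun u _ => by simp only [decide_eq_decide]; exact hiff u
  rw [hop, lKer_bc_pow (S.not_levelIdeal_le hv), coordAt_smul, compAt_rationalMat] at hfac
  rw [← QuotientGroup.out_eq' y.2, coordAt_mk, MulAction.Quotient.smul_coe, smul_eq_mul,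
    cosDist_mk (S.not_levelIdeal_le hv)] at hfac
  exact not_isSquare_of_dist rfl hodd (Inert.bcStep_iterate_parity _ _ hfac)

end FermatAgent.LT
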