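import Mathlib
import Fermat.Agent.LT.Descent.Geom.ClassSum
import Fermat.Agent.LT.Descent.Geom.ClassTerms
import Fermat.Agent.LT.Descent.Geom.Normalise
import Fermat.Agent.LT.Descent.Geom.Parity
import Fermat.Agent.LT.Descent.Classes.Decomp

set_option autoImplicit false

/-!
# The geometric identity

Class by class the truncated twisted terms of `F` are the truncated terms of `K`; the classes of
`K` which are not norms contribute nothing, and the truncations exhaust both sides.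
-/

noncomputable section

open MeasureTheory NumberField IsDedekindDomain Filter
open scoped MatrixGroups ENNReal Topology

namespace FermatAgent.LT

open Classes Weight Matrix

section Generalities

variable {L : Type*} [Field L] [NumberField L] {𝔫 : Ideal (𝓞 L)}

theorem kerSum_smul {k : YSpace 𝔫 → YSpace 𝔫 → ℂ} (hk : IsYKernel k)
    {τ₀ : YSpace 𝔫 → YSpace 𝔫} {c : PGL(2, L) → PGL(2, L)}
    (hτ : ∀ g y, τ₀ (g • y) = c g • τ₀ y) (η : PGL(2, L)) (y : YSpace 𝔫) :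
    kerSum k (η • y) (τ₀ (η • y)) = kerSum k y (τ₀ y) := by
  rw [kerSum, kerSum, ← ((Equiv.mulLeft η).trans (Equiv.mulRight (c η)⁻¹)).tsum_eq
    fun γ => k (η • y) (γ • τ₀ (η • y))]
  refine tsum_congr fun γ => ?_
  simp only [Equiv.trans_apply, Equiv.coe_mulLeft, Equiv.coe_mulRight, hτ, smul_smul,
    inv_mul_cancel_right]
  rw [mul_smul, hk.invariant]

/-- The truncated integrals exhaust the integral. -/
theorem exists_trunc_limit [IsTotallyComplex L] (h𝔫 : 𝔫 ≠ ⊥) {k : YSpace 𝔫 → YSpace 𝔫 → ℂ}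
    (hk : IsYKernel k) {τ₀ : YSpace 𝔫 → YSpace 𝔫} (hm : Measurable τ₀)
    {c : PGL(2, L) → PGL(2, L)} (hτ : ∀ g y, τ₀ (g • y) = c g • τ₀ y)
    (hb : ∃ C : ℝ, ∀ y y', ‖kerSum k y y'‖ ≤ C) {𝔉 : Set (YSpace 𝔫)}
    (hF : IsFundamentalDomain PGL(2, L) 𝔉 (yVol 𝔫)) :
    ∃ 𝔉₀ : Set (YSpace 𝔫), MeasurableSet 𝔉₀ ∧ IsFundamentalDomain PGL(2, L) 𝔉₀ (yVol 𝔫) ∧
      Tendsto (fun n : ℕ => ∫ y in 𝔉₀,
          (trunc 𝔫 (n : ℝ)).indicator (fun y => kerSum k y (τ₀ y)) y ∂(yVol 𝔫)) atTop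
        (𝓝 (∫ y in 𝔉, kerSum k y (τ₀ y) ∂(yVol 𝔫))) := by
  have : Fact (𝔫 ≠ ⊥) := ⟨h𝔫⟩
  obtain ⟨𝔉₀, D, c₀, R, -, -, -, hm₀, hF₀, -, hvol, -⟩ := exists_fundDomain h𝔫
  refine ⟨𝔉₀, hm₀, hF₀, ?_⟩
  rw [hF.setIntegral_eq hF₀ fun η y => kerSum_smul hk hτ η y]
  obtain ⟨C, hC⟩ := hb
  have hmeas : Measurable fun y => kerSum k y (τ₀ y) := Measurable.tsum fun γ =>
    measurable_kernel_move hk ((measurable_ySmul h𝔫 γ).comp hm)
  have hint : IntegrableOn (fun y => kerSum k y (τ₀ y)) 𝔉₀ (yVol 𝔫) :=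
    IntegrableOn.of_bound hvol hmeas.aestronglyMeasurable C (Eventually.of_forall fun y => hC _ _)
  refine (tendsto_setIntegral_trunc h𝔫 hm₀.nullMeasurableSet hint).congr fun n => ?_
  rw [setIntegral_indicator (measurableSet_trunc h𝔫 _)]

theorem isCosetOp_list_prod (l : List (Module.End ℂ (Cosets 𝔫 → ℂ)))
    (hl : ∀ T ∈ l, IsCosetOp T) : IsCosetOp l.prod :=
  List.prod_induction (fun T => IsCosetOp T) (fun _ _ h h' => h.mul h') isCosetOp_one hl

theorem Classes.exists_classSys_plain (v : HeightOneSpectrum (𝓞 L)) :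
    ∃ C : ClassSys (1 : MulAut PGL(2, L)) {γ | OddVal v γ} (Cls v), C.rep = Cls.rep := by
  obtain ⟨e, he⟩ := exists_plainEquiv v
  have h : ∀ c : Cls v, twStab (1 : MulAut PGL(2, L)) c.rep = Subgroup.centralizer {c.rep} :=
    fun c => by
      ext η
      rw [mem_twStab, Subgroup.mem_centralizer_singleton_iff, MulAut.one_apply, mul_assoc,
        inv_mul_eq_iff_eq_mul, eq_comm]
  exact ⟨⟨Cls.rep, (Equiv.sigmaCongrRight fun c => Subgroup.quotientEquivOfEq (h c)).trans e,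
    fun c η => he c η⟩, rfl⟩

end Generalities

variable {S : Setup} {σ : S.F ≃+* S.F}

theorem Setup.galPGL_eq_pGal (σ : S.F ≃+* S.F) (g : PGL(2, S.F)) : galPGL σ g = pGal σ g := by
  induction g using ProjGenLinGroup.induction_on with | mk g => rfl

theorem Setup.exists_classSys_twisted (hσ : S.IsGalGen σ) {w : HeightOneSpectrum (𝓞 S.F)}
    (hw : Ideal.absNorm w.asIdeal ≠ Ideal.absNorm (S.underK w).asIdeal) :
    ∃ C : ClassSys (pGal σ) {γ | OddVal w γ} (NCls σ (S.underK w)), C.rep = NCls.delta := by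
  obtain ⟨e, he⟩ := exists_twistedEquiv hσ hw
  exact ⟨⟨NCls.delta, e, fun c η => he c η⟩, rfl⟩

/-- A bound on the index makes the quotient finite. -/
theorem finite_quotient_of_relIndex {G : Type*} [Group G] {T U : Subgroup G} {n : ℕ}
    (h : T.relIndex U = n) (hn : n ≠ 0) : Finite (U ⧸ T.subgroupOf U) :=
  Nat.finite_of_card_ne_zero (h.trans_ne hn)

variable {w₁ : InfinitePlace S.K → InfinitePlace S.F}

/-- **The geometric identity**, with constant one. -/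
theorem Setup.geometric_identity (Ψ : S.PsiData) (hΨ : Ψ.Nontriv) (hσ : S.IsGalGen σ)
    (hw₁ : ∀ u, (w₁ u).comap S.inclKF.toRingHom = u)
    {𝔉F : Set (YSpace (S.levelIdeal S.F))} {𝔉K : Set (YSpace (S.levelIdeal S.K))}
    (hF : IsFundamentalDomain PGL(2, S.F) 𝔉F (yVol (S.levelIdeal S.F)))
    (hK : IsFundamentalDomain PGL(2, S.K) 𝔉K (yVol (S.levelIdeal S.K)))
    {h : InfinitePlace S.F → H3 → H3 → ℂ} {l : List (HeightOneSpectrum (𝓞 S.F))}
    (hh : ∀ w, H3.IsInvKer (h w)) (hl : ∀ w ∈ l, ((3 * S.m : ℕ) : 𝓞 S.F) ∉ w.asIdeal)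
    {w : HeightOneSpectrum (𝓞 S.F)}
    (hw : Ideal.absNorm w.asIdeal ≠ Ideal.absNorm (S.underK w).asIdeal)
    (hodd : letI := Classical.decEq (HeightOneSpectrum (𝓞 S.F)); Odd (l.count w))
    (hbF : ∃ C : ℝ, ∀ y y' : YSpace (S.levelIdeal S.F),
      ‖kerSum (yKer h (S.levelOpF Ψ * heckeWord _ l)) y y'‖ ≤ C)
    (hbK : ∃ C : ℝ, ∀ y y' : YSpace (S.levelIdeal S.K),
      ‖kerSum (yKer (S.slotKer σ w₁ h) (S.levelOpK Ψ * (l.map S.bcOp).prod)) y y'‖ ≤ C) :
    ∫ y in 𝔉F, kerSum (yKer h (S.levelOpF Ψ * heckeWord _ l)) y (galY σ y)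
        ∂(yVol (S.levelIdeal S.F)) =
      ∫ y in 𝔉K, kerSum (yKer (S.slotKer σ w₁ h) (S.levelOpK Ψ * (l.map S.bcOp).prod)) y y
        ∂(yVol (S.levelIdeal S.K)) := by
  classical
  have hbotF := S.levelIdeal_ne_bot S.F
  have hbotK := S.levelIdeal_ne_bot S.K
  have : Fact (S.levelIdeal S.F ≠ ⊥) := ⟨hbotF⟩
  have hhK : ∀ u, H3.IsInvKer (S.slotKer σ w₁ h u) := fun u => ((hh _).kConv (hh _)).kConv (hh _)
  have hTF : IsCosetOp (S.levelOpF Ψ * heckeWord (S.levelIdeal S.F) l) := by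
    refine (S.isCosetOp_levelOpF Ψ).mul (isCosetOp_list_prod _ ?_)
    intro T hT
    obtain ⟨u, hu, rfl⟩ := List.mem_map.mp hT
    exact isCosetOp_heckeOp hbotF (S.not_level_le (hl u hu))
  have hTK : IsCosetOp (S.levelOpK Ψ * (l.map S.bcOp).prod) := by
    refine (S.isCosetOp_levelOpK Ψ).mul (isCosetOp_list_prod _ ?_)
    intro T hT
    obtain ⟨u, hu, rfl⟩ := List.mem_map.mp hT
    exact S.isCosetOp_bcOp (hl u hu)
  set kF := yKer h (S.levelOpF Ψ * heckeWord (S.levelIdeal S.F) l) with hkFdef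
  set kK := yKer (S.slotKer σ w₁ h) (S.levelOpK Ψ * (l.map S.bcOp).prod) with hkKdef
  have hkF : IsYKernel kF := isYKernel_yKer hh hTF
  have hkK : IsYKernel kK := isYKernel_yKer hhK hTK
  have hbox := isBoxMap_galY hbotF (S.levelIdeal_map σ)
  have hτ : ∀ (g : PGL(2, S.F)) (y : YSpace (S.levelIdeal S.F)),
      galY σ (g • y) = pGal σ g • galY σ y := fun g y => by
    rw [← S.galPGL_eq_pGal σ g]; exact galY_smul (S.levelIdeal_map σ) g y
  obtain ⟨𝔉F₀, hmF, hF₀, hlimF⟩ := exists_trunc_limit hbotF hkF hbox.measurable hτ hbF hF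
  obtain ⟨𝔉K₀, hmK, hK₀, hlimK⟩ :=
    exists_trunc_limit hbotK hkK measurable_id (c := id) (fun _ _ => rfl) hbK hK
  obtain ⟨L₀, hL₀, hB⟩ := S.exists_termBounds (w₁ := w₁) Ψ l hσ hh hhK hTF hTK
  -- the representatives
  have hex : ∀ c : Cls (S.underK w), ∃ (x : PGL(2, S.K)) (g : GL (Fin 2) S.K),
      ProjGenLinGroup.mk g = x⁻¹ * c.rep * x ∧
      (g : Matrix (Fin 2) (Fin 2) S.K).trace ^ 2 ≠ 4 * (g : Matrix (Fin 2) (Fin 2) S.K).det ∧
      (IsSquare ((g : Matrix (Fin 2) (Fin 2) S.K).trace ^ 2 -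
          4 * (g : Matrix (Fin 2) (Fin 2) S.K).det) → ∃ a, S.IsSplit g a) ∧
      ∀ hc : (∃ δ, TF.nm (pGal σ) δ = pIncl S c.rep), ∃ d : GL (Fin 2) S.F,
        S.IsNormPair σ g d ∧
          ProjGenLinGroup.mk d = (pIncl S x)⁻¹ * hc.choose * pGal σ (pIncl S x) := fun c => by
    obtain ⟨x, g, h1, h2, h3, h4⟩ := S.exists_normal_rep hσ (isReg_of_oddVal c.oddVal)
      (if hc : ∃ δ, TF.nm (pGal σ) δ = pIncl S c.rep then hc.choose else 1)
    refine ⟨x, g, h1, h2, h3, fun hc => ?_⟩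
    rw [dif_pos hc] at h4
    exact h4 hc.choose_spec
  choose x g hg hreg hsplit hnorm using hex
  choose d hp hd using fun c : NCls σ (S.underK w) => hnorm c.1 c.2
  obtain ⟨CK₀, hCK₀⟩ := Classes.exists_classSys_plain (S.underK w)
  obtain ⟨CF₀, hCF₀⟩ := S.exists_classSys_twisted hσ hw
  set CK := CK₀.conjBy x
  set CF := CF₀.conjBy fun c => pIncl S (x c.1)
  have hrK : ∀ c, CK.rep c = ProjGenLinGroup.mk (g c) := fun c => by
    show (x c)⁻¹ * CK₀.rep c * x c = _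
    rw [hCK₀, hg]
  have hrF : ∀ c, CF.rep c = ProjGenLinGroup.mk (d c) := fun c => by
    show (pIncl S (x c.1))⁻¹ * CF₀.rep c * pGal σ (pIncl S (x c.1)) = _
    rw [hCF₀, hd]
    rfl
  have hregP : ∀ c, IsReg (ProjGenLinGroup.mk (g c)) := fun c => isReg_mk.mpr (hreg c)
  have htK : ∀ c, S.torusK (g c) = torus (ProjGenLinGroup.mk (g c)) := fun c => (torus_mk _).symm
  have hnm : ∀ c : NCls σ (S.underK w), TF.nm (pGal σ) (ProjGenLinGroup.mk (d c)) =
      pIncl S (ProjGenLinGroup.mk (g c.1)) := fun c => by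
    rw [nm_mk, pIncl_mk]
    exact congrArg ProjGenLinGroup.mk (hp c).norm
  have hone : ∀ r : PGL(2, S.K),
      twStab (1 : MulAut PGL(2, S.K)) r = Subgroup.centralizer {r} := fun r => by
    ext η
    rw [mem_twStab, Subgroup.mem_centralizer_singleton_iff, MulAut.one_apply, mul_assoc,
      inv_mul_eq_iff_eq_mul, eq_comm]
  have hidx : ∀ c, (S.torusK (g c)).relIndex (twStab (1 : MulAut PGL(2, S.K)) (CK.rep c)) =
      if pRatio (ProjGenLinGroup.mk (g c)) = 0 then 2 else 1 := fun c => by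
    rw [hrK, hone, htK, relIndex_torus (hregP c)]
  have hidxF : ∀ c : NCls σ (S.underK w),
      (S.torusF (g c.1)).relIndex (twStab (pGal σ) (CF.rep c)) =
        if pRatio (ProjGenLinGroup.mk (g c.1)) = 0 then 2 else 1 := fun c => by
    rw [hrF, Setup.torusF, htK, relIndex_twStab hσ (hregP c.1) (hnm c),
      relIndex_torus (hregP c.1)]
  choose V hVm hVK hVF using fun c => S.exists_torusWeight (hreg c) hσ hw₁
  refine tendsto_nhds_unique_of_eventuallyEq hlimF hlimK ?_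
  filter_upwards [eventually_ge_atTop ⌈L₀⌉₊] with n hn
  have hnL : L₀ ≤ (n : ℝ) := (Nat.le_ceil _).trans (by exact_mod_cast hn)
  have hn1 : 1 < (n : ℝ) := hL₀.trans_le hnL
  -- the two sums over the classes
  obtain ⟨hiF, hsF⟩ := integral_classes hbotF hkF hbox.measurable hτ CF
    (fun γ hγ y => by_contra fun hne => hγ (S.oddVal_of_kerF Ψ l hl hσ hw hodd hne))
    hF₀ hmF (measurableSet_trunc hbotF (n : ℝ)) (fun η y => smul_mem_trunc_iff η)
    (lintegral_trunc_lt_top hbotF hkF hbox hF₀ _) (fun c => S.torusF (g c.1))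
    (fun c => by rw [hrF, Setup.torusF, htK]; exact map_torus_le_twStab hσ (hregP c.1) (hnm c))
    (fun c => finite_quotient_of_relIndex (hidxF c) (by split_ifs <;> decide))
    (fun c => V c.1 ∘ S.zF (hreg c.1) w₁) (fun c => hVF c.1)
  obtain ⟨hiK, hsK⟩ := integral_classes hbotK hkK measurable_id (τ₀ := id) (fun _ _ => rfl) CK
    (fun γ hγ y => by_contra fun hne => hγ (S.oddVal_of_kerK Ψ l hl hσ hw hodd hne))
    hK₀ hmK (measurableSet_trunc hbotK (n : ℝ)) (fun η y => smul_mem_trunc_iff η)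
    (lintegral_trunc_lt_top hbotK hkK isBoxMap_id hK₀ _) (fun c => S.torusK (g c))
    (fun c => by rw [hrK, hone, htK]; exact torus_le_centralizer)
    (fun c => finite_quotient_of_relIndex (hidx c) (by split_ifs <;> decide))
    (fun c => V c ∘ S.zK (hreg c)) (fun c => hVK c)
  have eF : ∀ c, classTerm kF (galY σ) (trunc (S.levelIdeal S.F) (n : ℝ)) (CF.rep c) =
      (trunc (S.levelIdeal S.F) (n : ℝ)).indicator (S.termF Ψ l h σ (d c)) := fun c => by
    rw [hrF]; rfl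
  have eK : ∀ c, classTerm kK id (trunc (S.levelIdeal S.K) (n : ℝ)) (CK.rep c) =
      (trunc (S.levelIdeal S.K) (n : ℝ)).indicator (S.termK Ψ l h σ w₁ (g c)) := fun c => by
    rw [hrK]; rfl
  refine hsF.trans (Eq.trans ?_ hsK.symm)
  set A : Cls (S.underK w) → ℂ := fun c =>
    (((S.torusK (g c)).relIndex (twStab (1 : MulAut PGL(2, S.K)) (CK.rep c)) : ℕ) : ℂ)⁻¹ *
      ∫ y, classTerm kK id (trunc (S.levelIdeal S.K) (n : ℝ)) (CK.rep c) y
        ∂(wMeas (yVol (S.levelIdeal S.K)) (V c ∘ S.zK (hreg c)))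
  have hA : Function.support A ⊆ {c | ∃ δ, TF.nm (pGal σ) δ = pIncl S c.rep} := fun c hc => by
    by_contra hno
    refine hc (mul_eq_zero_of_right _ ?_)
    rw [eK]
    refine S.class_zero Ψ l hl (hreg c) (hVm c) (hVK c) hΨ hσ hhK hkK (hsplit c) hB hnL hn1 hw
      (by rw [hg]; simpa using (oddVal_conj (S.underK w) (x c)⁻¹ c.rep).mpr c.oddVal) ?_
      (by rw [← eK]; exact hiK c)
    rintro ⟨δ, hδ⟩
    refine hno ⟨pIncl S (x c) * δ * (pGal σ (pIncl S (x c)))⁻¹, ?_⟩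
    have e := TF.nm_conj (pGal_three hσ) (pIncl S (x c))⁻¹ δ
    rw [inv_inv, map_inv] at e
    rw [e, hδ, hg, ← map_inv, ← map_mul, ← map_mul]
    exact congrArg _ (by group)
  refine Eq.trans (tsum_congr fun c : NCls σ (S.underK w) => ?_)
    (tsum_subtype_eq_of_support_subset hA)
  show _ = A c.1
  simp only [A]
  rw [hidxF, hidx, eF, eK]
  congr 1
  exact S.class_norm Ψ l hl (hreg c.1) (hVm c.1) (hVK c.1) hΨ hσ hw₁ hh hhK hkK (hsplit c.1) hB hnL
    hn1 hkF (hp c) (hVF c.1) (by rw [← eF]; exact hiF c) (by rw [← eK]; exact hiK c.1)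

end FermatAgent.LT
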